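import Mathlib
import Fermat.Prelude.Def_CuspForm_HeckeLocal
import Fermat.Prelude.Def_CuspForm_HeckeEvalForms
import Fermat.Prelude.Def_HeckeGalois_EichlerShimura
import Fermat.Prelude.Def_ModularCurve_ModularUnit

/-!
# S16 §0 (formal reduction): interface

`T = heckeLatticeAlgebra p ∅`, `φ : ℤ[X_ℓ] → T`, `ε : ℤ[X_ℓ] → ℤ` the Eisenstein character,
`I = φ (ker ε)`, `n = eisensteinNumerator p`.  Then `T/I = ℤ/m` with `m ℤ = ε (ker φ)`, and

* `FA_S16_Target_LAlg p`  : `n ∣ ε Q` for all `Q ∈ ker φ`            (gives `n ∣ m`);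
* `FA_S16_Target_LForm p` : a cusp form with integral coefficients `≡ σ'(k)` mod `n`
                            (implies `LAlg`);
* `FA_S16_Target_U p`     : a cusp form with integral coefficients `≡ σ'(k)` mod `ℓ^r`
                            forces `ℓ^r ∣ n`                          (gives `m ∣ n`).

`FA_S16_Red_main : FA_S16_Target_LAlg p → FA_S16_Target_U p → (S16 for p)` is in `RedFinal.lean`.
-/

set_option autoImplicit false

namespace FA_S16

open ModularCurve CuspForm CongruenceSubgroup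
open scoped ArithmeticFunction.sigma

/-- `σ'(k) = ∑_{d ∣ k, p ∤ d} d = σ₁(prime-to-p part of k)`: the `k`-th coefficient of
`E' = ((1 - p) - (E₂(z) - p E₂(pz))) / 24`. -/
def FA_S16_sigmaP (p k : ℕ) : ℤ := ((σ 1 (ordCompl[p] k) : ℕ) : ℤ)

/-- `n ∣ ε(Q)` for every Hecke polynomial `Q` acting as `0` on the integral lattice. -/
def FA_S16_Target_LAlg (p : ℕ) [Fact p.Prime] : Prop :=
  ∀ Q : HeckeAlg, ((latticeRestrictHom p ∅).toRingHom.comp (heckeEvalForms p 2)) Q = 0 →
    (eisensteinNumerator p : ℤ) ∣ MvPolynomial.aeval (eisensteinSystem p) Q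

/-- There is a cusp form with integral `q`-expansion congruent to `E'` modulo `n`. -/
def FA_S16_Target_LForm (p : ℕ) [Fact p.Prime] : Prop :=
  ∃ (f : CuspForm (Gamma0 p) 2) (a : ℕ → ℤ),
    (∀ k, ModularFormClass.qCoeff f k = (a k : ℂ)) ∧
    ∀ k, 1 ≤ k → (eisensteinNumerator p : ℤ) ∣ a k - FA_S16_sigmaP p k

/-- A cusp form with integral `q`-expansion congruent to `E'` modulo a prime power `ℓ ^ r`
exists only if `ℓ ^ r ∣ n`. -/
def FA_S16_Target_U (p : ℕ) [Fact p.Prime] : Prop :=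
  ∀ (ℓ r : ℕ), ℓ.Prime → 1 ≤ r →
    ∀ (f : CuspForm (Gamma0 p) 2) (a : ℕ → ℤ),
      (∀ k, ModularFormClass.qCoeff f k = (a k : ℂ)) →
      (∀ k, 1 ≤ k → ((ℓ ^ r : ℕ) : ℤ) ∣ a k - FA_S16_sigmaP p k) →
      ℓ ^ r ∣ eisensteinNumerator p

end FA_S16
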