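import Mathlib
import Fermat.Agent.S16.RedInterface

/-!
# S16 (item 83), the upper bound (U): interface (helper8, owner)

`FA_S16_Target_U p` (see `RedInterface.lean`) is proved from six *cases* (`UGLUE`).  All cases are
power-series algebra on the `p + 1` **conjugates** of a form `F ∈ M_k(Γ₀(p))`:

* `a = qExpansion 1 F`                      (expansion at `∞`, variable `q`),
* `b = qExpansion p (F ∣[k] S)`              (expansion of `F ∣ S` in `X = q^{1/p}`),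
* conjugates: `c_∞ = a(X^p)`, `c_j = b(ζ^j X)`, `j < p`, `ζ = exp(2πi/p)`.

`(a, b) ↦` conjugates is multiplicative (`S ∈ SL₂(ℤ)`); for a level one form `b = a(X^p)`;
for weight `2`: `b = - p⁻¹ U_p a` (T1, trace to level one is `0`).

## Analytic leaves (the only ones touching `ℍ`)
* `FA_S16_Target_AnSym`  : the coefficients of `∏ (T - c)` are `s(X^p)`, `s` the `q`-expansion of a
  level one form of weight `k · i`.
* `FA_S16_Target_AnT1`   : weight `2`: `coeff n b = - coeff (p n) a / p`.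
* `FA_S16_Target_AnRing` : pairs are closed under `+`, `*`, scalars; level one forms and `Δ(pz)`.
* `FA_S16_Target_AnL1`   : level one forms are `ℂ`-combinations of `E₄^a E₆^b`.
* `FA_S16_Target_AnEis`  : `E₂(z) - p E₂(pz) ∈ M₂(Γ₀(p))` with its `q`-expansion.

## Cases
`FA_S16_Target_Case p ℓ e` : there is no `H ∈ M₂(Γ₀(p))` with `a₀ = 1` and `H ≡ 1 mod ℓ^e`
(`ℓ`-integral rational coefficients).
-/

set_option autoImplicit false

noncomputable section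

namespace FA_S16

open ModularForm ModularFormClass UpperHalfPlane CongruenceSubgroup MatrixGroups EisensteinSeries
open scoped ArithmeticFunction.sigma

local notation "Δ" => ModularForm.discriminant

/-- The primitive `p`-th root of unity `exp(2πi/p)`. -/
def FA_S16_zeta (p : ℕ) : ℂ := Complex.exp (2 * Real.pi * Complex.I / p)

/-- `(a, b)` is the pair of expansions of a form of weight `k` on `Γ₀(p)`:
`a` at `∞` (in `q`), `b` the expansion of `F ∣[k] S` in `q^{1/p}`. -/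
def FA_S16_IsPair (p : ℕ) (k : ℤ) (a b : PowerSeries ℂ) : Prop :=
  ∃ F : ModularForm (Gamma0 p) k,
    qExpansion 1 F = a ∧ qExpansion (p : ℝ) ((F : ℍ → ℂ) ∣[k] ModularGroup.S) = b

/-- The `p + 1` conjugates of a pair, as power series in `X = q^{1/p}`. -/
def FA_S16_conj (p : ℕ) [NeZero p] (a b : PowerSeries ℂ) : Option (Fin p) → PowerSeries ℂ
  | none => PowerSeries.expand p (NeZero.ne p) a
  | some j => PowerSeries.rescale (FA_S16_zeta p ^ (j : ℕ)) b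

/-- `∏ (T - c)` over the conjugates. -/
def FA_S16_charpoly (p : ℕ) [NeZero p] (a b : PowerSeries ℂ) : Polynomial (PowerSeries ℂ) :=
  ∏ o : Option (Fin p), (Polynomial.X - Polynomial.C (FA_S16_conj p a b o))

/-- `q`-expansions of level one forms of weight `k`. -/
def FA_S16_qL1 (k : ℤ) : Set (PowerSeries ℂ) :=
  {s | ∃ G : ModularForm 𝒮ℒ k, qExpansion 1 G = s}

/-- A complex number is an `ℓ`-integral rational. -/
def FA_S16_IsInt (ℓ : ℕ) (x : ℂ) : Prop :=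
  ∃ (m : ℤ) (d : ℕ), ¬ ℓ ∣ d ∧ x = (m : ℂ) / (d : ℂ)

/-! ### Analytic leaves -/

/-- **AN-SYM**: the coefficients of the characteristic polynomial of a pair of weight `k` are
`q`-expansions (in `X^p`) of level one forms; the coefficient of `T^(p+1-i)` has weight `k i`. -/
def FA_S16_Target_AnSym : Prop :=
  ∀ (p : ℕ) [Fact p.Prime] [NeZero p] (k : ℕ) (a b : PowerSeries ℂ), FA_S16_IsPair p k a b →
    ∀ i : ℕ, i ≤ p + 1 → ∃ s ∈ FA_S16_qL1 ((k * i : ℕ) : ℤ),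
      (FA_S16_charpoly p a b).coeff (p + 1 - i) = PowerSeries.expand p (NeZero.ne p) s

/-- **AN-T1**: for weight `2`, `b = - p⁻¹ U_p a`. -/
def FA_S16_Target_AnT1 : Prop :=
  ∀ (p : ℕ) [Fact p.Prime] (a b : PowerSeries ℂ), FA_S16_IsPair p 2 a b →
    ∀ n : ℕ, PowerSeries.coeff n b = - PowerSeries.coeff (p * n) a / (p : ℂ)

/-- **AN-RING**: closure properties of pairs. -/
def FA_S16_Target_AnRing : Prop :=
  ∀ (p : ℕ) [Fact p.Prime] [NeZero p],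
    (∀ (k : ℤ) (a b a' b' : PowerSeries ℂ), FA_S16_IsPair p k a b → FA_S16_IsPair p k a' b' →
      FA_S16_IsPair p k (a + a') (b + b')) ∧
    (∀ (k k' : ℤ) (a b a' b' : PowerSeries ℂ), FA_S16_IsPair p k a b → FA_S16_IsPair p k' a' b' →
      FA_S16_IsPair p (k + k') (a * a') (b * b')) ∧
    (∀ (k : ℤ) (c : ℂ) (a b : PowerSeries ℂ), FA_S16_IsPair p k a b →
      FA_S16_IsPair p k (c • a) (c • b)) ∧
    (∀ (k : ℤ) (s : PowerSeries ℂ), s ∈ FA_S16_qL1 k →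
      FA_S16_IsPair p k s (PowerSeries.expand p (NeZero.ne p) s)) ∧
    FA_S16_IsPair p 12 (PowerSeries.expand p (NeZero.ne p) (qExpansion 1 Δ))
      (((p : ℂ) ^ 12)⁻¹ • qExpansion 1 Δ)

/-- **AN-L1**: a level one form of weight `k` is a `ℂ`-linear combination of `E₄^a E₆^b`,
`4 a + 6 b = k` (on `q`-expansions). -/
def FA_S16_Target_AnL1 : Prop :=
  ∀ (k : ℕ) (s : PowerSeries ℂ), s ∈ FA_S16_qL1 (k : ℤ) →
    s ∈ Submodule.span ℂ {t : PowerSeries ℂ | ∃ a b : ℕ, 4 * a + 6 * b = k ∧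
      t = qExpansion 1 E₄ ^ a * qExpansion 1 E₆ ^ b}

/-- **AN-Q**: the `q`-expansions of `E₄`, `E₆`, `Δ`. -/
def FA_S16_Target_AnQ : Prop :=
  (PowerSeries.coeff 0 (qExpansion 1 E₄) = 1 ∧
    ∀ n : ℕ, 1 ≤ n → PowerSeries.coeff n (qExpansion 1 E₄) = 240 * (σ 3 n : ℂ)) ∧
  (PowerSeries.coeff 0 (qExpansion 1 E₆) = 1 ∧
    ∀ n : ℕ, 1 ≤ n → PowerSeries.coeff n (qExpansion 1 E₆) = -504 * (σ 5 n : ℂ)) ∧
  (PowerSeries.coeff 0 (qExpansion 1 Δ) = 0 ∧ PowerSeries.coeff 1 (qExpansion 1 Δ) = 1 ∧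
    (∀ n : ℕ, ∃ m : ℤ, PowerSeries.coeff n (qExpansion 1 Δ) = (m : ℂ)) ∧
    (1728 : ℂ) • qExpansion 1 Δ = qExpansion 1 E₄ ^ 3 - qExpansion 1 E₆ ^ 2)

/-- **AN-EIS**: the Eisenstein series `E₂(z) - p E₂(pz)` of weight `2` on `Γ₀(p)`. -/
def FA_S16_Target_AnEis : Prop :=
  ∀ (p : ℕ) [Fact p.Prime], ∃ E : ModularForm (Gamma0 p) 2,
    PowerSeries.coeff 0 (qExpansion 1 E) = 1 - (p : ℂ) ∧
    ∀ k : ℕ, 1 ≤ k → PowerSeries.coeff k (qExpansion 1 E) = -24 * (FA_S16_sigmaP p k : ℂ)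

/-! ### The cases -/

/-- **Case `(p, ℓ, e)`**: there is no `H ∈ M₂(Γ₀(p))` with constant term `1` whose higher
coefficients are `ℓ^e` times `ℓ`-integral rationals. -/
def FA_S16_Target_Case (p ℓ e : ℕ) : Prop :=
  ∀ H : ModularForm (Gamma0 p) 2,
    PowerSeries.coeff 0 (qExpansion 1 H) = 1 →
    (∀ n : ℕ, 1 ≤ n → ∃ x : ℂ, FA_S16_IsInt ℓ x ∧
      PowerSeries.coeff n (qExpansion 1 H) = (ℓ : ℂ) ^ e * x) →
    False

/-- **E5**: `ℓ ≥ 5`, `ℓ ≠ p`. -/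
def FA_S16_Target_E5 : Prop :=
  ∀ (p ℓ : ℕ), p.Prime → ℓ.Prime → 5 ≤ p → 5 ≤ ℓ → ℓ ≠ p → FA_S16_Target_Case p ℓ 1

/-- **Ep**: `ℓ = p ≥ 5`. -/
def FA_S16_Target_Ep : Prop :=
  ∀ (p : ℕ), p.Prime → 5 ≤ p → FA_S16_Target_Case p p 1

/-- **E3a**: `p ≡ 1 mod 3`, no `H ≡ 1 mod 3`. -/
def FA_S16_Target_E3a : Prop :=
  ∀ (p : ℕ), p.Prime → p % 3 = 1 → FA_S16_Target_Case p 3 1

/-- **E3b**: `p ≡ 2 mod 3`, `p ≥ 5`, no `H ≡ 1 mod 9`. -/
def FA_S16_Target_E3b : Prop :=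
  ∀ (p : ℕ), p.Prime → 5 ≤ p → p % 3 = 2 → FA_S16_Target_Case p 3 2

/-- **E2a**: `p ≡ 1 mod 4`, no `H ≡ 1 mod 4`. -/
def FA_S16_Target_E2a : Prop :=
  ∀ (p : ℕ), p.Prime → p % 4 = 1 → FA_S16_Target_Case p 2 2

/-- **E2b**: `p ≡ 3 mod 4`, `p ≥ 5`, no `H ≡ 1 mod 8`. -/
def FA_S16_Target_E2b : Prop :=
  ∀ (p : ℕ), p.Prime → 5 ≤ p → p % 4 = 3 → FA_S16_Target_Case p 2 3

/-- **UGLUE**: the cases give (U). -/
def FA_S16_Target_UGlue : Prop :=
  FA_S16_Target_AnEis → FA_S16_Target_E5 → FA_S16_Target_Ep → FA_S16_Target_E3a →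
    FA_S16_Target_E3b → FA_S16_Target_E2a → FA_S16_Target_E2b →
    ∀ (p : ℕ) [Fact p.Prime], FA_S16_Target_U p

/-! ### Algebraic tools and the reduction of the cases to the analytic leaves -/

/-- All analytic leaves together. -/
def FA_S16_An : Prop :=
  FA_S16_Target_AnSym ∧ FA_S16_Target_AnT1 ∧ FA_S16_Target_AnRing ∧ FA_S16_Target_AnL1 ∧
    FA_S16_Target_AnQ

/-- **ALG-UNIT**: for `ℓ ≠ p` the reduction of `Δ(q^p)/Δ(q)` is not a rational function of `j̄`: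
there are no polynomials `A, B` over `ℤ`, `B ≢ 0 mod ℓ`, with
`B(E₄³, Δ) · Δ(q^p) ≡ A(E₄³, Δ) · Δ(q)` mod `ℓ`, where `A, B` are homogeneous of the same degree `m`
in `(E₄³, Δ)` (so that `A/B` is a function of `j = E₄³/Δ`).  Coefficients of `q`-expansions are
integers here. -/
def FA_S16_Target_AlgUnit : Prop :=
  FA_S16_An →
  ∀ (p ℓ : ℕ) [Fact p.Prime], ℓ.Prime → ℓ ≠ p →
  ∀ (m : ℕ) (A B : Fin (m + 1) → ℤ), (∃ c, ¬ (ℓ : ℤ) ∣ B c) →
    ¬ ∀ n : ℕ, ∃ y : ℤ,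
      PowerSeries.coeff n
        ((∑ c : Fin (m + 1), (B c : ℂ) •
            (qExpansion 1 E₄ ^ (3 * (m - (c : ℕ))) * qExpansion 1 Δ ^ (c : ℕ))) *
          PowerSeries.expand p (Nat.Prime.ne_zero Fact.out) (qExpansion 1 Δ) -
        (∑ c : Fin (m + 1), (A c : ℂ) •
            (qExpansion 1 E₄ ^ (3 * (m - (c : ℕ))) * qExpansion 1 Δ ^ (c : ℕ))) *
          qExpansion 1 Δ) = (ℓ : ℂ) * (y : ℂ)

/-- **ALG-T2** (`q`-expansion principle at level `p`, `ℓ ≠ p`): if `a` is `ℓ`-integral and `b` has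
rational coefficients with bounded `ℓ`-denominators, then `b` is `ℓ`-integral. -/
def FA_S16_Target_AlgT2 : Prop :=
  FA_S16_An → FA_S16_Target_AlgUnit →
  ∀ (p ℓ : ℕ) [Fact p.Prime], ℓ.Prime → ℓ ≠ p →
  ∀ (k : ℕ) (a b : PowerSeries ℂ), FA_S16_IsPair p k a b →
    (∀ n, FA_S16_IsInt ℓ (PowerSeries.coeff n a)) →
    (∃ N : ℕ, ∀ n, FA_S16_IsInt ℓ ((ℓ : ℂ) ^ N * PowerSeries.coeff n b)) →
    ∀ n, FA_S16_IsInt ℓ (PowerSeries.coeff n b)

/-- E5 from the analytic leaves. -/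
def FA_S16_Target_E5_of : Prop := FA_S16_An → FA_S16_Target_E5

/-- Ep from the analytic leaves. -/
def FA_S16_Target_Ep_of : Prop := FA_S16_An → FA_S16_Target_Ep

/-- E3a from the analytic leaves and ALG-T2 (`F = (H³ - E₆)/9`). -/
def FA_S16_Target_E3a_of : Prop :=
  FA_S16_An → FA_S16_Target_AlgUnit → FA_S16_Target_AlgT2 → FA_S16_Target_E3a

/-- E2a from the analytic leaves and ALG-T2 (`F = (H³ - E₆)/4`). -/
def FA_S16_Target_E2a_of : Prop :=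
  FA_S16_An → FA_S16_Target_AlgUnit → FA_S16_Target_AlgT2 → FA_S16_Target_E2a

/-- E3b from the analytic leaves (`V = (H² - E₄)/3`, Artin–Schreier). -/
def FA_S16_Target_E3b_of : Prop := FA_S16_An → FA_S16_Target_E3b

end FA_S16
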