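import Mathlib
import Fermat.Agent.S16.UInterface

/-!
# S16, leaf ALG-T2: interface between the two halves

* `FA_S16_T2_Step12` (helper4, `S16/AlgT2Step.lean`): one step of the `q`-expansion principle in
  weight `12 M`: `a` is `ℓ`-integral and `ℓ b` is `ℓ`-integral, then `b` is `ℓ`-integral.
* `FA_S16_T2_Target_OfStep12` : `Step12` implies `FA_S16_Target_AlgT2`
  (induction on `N`; general weight `k` via the pair `(a^12, b^12)` of weight `12 k` and
  reduction mod `𝔪`: `𝔽⟦X⟧` is a domain).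
-/

set_option autoImplicit false

noncomputable section

namespace FA_S16

/-- One step of ALG-T2 in weight `12 M`. -/
def FA_S16_T2_Step12 : Prop :=
  FA_S16_An → ∀ (p ℓ : ℕ) [Fact p.Prime], ℓ.Prime → ℓ ≠ p →
    ∀ (M : ℕ) (a b : PowerSeries ℂ), FA_S16_IsPair p ((12 * M : ℕ) : ℤ) a b →
      (∀ n, FA_S16_IsInt ℓ (PowerSeries.coeff n a)) →
      (∀ n, FA_S16_IsInt ℓ ((ℓ : ℂ) * PowerSeries.coeff n b)) →
      ∀ n, FA_S16_IsInt ℓ (PowerSeries.coeff n b)

/-- The reduction of ALG-T2 to `Step12`. -/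
def FA_S16_T2_Target_OfStep12 : Prop := FA_S16_T2_Step12 → FA_S16_Target_AlgT2

end FA_S16
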