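import Mathlib
import Fermat.Agent.S16.UInterface

/-!
# S16, ALG-UNIT / ALG-T2: the ring `𝒪` of `ℓ`-integral algebraic numbers and a residue field

* `FA_S16_AU_O ℓ : Subring ℂ` — the `x` with `d · x` integral over `ℤ` for some `d` prime to `ℓ`;
* `FA_S16_AU_F ℓ` — a residue field of `𝒪` of characteristic `ℓ`, `FA_S16_AU_rho : 𝒪 →+* 𝔽`;
* an `ℓ`-integral rational which reduces to `0` is divisible by `ℓ`.
-/

set_option autoImplicit false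

noncomputable section

namespace FA_S16

/-- The ring of `ℓ`-integral algebraic numbers. -/
def FA_S16_AU_O (ℓ : ℕ) [hℓ : Fact ℓ.Prime] : Subring ℂ where
  carrier := {x | ∃ d : ℕ, ¬ ℓ ∣ d ∧ IsIntegral ℤ ((d : ℂ) * x)}
  mul_mem' := by
    rintro x y ⟨d, hd, hx⟩ ⟨e, he, hy⟩
    refine ⟨d * e, ?_, ?_⟩
    · intro h
      rcases (Nat.Prime.dvd_mul hℓ.out).1 h with h | h
      · exact hd h
      · exact he h
    · have : ((d * e : ℕ) : ℂ) * (x * y) = ((d : ℂ) * x) * ((e : ℂ) * y) := by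
        push_cast; ring
      rw [this]
      exact hx.mul hy
  one_mem' := ⟨1, by
    intro h
    exact hℓ.out.one_lt.ne' (Nat.dvd_one.1 h), by simpa using isIntegral_one⟩
  add_mem' := by
    rintro x y ⟨d, hd, hx⟩ ⟨e, he, hy⟩
    refine ⟨d * e, ?_, ?_⟩
    · intro h
      rcases (Nat.Prime.dvd_mul hℓ.out).1 h with h | h
      · exact hd h
      · exact he h
    · have : ((d * e : ℕ) : ℂ) * (x + y) = (e : ℂ) * ((d : ℂ) * x) + (d : ℂ) * ((e : ℂ) * y) := by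
        push_cast; ring
      rw [this]
      have he' : IsIntegral ℤ (e : ℂ) := by
        simpa using (isIntegral_algebraMap (R := ℤ) (A := ℂ) (x := (e : ℤ)))
      have hd' : IsIntegral ℤ (d : ℂ) := by
        simpa using (isIntegral_algebraMap (R := ℤ) (A := ℂ) (x := (d : ℤ)))
      exact (he'.mul hx).add (hd'.mul hy)
  zero_mem' := ⟨1, by
    intro h
    exact hℓ.out.one_lt.ne' (Nat.dvd_one.1 h), by simpa using isIntegral_zero⟩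
  neg_mem' := by
    rintro x ⟨d, hd, hx⟩
    refine ⟨d, hd, ?_⟩
    rw [mul_neg]
    exact hx.neg

variable (ℓ : ℕ) [hℓ : Fact ℓ.Prime]

theorem FA_S16_AU_mem_O {x : ℂ} :
    x ∈ FA_S16_AU_O ℓ ↔ ∃ d : ℕ, ¬ ℓ ∣ d ∧ IsIntegral ℤ ((d : ℂ) * x) := Iff.rfl

theorem FA_S16_AU_integral_mem {x : ℂ} (hx : IsIntegral ℤ x) : x ∈ FA_S16_AU_O ℓ :=
  ⟨1, fun h => hℓ.out.one_lt.ne' (Nat.dvd_one.1 h), by simpa using hx⟩

theorem FA_S16_AU_int_mem (m : ℤ) : (m : ℂ) ∈ FA_S16_AU_O ℓ :=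
  FA_S16_AU_integral_mem ℓ (by simpa using (isIntegral_algebraMap (R := ℤ) (A := ℂ) (x := m)))

theorem FA_S16_AU_isInt_mem {x : ℂ} (hx : FA_S16_IsInt ℓ x) : x ∈ FA_S16_AU_O ℓ := by
  obtain ⟨m, d, hd, rfl⟩ := hx
  refine ⟨d, hd, ?_⟩
  have hd0 : (d : ℂ) ≠ 0 := by
    intro h
    have : d = 0 := by exact_mod_cast h
    exact hd (this ▸ dvd_zero ℓ)
  rw [mul_div_cancel₀ _ hd0]
  simpa using (isIntegral_algebraMap (R := ℤ) (A := ℂ) (x := m))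

/-- A rational number in `𝒪` is `ℓ`-integral. -/
theorem FA_S16_AU_rat_isInt (q : ℚ) (hq : (q : ℂ) ∈ FA_S16_AU_O ℓ) : FA_S16_IsInt ℓ (q : ℂ) := by
  obtain ⟨d, hd, hint⟩ := hq
  have h1 : IsIntegral ℤ (((d : ℚ) * q : ℚ) : ℂ) := by
    push_cast
    exact hint
  have h2 : IsIntegral ℤ ((d : ℚ) * q) := by
    have := (isIntegral_algebraMap_iff (A := ℚ) (B := ℂ) (R := ℤ)
      (algebraMap ℚ ℂ).injective (x := (d : ℚ) * q)).1
    exact this (by simpa using h1)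
  obtain ⟨m, hm⟩ := IsIntegrallyClosed.isIntegral_iff.1 h2
  have hd0 : (d : ℚ) ≠ 0 := by
    intro h
    have : d = 0 := by exact_mod_cast h
    exact hd (this ▸ dvd_zero ℓ)
  refine ⟨m, d, hd, ?_⟩
  have hq' : q = (m : ℚ) / d := by
    rw [eq_div_iff hd0, mul_comm]
    simpa using hm.symm
  rw [hq']
  push_cast
  rfl

/-- `ℓ` is not a unit of `𝒪`. -/
theorem FA_S16_AU_ell_not_unit (x : ℂ) (hx : x ∈ FA_S16_AU_O ℓ) : (ℓ : ℂ) * x ≠ 1 := by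
  intro h
  have hℓ0 : (ℓ : ℂ) ≠ 0 := by exact_mod_cast hℓ.out.ne_zero
  have hx' : x = ((1 / ℓ : ℚ) : ℂ) := by
    push_cast
    rw [eq_div_iff hℓ0, mul_comm]
    exact h
  rw [hx'] at hx
  obtain ⟨m, d, hd, hmd⟩ := FA_S16_AU_rat_isInt ℓ _ hx
  have hd0 : (d : ℂ) ≠ 0 := by
    intro h
    have : d = 0 := by exact_mod_cast h
    exact hd (this ▸ dvd_zero ℓ)
  have : (d : ℂ) = (m : ℂ) * ℓ := by
    push_cast at hmd
    field_simp at hmd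
    linear_combination hmd
  have h2 : (d : ℤ) = m * ℓ := by exact_mod_cast this
  apply hd
  have : (ℓ : ℤ) ∣ (d : ℤ) := ⟨m, by rw [h2]; ring⟩
  exact_mod_cast this

/-- `ℓ` as an element of `𝒪`. -/
def FA_S16_AU_ellO : FA_S16_AU_O ℓ := ⟨(ℓ : ℂ), by simpa using FA_S16_AU_int_mem ℓ (ℓ : ℤ)⟩

theorem FA_S16_AU_span_ne_top : Ideal.span {FA_S16_AU_ellO ℓ} ≠ (⊤ : Ideal (FA_S16_AU_O ℓ)) := by
  intro h
  rw [Ideal.eq_top_iff_one, Ideal.mem_span_singleton'] at h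
  obtain ⟨a, ha⟩ := h
  have := congrArg Subtype.val ha
  simp only [FA_S16_AU_ellO, Subring.coe_mul, Subring.coe_one] at this
  exact FA_S16_AU_ell_not_unit ℓ a.1 a.2 (by rw [mul_comm]; exact this)

/-- A maximal ideal of `𝒪` containing `ℓ`. -/
def FA_S16_AU_m : Ideal (FA_S16_AU_O ℓ) :=
  Classical.choose (Ideal.exists_le_maximal _ (FA_S16_AU_span_ne_top ℓ))

instance FA_S16_AU_m_isMaximal : (FA_S16_AU_m ℓ).IsMaximal :=
  (Classical.choose_spec (Ideal.exists_le_maximal _ (FA_S16_AU_span_ne_top ℓ))).1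

theorem FA_S16_AU_ell_mem_m : FA_S16_AU_ellO ℓ ∈ FA_S16_AU_m ℓ :=
  (Classical.choose_spec (Ideal.exists_le_maximal _ (FA_S16_AU_span_ne_top ℓ))).2
    (Ideal.subset_span rfl)

/-- The residue field. -/
def FA_S16_AU_F : Type := (FA_S16_AU_O ℓ) ⧸ (FA_S16_AU_m ℓ)

instance FA_S16_AU_F_field : Field (FA_S16_AU_F ℓ) :=
  Ideal.Quotient.field (FA_S16_AU_m ℓ)

/-- The reduction map. -/
def FA_S16_AU_rho : FA_S16_AU_O ℓ →+* FA_S16_AU_F ℓ := Ideal.Quotient.mk (FA_S16_AU_m ℓ)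

theorem FA_S16_AU_rho_surj : Function.Surjective (FA_S16_AU_rho ℓ) :=
  Ideal.Quotient.mk_surjective

theorem FA_S16_AU_rho_ell : FA_S16_AU_rho ℓ (FA_S16_AU_ellO ℓ) = 0 :=
  Ideal.Quotient.eq_zero_iff_mem.2 (FA_S16_AU_ell_mem_m ℓ)

theorem FA_S16_AU_ellO_eq : FA_S16_AU_ellO ℓ = ((ℓ : ℕ) : FA_S16_AU_O ℓ) := by
  apply Subtype.ext
  simp [FA_S16_AU_ellO]

theorem FA_S16_AU_F_ell : ((ℓ : ℕ) : FA_S16_AU_F ℓ) = 0 := by
  have := FA_S16_AU_rho_ell ℓ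
  rw [FA_S16_AU_ellO_eq, map_natCast] at this
  exact this

/-- An integer reduces to `0` iff it is divisible by `ℓ`. -/
theorem FA_S16_AU_intCast_eq_zero_iff (m : ℤ) :
    ((m : ℤ) : FA_S16_AU_F ℓ) = 0 ↔ (ℓ : ℤ) ∣ m := by
  constructor
  · intro h
    by_contra hnd
    have hcop : IsCoprime m (ℓ : ℤ) := by
      rw [isCoprime_comm]
      exact (Nat.prime_iff_prime_int.1 hℓ.out).coprime_iff_not_dvd.2 hnd
    obtain ⟨a, b, hab⟩ := hcop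
    have h1 : ((a * m + b * ℓ : ℤ) : FA_S16_AU_F ℓ) = 1 := by rw [hab]; simp
    push_cast at h1
    rw [h, FA_S16_AU_F_ell] at h1
    simp at h1
  · rintro ⟨k, rfl⟩
    push_cast
    rw [FA_S16_AU_F_ell, zero_mul]

theorem FA_S16_AU_natCast_ne_zero (d : ℕ) (hd : ¬ ℓ ∣ d) : ((d : ℕ) : FA_S16_AU_F ℓ) ≠ 0 := by
  intro h
  have := (FA_S16_AU_intCast_eq_zero_iff ℓ (d : ℤ)).1 (by simpa using h)
  exact hd (by exact_mod_cast this)

/-- An `ℓ`-integral rational with zero reduction is `ℓ` times an `ℓ`-integral rational. -/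
theorem FA_S16_AU_isInt_div (x : ℂ) (hx : FA_S16_IsInt ℓ x)
    (h0 : FA_S16_AU_rho ℓ ⟨x, FA_S16_AU_isInt_mem ℓ hx⟩ = 0) :
    ∃ y : ℂ, FA_S16_IsInt ℓ y ∧ x = (ℓ : ℂ) * y := by
  obtain ⟨m, d, hd, hxmd⟩ := hx
  have hd0 : (d : ℂ) ≠ 0 := by
    intro h
    have : d = 0 := by exact_mod_cast h
    exact hd (this ▸ dvd_zero ℓ)
  -- `d * x = m` in `𝒪`
  have hmul : ((d : ℕ) : FA_S16_AU_O ℓ) * ⟨x, FA_S16_AU_isInt_mem ℓ ⟨m, d, hd, hxmd⟩⟩
      = ((m : ℤ) : FA_S16_AU_O ℓ) := by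
    apply Subtype.ext
    simp only [Subring.coe_mul, Subring.coe_natCast, Subring.coe_intCast]
    rw [hxmd, mul_div_cancel₀ _ hd0]
  have := congrArg (FA_S16_AU_rho ℓ) hmul
  rw [map_mul, h0, mul_zero, map_intCast] at this
  obtain ⟨k, hk⟩ := (FA_S16_AU_intCast_eq_zero_iff ℓ m).1 this.symm
  refine ⟨(k : ℂ) / (d : ℂ), ⟨k, d, hd, rfl⟩, ?_⟩
  rw [hxmd, hk]
  push_cast
  ring

/-! ### The root of unity -/

variable (p : ℕ)

theorem FA_S16_AU_zeta_pow (hp : p ≠ 0) : FA_S16_zeta p ^ p = 1 := by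
  have := (Complex.isPrimitiveRoot_exp p hp).pow_eq_one
  simpa [FA_S16_zeta] using this

theorem FA_S16_AU_zeta_prim (hp : p ≠ 0) : IsPrimitiveRoot (FA_S16_zeta p) p := by
  simpa [FA_S16_zeta] using Complex.isPrimitiveRoot_exp p hp

theorem FA_S16_AU_zeta_mem (hp : p ≠ 0) : FA_S16_zeta p ∈ FA_S16_AU_O ℓ := by
  refine FA_S16_AU_integral_mem ℓ ?_
  refine ⟨Polynomial.X ^ p - 1, Polynomial.monic_X_pow_sub_C (1 : ℤ) hp, ?_⟩
  simp [FA_S16_AU_zeta_pow p hp]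

/-- `ζ` in `𝒪`. -/
def FA_S16_AU_zetaO (hp : p ≠ 0) : FA_S16_AU_O ℓ := ⟨FA_S16_zeta p, FA_S16_AU_zeta_mem ℓ p hp⟩

/-- `ζ̄ ∈ 𝔽`. -/
def FA_S16_AU_zetaF (hp : p ≠ 0) : FA_S16_AU_F ℓ := FA_S16_AU_rho ℓ (FA_S16_AU_zetaO ℓ p hp)

theorem FA_S16_AU_zetaF_pow (hp : p ≠ 0) : FA_S16_AU_zetaF ℓ p hp ^ p = 1 := by
  rw [FA_S16_AU_zetaF, ← map_pow]
  have : FA_S16_AU_zetaO ℓ p hp ^ p = 1 := by
    apply Subtype.ext
    simp [FA_S16_AU_zetaO, FA_S16_AU_zeta_pow p hp]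
  rw [this, map_one]

theorem FA_S16_AU_zetaF_prim (hp : p.Prime) (hpℓ : ℓ ≠ p) :
    IsPrimitiveRoot (FA_S16_AU_zetaF ℓ p hp.ne_zero) p := by
  have hne1 : FA_S16_AU_zetaF ℓ p hp.ne_zero ≠ 1 := by
    intro h1
    have hsum : ∑ k ∈ Finset.range p, FA_S16_zeta p ^ k = 0 :=
      (FA_S16_AU_zeta_prim p hp.ne_zero).geom_sum_eq_zero hp.one_lt
    have hsumO : ∑ k ∈ Finset.range p, (FA_S16_AU_zetaO ℓ p hp.ne_zero) ^ k = 0 := by
      apply Subtype.ext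
      simp [FA_S16_AU_zetaO, hsum]
    have := congrArg (FA_S16_AU_rho ℓ) hsumO
    rw [map_sum, map_zero] at this
    simp only [map_pow] at this
    change ∑ k ∈ Finset.range p, (FA_S16_AU_zetaF ℓ p hp.ne_zero) ^ k = 0 at this
    rw [h1] at this
    simp at this
    refine FA_S16_AU_natCast_ne_zero ℓ p ?_ this
    intro hdvd
    exact hpℓ ((Nat.prime_dvd_prime_iff_eq hℓ.out hp).1 hdvd)
  have hord : orderOf (FA_S16_AU_zetaF ℓ p hp.ne_zero) = p := by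
    have := Fact.mk hp
    exact orderOf_eq_prime (FA_S16_AU_zetaF_pow ℓ p hp.ne_zero) hne1
  have := IsPrimitiveRoot.orderOf (FA_S16_AU_zetaF ℓ p hp.ne_zero)
  rwa [hord] at this

end FA_S16
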