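import Mathlib
import Fermat.Agent.S16.UInterface
import Fermat.Agent.S24.CEta

/-!
# S16, analytic leaf AN-Q: the `q`-expansions of `E₄`, `E₆`, `Δ`
-/

set_option autoImplicit false

noncomputable section

namespace FA_S16

open ModularForm ModularFormClass UpperHalfPlane CongruenceSubgroup MatrixGroups EisensteinSeries
open scoped ArithmeticFunction.sigma

local notation "Δ" => ModularForm.discriminant

theorem FA_S16_anQ_E4_zero : PowerSeries.coeff 0 (qExpansion 1 E₄) = 1 :=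
  E_qExpansion_coeff_zero _ ⟨2, rfl⟩

theorem FA_S16_anQ_E6_zero : PowerSeries.coeff 0 (qExpansion 1 E₆) = 1 :=
  E_qExpansion_coeff_zero _ ⟨3, rfl⟩

theorem FA_S16_anQ_E4 (n : ℕ) (hn : 1 ≤ n) :
    PowerSeries.coeff n (qExpansion 1 E₄) = 240 * (σ 3 n : ℂ) := by
  have h := E_qExpansion_coeff (k := 4) (by norm_num) ⟨2, rfl⟩ n
  rw [if_neg (by omega)] at h
  have hb : bernoulli 4 = -1 / 30 := by decide +kernel
  rw [hb] at h
  rw [show (qExpansion 1 E₄) = qExpansion 1 (E (k := 4) (by norm_num)) from rfl, h]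
  push_cast
  ring

theorem FA_S16_anQ_E6 (n : ℕ) (hn : 1 ≤ n) :
    PowerSeries.coeff n (qExpansion 1 E₆) = -504 * (σ 5 n : ℂ) := by
  have h := E_qExpansion_coeff (k := 6) (by norm_num) ⟨3, rfl⟩ n
  rw [if_neg (by omega)] at h
  have hb : bernoulli 6 = 1 / 42 := by decide +kernel
  rw [hb] at h
  rw [show (qExpansion 1 E₆) = qExpansion 1 (E (k := 6) (by norm_num)) from rfl, h]
  push_cast
  ring

/-- The `q`-expansion of `E₄` has integer coefficients. -/
theorem FA_S16_anQ_E4_int (n : ℕ) : ∃ m : ℤ, PowerSeries.coeff n (qExpansion 1 E₄) = (m : ℂ) := by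
  rcases Nat.eq_zero_or_pos n with rfl | hn
  · exact ⟨1, by rw [FA_S16_anQ_E4_zero]; simp⟩
  · exact ⟨240 * (σ 3 n : ℕ), by rw [FA_S16_anQ_E4 n hn]; push_cast; ring⟩

/-- The `q`-expansion of `E₆` has integer coefficients. -/
theorem FA_S16_anQ_E6_int (n : ℕ) : ∃ m : ℤ, PowerSeries.coeff n (qExpansion 1 E₆) = (m : ℂ) := by
  rcases Nat.eq_zero_or_pos n with rfl | hn
  · exact ⟨1, by rw [FA_S16_anQ_E6_zero]; simp⟩
  · exact ⟨-504 * (σ 5 n : ℕ), by rw [FA_S16_anQ_E6 n hn]; push_cast; ring⟩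

/-- The `q`-expansion of `Δ` has integer coefficients. -/
theorem FA_S16_anQ_disc_int (n : ℕ) :
    ∃ m : ℤ, PowerSeries.coeff n (qExpansion 1 Δ) = (m : ℂ) := by
  refine ⟨PowerSeries.coeff n (PowerSeries.X * ModularCurve.etaProd ^ 24), ?_⟩
  have h := Fermat.Agent.S24.FA_S24_qExpansion_disc
  rw [h, PowerSeries.coeff_map]
  simp

theorem FA_S16_anQ_disc_zero : PowerSeries.coeff 0 (qExpansion 1 Δ) = 0 := by
  have h := Fermat.Agent.S24.FA_S24_qExpansion_disc
  rw [h, PowerSeries.coeff_map]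
  simp

theorem FA_S16_anQ_disc_one : PowerSeries.coeff 1 (qExpansion 1 Δ) = 1 :=
  discriminant_qExpansion_coeff_one

/-- `1728 Δ = E₄³ - E₆²` on `q`-expansions. -/
theorem FA_S16_anQ_disc_eq :
    (1728 : ℂ) • qExpansion 1 Δ = qExpansion 1 E₄ ^ 3 - qExpansion 1 E₆ ^ 2 := by
  set G : ModularForm 𝒮ℒ 12 :=
    ModularForm.mcast (by decide) (E₄.pow 3) - ModularForm.mcast (by decide) (E₆.pow 2) with hG
  have hGq : qExpansion 1 G = qExpansion 1 E₄ ^ 3 - qExpansion 1 E₆ ^ 2 := by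
    simp only [hG, FunLike.coe_sub, coe_mcast,
      ModularForm.qExpansion_sub one_pos one_mem_strictPeriods_SL,
      ModularForm.qExpansion_pow one_pos one_mem_strictPeriods_SL]
  have hfun : ((1728 : ℂ) • (CuspForm.discriminant : CuspForm 𝒮ℒ 12) : ℍ → ℂ) = G := by
    ext z
    have h1 := discriminant_eq_E₄_cube_sub_E₆_sq z
    simp only [hG, FunLike.coe_sub, coe_mcast, coe_pow, Pi.sub_apply, Pi.pow_apply,
      Pi.smul_apply, smul_eq_mul]
    rw [show (CuspForm.discriminant : ℍ → ℂ) z = Δ z from rfl, h1]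
    ring
  have hq := ModularForm.qExpansion_smul one_pos one_mem_strictPeriods_SL (1728 : ℂ)
    CuspForm.discriminant
  rw [hfun, hGq] at hq
  exact hq.symm

/-- **AN-Q**. -/
theorem FA_S16_anQ : FA_S16_Target_AnQ :=
  ⟨⟨FA_S16_anQ_E4_zero, FA_S16_anQ_E4⟩, ⟨FA_S16_anQ_E6_zero, FA_S16_anQ_E6⟩,
    FA_S16_anQ_disc_zero, FA_S16_anQ_disc_one, FA_S16_anQ_disc_int, FA_S16_anQ_disc_eq⟩

end FA_S16
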