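import Mathlib
import Fermat.Agent.S16.AnQ

/-!
# S16, analytic leaf AN-L1 and the integral structure lemma for level one

* `FA_S16_l1_int`: if `f ∈ M_k(SL₂(ℤ))` has `q`-expansion coefficients in a subring `R ⊆ ℂ`, then
  `1728 ^ m • f` is an `R`-linear combination of the monomials `E₄^a E₆^b`, `4a + 6b = k`
  (on `q`-expansions), for some `m`.
* `FA_S16_anL1 : FA_S16_Target_AnL1` (the case `R = ℂ`).
-/

set_option autoImplicit false

noncomputable section

namespace FA_S16

open ModularForm ModularFormClass UpperHalfPlane CongruenceSubgroup MatrixGroups EisensteinSeries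
open scoped ArithmeticFunction.sigma

local notation "Δ" => ModularForm.discriminant

/-- The isobaric monomials `E₄^a E₆^b` of weight `k` (as `q`-expansions). -/
def FA_S16_l1_mon (k : ℕ) : Set (PowerSeries ℂ) :=
  {t : PowerSeries ℂ | ∃ a b : ℕ, 4 * a + 6 * b = k ∧
    t = qExpansion 1 E₄ ^ a * qExpansion 1 E₆ ^ b}

/-- Coefficientwise membership in a subring is closed under products. -/
theorem FA_S16_l1_coeff_mul (R : Subring ℂ) {A B : PowerSeries ℂ}
    (hA : ∀ n, PowerSeries.coeff n A ∈ R) (hB : ∀ n, PowerSeries.coeff n B ∈ R) (n : ℕ) :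
    PowerSeries.coeff n (A * B) ∈ R := by
  rw [PowerSeries.coeff_mul]
  exact Subring.sum_mem R fun x _ => R.mul_mem (hA _) (hB _)

theorem FA_S16_l1_coeff_pow (R : Subring ℂ) {A : PowerSeries ℂ}
    (hA : ∀ n, PowerSeries.coeff n A ∈ R) (j : ℕ) (n : ℕ) :
    PowerSeries.coeff n (A ^ j) ∈ R := by
  induction j generalizing n with
  | zero =>
    rw [pow_zero, PowerSeries.coeff_one]
    split_ifs
    · exact R.one_mem
    · exact R.zero_mem
  | succ j ih =>
    rw [pow_succ]
    exact FA_S16_l1_coeff_mul R ih hA n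

theorem FA_S16_l1_E4_mem (R : Subring ℂ) (n : ℕ) : PowerSeries.coeff n (qExpansion 1 E₄) ∈ R := by
  obtain ⟨m, hm⟩ := FA_S16_anQ_E4_int n
  rw [hm]
  exact intCast_mem R m

theorem FA_S16_l1_E6_mem (R : Subring ℂ) (n : ℕ) : PowerSeries.coeff n (qExpansion 1 E₆) ∈ R := by
  obtain ⟨m, hm⟩ := FA_S16_anQ_E6_int n
  rw [hm]
  exact intCast_mem R m

theorem FA_S16_l1_disc_mem (R : Subring ℂ) (n : ℕ) : PowerSeries.coeff n (qExpansion 1 Δ) ∈ R := by
  obtain ⟨m, hm⟩ := FA_S16_anQ_disc_int n
  rw [hm]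
  exact intCast_mem R m

/-- Division by a series `D = X + …` with coefficients in `R` preserves `R`-integrality. -/
theorem FA_S16_l1_div (R : Subring ℂ) (A D B : PowerSeries ℂ)
    (hA : ∀ n, PowerSeries.coeff n A ∈ R) (hD0 : PowerSeries.coeff 0 D = 0)
    (hD1 : PowerSeries.coeff 1 D = 1) (hD : ∀ n, PowerSeries.coeff n D ∈ R) (h : A = D * B) :
    ∀ n, PowerSeries.coeff n B ∈ R := by
  intro n
  induction n using Nat.strong_induction_on with
  | _ n ih =>
    have h1 := congrArg (PowerSeries.coeff (n + 1)) h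
    rw [PowerSeries.coeff_mul] at h1
    have hmem : ((1, n) : ℕ × ℕ) ∈ Finset.HasAntidiagonal.antidiagonal (n + 1) := by
      rw [Finset.HasAntidiagonal.mem_antidiagonal]; omega
    rw [← Finset.add_sum_erase _ _ hmem, hD1, one_mul] at h1
    have h2 : PowerSeries.coeff n B = PowerSeries.coeff (n + 1) A -
        ∑ x ∈ (Finset.HasAntidiagonal.antidiagonal (n + 1)).erase (1, n),
          PowerSeries.coeff x.1 D * PowerSeries.coeff x.2 B := by
      rw [h1]; ring
    rw [h2]
    refine R.sub_mem (hA _) (Subring.sum_mem R fun x hx => ?_)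
    rw [Finset.mem_erase, Finset.HasAntidiagonal.mem_antidiagonal] at hx
    obtain ⟨hne, hsum⟩ := hx
    by_cases hx0 : x.1 = 0
    · rw [hx0, hD0, zero_mul]; exact R.zero_mem
    · have hx1 : x.1 ≠ 1 := by
        intro h1'
        apply hne
        ext
        · exact h1'
        · simp only; omega
      exact R.mul_mem (hD _) (ih x.2 (by omega))

/-- Multiplying a combination of monomials of weight `j` by `E₄³` gives weight `j + 12`. -/
theorem FA_S16_l1_E4_cube_mul (R : Subring ℂ) (j : ℕ) (x : PowerSeries ℂ)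
    (hx : x ∈ Submodule.span R (FA_S16_l1_mon j)) :
    qExpansion 1 E₄ ^ 3 * x ∈ Submodule.span R (FA_S16_l1_mon (j + 12)) := by
  induction hx using Submodule.span_induction with
  | mem t ht =>
    obtain ⟨a, b, hab, rfl⟩ := ht
    refine Submodule.subset_span ⟨a + 3, b, by omega, ?_⟩
    ring
  | zero => rw [mul_zero]; exact Submodule.zero_mem _
  | add u v _ _ hu hv => rw [mul_add]; exact Submodule.add_mem _ hu hv
  | smul r u _ hu =>
    rw [mul_smul_comm]
    exact Submodule.smul_mem _ r hu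

theorem FA_S16_l1_E6_sq_mul (R : Subring ℂ) (j : ℕ) (x : PowerSeries ℂ)
    (hx : x ∈ Submodule.span R (FA_S16_l1_mon j)) :
    qExpansion 1 E₆ ^ 2 * x ∈ Submodule.span R (FA_S16_l1_mon (j + 12)) := by
  induction hx using Submodule.span_induction with
  | mem t ht =>
    obtain ⟨a, b, hab, rfl⟩ := ht
    refine Submodule.subset_span ⟨a, b + 2, by omega, ?_⟩
    ring
  | zero => rw [mul_zero]; exact Submodule.zero_mem _
  | add u v _ _ hu hv => rw [mul_add]; exact Submodule.add_mem _ hu hv
  | smul r u _ hu =>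
    rw [mul_smul_comm]
    exact Submodule.smul_mem _ r hu

/-- A `ℂ`-scalar from `R` acts inside the `R`-span. -/
theorem FA_S16_l1_smul_mem (R : Subring ℂ) {S : Set (PowerSeries ℂ)} {c : ℂ} (hc : c ∈ R)
    {x : PowerSeries ℂ} (hx : x ∈ Submodule.span R S) : c • x ∈ Submodule.span R S := by
  have : c • x = (⟨c, hc⟩ : R) • x := rfl
  rw [this]
  exact Submodule.smul_mem _ _ hx

/-- The monomial `E₄^a E₆^b` as a modular form of weight `k = 4a + 6b`. -/
def FA_S16_l1_monForm (k a b : ℕ) (h : 4 * a + 6 * b = k) : ModularForm 𝒮ℒ (k : ℤ) :=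
  ModularForm.mcast (by push_cast [← h]; ring) ((E₄.pow a).mul (E₆.pow b))

theorem FA_S16_l1_monForm_q (k a b : ℕ) (h : 4 * a + 6 * b = k) :
    qExpansion 1 (FA_S16_l1_monForm k a b h) = qExpansion 1 E₄ ^ a * qExpansion 1 E₆ ^ b := by
  unfold FA_S16_l1_monForm
  rw [ModularForm.qExpansion_mcast, ModularForm.qExpansion_mul one_pos one_mem_strictPeriods_SL,
    ModularForm.qExpansion_pow one_pos one_mem_strictPeriods_SL,
    ModularForm.qExpansion_pow one_pos one_mem_strictPeriods_SL]

/-- **Integral structure of level one forms.** -/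
theorem FA_S16_l1_int (R : Subring ℂ) :
    ∀ (k : ℕ) (f : ModularForm 𝒮ℒ (k : ℤ)), (∀ n, PowerSeries.coeff n (qExpansion 1 f) ∈ R) →
      ∃ m : ℕ, ((1728 : ℂ) ^ m) • qExpansion 1 f ∈ Submodule.span R (FA_S16_l1_mon k) := by
  intro k
  induction k using Nat.strong_induction_on with
  | _ k ih =>
    intro f hf
    have hzero : ∀ g : ModularForm 𝒮ℒ (k : ℤ), g = 0 →
        ∃ m : ℕ, ((1728 : ℂ) ^ m) • qExpansion 1 g ∈ Submodule.span R (FA_S16_l1_mon k) := by
      intro g hg
      refine ⟨0, ?_⟩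
      rw [hg, show ((0 : ModularForm 𝒮ℒ (k : ℤ)) : ℍ → ℂ) = 0 from rfl, qExpansion_zero, smul_zero]
      exact Submodule.zero_mem _
    rcases Nat.even_or_odd k with hev | hodd
    swap
    · exact hzero f (ModularForm.levelOne_odd_weight_eq_zero (by exact_mod_cast hodd) f)
    by_cases hk0 : k = 0
    · subst hk0
      obtain ⟨c, hc⟩ := ModularFormClass.levelOne_weight_zero_const (F := ModularForm 𝒮ℒ ((0 : ℕ) : ℤ)) f
      have hq : qExpansion 1 f = PowerSeries.C c := by
        rw [hc]
        have h1 : (Function.const ℍ c : ℍ → ℂ) = c • (1 : ℍ → ℂ) := by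
          ext z; simp
        have han : AnalyticAt ℂ (cuspFunction 1 (1 : ℍ → ℂ)) 0 := by
          have := ModularFormClass.analyticAt_cuspFunction_zero (1 : ModularForm 𝒮ℒ 0) one_pos
            one_mem_strictPeriods_SL
          rwa [ModularForm.one_coe_eq_one] at this
        rw [h1, qExpansion_smul han, qExpansion_one]
        ext n; simp [PowerSeries.coeff_C, PowerSeries.coeff_one]
      have hcR : c ∈ R := by
        have := hf 0
        rw [hq] at this
        simpa using this
      refine ⟨0, ?_⟩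
      rw [pow_zero, one_smul, hq]
      have : (PowerSeries.C c : PowerSeries ℂ) =
          c • (qExpansion 1 E₄ ^ 0 * qExpansion 1 E₆ ^ 0) := by
        ext n; simp [PowerSeries.coeff_C, PowerSeries.coeff_one]
      rw [this]
      exact FA_S16_l1_smul_mem R hcR (Submodule.subset_span ⟨0, 0, by omega, rfl⟩)
    by_cases hk2 : k = 2
    · subst hk2
      refine hzero f ?_
      have := ModularForm.levelOne_weight_two_rank_zero
      exact rank_zero_iff_forall_zero.mp this f
    -- now `k ≥ 4` even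
    have hk4 : 4 ≤ k := by
      obtain ⟨r, hr⟩ := hev
      omega
    obtain ⟨a, b, hab⟩ : ∃ a b : ℕ, 4 * a + 6 * b = k := by
      obtain ⟨r, hr⟩ := hev
      rcases Nat.even_or_odd r with ⟨t, ht⟩ | ⟨t, ht⟩
      · exact ⟨t, 0, by omega⟩
      · exact ⟨t - 1, 1, by omega⟩
    set M := FA_S16_l1_monForm k a b hab with hM
    have hMq := FA_S16_l1_monForm_q k a b hab
    have hMmem : ∀ n, PowerSeries.coeff n (qExpansion 1 M) ∈ R := by
      intro n
      rw [hMq]
      exact FA_S16_l1_coeff_mul R (FA_S16_l1_coeff_pow R (FA_S16_l1_E4_mem R) a)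
        (FA_S16_l1_coeff_pow R (FA_S16_l1_E6_mem R) b) n
    have hM0 : PowerSeries.coeff 0 (qExpansion 1 M) = 1 := by
      rw [hMq]
      simp only [PowerSeries.coeff_zero_eq_constantCoeff, map_mul, map_pow]
      have h4 := FA_S16_anQ_E4_zero
      have h6 := FA_S16_anQ_E6_zero
      simp only [PowerSeries.coeff_zero_eq_constantCoeff] at h4 h6
      rw [h4, h6]; simp
    set a₀ : ℂ := PowerSeries.coeff 0 (qExpansion 1 f) with ha₀
    have ha₀R : a₀ ∈ R := hf 0
    set g : ModularForm 𝒮ℒ (k : ℤ) := f - a₀ • M with hg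
    have hgq : qExpansion 1 g = qExpansion 1 f - a₀ • qExpansion 1 M := by
      have hsm : ((a₀ • M : ModularForm 𝒮ℒ (k : ℤ)) : ℍ → ℂ) = a₀ • (M : ℍ → ℂ) := rfl
      rw [hg, FunLike.coe_sub, ModularForm.qExpansion_sub one_pos one_mem_strictPeriods_SL, hsm,
        ModularForm.qExpansion_smul one_pos one_mem_strictPeriods_SL]
    have hcusp : (qExpansion 1 g).coeff 0 = 0 := by
      rw [hgq, map_sub, PowerSeries.coeff_smul, hM0]
      simp [ha₀]
    have hgmem : ∀ n, PowerSeries.coeff n (qExpansion 1 g) ∈ R := by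
      intro n
      rw [hgq, map_sub, PowerSeries.coeff_smul]
      exact R.sub_mem (hf n) (R.mul_mem ha₀R (hMmem n))
    have hfac := ModularForm.qExpansion_eq_qExpansion_discriminant_mul g hcusp
    set h := CuspForm.discriminantEquiv (ModularForm.toCuspForm g hcusp) with hh
    have hhmem : ∀ n, PowerSeries.coeff n (qExpansion 1 h) ∈ R :=
      FA_S16_l1_div R _ _ _ hgmem FA_S16_anQ_disc_zero FA_S16_anQ_disc_one
        (FA_S16_l1_disc_mem R) hfac
    have hfq : qExpansion 1 f = a₀ • qExpansion 1 M + qExpansion 1 Δ * qExpansion 1 h := by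
      rw [← hfac, hgq]; ring
    have hMspan : qExpansion 1 M ∈ Submodule.span R (FA_S16_l1_mon k) := by
      rw [hMq]
      exact Submodule.subset_span ⟨a, b, hab, rfl⟩
    by_cases hk12 : k < 12
    · -- `h` has negative weight, so vanishes
      have hh0 : (h : ℍ → ℂ) = 0 :=
        ModularFormClass.levelOne_neg_weight_eq_zero (by omega) h
      refine ⟨0, ?_⟩
      rw [pow_zero, one_smul, hfq, hh0, qExpansion_zero, mul_zero, add_zero]
      exact FA_S16_l1_smul_mem R ha₀R hMspan
    · have hk12' : 12 ≤ k := by omega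
      set h' : ModularForm 𝒮ℒ ((k - 12 : ℕ) : ℤ) :=
        ModularForm.mcast (by push_cast [Nat.cast_sub hk12']; ring) h with hh'
      have hh'q : qExpansion 1 h' = qExpansion 1 h := by
        rw [hh', ModularForm.qExpansion_mcast]
      obtain ⟨m, hm⟩ := ih (k - 12) (by omega) h' (by intro n; rw [hh'q]; exact hhmem n)
      rw [hh'q] at hm
      refine ⟨m + 1, ?_⟩
      have h1728 : (1728 : ℂ) ∈ R := by
        have : (1728 : ℂ) = ((1728 : ℤ) : ℂ) := by norm_num
        rw [this]; exact intCast_mem R _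
      have hkk : k - 12 + 12 = k := by omega
      have e1 := FA_S16_l1_E4_cube_mul R (k - 12) _ hm
      have e2 := FA_S16_l1_E6_sq_mul R (k - 12) _ hm
      rw [hkk] at e1 e2
      have key : ((1728 : ℂ) ^ (m + 1)) • qExpansion 1 f =
          ((1728 : ℂ) ^ (m + 1) * a₀) • qExpansion 1 M +
            (qExpansion 1 E₄ ^ 3 * ((1728 : ℂ) ^ m • qExpansion 1 h) -
              qExpansion 1 E₆ ^ 2 * ((1728 : ℂ) ^ m • qExpansion 1 h)) := by
        rw [hfq, ← sub_mul, ← FA_S16_anQ_disc_eq, smul_add, smul_smul, smul_mul_smul_comm,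
          pow_succ']
      rw [key]
      refine Submodule.add_mem _ ?_ (Submodule.sub_mem _ e1 e2)
      exact FA_S16_l1_smul_mem R (R.mul_mem (R.pow_mem h1728 _) ha₀R) hMspan

/-- **AN-L1**. -/
theorem FA_S16_anL1 : FA_S16_Target_AnL1 := by
  intro k s hs
  obtain ⟨G, rfl⟩ := hs
  obtain ⟨m, hm⟩ := FA_S16_l1_int ⊤ k G (fun _ => Subring.mem_top _)
  have h1 : ((1728 : ℂ) ^ m) • qExpansion 1 G ∈
      Submodule.span ℂ (FA_S16_l1_mon k) := by
    have := Submodule.span_subset_span (↥(⊤ : Subring ℂ)) ℂ (FA_S16_l1_mon k)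
    exact this hm
  have h2 := Submodule.smul_mem _ (((1728 : ℂ) ^ m)⁻¹) h1
  rw [smul_smul, inv_mul_cancel₀ (pow_ne_zero _ (by norm_num)), one_smul] at h2
  exact h2

end FA_S16
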