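import Mathlib
import Fermat.Agent.S16.UInterface

/-!
# S16 (item 83), (U): interface, part 2 — integral structure of level one forms

Consumers: E5 / Ep (helper8) use `FA_S16_Target_AnL1Int6`; ALG-UNIT (over `ℤ`), E3b (over `ℤ_(3)`)
use the triangular form `FA_S16_Target_AnL1Int`.

* `FA_S16_basis k c = Δ^c E₄^a E₆^b`, `b ∈ {0,1}`, `4a + 6b = k - 12c`: the triangular basis
  (`basis k c = q^c + …`, integer coefficients).
* `FA_S16_Target_AnL1D`    : level one forms are `ℂ`-combinations of the triangular basis.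
* `FA_S16_Target_AnL1Int`  : ... with coefficients in any subring `A ⊆ ℂ` containing the
  `q`-expansion coefficients of the form.
* `FA_S16_Target_AnL1Int6` : if moreover `1728⁻¹ ∈ A`: `A`-combination of `E₄^a E₆^b`, `4a + 6b = k`.
-/

set_option autoImplicit false

noncomputable section

namespace FA_S16

open ModularForm ModularFormClass UpperHalfPlane CongruenceSubgroup MatrixGroups EisensteinSeries

local notation "Δ" => ModularForm.discriminant

/-- The triangular basis of level one forms of weight `k`: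
`Δ^c · E₄^a · E₆^b`, `b ∈ {0, 1}`, `4 a + 6 b = k - 12 c` (junk if `k - 12 c = 2` or `k` odd). -/
def FA_S16_basis (k c : ℕ) : PowerSeries ℂ :=
  qExpansion 1 Δ ^ c * qExpansion 1 E₄ ^ ((k - 12 * c - 6 * (((k - 12 * c) / 2) % 2)) / 4) *
    qExpansion 1 E₆ ^ (((k - 12 * c) / 2) % 2)

/-- **AN-L1D** (triangular form of AN-L1): a level one form of weight `k` is a `ℂ`-combination of
`Δ^c E₄^a E₆^b`, `c ≤ k / 12`, `b ∈ {0,1}`, `4a + 6b = k - 12c`
(no term with `k - 12 c = 2`; everything is `0` for odd `k`). -/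
def FA_S16_Target_AnL1D : Prop :=
  ∀ (k : ℕ) (s : PowerSeries ℂ), s ∈ FA_S16_qL1 (k : ℤ) →
    ∃ n : ℕ → ℂ, (∀ c, (Odd k ∨ k - 12 * c = 2) → n c = 0) ∧
      s = ∑ c ∈ Finset.range (k / 12 + 1), n c • FA_S16_basis k c

/-- **AN-L1-INT** (`q`-expansion principle at level one): if the `q`-expansion coefficients of a
level one form lie in a subring `A ⊆ ℂ`, then so do its coordinates in the triangular basis. -/
def FA_S16_Target_AnL1Int : Prop :=
  ∀ (A : Subring ℂ) (k : ℕ) (s : PowerSeries ℂ), s ∈ FA_S16_qL1 (k : ℤ) →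
    (∀ n, PowerSeries.coeff n s ∈ A) →
    ∃ n : ℕ → ℂ, (∀ c, n c ∈ A) ∧ (∀ c, (Odd k ∨ k - 12 * c = 2) → n c = 0) ∧
      s = ∑ c ∈ Finset.range (k / 12 + 1), n c • FA_S16_basis k c

/-- **AN-L1-INT6**: if `1728⁻¹ ∈ A` and the `q`-expansion coefficients of a level one form of
weight `k` lie in `A`, the form is an `A`-combination of `E₄^a E₆^b`, `4a + 6b = k`. -/
def FA_S16_Target_AnL1Int6 : Prop :=
  ∀ (A : Subring ℂ), (1728 : ℂ)⁻¹ ∈ A →
  ∀ (k : ℕ) (s : PowerSeries ℂ), s ∈ FA_S16_qL1 (k : ℤ) →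
    (∀ n, PowerSeries.coeff n s ∈ A) →
    ∃ g : ℕ × ℕ →₀ ℂ, (∀ ab ∈ g.support, 4 * ab.1 + 6 * ab.2 = k) ∧ (∀ ab, g ab ∈ A) ∧
      s = g.sum fun ab x => x • (qExpansion 1 E₄ ^ ab.1 * qExpansion 1 E₆ ^ ab.2)

end FA_S16
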