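import Mathlib
import Fermat.Agent.S16.AnL1
import Fermat.Agent.S16.UInterfaceInt

/-!
# S16: integral structure of level one forms (targets `AnL1Int6`, `AnL1Int`, `AnL1D`)
-/

set_option autoImplicit false

noncomputable section

namespace FA_S16

open ModularForm ModularFormClass UpperHalfPlane CongruenceSubgroup MatrixGroups EisensteinSeries

local notation "Δ" => ModularForm.discriminant

/-- An element of the `A`-span of the isobaric monomials is a finitely supported combination. -/
theorem FA_S16_l1_span_finsupp (A : Subring ℂ) (k : ℕ) (x : PowerSeries ℂ)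
    (hx : x ∈ Submodule.span A (FA_S16_l1_mon k)) :
    ∃ g : ℕ × ℕ →₀ ℂ, (∀ ab ∈ g.support, 4 * ab.1 + 6 * ab.2 = k) ∧ (∀ ab, g ab ∈ A) ∧
      x = g.sum fun ab c => c • (qExpansion 1 E₄ ^ ab.1 * qExpansion 1 E₆ ^ ab.2) := by
  classical
  induction hx using Submodule.span_induction with
  | mem t ht =>
    obtain ⟨a, b, hab, rfl⟩ := ht
    refine ⟨Finsupp.single (a, b) 1, ?_, ?_, ?_⟩
    · intro ab hab'
      have := Finsupp.support_single_subset hab'
      rw [Finset.mem_singleton] at this
      rw [this]; exact hab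
    · intro ab
      rw [Finsupp.single_apply]
      split_ifs
      · exact A.one_mem
      · exact A.zero_mem
    · rw [Finsupp.sum_single_index (by simp), one_smul]
  | zero => exact ⟨0, by simp, fun _ => by simp [A.zero_mem], by simp⟩
  | add u v _ _ hu hv =>
    obtain ⟨g₁, h1, h2, rfl⟩ := hu
    obtain ⟨g₂, h1', h2', rfl⟩ := hv
    refine ⟨g₁ + g₂, ?_, ?_, ?_⟩
    · intro ab hab
      rcases Finset.mem_union.mp (Finsupp.support_add hab) with h | h
      · exact h1 ab h
      · exact h1' ab h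
    · intro ab
      rw [Finsupp.add_apply]
      exact A.add_mem (h2 ab) (h2' ab)
    · rw [Finsupp.sum_add_index' (by simp) (by intro ab c₁ c₂; rw [add_smul])]
  | smul r u _ hu =>
    obtain ⟨g, h1, h2, rfl⟩ := hu
    refine ⟨(r : ℂ) • g, ?_, ?_, ?_⟩
    · intro ab hab
      exact h1 ab (Finsupp.support_smul hab)
    · intro ab
      rw [Finsupp.smul_apply, smul_eq_mul]
      exact A.mul_mem r.2 (h2 ab)
    · rw [Finsupp.sum_smul_index' (by simp), Finsupp.smul_sum]
      refine Finsupp.sum_congr fun ab _ => ?_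
      rw [smul_eq_mul, mul_smul]
      rfl

/-- **AN-L1-INT6**. -/
theorem FA_S16_anL1Int6 : FA_S16_Target_AnL1Int6 := by
  intro A hA k s hs hsA
  obtain ⟨G, rfl⟩ := hs
  obtain ⟨m, hm⟩ := FA_S16_l1_int A k G hsA
  have h1 : qExpansion 1 G ∈ Submodule.span A (FA_S16_l1_mon k) := by
    have h2 := FA_S16_l1_smul_mem A (A.pow_mem hA m) hm
    rw [smul_smul, ← mul_pow, inv_mul_cancel₀ (by norm_num), one_pow, one_smul] at h2
    exact h2
  exact FA_S16_l1_span_finsupp A k _ h1

/-- Exponent of `E₆` in the leading monomial of weight `j`. -/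
def FA_S16_l1_b (j : ℕ) : ℕ := (j / 2) % 2

/-- Exponent of `E₄` in the leading monomial of weight `j`. -/
def FA_S16_l1_a (j : ℕ) : ℕ := (j - 6 * ((j / 2) % 2)) / 4

theorem FA_S16_l1_ab (j : ℕ) (hj : Even j) (hj2 : j ≠ 2) :
    4 * FA_S16_l1_a j + 6 * FA_S16_l1_b j = j := by
  unfold FA_S16_l1_a FA_S16_l1_b
  obtain ⟨r, hr⟩ := hj
  omega

theorem FA_S16_basis_eq (k c : ℕ) :
    FA_S16_basis k c = qExpansion 1 Δ ^ c *
      (qExpansion 1 E₄ ^ FA_S16_l1_a (k - 12 * c) * qExpansion 1 E₆ ^ FA_S16_l1_b (k - 12 * c)) := by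
  unfold FA_S16_basis FA_S16_l1_a FA_S16_l1_b
  rw [mul_assoc]

theorem FA_S16_basis_succ (k c : ℕ) :
    qExpansion 1 Δ * FA_S16_basis (k - 12) c = FA_S16_basis k (c + 1) := by
  rw [FA_S16_basis_eq, FA_S16_basis_eq]
  have : k - 12 - 12 * c = k - 12 * (c + 1) := by omega
  rw [this, pow_succ]
  ring

/-- One step of the reduction: subtract the leading monomial and divide by `Δ`. -/
theorem FA_S16_l1_step (A : Subring ℂ) (k : ℕ) (hk : Even k) (hk4 : 4 ≤ k)
    (f : ModularForm 𝒮ℒ (k : ℤ)) (hf : ∀ n, PowerSeries.coeff n (qExpansion 1 f) ∈ A) :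
    ∃ (a₀ : ℂ) (h : ModularForm 𝒮ℒ ((k : ℤ) - 12)), a₀ ∈ A ∧
      (∀ n, PowerSeries.coeff n (qExpansion 1 h) ∈ A) ∧
      qExpansion 1 f = a₀ • (qExpansion 1 E₄ ^ FA_S16_l1_a k * qExpansion 1 E₆ ^ FA_S16_l1_b k) +
        qExpansion 1 Δ * qExpansion 1 h := by
  have hab := FA_S16_l1_ab k hk (by omega)
  set a := FA_S16_l1_a k
  set b := FA_S16_l1_b k
  set M := FA_S16_l1_monForm k a b hab with hM
  have hMq := FA_S16_l1_monForm_q k a b hab
  have hMmem : ∀ n, PowerSeries.coeff n (qExpansion 1 M) ∈ A := by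
    intro n
    rw [hMq]
    exact FA_S16_l1_coeff_mul A (FA_S16_l1_coeff_pow A (FA_S16_l1_E4_mem A) a)
      (FA_S16_l1_coeff_pow A (FA_S16_l1_E6_mem A) b) n
  have hM0 : PowerSeries.coeff 0 (qExpansion 1 M) = 1 := by
    rw [hMq]
    simp only [PowerSeries.coeff_zero_eq_constantCoeff, map_mul, map_pow]
    have h4 := FA_S16_anQ_E4_zero
    have h6 := FA_S16_anQ_E6_zero
    simp only [PowerSeries.coeff_zero_eq_constantCoeff] at h4 h6
    rw [h4, h6]; simp
  set a₀ : ℂ := PowerSeries.coeff 0 (qExpansion 1 f) with ha₀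
  have ha₀R : a₀ ∈ A := hf 0
  set g : ModularForm 𝒮ℒ (k : ℤ) := f - a₀ • M with hg
  have hgq : qExpansion 1 g = qExpansion 1 f - a₀ • qExpansion 1 M := by
    have hsm : ((a₀ • M : ModularForm 𝒮ℒ (k : ℤ)) : ℍ → ℂ) = a₀ • (M : ℍ → ℂ) := rfl
    rw [hg, FunLike.coe_sub, ModularForm.qExpansion_sub one_pos one_mem_strictPeriods_SL, hsm,
      ModularForm.qExpansion_smul one_pos one_mem_strictPeriods_SL]
  have hcusp : (qExpansion 1 g).coeff 0 = 0 := by
    rw [hgq, map_sub, PowerSeries.coeff_smul, hM0]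
    simp [ha₀]
  have hgmem : ∀ n, PowerSeries.coeff n (qExpansion 1 g) ∈ A := by
    intro n
    rw [hgq, map_sub, PowerSeries.coeff_smul]
    exact A.sub_mem (hf n) (A.mul_mem ha₀R (hMmem n))
  have hfac := ModularForm.qExpansion_eq_qExpansion_discriminant_mul g hcusp
  refine ⟨a₀, CuspForm.discriminantEquiv (ModularForm.toCuspForm g hcusp), ha₀R, ?_, ?_⟩
  · exact FA_S16_l1_div A _ _ _ hgmem FA_S16_anQ_disc_zero FA_S16_anQ_disc_one
      (FA_S16_l1_disc_mem A) hfac
  · rw [← hfac, hgq, hMq]; ring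

/-- **AN-L1-INT**. -/
theorem FA_S16_anL1Int : FA_S16_Target_AnL1Int := by
  intro A k
  induction k using Nat.strong_induction_on with
  | _ k ih =>
    intro s hs hsA
    obtain ⟨f, rfl⟩ := hs
    have hzero : f = 0 → ∃ n : ℕ → ℂ, (∀ c, n c ∈ A) ∧
        (∀ c, (Odd k ∨ k - 12 * c = 2) → n c = 0) ∧
        qExpansion 1 f = ∑ c ∈ Finset.range (k / 12 + 1), n c • FA_S16_basis k c := by
      intro hf0
      refine ⟨fun _ => 0, fun _ => A.zero_mem, fun _ _ => rfl, ?_⟩
      rw [hf0, show ((0 : ModularForm 𝒮ℒ (k : ℤ)) : ℍ → ℂ) = 0 from rfl, qExpansion_zero]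
      simp
    rcases Nat.even_or_odd k with hev | hodd
    swap
    · exact hzero (ModularForm.levelOne_odd_weight_eq_zero (by exact_mod_cast hodd) f)
    by_cases hk0 : k = 0
    · subst hk0
      obtain ⟨c, hc⟩ :=
        ModularFormClass.levelOne_weight_zero_const (F := ModularForm 𝒮ℒ ((0 : ℕ) : ℤ)) f
      have hq : qExpansion 1 f = PowerSeries.C c := by
        rw [hc]
        have h1 : (Function.const ℍ c : ℍ → ℂ) = c • (1 : ℍ → ℂ) := by
          ext z; simp
        have han : AnalyticAt ℂ (cuspFunction 1 (1 : ℍ → ℂ)) 0 := by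
          have := ModularFormClass.analyticAt_cuspFunction_zero (1 : ModularForm 𝒮ℒ 0) one_pos
            one_mem_strictPeriods_SL
          rwa [ModularForm.one_coe_eq_one] at this
        rw [h1, qExpansion_smul han, qExpansion_one]
        ext n; simp [PowerSeries.coeff_C, PowerSeries.coeff_one]
      have hcR : c ∈ A := by
        have := hsA 0
        rw [hq] at this
        simpa using this
      refine ⟨fun i => if i = 0 then c else 0, ?_, ?_, ?_⟩
      · intro i
        dsimp only
        split_ifs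
        · exact hcR
        · exact A.zero_mem
      · intro i hi
        rcases hi with hi | hi
        · exact absurd hi (by decide)
        · omega
      · rw [hq]
        simp only [Nat.zero_div, zero_add, Finset.range_one, Finset.sum_singleton, if_true]
        rw [FA_S16_basis_eq]
        ext n
        simp [PowerSeries.coeff_C, PowerSeries.coeff_one, FA_S16_l1_a, FA_S16_l1_b]
    by_cases hk2 : k = 2
    · subst hk2
      exact hzero (rank_zero_iff_forall_zero.mp ModularForm.levelOne_weight_two_rank_zero f)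
    have hk4 : 4 ≤ k := by
      obtain ⟨r, hr⟩ := hev
      omega
    obtain ⟨a₀, h, ha₀, hhA, hfq⟩ := FA_S16_l1_step A k hev hk4 f hsA
    have hb0 : qExpansion 1 E₄ ^ FA_S16_l1_a k * qExpansion 1 E₆ ^ FA_S16_l1_b k =
        FA_S16_basis k 0 := by
      rw [FA_S16_basis_eq]; simp
    by_cases hk12 : k < 12
    · have hh0 : (h : ℍ → ℂ) = 0 :=
        ModularFormClass.levelOne_neg_weight_eq_zero (by omega) h
      refine ⟨fun i => if i = 0 then a₀ else 0, ?_, ?_, ?_⟩
      · intro i
        dsimp only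
        split_ifs
        · exact ha₀
        · exact A.zero_mem
      · intro i hi
        rcases hi with hi | hi
        · exact absurd hev (Nat.not_even_iff_odd.mpr hi)
        · have : i ≠ 0 := by
            rintro rfl
            omega
          simp [this]
      · have hr : k / 12 + 1 = 1 := by omega
        rw [hfq, hh0, qExpansion_zero, mul_zero, add_zero, hr, Finset.range_one,
          Finset.sum_singleton, hb0]
        simp
    · have hk12' : 12 ≤ k := by omega
      set h' : ModularForm 𝒮ℒ ((k - 12 : ℕ) : ℤ) :=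
        ModularForm.mcast (by push_cast [Nat.cast_sub hk12']; ring) h with hh'
      have hh'q : qExpansion 1 h' = qExpansion 1 h := by
        rw [hh', ModularForm.qExpansion_mcast]
      obtain ⟨n', hn'A, hn'0, hn'⟩ := ih (k - 12) (by omega) (qExpansion 1 h') ⟨h', rfl⟩
        (by intro n; rw [hh'q]; exact hhA n)
      rw [hh'q] at hn'
      refine ⟨fun i => if i = 0 then a₀ else n' (i - 1), ?_, ?_, ?_⟩
      · intro i
        dsimp only
        split_ifs
        · exact ha₀
        · exact hn'A _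
      · intro i hi
        rcases hi with hi | hi
        · exact absurd hev (Nat.not_even_iff_odd.mpr hi)
        · have hi0 : i ≠ 0 := by
            rintro rfl
            omega
          simp only [hi0, if_false]
          exact hn'0 _ (Or.inr (by omega))
      · have hr : k / 12 + 1 = ((k - 12) / 12 + 1) + 1 := by omega
        conv_rhs => rw [hr, Finset.sum_range_succ']
        rw [hfq, hn', Finset.mul_sum, hb0, add_comm]
        congr 1
        refine Finset.sum_congr rfl fun c _ => ?_
        rw [mul_smul_comm, FA_S16_basis_succ]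
        simp

/-- **AN-L1D**. -/
theorem FA_S16_anL1D : FA_S16_Target_AnL1D := by
  intro k s hs
  obtain ⟨n, -, hn0, hn⟩ := FA_S16_anL1Int ⊤ k s hs (fun _ => Subring.mem_top _)
  exact ⟨n, hn0, hn⟩

end FA_S16
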