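import Mathlib
import Fermat.Agent.S16.AlgUnitO
import Fermat.Agent.S16.AnL1Int

/-!
# S16, ALG-UNIT / ALG-T2: reduction of `q`-expansions modulo `𝔪`

* `FA_S16_AU_Red ℓ f g` : the power series `g` over `𝔽` is the reduction of the power series `f`
  over `ℂ` (whose coefficients are then in `𝒪`);
* `FA_S16_AU_DF`, `FA_S16_AU_E4F`, `FA_S16_AU_E6F` : the reductions of `Δ`, `E₄`, `E₆`;
* `FA_S16_AU_conjF`, `FA_S16_AU_basisF` : conjugates and the triangular basis over `𝔽`;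
* `FA_S16_AU_bridge` : AN-SYM + the `q`-expansion principle at level one, reduced to `𝔽`.
-/

set_option autoImplicit false

noncomputable section

namespace FA_S16

open ModularForm ModularFormClass UpperHalfPlane CongruenceSubgroup MatrixGroups EisensteinSeries

local notation "Δ" => ModularForm.discriminant

variable (ℓ : ℕ) [hℓ : Fact ℓ.Prime]

/-- `𝒪⟦X⟧ → ℂ⟦X⟧`. -/
def FA_S16_AU_iota : PowerSeries (FA_S16_AU_O ℓ) →+* PowerSeries ℂ :=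
  PowerSeries.map (FA_S16_AU_O ℓ).subtype

/-- `𝒪⟦X⟧ → 𝔽⟦X⟧`. -/
def FA_S16_AU_r : PowerSeries (FA_S16_AU_O ℓ) →+* PowerSeries (FA_S16_AU_F ℓ) :=
  PowerSeries.map (FA_S16_AU_rho ℓ)

theorem FA_S16_AU_iota_inj : Function.Injective (FA_S16_AU_iota ℓ) := by
  intro f g h
  ext n
  have := congrArg (PowerSeries.coeff n) h
  simp only [FA_S16_AU_iota, PowerSeries.coeff_map] at this
  exact this

/-- `g` is the reduction of `f`. -/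
def FA_S16_AU_Red (f : PowerSeries ℂ) (g : PowerSeries (FA_S16_AU_F ℓ)) : Prop :=
  ∃ h : PowerSeries (FA_S16_AU_O ℓ), FA_S16_AU_iota ℓ h = f ∧ FA_S16_AU_r ℓ h = g

variable {ℓ}

theorem FA_S16_AU_Red.unique {f : PowerSeries ℂ} {g g' : PowerSeries (FA_S16_AU_F ℓ)}
    (h : FA_S16_AU_Red ℓ f g) (h' : FA_S16_AU_Red ℓ f g') : g = g' := by
  obtain ⟨x, hx, rfl⟩ := h
  obtain ⟨y, hy, rfl⟩ := h'
  rw [FA_S16_AU_iota_inj ℓ (hx.trans hy.symm)]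

theorem FA_S16_AU_Red.coeff_mem {f : PowerSeries ℂ} {g : PowerSeries (FA_S16_AU_F ℓ)}
    (h : FA_S16_AU_Red ℓ f g) (n : ℕ) : PowerSeries.coeff n f ∈ FA_S16_AU_O ℓ := by
  obtain ⟨x, rfl, -⟩ := h
  simp [FA_S16_AU_iota, PowerSeries.coeff_map]

theorem FA_S16_AU_Red.coeff {f : PowerSeries ℂ} {g : PowerSeries (FA_S16_AU_F ℓ)}
    (h : FA_S16_AU_Red ℓ f g) (n : ℕ) (hn : PowerSeries.coeff n f ∈ FA_S16_AU_O ℓ) :
    PowerSeries.coeff n g = FA_S16_AU_rho ℓ ⟨PowerSeries.coeff n f, hn⟩ := by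
  obtain ⟨x, rfl, rfl⟩ := h
  simp only [FA_S16_AU_r, PowerSeries.coeff_map]
  congr 1

theorem FA_S16_AU_Red.zero : FA_S16_AU_Red ℓ 0 0 := ⟨0, map_zero _, map_zero _⟩

theorem FA_S16_AU_Red.one : FA_S16_AU_Red ℓ 1 1 := ⟨1, map_one _, map_one _⟩

theorem FA_S16_AU_Red.add {f f' : PowerSeries ℂ} {g g' : PowerSeries (FA_S16_AU_F ℓ)}
    (h : FA_S16_AU_Red ℓ f g) (h' : FA_S16_AU_Red ℓ f' g') : FA_S16_AU_Red ℓ (f + f') (g + g') := by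
  obtain ⟨x, rfl, rfl⟩ := h
  obtain ⟨y, rfl, rfl⟩ := h'
  exact ⟨x + y, map_add _ _ _, map_add _ _ _⟩

theorem FA_S16_AU_Red.mul {f f' : PowerSeries ℂ} {g g' : PowerSeries (FA_S16_AU_F ℓ)}
    (h : FA_S16_AU_Red ℓ f g) (h' : FA_S16_AU_Red ℓ f' g') : FA_S16_AU_Red ℓ (f * f') (g * g') := by
  obtain ⟨x, rfl, rfl⟩ := h
  obtain ⟨y, rfl, rfl⟩ := h'
  exact ⟨x * y, map_mul _ _ _, map_mul _ _ _⟩

theorem FA_S16_AU_Red.neg {f : PowerSeries ℂ} {g : PowerSeries (FA_S16_AU_F ℓ)}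
    (h : FA_S16_AU_Red ℓ f g) : FA_S16_AU_Red ℓ (-f) (-g) := by
  obtain ⟨x, rfl, rfl⟩ := h
  exact ⟨-x, map_neg _ _, map_neg _ _⟩

theorem FA_S16_AU_Red.sub {f f' : PowerSeries ℂ} {g g' : PowerSeries (FA_S16_AU_F ℓ)}
    (h : FA_S16_AU_Red ℓ f g) (h' : FA_S16_AU_Red ℓ f' g') : FA_S16_AU_Red ℓ (f - f') (g - g') := by
  obtain ⟨x, rfl, rfl⟩ := h
  obtain ⟨y, rfl, rfl⟩ := h'
  exact ⟨x - y, map_sub _ _ _, map_sub _ _ _⟩

theorem FA_S16_AU_Red.pow {f : PowerSeries ℂ} {g : PowerSeries (FA_S16_AU_F ℓ)}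
    (h : FA_S16_AU_Red ℓ f g) (n : ℕ) : FA_S16_AU_Red ℓ (f ^ n) (g ^ n) := by
  obtain ⟨x, rfl, rfl⟩ := h
  exact ⟨x ^ n, map_pow _ _ _, map_pow _ _ _⟩

theorem FA_S16_AU_Red.sum {ι : Type*} (s : Finset ι) {f : ι → PowerSeries ℂ}
    {g : ι → PowerSeries (FA_S16_AU_F ℓ)} (h : ∀ i ∈ s, FA_S16_AU_Red ℓ (f i) (g i)) :
    FA_S16_AU_Red ℓ (∑ i ∈ s, f i) (∑ i ∈ s, g i) := by
  classical
  induction s using Finset.induction_on with
  | empty => simpa using FA_S16_AU_Red.zero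
  | insert a s ha ih =>
    rw [Finset.sum_insert ha, Finset.sum_insert ha]
    exact (h a (Finset.mem_insert_self _ _)).add
      (ih fun i hi => h i (Finset.mem_insert_of_mem hi))

theorem FA_S16_AU_Red.prod {ι : Type*} (s : Finset ι) {f : ι → PowerSeries ℂ}
    {g : ι → PowerSeries (FA_S16_AU_F ℓ)} (h : ∀ i ∈ s, FA_S16_AU_Red ℓ (f i) (g i)) :
    FA_S16_AU_Red ℓ (∏ i ∈ s, f i) (∏ i ∈ s, g i) := by
  classical
  induction s using Finset.induction_on with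
  | empty => simpa using FA_S16_AU_Red.one
  | insert a s ha ih =>
    rw [Finset.prod_insert ha, Finset.prod_insert ha]
    exact (h a (Finset.mem_insert_self _ _)).mul
      (ih fun i hi => h i (Finset.mem_insert_of_mem hi))

theorem FA_S16_AU_Red.expand {f : PowerSeries ℂ} {g : PowerSeries (FA_S16_AU_F ℓ)}
    (h : FA_S16_AU_Red ℓ f g) (p : ℕ) (hp : p ≠ 0) :
    FA_S16_AU_Red ℓ (PowerSeries.expand p hp f) (PowerSeries.expand p hp g) := by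
  obtain ⟨x, rfl, rfl⟩ := h
  exact ⟨PowerSeries.expand p hp x, by simp [FA_S16_AU_iota], by simp [FA_S16_AU_r]⟩

theorem FA_S16_AU_Red.rescale {f : PowerSeries ℂ} {g : PowerSeries (FA_S16_AU_F ℓ)}
    (h : FA_S16_AU_Red ℓ f g) (a : FA_S16_AU_O ℓ) :
    FA_S16_AU_Red ℓ (PowerSeries.rescale (a : ℂ) f)
      (PowerSeries.rescale (FA_S16_AU_rho ℓ a) g) := by
  obtain ⟨x, rfl, rfl⟩ := h
  refine ⟨PowerSeries.rescale a x, ?_, ?_⟩
  · rw [FA_S16_AU_iota, ← PowerSeries.rescale_map]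
    rfl
  · rw [FA_S16_AU_r, ← PowerSeries.rescale_map]

theorem FA_S16_AU_Red.smul {f : PowerSeries ℂ} {g : PowerSeries (FA_S16_AU_F ℓ)}
    (h : FA_S16_AU_Red ℓ f g) (a : FA_S16_AU_O ℓ) :
    FA_S16_AU_Red ℓ ((a : ℂ) • f) (FA_S16_AU_rho ℓ a • g) := by
  obtain ⟨x, rfl, rfl⟩ := h
  refine ⟨a • x, ?_, ?_⟩
  · ext n
    simp [FA_S16_AU_iota, PowerSeries.coeff_map]
  · ext n
    simp [FA_S16_AU_r, PowerSeries.coeff_map]

/-- A series with coefficients in `𝒪` has a reduction. -/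
theorem FA_S16_AU_Red.exists (f : PowerSeries ℂ) (hf : ∀ n, PowerSeries.coeff n f ∈ FA_S16_AU_O ℓ) :
    ∃ g, FA_S16_AU_Red ℓ f g := by
  refine ⟨_, PowerSeries.mk fun n => (⟨PowerSeries.coeff n f, hf n⟩ : FA_S16_AU_O ℓ), ?_, rfl⟩
  ext n
  simp [FA_S16_AU_iota, PowerSeries.coeff_map]

/-- `ℓ` times an integral series reduces to `0`. -/
theorem FA_S16_AU_Red.ell_smul (f : PowerSeries ℂ)
    (hf : ∀ n, PowerSeries.coeff n f ∈ FA_S16_AU_O ℓ) : FA_S16_AU_Red ℓ ((ℓ : ℂ) • f) 0 := by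
  obtain ⟨g, hg⟩ := FA_S16_AU_Red.exists f hf
  have := hg.smul (FA_S16_AU_ellO ℓ)
  rw [FA_S16_AU_rho_ell, zero_smul] at this
  exact this

/-- A series with `ℓ`-integral rational coefficients and zero reduction is divisible by `ℓ`. -/
theorem FA_S16_AU_Red.isInt_div {f : PowerSeries ℂ} (h : FA_S16_AU_Red ℓ f 0)
    (hf : ∀ n, FA_S16_IsInt ℓ (PowerSeries.coeff n f)) (n : ℕ) :
    ∃ y : ℂ, FA_S16_IsInt ℓ y ∧ PowerSeries.coeff n f = (ℓ : ℂ) * y := by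
  refine FA_S16_AU_isInt_div ℓ _ (hf n) ?_
  rw [← h.coeff n]
  simp

variable (ℓ)

/-! ### The reductions of `Δ`, `E₄`, `E₆` -/

/-- The reduction of `Δ`. -/
def FA_S16_AU_DF : PowerSeries (FA_S16_AU_F ℓ) :=
  FA_S16_AU_r ℓ (PowerSeries.mk fun n =>
    (⟨PowerSeries.coeff n (qExpansion 1 Δ), FA_S16_l1_disc_mem _ n⟩ : FA_S16_AU_O ℓ))

/-- The reduction of `E₄`. -/
def FA_S16_AU_E4F : PowerSeries (FA_S16_AU_F ℓ) :=
  FA_S16_AU_r ℓ (PowerSeries.mk fun n =>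
    (⟨PowerSeries.coeff n (qExpansion 1 E₄), FA_S16_l1_E4_mem _ n⟩ : FA_S16_AU_O ℓ))

/-- The reduction of `E₆`. -/
def FA_S16_AU_E6F : PowerSeries (FA_S16_AU_F ℓ) :=
  FA_S16_AU_r ℓ (PowerSeries.mk fun n =>
    (⟨PowerSeries.coeff n (qExpansion 1 E₆), FA_S16_l1_E6_mem _ n⟩ : FA_S16_AU_O ℓ))

theorem FA_S16_AU_red_D : FA_S16_AU_Red ℓ (qExpansion 1 Δ) (FA_S16_AU_DF ℓ) :=
  ⟨_, by ext n; simp [FA_S16_AU_iota, PowerSeries.coeff_map], rfl⟩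

theorem FA_S16_AU_red_E4 : FA_S16_AU_Red ℓ (qExpansion 1 E₄) (FA_S16_AU_E4F ℓ) :=
  ⟨_, by ext n; simp [FA_S16_AU_iota, PowerSeries.coeff_map], rfl⟩

theorem FA_S16_AU_red_E6 : FA_S16_AU_Red ℓ (qExpansion 1 E₆) (FA_S16_AU_E6F ℓ) :=
  ⟨_, by ext n; simp [FA_S16_AU_iota, PowerSeries.coeff_map], rfl⟩

theorem FA_S16_AU_DF_zero : PowerSeries.coeff 0 (FA_S16_AU_DF ℓ) = 0 := by
  rw [(FA_S16_AU_red_D ℓ).coeff 0 (FA_S16_l1_disc_mem _ 0)]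
  have : (⟨PowerSeries.coeff 0 (qExpansion 1 Δ), FA_S16_l1_disc_mem _ 0⟩ : FA_S16_AU_O ℓ) = 0 :=
    Subtype.ext FA_S16_anQ_disc_zero
  rw [this, map_zero]

theorem FA_S16_AU_DF_one : PowerSeries.coeff 1 (FA_S16_AU_DF ℓ) = 1 := by
  rw [(FA_S16_AU_red_D ℓ).coeff 1 (FA_S16_l1_disc_mem _ 1)]
  have : (⟨PowerSeries.coeff 1 (qExpansion 1 Δ), FA_S16_l1_disc_mem _ 1⟩ : FA_S16_AU_O ℓ) = 1 :=
    Subtype.ext FA_S16_anQ_disc_one
  rw [this, map_one]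

theorem FA_S16_AU_E4F_zero : PowerSeries.coeff 0 (FA_S16_AU_E4F ℓ) = 1 := by
  rw [(FA_S16_AU_red_E4 ℓ).coeff 0 (FA_S16_l1_E4_mem _ 0)]
  have : (⟨PowerSeries.coeff 0 (qExpansion 1 E₄), FA_S16_l1_E4_mem _ 0⟩ : FA_S16_AU_O ℓ) = 1 :=
    Subtype.ext FA_S16_anQ_E4_zero
  rw [this, map_one]

theorem FA_S16_AU_E6F_zero : PowerSeries.coeff 0 (FA_S16_AU_E6F ℓ) = 1 := by
  rw [(FA_S16_AU_red_E6 ℓ).coeff 0 (FA_S16_l1_E6_mem _ 0)]
  have : (⟨PowerSeries.coeff 0 (qExpansion 1 E₆), FA_S16_l1_E6_mem _ 0⟩ : FA_S16_AU_O ℓ) = 1 :=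
    Subtype.ext FA_S16_anQ_E6_zero
  rw [this, map_one]

/-- The triangular basis over `𝔽`. -/
def FA_S16_AU_basisF (k c : ℕ) : PowerSeries (FA_S16_AU_F ℓ) :=
  FA_S16_AU_DF ℓ ^ c * FA_S16_AU_E4F ℓ ^ ((k - 12 * c - 6 * (((k - 12 * c) / 2) % 2)) / 4) *
    FA_S16_AU_E6F ℓ ^ (((k - 12 * c) / 2) % 2)

theorem FA_S16_AU_red_basis (k c : ℕ) :
    FA_S16_AU_Red ℓ (FA_S16_basis k c) (FA_S16_AU_basisF ℓ k c) :=
  (((FA_S16_AU_red_D ℓ).pow _).mul ((FA_S16_AU_red_E4 ℓ).pow _)).mul ((FA_S16_AU_red_E6 ℓ).pow _)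

theorem FA_S16_AU_basisF_twelve (N c : ℕ) (h : c ≤ N) :
    FA_S16_AU_basisF ℓ (12 * N) c = FA_S16_AU_DF ℓ ^ c * FA_S16_AU_E4F ℓ ^ (3 * (N - c)) := by
  unfold FA_S16_AU_basisF
  have h1 : ((12 * N - 12 * c) / 2) % 2 = 0 := by omega
  have h2 : (12 * N - 12 * c - 6 * (((12 * N - 12 * c) / 2) % 2)) / 4 = 3 * (N - c) := by omega
  rw [h2, h1, pow_zero, mul_one]

/-! ### Conjugates over `𝔽` -/

/-- The conjugates over `𝔽`. -/
def FA_S16_AU_conjF (p : ℕ) [NeZero p] (a b : PowerSeries (FA_S16_AU_F ℓ)) :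
    Option (Fin p) → PowerSeries (FA_S16_AU_F ℓ)
  | none => PowerSeries.expand p (NeZero.ne p) a
  | some j => PowerSeries.rescale (FA_S16_AU_zetaF ℓ p (NeZero.ne p) ^ (j : ℕ)) b

/-- The characteristic polynomial over `𝔽`. -/
def FA_S16_AU_charpolyF (p : ℕ) [NeZero p] (a b : PowerSeries (FA_S16_AU_F ℓ)) :
    Polynomial (PowerSeries (FA_S16_AU_F ℓ)) :=
  ∏ o : Option (Fin p), (Polynomial.X - Polynomial.C (FA_S16_AU_conjF ℓ p a b o))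

variable {ℓ}

theorem FA_S16_AU_red_conj (p : ℕ) [NeZero p] {a b : PowerSeries ℂ}
    {a' b' : PowerSeries (FA_S16_AU_F ℓ)} (ha : FA_S16_AU_Red ℓ a a') (hb : FA_S16_AU_Red ℓ b b')
    (o : Option (Fin p)) :
    FA_S16_AU_Red ℓ (FA_S16_conj p a b o) (FA_S16_AU_conjF ℓ p a' b' o) := by
  cases o with
  | none => exact ha.expand p (NeZero.ne p)
  | some j =>
    have := hb.rescale (FA_S16_AU_zetaO ℓ p (NeZero.ne p) ^ (j : ℕ))
    rw [map_pow] at this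
    simpa [FA_S16_conj, FA_S16_AU_conjF, FA_S16_AU_zetaO, FA_S16_AU_zetaF] using this

theorem FA_S16_AU_red_charpoly (p : ℕ) [NeZero p] {a b : PowerSeries ℂ}
    {a' b' : PowerSeries (FA_S16_AU_F ℓ)} (ha : FA_S16_AU_Red ℓ a a') (hb : FA_S16_AU_Red ℓ b b')
    (n : ℕ) :
    FA_S16_AU_Red ℓ ((FA_S16_charpoly p a b).coeff n) ((FA_S16_AU_charpolyF ℓ p a' b').coeff n) := by
  choose x hx1 hx2 using fun o => FA_S16_AU_red_conj p ha hb o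
  refine ⟨(∏ o : Option (Fin p), (Polynomial.X - Polynomial.C (x o))).coeff n, ?_, ?_⟩
  · rw [← Polynomial.coeff_map, Polynomial.map_prod]
    simp only [Polynomial.map_sub, Polynomial.map_X, Polynomial.map_C, hx1]
    rfl
  · rw [← Polynomial.coeff_map, Polynomial.map_prod]
    simp only [Polynomial.map_sub, Polynomial.map_X, Polynomial.map_C, hx2]
    rfl

/-- **Bridge**: AN-SYM and the `q`-expansion principle at level one, reduced to `𝔽`. -/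
theorem FA_S16_AU_bridge (hSym : FA_S16_Target_AnSym) (p : ℕ) [Fact p.Prime] [NeZero p] (k : ℕ)
    {a b : PowerSeries ℂ} (hab : FA_S16_IsPair p k a b)
    {a' b' : PowerSeries (FA_S16_AU_F ℓ)} (ha : FA_S16_AU_Red ℓ a a') (hb : FA_S16_AU_Red ℓ b b')
    (i : ℕ) (hi : i ≤ p + 1) :
    ∃ n : ℕ → FA_S16_AU_F ℓ, (FA_S16_AU_charpolyF ℓ p a' b').coeff (p + 1 - i) =
      PowerSeries.expand p (NeZero.ne p)
        (∑ c ∈ Finset.range (k * i / 12 + 1), n c • FA_S16_AU_basisF ℓ (k * i) c) := by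
  obtain ⟨s, hs, hcoef⟩ := hSym p k a b hab i hi
  have hred := FA_S16_AU_red_charpoly p ha hb (p + 1 - i)
  rw [hcoef] at hred
  have hsO : ∀ n, PowerSeries.coeff n s ∈ FA_S16_AU_O ℓ := by
    intro n
    have := hred.coeff_mem (p * n)
    rwa [PowerSeries.coeff_expand_mul] at this
  obtain ⟨n, hn, -, hsum⟩ := FA_S16_anL1Int (FA_S16_AU_O ℓ) (k * i) s hs hsO
  refine ⟨fun c => FA_S16_AU_rho ℓ ⟨n c, hn c⟩, ?_⟩
  refine hred.unique ?_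
  rw [hsum]
  refine FA_S16_AU_Red.expand ?_ p (NeZero.ne p)
  refine FA_S16_AU_Red.sum _ fun c _ => ?_
  exact (FA_S16_AU_red_basis ℓ (k * i) c).smul ⟨n c, hn c⟩

end FA_S16
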