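import Mathlib
import Fermat.Agent.S16.UInterface

/-!
# S16, cases E3a and E2a: the common core (lead)

`H ∈ M₂(Γ₀(p))`, `a₀ = 1`, `H ≡ 1 mod ℓ^e`.  Put `F = (H³ - E₆)/ℓ²`.  If `ℓ² ∣ 3ℓ^e` and
`ℓ² ∣ 504`, the expansion of `F` at `∞` is `ℓ`-integral; the expansion of `F ∣ S` is
`(b_H³ - E₆(X^p))/ℓ²` with `b_H = - p⁻¹ U_p a_H` (AN-T1), which is `ℓ`-integral up to `ℓ²`, so by
ALG-T2 it is `ℓ`-integral; its constant term is `-(1 + p³)/(ℓ² p³)`.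
-/

set_option autoImplicit false

noncomputable section

namespace FA_S16

open ModularForm ModularFormClass UpperHalfPlane CongruenceSubgroup MatrixGroups EisensteinSeries
open scoped ArithmeticFunction.sigma

/-! ### `ℓ`-integral rationals -/

theorem FA_S16_E3a_isInt_intCast {ℓ : ℕ} (hℓ : ℓ.Prime) (m : ℤ) : FA_S16_IsInt ℓ (m : ℂ) :=
  ⟨m, 1, fun h => hℓ.one_lt.ne' (Nat.dvd_one.mp h), by simp⟩

theorem FA_S16_E3a_isInt_natCast {ℓ : ℕ} (hℓ : ℓ.Prime) (m : ℕ) : FA_S16_IsInt ℓ (m : ℂ) := by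
  simpa using FA_S16_E3a_isInt_intCast hℓ (m : ℤ)

theorem FA_S16_E3a_den_ne {ℓ d : ℕ} (hd : ¬ ℓ ∣ d) : (d : ℂ) ≠ 0 := by
  intro h0
  apply hd
  have : d = 0 := by exact_mod_cast h0
  rw [this]
  exact dvd_zero _

theorem FA_S16_E3a_isInt_add {ℓ : ℕ} (hℓ : ℓ.Prime) {x y : ℂ} (hx : FA_S16_IsInt ℓ x)
    (hy : FA_S16_IsInt ℓ y) : FA_S16_IsInt ℓ (x + y) := by
  obtain ⟨m, d, hd, rfl⟩ := hx
  obtain ⟨m', d', hd', rfl⟩ := hy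
  refine ⟨m * d' + m' * d, d * d', ?_, ?_⟩
  · intro h
    rcases (Nat.Prime.dvd_mul hℓ).mp h with h | h
    exacts [hd h, hd' h]
  · have hd0 := FA_S16_E3a_den_ne hd
    have hd0' := FA_S16_E3a_den_ne hd'
    push_cast
    field_simp

theorem FA_S16_E3a_isInt_mul {ℓ : ℕ} (hℓ : ℓ.Prime) {x y : ℂ} (hx : FA_S16_IsInt ℓ x)
    (hy : FA_S16_IsInt ℓ y) : FA_S16_IsInt ℓ (x * y) := by
  obtain ⟨m, d, hd, rfl⟩ := hx
  obtain ⟨m', d', hd', rfl⟩ := hy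
  refine ⟨m * m', d * d', ?_, ?_⟩
  · intro h
    rcases (Nat.Prime.dvd_mul hℓ).mp h with h | h
    exacts [hd h, hd' h]
  · have hd0 := FA_S16_E3a_den_ne hd
    have hd0' := FA_S16_E3a_den_ne hd'
    push_cast
    field_simp

theorem FA_S16_E3a_isInt_neg {ℓ : ℕ} {x : ℂ} (hx : FA_S16_IsInt ℓ x) :
    FA_S16_IsInt ℓ (-x) := by
  obtain ⟨m, d, hd, rfl⟩ := hx
  exact ⟨-m, d, hd, by push_cast; ring⟩

/-- The subring of `ℓ`-integral rationals in `ℂ`. -/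
def FA_S16_E3a_intRing (ℓ : ℕ) (hℓ : ℓ.Prime) : Subring ℂ where
  carrier := {x | FA_S16_IsInt ℓ x}
  mul_mem' := fun hx hy => FA_S16_E3a_isInt_mul hℓ hx hy
  one_mem' := by simpa using FA_S16_E3a_isInt_intCast hℓ 1
  add_mem' := fun hx hy => FA_S16_E3a_isInt_add hℓ hx hy
  zero_mem' := by simpa using FA_S16_E3a_isInt_intCast hℓ 0
  neg_mem' := fun hx => FA_S16_E3a_isInt_neg hx

theorem FA_S16_E3a_mem_intRing {ℓ : ℕ} (hℓ : ℓ.Prime) (x : ℂ) :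
    x ∈ FA_S16_E3a_intRing ℓ hℓ ↔ FA_S16_IsInt ℓ x := Iff.rfl

/-- `1/p` is `ℓ`-integral for `p ≠ ℓ` prime. -/
theorem FA_S16_E3a_isInt_inv {ℓ p : ℕ} (hℓ : ℓ.Prime) (hp : p.Prime) (hℓp : ℓ ≠ p) :
    FA_S16_IsInt ℓ ((p : ℂ)⁻¹) :=
  ⟨1, p, fun h => hℓp ((Nat.prime_dvd_prime_iff_eq hℓ hp).mp h), by simp⟩

/-! ### Power series with `ℓ`-integral coefficients -/

/-- All coefficients are `ℓ`-integral. -/
def FA_S16_E3a_IntPS (ℓ : ℕ) (s : PowerSeries ℂ) : Prop :=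
  ∀ n, FA_S16_IsInt ℓ (PowerSeries.coeff n s)

theorem FA_S16_E3a_intPS_add {ℓ : ℕ} (hℓ : ℓ.Prime) {s t : PowerSeries ℂ}
    (hs : FA_S16_E3a_IntPS ℓ s) (ht : FA_S16_E3a_IntPS ℓ t) : FA_S16_E3a_IntPS ℓ (s + t) := by
  intro n
  rw [map_add]
  exact FA_S16_E3a_isInt_add hℓ (hs n) (ht n)

theorem FA_S16_E3a_intPS_neg {ℓ : ℕ} {s : PowerSeries ℂ}
    (hs : FA_S16_E3a_IntPS ℓ s) : FA_S16_E3a_IntPS ℓ (-s) := by
  intro n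
  rw [map_neg]
  exact FA_S16_E3a_isInt_neg (hs n)

theorem FA_S16_E3a_intPS_sub {ℓ : ℕ} (hℓ : ℓ.Prime) {s t : PowerSeries ℂ}
    (hs : FA_S16_E3a_IntPS ℓ s) (ht : FA_S16_E3a_IntPS ℓ t) : FA_S16_E3a_IntPS ℓ (s - t) := by
  rw [sub_eq_add_neg]
  exact FA_S16_E3a_intPS_add hℓ hs (FA_S16_E3a_intPS_neg ht)

theorem FA_S16_E3a_intPS_mul {ℓ : ℕ} (hℓ : ℓ.Prime) {s t : PowerSeries ℂ}
    (hs : FA_S16_E3a_IntPS ℓ s) (ht : FA_S16_E3a_IntPS ℓ t) : FA_S16_E3a_IntPS ℓ (s * t) := by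
  intro n
  rw [PowerSeries.coeff_mul]
  exact (FA_S16_E3a_intRing ℓ hℓ).sum_mem
    (fun x _ => (FA_S16_E3a_intRing ℓ hℓ).mul_mem (hs x.1) (ht x.2))

theorem FA_S16_E3a_intPS_one {ℓ : ℕ} (hℓ : ℓ.Prime) : FA_S16_E3a_IntPS ℓ (1 : PowerSeries ℂ) := by
  intro n
  rw [PowerSeries.coeff_one]
  split_ifs
  · simpa using FA_S16_E3a_isInt_intCast hℓ 1
  · simpa using FA_S16_E3a_isInt_intCast hℓ 0

theorem FA_S16_E3a_intPS_pow {ℓ : ℕ} (hℓ : ℓ.Prime) {s : PowerSeries ℂ}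
    (hs : FA_S16_E3a_IntPS ℓ s) (k : ℕ) : FA_S16_E3a_IntPS ℓ (s ^ k) := by
  induction k with
  | zero => simpa using FA_S16_E3a_intPS_one hℓ
  | succ k ih =>
    rw [pow_succ]
    exact FA_S16_E3a_intPS_mul hℓ ih hs

theorem FA_S16_E3a_intPS_smul {ℓ : ℕ} (hℓ : ℓ.Prime) {c : ℂ} (hc : FA_S16_IsInt ℓ c)
    {s : PowerSeries ℂ} (hs : FA_S16_E3a_IntPS ℓ s) : FA_S16_E3a_IntPS ℓ (c • s) := by
  intro n
  rw [PowerSeries.coeff_smul]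
  exact FA_S16_E3a_isInt_mul hℓ hc (hs n)

theorem FA_S16_E3a_intPS_expand {ℓ : ℕ} (hℓ : ℓ.Prime) (p : ℕ) (hp : p ≠ 0)
    {s : PowerSeries ℂ} (hs : FA_S16_E3a_IntPS ℓ s) :
    FA_S16_E3a_IntPS ℓ (PowerSeries.expand p hp s) := by
  intro n
  rw [PowerSeries.coeff_expand]
  split_ifs
  · exact hs _
  · simpa using FA_S16_E3a_isInt_intCast hℓ 0

end FA_S16
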