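import Mathlib
import Fermat.Agent.S16.AlgT2Interface
import Fermat.Agent.S16.AlgUnitRed
import Fermat.Agent.S16.E3aCore

/-!
# S16, leaf ALG-T2, second half (lead): `Step12 → FA_S16_Target_AlgT2`

* (C) induction on the exponent `N` of the denominator, given the one-step statement;
* (D) the one-step statement in weight `k` from weight `12 k` via the pair `(a^12, b^12)` and
  reduction to the domain `𝔽⟦X⟧`.
-/

set_option autoImplicit false

noncomputable section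

namespace FA_S16

/-- powers of a pair -/
theorem FA_S16_T2g_pow (hRing : FA_S16_Target_AnRing) (p : ℕ) [Fact p.Prime] [NeZero p] (k : ℕ)
    (a b : PowerSeries ℂ) (h : FA_S16_IsPair p (k : ℤ) a b) (n : ℕ) :
    FA_S16_IsPair p (((n + 1) * k : ℕ) : ℤ) (a ^ (n + 1)) (b ^ (n + 1)) := by
  induction n with
  | zero => simpa using h
  | succ n ih =>
    have h1 := (hRing p).2.1 _ _ _ _ _ _ ih h
    rw [pow_succ a (n + 1), pow_succ b (n + 1)]
    have e : ((((n + 1) * k : ℕ) : ℤ) + (k : ℤ)) = (((n + 1 + 1) * k : ℕ) : ℤ) := by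
      push_cast
      ring
    rw [e] at h1
    exact h1

/-- (C): induction on `N`. -/
theorem FA_S16_T2g_induct (hRing : FA_S16_Target_AnRing) (p ℓ : ℕ) [Fact p.Prime] [NeZero p]
    (hℓ : ℓ.Prime) (K : ℤ)
    (hstep : ∀ a b : PowerSeries ℂ, FA_S16_IsPair p K a b →
      (∀ n, FA_S16_IsInt ℓ (PowerSeries.coeff n a)) →
      (∀ n, FA_S16_IsInt ℓ ((ℓ : ℂ) * PowerSeries.coeff n b)) →
      ∀ n, FA_S16_IsInt ℓ (PowerSeries.coeff n b)) :
    ∀ (N : ℕ) (a b : PowerSeries ℂ), FA_S16_IsPair p K a b →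
      (∀ n, FA_S16_IsInt ℓ (PowerSeries.coeff n a)) →
      (∀ n, FA_S16_IsInt ℓ ((ℓ : ℂ) ^ N * PowerSeries.coeff n b)) →
      ∀ n, FA_S16_IsInt ℓ (PowerSeries.coeff n b) := by
  intro N
  induction N with
  | zero =>
    intro a b _ _ hb n
    simpa using hb n
  | succ N ih =>
    intro a b hab ha hb
    have hpair := (hRing p).2.2.1 K ((ℓ : ℂ) ^ N) a b hab
    have h1 : ∀ n, FA_S16_IsInt ℓ (PowerSeries.coeff n (((ℓ : ℂ) ^ N) • a)) :=
      FA_S16_E3a_intPS_smul hℓ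
        ((FA_S16_E3a_intRing ℓ hℓ).pow_mem (FA_S16_E3a_isInt_natCast hℓ ℓ) N) ha
    have h2 : ∀ n, FA_S16_IsInt ℓ ((ℓ : ℂ) * PowerSeries.coeff n (((ℓ : ℂ) ^ N) • b)) := by
      intro n
      rw [PowerSeries.coeff_smul, smul_eq_mul, ← mul_assoc, ← pow_succ']
      exact hb n
    have h3 := hstep _ _ hpair h1 h2
    refine ih a b hab ha ?_
    intro n
    have := h3 n
    rwa [PowerSeries.coeff_smul, smul_eq_mul] at this

/-- **ALG-T2 from the step in weight `12 M`.** -/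
theorem FA_S16_T2_ofStep12 : FA_S16_T2_Target_OfStep12 := by
  intro hStep hAn _ p ℓ _ hℓ hℓp k a b hab ha hb
  have : Fact ℓ.Prime := ⟨hℓ⟩
  have : NeZero p := ⟨(Fact.out : p.Prime).ne_zero⟩
  have hRing : FA_S16_Target_AnRing := hAn.2.2.1
  have hℓ0 : (ℓ : ℂ) ≠ 0 := by exact_mod_cast hℓ.ne_zero
  -- (C) in weight `12 M`
  have hC : ∀ (M N : ℕ) (a b : PowerSeries ℂ), FA_S16_IsPair p ((12 * M : ℕ) : ℤ) a b →
      (∀ n, FA_S16_IsInt ℓ (PowerSeries.coeff n a)) →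
      (∀ n, FA_S16_IsInt ℓ ((ℓ : ℂ) ^ N * PowerSeries.coeff n b)) →
      ∀ n, FA_S16_IsInt ℓ (PowerSeries.coeff n b) := fun M =>
    FA_S16_T2g_induct hRing p ℓ hℓ _ (hStep hAn p ℓ hℓ hℓp M)
  -- (D) the step in weight `k`
  have hD : ∀ a b : PowerSeries ℂ, FA_S16_IsPair p (k : ℤ) a b →
      (∀ n, FA_S16_IsInt ℓ (PowerSeries.coeff n a)) →
      (∀ n, FA_S16_IsInt ℓ ((ℓ : ℂ) * PowerSeries.coeff n b)) →
      ∀ n, FA_S16_IsInt ℓ (PowerSeries.coeff n b) := by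
    intro a b hab ha hb
    have hβ : FA_S16_E3a_IntPS ℓ ((ℓ : ℂ) • b) := by
      intro n
      rw [PowerSeries.coeff_smul, smul_eq_mul]
      exact hb n
    have hpair12 := FA_S16_T2g_pow hRing p k a b hab 11
    have e12 : (((11 + 1) * k : ℕ) : ℤ) = ((12 * k : ℕ) : ℤ) := by norm_num
    rw [e12] at hpair12
    have hb12 : ∀ n, FA_S16_IsInt ℓ (PowerSeries.coeff n (b ^ (11 + 1))) := by
      refine hC k 12 _ _ hpair12 (FA_S16_E3a_intPS_pow hℓ ha 12) ?_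
      intro n
      have := FA_S16_E3a_intPS_pow hℓ hβ 12 n
      rwa [smul_pow, PowerSeries.coeff_smul, smul_eq_mul] at this
    -- reduction
    obtain ⟨βbar, hred⟩ := FA_S16_AU_Red.exists (ℓ := ℓ) ((ℓ : ℂ) • b)
      (fun n => FA_S16_AU_isInt_mem ℓ (hβ n))
    have hred12 := hred.pow 12
    have hzero : FA_S16_AU_Red ℓ (((ℓ : ℂ) • b) ^ 12) 0 := by
      have h1 := FA_S16_AU_Red.ell_smul (ℓ := ℓ) (((ℓ : ℂ) ^ 11) • b ^ 12)
        (fun n => FA_S16_AU_isInt_mem ℓ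
          (FA_S16_E3a_intPS_smul hℓ
            ((FA_S16_E3a_intRing ℓ hℓ).pow_mem (FA_S16_E3a_isInt_natCast hℓ ℓ) 11) hb12 n))
      have e : ((ℓ : ℂ) • b) ^ 12 = (ℓ : ℂ) • (((ℓ : ℂ) ^ 11) • b ^ 12) := by
        rw [smul_pow, smul_smul, ← pow_succ']
      rw [e]
      exact h1
    have h0 : βbar ^ 12 = 0 := hred12.unique hzero
    have h00 : βbar = 0 := pow_eq_zero_iff (by norm_num) |>.mp h0
    rw [h00] at hred
    intro n
    obtain ⟨y, hy, hyn⟩ := hred.isInt_div hβ n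
    rw [PowerSeries.coeff_smul, smul_eq_mul] at hyn
    have : PowerSeries.coeff n b = y := mul_left_cancel₀ hℓ0 hyn
    rw [this]
    exact hy
  -- (E)
  obtain ⟨N, hN⟩ := hb
  exact FA_S16_T2g_induct hRing p ℓ hℓ _ hD N a b hab ha hN

end FA_S16
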