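import Mathlib

/-!
# S16, leaves ALG-UNIT / ALG-T2: the abstract algebraic core

`L` a field, `τ : L →+* L`, `κ ⊆ L` a subfield fixed by `τ`, `uinf` fixed by `τ`, and the
`τ`-orbit `u0, τ u0, …, τ^(p-1) u0` of length `p`; all `p + 1` elements distinct and
`Ψ = (Y - uinf) ∏ (Y - τ^j u0) ∈ κ[Y]`.

* `FA_S16_AU_irr`   : if `uinf ∉ κ` then `uinf` has degree `≥ p + 1` over `κ`.
* `FA_S16_AU_trace` : if `∑_j τ^j β · (τ^j u0)^m ∈ κ` for `m ≤ p` then `β = 0`.
* `FA_S16_AU_const` : an element of `F(t)` (`t` transcendental) which is a root of a monic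
  polynomial over `F[t]` with constant term in `Fˣ` is a constant.
-/

set_option autoImplicit false

namespace FA_S16

open Polynomial

section Core

variable {L : Type*} [Field L]

/-- The data of the conjugates of the unit. -/
structure FA_S16_AU_Sys (κ : Subfield L) (τ : L →+* L) (p : ℕ) (uinf u0 : L) : Prop where
  fixκ : ∀ x ∈ κ, τ x = x
  fixinf : τ uinf = uinf
  period : (τ^[p]) u0 = u0
  inj : ∀ i j, i < p → j < p → (τ^[i]) u0 = (τ^[j]) u0 → i = j
  neinf : ∀ j, j < p → (τ^[j]) u0 ≠ uinf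
  coeff : ∀ n, (((X - C uinf) * ∏ j ∈ Finset.range p, (X - C ((τ^[j]) u0))) : L[X]).coeff n ∈ κ

/-- The polynomial `Ψ` over `L`. -/
noncomputable def FA_S16_AU_Psi (τ : L →+* L) (p : ℕ) (uinf u0 : L) : L[X] :=
  (X - C uinf) * ∏ j ∈ Finset.range p, (X - C ((τ^[j]) u0))

theorem FA_S16_AU_Psi_monic (τ : L →+* L) (p : ℕ) (uinf u0 : L) :
    (FA_S16_AU_Psi τ p uinf u0).Monic :=
  (monic_X_sub_C _).mul (monic_prod_of_monic _ _ fun _ _ => monic_X_sub_C _)

theorem FA_S16_AU_Psi_ne_zero (τ : L →+* L) (p : ℕ) (uinf u0 : L) :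
    FA_S16_AU_Psi τ p uinf u0 ≠ 0 := (FA_S16_AU_Psi_monic τ p uinf u0).ne_zero

theorem FA_S16_AU_Psi_natDegree (τ : L →+* L) (p : ℕ) (uinf u0 : L) :
    (FA_S16_AU_Psi τ p uinf u0).natDegree = p + 1 := by
  rw [FA_S16_AU_Psi, Monic.natDegree_mul (monic_X_sub_C _)
    (monic_prod_of_monic _ _ fun _ _ => monic_X_sub_C _), natDegree_X_sub_C,
    natDegree_prod_of_monic _ _ fun _ _ => monic_X_sub_C _]
  simp [add_comm]

theorem FA_S16_AU_Psi_splits (τ : L →+* L) (p : ℕ) (uinf u0 : L) :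
    (FA_S16_AU_Psi τ p uinf u0).Splits := by
  rw [FA_S16_AU_Psi]
  refine Splits.mul (Splits.X_sub_C _) ?_
  exact Splits.prod fun j _ => Splits.X_sub_C _

theorem FA_S16_AU_Psi_roots (τ : L →+* L) (p : ℕ) (uinf u0 : L) :
    (FA_S16_AU_Psi τ p uinf u0).roots
      = uinf ::ₘ (Multiset.map (fun j => (τ^[j]) u0) (Finset.range p).val) := by
  have h2 : (∏ j ∈ Finset.range p, (X - C ((τ^[j]) u0)) : L[X]).roots
      = Multiset.map (fun j => (τ^[j]) u0) (Finset.range p).val := by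
    rw [Finset.prod_eq_multiset_prod]
    have := Polynomial.roots_multiset_prod_X_sub_C
      (Multiset.map (fun j => (τ^[j]) u0) (Finset.range p).val)
    rw [Multiset.map_map] at this
    exact this
  have hne : (X - C uinf) * ∏ j ∈ Finset.range p, (X - C ((τ^[j]) u0)) ≠ (0 : L[X]) :=
    FA_S16_AU_Psi_ne_zero τ p uinf u0
  rw [FA_S16_AU_Psi, roots_mul hne, roots_X_sub_C, h2]
  rfl

variable {κ : Subfield L} {τ : L →+* L} {p : ℕ} {uinf u0 : L}

theorem FA_S16_AU_iter_add (τ : L →+* L) (u0 : L) (a b : ℕ) :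
    (τ^[a]) ((τ^[b]) u0) = (τ^[a + b]) u0 := by
  rw [Function.iterate_add_apply]

/-- The polynomial `Ψ` with coefficients in `κ`. -/
theorem FA_S16_AU_exists_PsiK (h : FA_S16_AU_Sys κ τ p uinf u0) :
    ∃ P : Polynomial κ, P.map (algebraMap κ L) = FA_S16_AU_Psi τ p uinf u0 := by
  have : FA_S16_AU_Psi τ p uinf u0 ∈ Polynomial.lifts (algebraMap κ L) := by
    rw [Polynomial.lifts_iff_coeff_lifts]
    intro n
    exact ⟨⟨_, h.coeff n⟩, rfl⟩
  exact this

theorem FA_S16_AU_eval_tau (h : FA_S16_AU_Sys κ τ p uinf u0) (Q : Polynomial κ) (x : L) :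
    (Q.map (algebraMap κ L)).eval (τ x) = τ ((Q.map (algebraMap κ L)).eval x) := by
  rw [Polynomial.eval_map, Polynomial.eval_map, Polynomial.hom_eval₂]
  congr 1
  ext y
  exact (h.fixκ y y.2).symm

theorem FA_S16_AU_root_iter (h : FA_S16_AU_Sys κ τ p uinf u0) (Q : Polynomial κ) (x : L)
    (hx : (Q.map (algebraMap κ L)).eval x = 0) (n : ℕ) :
    (Q.map (algebraMap κ L)).eval ((τ^[n]) x) = 0 := by
  induction n with
  | zero => simpa using hx
  | succ n ih =>
    rw [Function.iterate_succ_apply', FA_S16_AU_eval_tau h, ih, map_zero]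

/-- **Degree**: `uinf` is not a root of a nonzero polynomial over `κ` of degree `≤ p`. -/
theorem FA_S16_AU_irr (h : FA_S16_AU_Sys κ τ p uinf u0) (hu : uinf ∉ κ)
    (Q : Polynomial κ) (hQ : Q ≠ 0) (hdeg : Q.natDegree ≤ p) : aeval uinf Q ≠ 0 := by
  classical
  intro hQ0
  obtain ⟨P, hP⟩ := FA_S16_AU_exists_PsiK h
  have hPsi0 : (FA_S16_AU_Psi τ p uinf u0).eval uinf = 0 := by
    simp [FA_S16_AU_Psi]
  have hPu : aeval uinf P = 0 := by
    rw [Polynomial.aeval_def, ← Polynomial.eval_map, hP, hPsi0]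
  have hPne : P ≠ 0 := by
    intro h0
    have := FA_S16_AU_Psi_ne_zero τ p uinf u0
    rw [← hP, h0, Polynomial.map_zero] at this
    exact this rfl
  have hint : IsIntegral κ uinf := by
    have hPm : P.Monic := by
      have := FA_S16_AU_Psi_monic τ p uinf u0
      rw [← hP] at this
      exact Polynomial.monic_of_injective (algebraMap κ L).injective this
    exact ⟨P, hPm, hPu⟩
  set μ := minpoly κ uinf with hμ
  have hμP : μ ∣ P := minpoly.dvd κ uinf hPu
  have hμQ : μ ∣ Q := minpoly.dvd κ uinf hQ0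
  have hμdeg : μ.natDegree ≤ p := (Polynomial.natDegree_le_of_dvd hμQ hQ).trans hdeg
  have h2 : 2 ≤ μ.natDegree := by
    rw [minpoly.two_le_natDegree_iff hint]
    rintro ⟨y, hy⟩
    exact hu (hy ▸ y.2)
  set μL := μ.map (algebraMap κ L) with hμL
  have hμLdvd : μL ∣ FA_S16_AU_Psi τ p uinf u0 := by
    rw [← hP]
    exact Polynomial.map_dvd _ hμP
  have hμLne : μL ≠ 0 := Polynomial.map_ne_zero (minpoly.ne_zero hint)
  have hsplit : μL.Splits :=
    Splits.of_dvd (FA_S16_AU_Psi_splits τ p uinf u0) (FA_S16_AU_Psi_ne_zero τ p uinf u0) hμLdvd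
  have hcard : μL.roots.card = μ.natDegree := by
    rw [← hsplit.natDegree_eq_card_roots, hμL, Polynomial.natDegree_map]
  have hle : μL.roots ≤ uinf ::ₘ (Multiset.map (fun j => (τ^[j]) u0) (Finset.range p).val) := by
    rw [← FA_S16_AU_Psi_roots]
    exact Polynomial.roots.le_of_dvd (FA_S16_AU_Psi_ne_zero τ p uinf u0) hμLdvd
  -- nodup of the big multiset
  have hnd : (uinf ::ₘ (Multiset.map (fun j => (τ^[j]) u0) (Finset.range p).val)).Nodup := by
    rw [Multiset.nodup_cons]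
    refine ⟨?_, ?_⟩
    · intro hmem
      obtain ⟨j, hj, hju⟩ := Multiset.mem_map.1 hmem
      exact h.neinf j (Finset.mem_range.1 hj) hju
    · refine Multiset.Nodup.map_on ?_ (Finset.range p).nodup
      intro i hi j hj hij
      exact h.inj i j (Finset.mem_range.1 hi) (Finset.mem_range.1 hj) hij
  have hμnd : μL.roots.Nodup := Multiset.nodup_of_le hle hnd
  -- there is a root different from `uinf`
  have hex : ∃ x ∈ μL.roots, x ≠ uinf := by
    by_contra hcon
    push Not at hcon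
    have hsub : μL.roots ≤ {uinf} := by
      rw [Multiset.le_iff_subset hμnd]
      intro x hx
      rw [Multiset.mem_singleton]
      exact hcon x hx
    have := Multiset.card_le_card hsub
    rw [hcard, Multiset.card_singleton] at this
    omega
  obtain ⟨x, hx, hxne⟩ := hex
  have hxmem := Multiset.mem_of_le hle hx
  rw [Multiset.mem_cons] at hxmem
  rcases hxmem with hxi | hxm
  · exact hxne hxi
  obtain ⟨j0, hj0, hj0x⟩ := Multiset.mem_map.1 hxm
  have hj0p : j0 < p := Finset.mem_range.1 hj0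
  have hroot0 : μL.eval ((τ^[j0]) u0) = 0 := by
    rw [hj0x]
    exact (Polynomial.mem_roots hμLne).1 hx
  -- all `u_i` are roots
  have hall : ∀ i, i < p → μL.eval ((τ^[i]) u0) = 0 := by
    intro i hi
    have := FA_S16_AU_root_iter h μ _ hroot0 (i + (p - j0))
    rw [FA_S16_AU_iter_add] at this
    have e : i + (p - j0) + j0 = p + i := by omega
    rw [e, add_comm p i, ← FA_S16_AU_iter_add, h.period] at this
    exact this
  have hinfroot : μL.eval uinf = 0 := by
    rw [hμL, Polynomial.eval_map, ← Polynomial.aeval_def]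
    exact minpoly.aeval κ uinf
  -- count
  have hsubset : uinf ::ₘ (Multiset.map (fun j => (τ^[j]) u0) (Finset.range p).val)
      ≤ μL.roots := by
    rw [Multiset.le_iff_subset hnd]
    intro y hy
    rw [Multiset.mem_cons] at hy
    rw [Polynomial.mem_roots hμLne]
    rcases hy with rfl | hy
    · exact hinfroot
    · obtain ⟨i, hi, rfl⟩ := Multiset.mem_map.1 hy
      exact hall i (Finset.mem_range.1 hi)
  have := Multiset.card_le_card hsubset
  rw [hcard, Multiset.card_cons, Multiset.card_map] at this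
  simp at this
  omega

theorem FA_S16_AU_Psi_eq_mul (τ : L →+* L) (p : ℕ) (uinf u0 : L) (j : ℕ) (hj : j < p) :
    FA_S16_AU_Psi τ p uinf u0 = (X - C ((τ^[j]) u0)) *
      ((X - C uinf) * ∏ i ∈ (Finset.range p).erase j, (X - C ((τ^[i]) u0))) := by
  classical
  rw [FA_S16_AU_Psi, ← Finset.mul_prod_erase (Finset.range p) _ (Finset.mem_range.2 hj)]
  ring

theorem FA_S16_AU_Psi_div (τ : L →+* L) (p : ℕ) (uinf u0 : L) (j : ℕ) (hj : j < p) :
    FA_S16_AU_Psi τ p uinf u0 /ₘ (X - C ((τ^[j]) u0)) =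
      (X - C uinf) * ∏ i ∈ (Finset.range p).erase j, (X - C ((τ^[i]) u0)) := by
  classical
  conv_lhs => rw [FA_S16_AU_Psi_eq_mul τ p uinf u0 j hj]
  exact Polynomial.mul_divByMonic_cancel_left _ (monic_X_sub_C _)

/-- The Lagrange numerator `N = ∑_j β_j Ψ / (Y - u_j)`. -/
noncomputable def FA_S16_AU_N (τ : L →+* L) (p : ℕ) (uinf u0 β : L) : L[X] :=
  ∑ j ∈ Finset.range p, C ((τ^[j]) β) * (FA_S16_AU_Psi τ p uinf u0 /ₘ (X - C ((τ^[j]) u0)))

theorem FA_S16_AU_N_natDegree (τ : L →+* L) (p : ℕ) (uinf u0 β : L) :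
    (FA_S16_AU_N τ p uinf u0 β).natDegree ≤ p := by
  classical
  refine Polynomial.natDegree_sum_le_of_forall_le _ _ fun j hj => ?_
  refine (Polynomial.natDegree_C_mul_le _ _).trans ?_
  rw [Polynomial.natDegree_divByMonic _ (monic_X_sub_C _), FA_S16_AU_Psi_natDegree,
    natDegree_X_sub_C]
  simp

theorem FA_S16_AU_N_eval_inf (τ : L →+* L) (p : ℕ) (uinf u0 β : L) :
    (FA_S16_AU_N τ p uinf u0 β).eval uinf = 0 := by
  classical
  rw [FA_S16_AU_N, Polynomial.eval_finsetSum]
  refine Finset.sum_eq_zero fun j hj => ?_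
  rw [FA_S16_AU_Psi_div τ p uinf u0 j (Finset.mem_range.1 hj)]
  simp

theorem FA_S16_AU_N_eval_zero (τ : L →+* L) (p : ℕ) (hp : 0 < p) (uinf u0 β : L) :
    (FA_S16_AU_N τ p uinf u0 β).eval u0 =
      β * ((u0 - uinf) * ∏ i ∈ (Finset.range p).erase 0, (u0 - (τ^[i]) u0)) := by
  classical
  rw [FA_S16_AU_N, Polynomial.eval_finsetSum,
    Finset.sum_eq_single_of_mem 0 (Finset.mem_range.2 hp)]
  · rw [FA_S16_AU_Psi_div τ p uinf u0 0 hp]
    simp [Polynomial.eval_prod]
  · intro j hj hj0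
    rw [FA_S16_AU_Psi_div τ p uinf u0 j (Finset.mem_range.1 hj)]
    have hmem : 0 ∈ (Finset.range p).erase j :=
      Finset.mem_erase.2 ⟨fun h => hj0 h.symm, Finset.mem_range.2 hp⟩
    rw [Polynomial.eval_mul, Polynomial.eval_mul, Polynomial.eval_prod,
      Finset.prod_eq_zero hmem (by simp), mul_zero, mul_zero]

theorem FA_S16_AU_N_coeff (τ : L →+* L) (p : ℕ) (uinf u0 β : L) (n : ℕ) :
    (FA_S16_AU_N τ p uinf u0 β).coeff n =
      ∑ i ∈ Finset.Icc (n + 1) (p + 1), (FA_S16_AU_Psi τ p uinf u0).coeff i *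
        ∑ j ∈ Finset.range p, (τ^[j]) β * ((τ^[j]) u0) ^ (i - (n + 1)) := by
  classical
  rw [FA_S16_AU_N, Polynomial.finsetSum_coeff]
  simp_rw [Polynomial.coeff_C_mul, Polynomial.coeff_divByMonic_X_sub_C,
    FA_S16_AU_Psi_natDegree, Finset.mul_sum]
  rw [Finset.sum_comm]
  refine Finset.sum_congr rfl fun i _ => Finset.sum_congr rfl fun j _ => ?_
  ring

/-- **Trace lemma**: if all the traces `∑_j τ^j β · (τ^j u0)^m`, `m ≤ p`, lie in `κ`,
then `β = 0`. -/
theorem FA_S16_AU_trace (h : FA_S16_AU_Sys κ τ p uinf u0) (hp : 0 < p) (hu : uinf ∉ κ) (β : L)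
    (hβ : ∀ m, m ≤ p → ∑ j ∈ Finset.range p, (τ^[j]) β * ((τ^[j]) u0) ^ m ∈ κ) : β = 0 := by
  classical
  -- the coefficients of `N` are in `κ`
  have hcoef : ∀ n, (FA_S16_AU_N τ p uinf u0 β).coeff n ∈ κ := by
    intro n
    rw [FA_S16_AU_N_coeff]
    refine Subfield.sum_mem _ fun i hi => ?_
    refine Subfield.mul_mem _ (h.coeff i) (hβ _ ?_)
    have := (Finset.mem_Icc.1 hi).2
    omega
  have hlift : FA_S16_AU_N τ p uinf u0 β ∈ Polynomial.lifts (algebraMap κ L) := by
    rw [Polynomial.lifts_iff_coeff_lifts]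
    intro n
    exact ⟨⟨_, hcoef n⟩, rfl⟩
  obtain ⟨Q, hQ'⟩ := hlift
  have hQ : Q.map (algebraMap κ L) = FA_S16_AU_N τ p uinf u0 β := hQ'
  have hQdeg : Q.natDegree ≤ p := by
    have := FA_S16_AU_N_natDegree τ p uinf u0 β
    rw [← hQ] at this
    rwa [Polynomial.natDegree_map] at this
  have hQ0 : Q = 0 := by
    by_contra hne
    refine FA_S16_AU_irr h hu Q hne hQdeg ?_
    rw [Polynomial.aeval_def, ← Polynomial.eval_map]
    rw [hQ, FA_S16_AU_N_eval_inf]
  have hN0 : FA_S16_AU_N τ p uinf u0 β = 0 := by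
    rw [← hQ, hQ0, Polynomial.map_zero]
  have hev := FA_S16_AU_N_eval_zero τ p hp uinf u0 β
  rw [hN0, Polynomial.eval_zero] at hev
  have hne : (u0 - uinf) * ∏ i ∈ (Finset.range p).erase 0, (u0 - (τ^[i]) u0) ≠ 0 := by
    refine mul_ne_zero ?_ (Finset.prod_ne_zero_iff.2 fun i hi => ?_)
    · have := h.neinf 0 hp
      simpa [sub_eq_zero] using this
    · have hi' := Finset.mem_erase.1 hi
      intro h0
      rw [sub_eq_zero] at h0
      have : (τ^[0]) u0 = (τ^[i]) u0 := by simpa using h0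
      exact hi'.1 (h.inj 0 i hp (Finset.mem_range.1 hi'.2) this).symm
  rcases mul_eq_zero.1 hev.symm with h1 | h1
  · exact h1
  · exact absurd h1 hne

end Core

section Const

variable {F L : Type*} [Field F] [Field L] [Algebra F L]

/-- **Constancy**: let `t ∈ L` be transcendental over `F`.  If `u = A(t)/B(t)` is a root of a
polynomial `Ψ ∈ F[t][Y]`, monic in `Y`, with constant term in `Fˣ`, then `u ∈ F`. -/
theorem FA_S16_AU_const (t u : L) (ht : Transcendental F t)
    (Ψ : Polynomial (Polynomial F)) (hΨ : Ψ.Monic) (c : F) (hc : c ≠ 0) (hΨ0 : Ψ.coeff 0 = C c)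
    (hroot : Ψ.eval₂ (Polynomial.aeval (R := F) t).toRingHom u = 0)
    (A B : Polynomial F) (hB : B ≠ 0) (hAB : aeval t B * u = aeval t A) :
    ∃ a : F, u = algebraMap F L a := by
  classical
  have hinj : Function.Injective (Polynomial.aeval (R := F) t).toRingHom :=
    (transcendental_iff_injective.1 ht)
  set K := FractionRing (Polynomial F) with hK
  let φ : K →+* L := IsFractionRing.lift (K := K) hinj
  have hφ : ∀ x : Polynomial F, φ (algebraMap (Polynomial F) K x) = aeval t x := by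
    intro x
    exact IsFractionRing.lift_algebraMap hinj x
  have hBt : aeval t B ≠ 0 := by
    intro h0
    exact hB (hinj (by simpa using h0))
  set r : K := algebraMap (Polynomial F) K A / algebraMap (Polynomial F) K B with hr
  have hφr : φ r = u := by
    rw [hr, map_div₀, hφ, hφ, ← hAB, mul_div_cancel_left₀ _ hBt]
  have hrroot : aeval r Ψ = 0 := by
    apply φ.injective
    rw [map_zero, Polynomial.aeval_def, Polynomial.hom_eval₂, hφr]
    have : φ.comp (algebraMap (Polynomial F) K) = (Polynomial.aeval (R := F) t).toRingHom := by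
      ext x
      · simp [hφ]
      · simp [hφ]
    rw [this]
    exact hroot
  obtain ⟨P, hP⟩ := isInteger_of_is_root_of_monic hΨ hrroot
  have huP : u = aeval t P := by
    rw [← hφr, ← hP, hφ]
  have hev : Ψ.eval P = 0 := by
    apply hinj
    rw [map_zero]
    have := hroot
    rw [huP] at this
    rw [← this]
    have h3 := Polynomial.hom_eval₂ Ψ (RingHom.id (Polynomial F))
      (Polynomial.aeval (R := F) t).toRingHom P
    rw [Polynomial.eval₂_id] at h3
    simpa using h3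
  have hdvd : P ∣ Ψ.coeff 0 := by
    have h1 := Polynomial.divX_mul_X_add Ψ
    have h2 : (Ψ.divX * X + C (Ψ.coeff 0)).eval P = 0 := by rw [h1, hev]
    rw [Polynomial.eval_add, Polynomial.eval_mul, Polynomial.eval_X, Polynomial.eval_C] at h2
    refine ⟨-(Ψ.divX.eval P), ?_⟩
    have : Ψ.coeff 0 = -(Ψ.divX.eval P * P) := by
      rw [eq_neg_iff_add_eq_zero, add_comm]
      exact h2
    rw [this]
    ring
  have hunit : IsUnit P := by
    rw [hΨ0] at hdvd
    exact isUnit_of_dvd_unit hdvd (Polynomial.isUnit_C.2 (isUnit_iff_ne_zero.2 hc))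
  obtain ⟨a, _, ha⟩ := Polynomial.isUnit_iff.1 hunit
  refine ⟨a, ?_⟩
  rw [huP, ← ha, Polynomial.aeval_C]

end Const

end FA_S16
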