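import Mathlib
import Fermat.Agent.S16.AlgUnitCore

/-!
# S16, ALG-UNIT: two generic lemmas

* `FA_S16_AU_const'` : `FA_S16_AU_const` for a polynomial over `L` with coefficients in `F[t]`;
* `FA_S16_AU_scale_coeff` : coefficients of `∏ (Y - x_i / d)`.
-/

set_option autoImplicit false

namespace FA_S16

open Polynomial

section

variable {F L : Type*} [Field F] [Field L] [Algebra F L]

/-- **Constancy**, second form. -/
theorem FA_S16_AU_const' (t u : L) (ht : Transcendental F t)
    (Ψ : Polynomial L) (hΨ : Ψ.Monic)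
    (hcoef : ∀ n, ∃ Q : Polynomial F, Ψ.coeff n = aeval t Q)
    (c : F) (hc : c ≠ 0) (hΨ0 : Ψ.coeff 0 = algebraMap F L c)
    (hroot : Ψ.eval u = 0)
    (A B : Polynomial F) (hB : B ≠ 0) (hAB : aeval t B * u = aeval t A) :
    ∃ a : F, u = algebraMap F L a := by
  classical
  have hinj : Function.Injective (Polynomial.aeval (R := F) t).toRingHom :=
    (transcendental_iff_injective.1 ht)
  have hmem : Ψ ∈ (Polynomial.mapRingHom (Polynomial.aeval (R := F) t).toRingHom).range := by
    rw [Polynomial.mem_map_range]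
    intro n
    obtain ⟨Q, hQ⟩ := hcoef n
    exact ⟨Q, hQ.symm⟩
  obtain ⟨Ψ', hΨ'⟩ := hmem
  rw [Polynomial.coe_mapRingHom] at hΨ'
  have hmonic : Ψ'.Monic := Polynomial.monic_of_injective hinj (by rw [hΨ']; exact hΨ)
  have h0 : Ψ'.coeff 0 = C c := by
    apply hinj
    have := congrArg (fun P => Polynomial.coeff P 0) hΨ'
    simp only [Polynomial.coeff_map] at this
    rw [this, hΨ0]
    simp
  have hroot' : Ψ'.eval₂ (Polynomial.aeval (R := F) t).toRingHom u = 0 := by
    rw [← Polynomial.eval_map, hΨ', hroot]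
  exact FA_S16_AU_const t u ht Ψ' hmonic c hc h0 hroot' A B hB hAB

end

section

variable {L : Type*} [Field L]

/-- Coefficients of `∏ (Y - x i / d)`. -/
theorem FA_S16_AU_scale_coeff {ι : Type*} (s : Finset ι) (x : ι → L) (d : L) (hd : d ≠ 0) (n : ℕ) :
    (∏ i ∈ s, (X - C (x i / d))).coeff n * d ^ s.card =
      (∏ i ∈ s, (X - C (x i))).coeff n * d ^ n := by
  have h : (∏ i ∈ s, (X - C (x i))).comp (C d * X) = C (d ^ s.card) * ∏ i ∈ s, (X - C (x i / d)) := by
    rw [Polynomial.prod_comp]
    have : ∀ i ∈ s, (X - C (x i)).comp (C d * X) = C d * (X - C (x i / d)) := by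
      intro i _
      rw [Polynomial.sub_comp, Polynomial.X_comp, Polynomial.C_comp, mul_sub, ← C_mul,
        mul_div_cancel₀ _ hd]
    rw [Finset.prod_congr rfl this, Finset.prod_mul_distrib, Finset.prod_const, ← C_pow]
  have := congrArg (fun P => Polynomial.coeff P n) h
  simp only [Polynomial.comp_C_mul_X_coeff, Polynomial.coeff_C_mul] at this
  rw [this, mul_comm]

end

end FA_S16
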