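import Mathlib
import Fermat.Agent.S16.UInterface

/-!
# S16, ALG-UNIT / ALG-T2: level one forms of weight `12 n` in the basis `E₄^(3(n-c)) Δ^c`

* `FA_S16_AU_coeffRing S` : the power series over `ℂ` with coefficients in the subring `S`;
* `FA_S16_AU_tri`         : triangularity of a family `B c = X^c (1 + …)`;
* `FA_S16_AU_int12`       : a level one form of weight `12 n` with coefficients in `S` is an
  `S`-combination of `E₄^(3(n-c)) Δ^c`, `c ≤ n`.
-/

set_option autoImplicit false

noncomputable section

namespace FA_S16

open ModularForm ModularFormClass UpperHalfPlane CongruenceSubgroup MatrixGroups EisensteinSeries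
open PowerSeries

local notation "Δ" => ModularForm.discriminant

/-- Power series with coefficients in a subring. -/
def FA_S16_AU_coeffRing {R : Type*} [CommRing R] (S : Subring R) : Subring (PowerSeries R) :=
  (PowerSeries.map S.subtype).range

theorem FA_S16_AU_mem_coeffRing {R : Type*} [CommRing R] (S : Subring R) (f : PowerSeries R) :
    f ∈ FA_S16_AU_coeffRing S ↔ ∀ n, PowerSeries.coeff n f ∈ S := by
  constructor
  · rintro ⟨g, rfl⟩ n
    rw [PowerSeries.coeff_map]
    exact (PowerSeries.coeff n g).2
  · intro h
    refine ⟨PowerSeries.mk fun n => ⟨PowerSeries.coeff n f, h n⟩, ?_⟩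
    ext n
    simp [PowerSeries.coeff_map]

/-- **Triangularity**. -/
theorem FA_S16_AU_tri {R : Type*} [CommRing R] (n : ℕ) (B : ℕ → PowerSeries R)
    (hB0 : ∀ c k, k < c → PowerSeries.coeff k (B c) = 0)
    (hB1 : ∀ c, PowerSeries.coeff c (B c) = 1)
    (Pr : R → Prop) (hadd : ∀ x y, Pr x → Pr y → Pr (x + y)) (hneg : ∀ x, Pr x → Pr (-x))
    (h0 : Pr 0) (hmul : ∀ x c k, Pr x → Pr (x * PowerSeries.coeff k (B c)))
    (lam : ℕ → R) (m : ℕ)
    (hs : ∀ k, k < m → Pr (PowerSeries.coeff k (∑ c ∈ Finset.range (n + 1), lam c • B c))) :
    ∀ c, c ≤ n → c < m → Pr (lam c) := by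
  intro c
  induction c using Nat.strong_induction_on with
  | _ c ih =>
    intro hcn hcm
    have hsum : ∀ (T : Finset ℕ), (∀ c' ∈ T, c' < c) → Pr (∑ c' ∈ T, lam c' * PowerSeries.coeff c (B c')) := by
      intro T
      classical
      induction T using Finset.induction_on with
      | empty => intro _; simpa using h0
      | insert a T ha ihT =>
        intro hT
        rw [Finset.sum_insert ha]
        refine hadd _ _ (hmul _ _ _ (ih a (hT a (Finset.mem_insert_self _ _))
          ((hT a (Finset.mem_insert_self _ _)).le.trans hcn)
          ((hT a (Finset.mem_insert_self _ _)).trans hcm))) (ihT fun c' hc' => hT c' (Finset.mem_insert_of_mem hc'))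
    have key : PowerSeries.coeff c (∑ c' ∈ Finset.range (n + 1), lam c' • B c')
        = (∑ c' ∈ Finset.range c, lam c' * PowerSeries.coeff c (B c')) + lam c := by
      rw [map_sum]
      simp only [PowerSeries.coeff_smul, smul_eq_mul]
      have hsplit : Finset.range (n + 1) = Finset.range c ∪ ({c} ∪ Finset.Ioc c n) := by
        ext x
        simp only [Finset.mem_range, Finset.mem_union, Finset.mem_singleton, Finset.mem_Ioc]
        omega
      rw [hsplit, Finset.sum_union, Finset.sum_union]
      · rw [Finset.sum_singleton, hB1, mul_one]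
        have : ∑ x ∈ Finset.Ioc c n, lam x * PowerSeries.coeff c (B x) = 0 := by
          refine Finset.sum_eq_zero fun x hx => ?_
          rw [hB0 x c (Finset.mem_Ioc.1 hx).1, mul_zero]
        rw [this, add_zero]
      · rw [Finset.disjoint_left]
        intro x hx hx'
        simp only [Finset.mem_singleton] at hx
        simp only [Finset.mem_Ioc] at hx'
        omega
      · rw [Finset.disjoint_left]
        intro x hx hx'
        simp only [Finset.mem_range] at hx
        simp only [Finset.mem_union, Finset.mem_singleton, Finset.mem_Ioc] at hx'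
        omega
    have h1 := hs c hcm
    rw [key] at h1
    have h2 := hsum (Finset.range c) (fun c' hc' => Finset.mem_range.1 hc')
    have : lam c = ((∑ c' ∈ Finset.range c, lam c' * PowerSeries.coeff c (B c')) + lam c)
        + -(∑ c' ∈ Finset.range c, lam c' * PowerSeries.coeff c (B c')) := by ring
    rw [this]
    exact hadd _ _ h1 (hneg _ h2)

end FA_S16
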