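import Mathlib

/-!
# S16, ALG-UNIT: leading terms of power series

`FA_S16_AU_Ord f n a` : `f = X ^ n * g` with `g(0) = a`.
-/

set_option autoImplicit false

noncomputable section

namespace FA_S16

variable {R : Type*} [CommRing R]

/-- `f = a X^n + …`. -/
def FA_S16_AU_Ord (f : PowerSeries R) (n : ℕ) (a : R) : Prop :=
  ∃ g : PowerSeries R, f = PowerSeries.X ^ n * g ∧ PowerSeries.constantCoeff g = a

theorem FA_S16_AU_Ord.coeff_lt {f : PowerSeries R} {n : ℕ} {a : R} (h : FA_S16_AU_Ord f n a)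
    (k : ℕ) (hk : k < n) : PowerSeries.coeff k f = 0 := by
  obtain ⟨g, rfl, -⟩ := h
  rw [PowerSeries.coeff_X_pow_mul', if_neg (by omega)]

theorem FA_S16_AU_Ord.coeff_eq {f : PowerSeries R} {n : ℕ} {a : R} (h : FA_S16_AU_Ord f n a) :
    PowerSeries.coeff n f = a := by
  obtain ⟨g, rfl, rfl⟩ := h
  rw [PowerSeries.coeff_X_pow_mul', if_pos le_rfl, Nat.sub_self,
    PowerSeries.coeff_zero_eq_constantCoeff_apply]

theorem FA_S16_AU_Ord.of_coeff {f : PowerSeries R} {n : ℕ}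
    (h : ∀ k, k < n → PowerSeries.coeff k f = 0) : FA_S16_AU_Ord f n (PowerSeries.coeff n f) := by
  obtain ⟨g, rfl⟩ := PowerSeries.X_pow_dvd_iff.2 h
  refine ⟨g, rfl, ?_⟩
  rw [PowerSeries.coeff_X_pow_mul', if_pos le_rfl, Nat.sub_self,
    PowerSeries.coeff_zero_eq_constantCoeff_apply]

theorem FA_S16_AU_Ord.one : FA_S16_AU_Ord (1 : PowerSeries R) 0 1 :=
  ⟨1, by simp, by simp⟩

theorem FA_S16_AU_Ord.mul {f f' : PowerSeries R} {n n' : ℕ} {a a' : R}
    (h : FA_S16_AU_Ord f n a) (h' : FA_S16_AU_Ord f' n' a') :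
    FA_S16_AU_Ord (f * f') (n + n') (a * a') := by
  obtain ⟨g, rfl, rfl⟩ := h
  obtain ⟨g', rfl, rfl⟩ := h'
  exact ⟨g * g', by ring, by simp⟩

theorem FA_S16_AU_Ord.pow {f : PowerSeries R} {n : ℕ} {a : R}
    (h : FA_S16_AU_Ord f n a) (m : ℕ) : FA_S16_AU_Ord (f ^ m) (m * n) (a ^ m) := by
  obtain ⟨g, rfl, rfl⟩ := h
  exact ⟨g ^ m, by ring, by simp⟩

theorem FA_S16_AU_Ord.neg {f : PowerSeries R} {n : ℕ} {a : R}
    (h : FA_S16_AU_Ord f n a) : FA_S16_AU_Ord (-f) n (-a) := by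
  obtain ⟨g, rfl, rfl⟩ := h
  exact ⟨-g, by ring, by simp⟩

theorem FA_S16_AU_Ord.smul {f : PowerSeries R} {n : ℕ} {a : R}
    (h : FA_S16_AU_Ord f n a) (c : R) : FA_S16_AU_Ord (c • f) n (c * a) := by
  obtain ⟨g, rfl, rfl⟩ := h
  exact ⟨c • g, by rw [mul_smul_comm], by simp⟩

theorem FA_S16_AU_Ord.expand {f : PowerSeries R} {n : ℕ} {a : R}
    (h : FA_S16_AU_Ord f n a) (p : ℕ) (hp : p ≠ 0) :
    FA_S16_AU_Ord (PowerSeries.expand p hp f) (p * n) a := by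
  obtain ⟨g, rfl, rfl⟩ := h
  refine ⟨PowerSeries.expand p hp g, ?_, by simp⟩
  rw [map_mul, map_pow, PowerSeries.expand_X, ← pow_mul]

theorem FA_S16_AU_Ord.rescale {f : PowerSeries R} {n : ℕ} {a : R}
    (h : FA_S16_AU_Ord f n a) (z : R) :
    FA_S16_AU_Ord (PowerSeries.rescale z f) n (z ^ n * a) := by
  obtain ⟨g, rfl, rfl⟩ := h
  refine ⟨PowerSeries.C (z ^ n) * PowerSeries.rescale z g, ?_, ?_⟩
  · rw [map_mul, map_pow, PowerSeries.rescale_X, mul_pow, ← map_pow]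
    ring
  · rw [map_mul, PowerSeries.constantCoeff_C, ← PowerSeries.coeff_zero_eq_constantCoeff_apply,
      PowerSeries.coeff_rescale, pow_zero, one_mul, PowerSeries.coeff_zero_eq_constantCoeff_apply]

theorem FA_S16_AU_Ord.prod {ι : Type*} (s : Finset ι) {f : ι → PowerSeries R} {n : ι → ℕ}
    {a : ι → R} (h : ∀ i ∈ s, FA_S16_AU_Ord (f i) (n i) (a i)) :
    FA_S16_AU_Ord (∏ i ∈ s, f i) (∑ i ∈ s, n i) (∏ i ∈ s, a i) := by
  classical
  induction s using Finset.induction_on with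
  | empty => simpa using FA_S16_AU_Ord.one
  | insert b s hb ih =>
    rw [Finset.prod_insert hb, Finset.prod_insert hb, Finset.sum_insert hb]
    exact (h b (Finset.mem_insert_self _ _)).mul
      (ih fun i hi => h i (Finset.mem_insert_of_mem hi))

end FA_S16
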