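import Mathlib
import Fermat.Agent.S16.AlgUnitRed
import Fermat.Agent.S16.AlgUnitOrd
import Fermat.Agent.S16.AlgUnitGen
import Fermat.Agent.S16.AlgUnitInt12

/-!
# S16, ALG-UNIT / ALG-T2: the system of conjugates of `Δ(pz)/Δ(z)` over `𝔽(j(pz))`

`L = Frac 𝔽⟦X⟧`, `τ` induced by `X ↦ ζ̄ X`, `t = Ē₄(X^p)³ / Δ̄(X^p)`, `κ = 𝔽(t)`,
`uinf = Δ̄(X^{p²}) / Δ̄(X^p)`, `u0 = p⁻¹² Δ̄(X) / Δ̄(X^p)`.
-/

set_option autoImplicit false

noncomputable section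

namespace FA_S16

open ModularForm ModularFormClass UpperHalfPlane CongruenceSubgroup MatrixGroups EisensteinSeries

local notation "Δ" => ModularForm.discriminant

variable (ℓ : ℕ) [hℓ : Fact ℓ.Prime] (p : ℕ) [NeZero p]

/-- `L = Frac 𝔽⟦X⟧`. -/
abbrev FA_S16_AU_L : Type := FractionRing (PowerSeries (FA_S16_AU_F ℓ))

/-- `𝔽⟦X⟧ → L`. -/
abbrev FA_S16_AU_al : PowerSeries (FA_S16_AU_F ℓ) →+* FA_S16_AU_L ℓ :=
  algebraMap (PowerSeries (FA_S16_AU_F ℓ)) (FA_S16_AU_L ℓ)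

theorem FA_S16_AU_al_inj : Function.Injective (FA_S16_AU_al ℓ) :=
  IsFractionRing.injective _ _

/-- `Δ̄(X^p)`. -/
def FA_S16_AU_dd : PowerSeries (FA_S16_AU_F ℓ) :=
  PowerSeries.expand p (NeZero.ne p) (FA_S16_AU_DF ℓ)

/-- `Δ̄(X^p)` in `L`. -/
def FA_S16_AU_dL : FA_S16_AU_L ℓ := FA_S16_AU_al ℓ (FA_S16_AU_dd ℓ p)

/-- `t = j̄(X^p)`. -/
def FA_S16_AU_t : FA_S16_AU_L ℓ :=
  FA_S16_AU_al ℓ (PowerSeries.expand p (NeZero.ne p) (FA_S16_AU_E4F ℓ ^ 3)) / FA_S16_AU_dL ℓ p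

/-- `κ = 𝔽(t)`. -/
def FA_S16_AU_kappa : Subfield (FA_S16_AU_L ℓ) :=
  (IntermediateField.adjoin (FA_S16_AU_F ℓ) {FA_S16_AU_t ℓ p}).toSubfield

/-- `uinf`. -/
def FA_S16_AU_uinf : FA_S16_AU_L ℓ :=
  FA_S16_AU_al ℓ (PowerSeries.expand p (NeZero.ne p) (FA_S16_AU_dd ℓ p)) / FA_S16_AU_dL ℓ p

/-- The reduction of `p⁻¹²`. -/
def FA_S16_AU_cbar : FA_S16_AU_F ℓ := (((p : ℕ) : FA_S16_AU_F ℓ) ^ 12)⁻¹

/-- `u0`. -/
def FA_S16_AU_u0 : FA_S16_AU_L ℓ :=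
  FA_S16_AU_al ℓ (FA_S16_AU_cbar ℓ p • FA_S16_AU_DF ℓ) / FA_S16_AU_dL ℓ p

theorem FA_S16_AU_zetaF_ne_zero : FA_S16_AU_zetaF ℓ p (NeZero.ne p) ≠ 0 := by
  intro h
  have := FA_S16_AU_zetaF_pow ℓ p (NeZero.ne p)
  rw [h, zero_pow (NeZero.ne p)] at this
  exact zero_ne_one this

theorem FA_S16_AU_rescale_inj (z : FA_S16_AU_F ℓ) (hz : z ≠ 0) :
    Function.Injective (PowerSeries.rescale z) := by
  intro f g h
  ext n
  have := congrArg (PowerSeries.coeff n) h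
  rw [PowerSeries.coeff_rescale, PowerSeries.coeff_rescale] at this
  exact mul_left_cancel₀ (pow_ne_zero n hz) this

/-- `τ`. -/
def FA_S16_AU_tau : FA_S16_AU_L ℓ →+* FA_S16_AU_L ℓ :=
  IsFractionRing.map (FA_S16_AU_rescale_inj ℓ _ (FA_S16_AU_zetaF_ne_zero ℓ p))

theorem FA_S16_AU_tau_al (f : PowerSeries (FA_S16_AU_F ℓ)) :
    FA_S16_AU_tau ℓ p (FA_S16_AU_al ℓ f) =
      FA_S16_AU_al ℓ (PowerSeries.rescale (FA_S16_AU_zetaF ℓ p (NeZero.ne p)) f) := by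
  unfold FA_S16_AU_tau IsFractionRing.map
  exact IsLocalization.map_eq _ f

theorem FA_S16_AU_tau_iter_al (j : ℕ) (f : PowerSeries (FA_S16_AU_F ℓ)) :
    (FA_S16_AU_tau ℓ p)^[j] (FA_S16_AU_al ℓ f) =
      FA_S16_AU_al ℓ (PowerSeries.rescale (FA_S16_AU_zetaF ℓ p (NeZero.ne p) ^ j) f) := by
  induction j with
  | zero => simp [PowerSeries.rescale_one]
  | succ j ih =>
    rw [Function.iterate_succ_apply', ih, FA_S16_AU_tau_al, PowerSeries.rescale_rescale, pow_succ]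

theorem FA_S16_AU_rescale_expand (z : FA_S16_AU_F ℓ) (hz : z ^ p = 1)
    (f : PowerSeries (FA_S16_AU_F ℓ)) :
    PowerSeries.rescale z (PowerSeries.expand p (NeZero.ne p) f) =
      PowerSeries.expand p (NeZero.ne p) f := by
  ext n
  rw [PowerSeries.coeff_rescale, PowerSeries.coeff_expand]
  split_ifs with h
  · obtain ⟨m, rfl⟩ := h
    rw [pow_mul, hz, one_pow, one_mul]
  · rw [mul_zero]

theorem FA_S16_AU_tau_al_expand (f : PowerSeries (FA_S16_AU_F ℓ)) :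
    FA_S16_AU_tau ℓ p (FA_S16_AU_al ℓ (PowerSeries.expand p (NeZero.ne p) f)) =
      FA_S16_AU_al ℓ (PowerSeries.expand p (NeZero.ne p) f) := by
  rw [FA_S16_AU_tau_al, FA_S16_AU_rescale_expand ℓ p _ (FA_S16_AU_zetaF_pow ℓ p (NeZero.ne p))]

theorem FA_S16_AU_tau_dL : FA_S16_AU_tau ℓ p (FA_S16_AU_dL ℓ p) = FA_S16_AU_dL ℓ p :=
  FA_S16_AU_tau_al_expand ℓ p _

theorem FA_S16_AU_tau_t : FA_S16_AU_tau ℓ p (FA_S16_AU_t ℓ p) = FA_S16_AU_t ℓ p := by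
  unfold FA_S16_AU_t
  rw [map_div₀, FA_S16_AU_tau_dL, FA_S16_AU_tau_al_expand]

theorem FA_S16_AU_tau_uinf : FA_S16_AU_tau ℓ p (FA_S16_AU_uinf ℓ p) = FA_S16_AU_uinf ℓ p := by
  unfold FA_S16_AU_uinf
  rw [map_div₀, FA_S16_AU_tau_dL, FA_S16_AU_tau_al_expand]

theorem FA_S16_AU_algebraMap_eq (a : FA_S16_AU_F ℓ) :
    algebraMap (FA_S16_AU_F ℓ) (FA_S16_AU_L ℓ) a = FA_S16_AU_al ℓ (PowerSeries.C a) := by
  rw [IsScalarTower.algebraMap_apply (FA_S16_AU_F ℓ) (PowerSeries (FA_S16_AU_F ℓ))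
    (FA_S16_AU_L ℓ)]
  rfl

theorem FA_S16_AU_tau_algebraMap (a : FA_S16_AU_F ℓ) :
    FA_S16_AU_tau ℓ p (algebraMap (FA_S16_AU_F ℓ) (FA_S16_AU_L ℓ) a) =
      algebraMap (FA_S16_AU_F ℓ) (FA_S16_AU_L ℓ) a := by
  rw [FA_S16_AU_algebraMap_eq, FA_S16_AU_tau_al]
  congr 1
  ext n
  rw [PowerSeries.coeff_rescale, PowerSeries.coeff_C]
  split_ifs with h
  · subst h; simp
  · simp

theorem FA_S16_AU_kappa_fix (x : FA_S16_AU_L ℓ) (hx : x ∈ FA_S16_AU_kappa ℓ p) :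
    FA_S16_AU_tau ℓ p x = x := by
  have hle : IntermediateField.adjoin (FA_S16_AU_F ℓ) {FA_S16_AU_t ℓ p} ≤
      Subfield.toIntermediateField
        (RingHom.eqLocusField (FA_S16_AU_tau ℓ p) (RingHom.id (FA_S16_AU_L ℓ)))
        (fun a => FA_S16_AU_tau_algebraMap ℓ p a) := by
    rw [IntermediateField.adjoin_le_iff]
    intro y hy
    rw [Set.mem_singleton_iff] at hy
    subst hy
    exact FA_S16_AU_tau_t ℓ p
  exact hle hx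

theorem FA_S16_AU_t_mem : FA_S16_AU_t ℓ p ∈ FA_S16_AU_kappa ℓ p :=
  IntermediateField.mem_adjoin_simple_self _ _

theorem FA_S16_AU_algebraMap_mem (a : FA_S16_AU_F ℓ) :
    algebraMap (FA_S16_AU_F ℓ) (FA_S16_AU_L ℓ) a ∈ FA_S16_AU_kappa ℓ p :=
  (IntermediateField.adjoin (FA_S16_AU_F ℓ) {FA_S16_AU_t ℓ p}).algebraMap_mem a

/-! ### Basic facts on `Δ̄(X^p)` and `t` -/

theorem FA_S16_AU_dd_coeff_p : PowerSeries.coeff p (FA_S16_AU_dd ℓ p) = 1 := by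
  have := PowerSeries.coeff_expand_mul p (NeZero.ne p) (FA_S16_AU_DF ℓ) 1
  rw [mul_one, FA_S16_AU_DF_one] at this
  exact this

theorem FA_S16_AU_dd_ne_zero : FA_S16_AU_dd ℓ p ≠ 0 := by
  intro h
  have := FA_S16_AU_dd_coeff_p ℓ p
  rw [h] at this
  simp at this

theorem FA_S16_AU_dL_ne_zero : FA_S16_AU_dL ℓ p ≠ 0 := by
  intro h
  exact FA_S16_AU_dd_ne_zero ℓ p (FA_S16_AU_al_inj ℓ (by simpa [FA_S16_AU_dL] using h))

theorem FA_S16_AU_dd_const : PowerSeries.constantCoeff (FA_S16_AU_dd ℓ p) = 0 := by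
  rw [FA_S16_AU_dd, PowerSeries.constantCoeff_expand,
    ← PowerSeries.coeff_zero_eq_constantCoeff_apply, FA_S16_AU_DF_zero]

/-- `Ē₄(X^p)³`. -/
def FA_S16_AU_ee : PowerSeries (FA_S16_AU_F ℓ) :=
  PowerSeries.expand p (NeZero.ne p) (FA_S16_AU_E4F ℓ ^ 3)

theorem FA_S16_AU_ee_const : PowerSeries.constantCoeff (FA_S16_AU_ee ℓ p) = 1 := by
  rw [FA_S16_AU_ee, PowerSeries.constantCoeff_expand, map_pow,
    ← PowerSeries.coeff_zero_eq_constantCoeff_apply, FA_S16_AU_E4F_zero, one_pow]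

theorem FA_S16_AU_t_eq : FA_S16_AU_t ℓ p = FA_S16_AU_al ℓ (FA_S16_AU_ee ℓ p) / FA_S16_AU_dL ℓ p :=
  rfl

/-- Homogenisation: `t^(N-c) = Δ̄(X^p)^c ē^(N-c) / Δ̄(X^p)^N`. -/
theorem FA_S16_AU_hom (N c : ℕ) (hc : c ≤ N) :
    FA_S16_AU_t ℓ p ^ (N - c) =
      FA_S16_AU_al ℓ (FA_S16_AU_dd ℓ p ^ c * FA_S16_AU_ee ℓ p ^ (N - c)) / FA_S16_AU_dL ℓ p ^ N := by
  have hd := FA_S16_AU_dL_ne_zero ℓ p
  rw [FA_S16_AU_t_eq, div_pow, map_mul, map_pow, map_pow]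
  rw [div_eq_div_iff (pow_ne_zero _ hd) (pow_ne_zero _ hd)]
  have : FA_S16_AU_dL ℓ p ^ N = FA_S16_AU_dL ℓ p ^ c * FA_S16_AU_dL ℓ p ^ (N - c) := by
    rw [← pow_add]; congr 1; omega
  rw [this]
  change _ = FA_S16_AU_dL ℓ p ^ c * _ * _
  ring

theorem FA_S16_AU_homsum (N : ℕ) (n : ℕ → FA_S16_AU_F ℓ) :
    ∑ c ∈ Finset.range (N + 1),
        algebraMap (FA_S16_AU_F ℓ) (FA_S16_AU_L ℓ) (n c) * FA_S16_AU_t ℓ p ^ (N - c) =
      FA_S16_AU_al ℓ (∑ c ∈ Finset.range (N + 1),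
        n c • (FA_S16_AU_dd ℓ p ^ c * FA_S16_AU_ee ℓ p ^ (N - c))) / FA_S16_AU_dL ℓ p ^ N := by
  rw [map_sum, Finset.sum_div]
  refine Finset.sum_congr rfl fun c hc => ?_
  rw [Finset.mem_range] at hc
  rw [FA_S16_AU_hom ℓ p N c (by omega), PowerSeries.smul_eq_C_mul, FA_S16_AU_algebraMap_eq,
    map_mul (FA_S16_AU_al ℓ) (PowerSeries.C (n c)), mul_div_assoc]

theorem FA_S16_AU_t_transc : Transcendental (FA_S16_AU_F ℓ) (FA_S16_AU_t ℓ p) := by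
  rw [transcendental_iff]
  intro Q hQ
  by_contra hQ0
  have hsum : Polynomial.aeval (FA_S16_AU_t ℓ p) Q =
      ∑ c ∈ Finset.range (Q.natDegree + 1),
        algebraMap (FA_S16_AU_F ℓ) (FA_S16_AU_L ℓ) (Q.coeff (Q.natDegree - c)) *
          FA_S16_AU_t ℓ p ^ (Q.natDegree - c) := by
    rw [Polynomial.aeval_eq_sum_range, ← Finset.sum_range_reflect]
    refine Finset.sum_congr rfl fun c hc => ?_
    rw [Finset.mem_range] at hc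
    rw [Algebra.smul_def]
    congr 2
  rw [hsum, FA_S16_AU_homsum, div_eq_zero_iff] at hQ
  rcases hQ with hQ | hQ
  · have h0 := FA_S16_AU_al_inj ℓ (hQ.trans (map_zero _).symm)
    have h1 := congrArg PowerSeries.constantCoeff h0
    rw [map_sum, map_zero, Finset.sum_eq_single 0] at h1
    · simp only [pow_zero, one_mul, Nat.sub_zero] at h1
      rw [PowerSeries.smul_eq_C_mul, map_mul, PowerSeries.constantCoeff_C, map_pow,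
        FA_S16_AU_ee_const, one_pow, mul_one] at h1
      exact hQ0 (Polynomial.leadingCoeff_eq_zero.1 h1)
    · intro c _ hc0
      rw [PowerSeries.smul_eq_C_mul, map_mul, map_mul, map_pow, FA_S16_AU_dd_const,
        zero_pow hc0, zero_mul, mul_zero]
    · intro h
      exact absurd (Finset.mem_range.2 (Nat.succ_pos _)) h
  · exact pow_ne_zero _ (FA_S16_AU_dL_ne_zero ℓ p) hQ

/-! ### The unit pair `(Δ(pz), p⁻¹² Δ(z))` -/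

theorem FA_S16_AU_red_unit_a :
    FA_S16_AU_Red ℓ (PowerSeries.expand p (NeZero.ne p) (qExpansion 1 Δ)) (FA_S16_AU_dd ℓ p) :=
  (FA_S16_AU_red_D ℓ).expand p (NeZero.ne p)

omit [NeZero p] in
theorem FA_S16_AU_pinv_mem (hp : p.Prime) (hpℓ : ℓ ≠ p) :
    (((p : ℂ) ^ 12)⁻¹ : ℂ) ∈ FA_S16_AU_O ℓ := by
  refine FA_S16_AU_isInt_mem ℓ ⟨1, p ^ 12, ?_, by push_cast; simp⟩
  intro h
  have := hℓ.out.dvd_of_dvd_pow h
  exact hpℓ ((Nat.prime_dvd_prime_iff_eq hℓ.out hp).1 this)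

omit [NeZero p] in
theorem FA_S16_AU_p_ne_zero (hp : p.Prime) (hpℓ : ℓ ≠ p) : ((p : ℕ) : FA_S16_AU_F ℓ) ≠ 0 :=
  FA_S16_AU_natCast_ne_zero ℓ p fun h => hpℓ ((Nat.prime_dvd_prime_iff_eq hℓ.out hp).1 h)

theorem FA_S16_AU_cbar_ne_zero (hp : p.Prime) (hpℓ : ℓ ≠ p) : FA_S16_AU_cbar ℓ p ≠ 0 :=
  inv_ne_zero (pow_ne_zero _ (FA_S16_AU_p_ne_zero ℓ p hp hpℓ))

theorem FA_S16_AU_rho_pinv (hp : p.Prime) (hpℓ : ℓ ≠ p) :
    FA_S16_AU_rho ℓ ⟨((p : ℂ) ^ 12)⁻¹, FA_S16_AU_pinv_mem ℓ p hp hpℓ⟩ = FA_S16_AU_cbar ℓ p := by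
  have h1 : (⟨((p : ℂ) ^ 12)⁻¹, FA_S16_AU_pinv_mem ℓ p hp hpℓ⟩ : FA_S16_AU_O ℓ) *
      ((p : ℕ) : FA_S16_AU_O ℓ) ^ 12 = 1 := by
    apply Subtype.ext
    have hp0 : (p : ℂ) ≠ 0 := Nat.cast_ne_zero.2 hp.ne_zero
    simp only [Subring.coe_mul, Subring.coe_pow, Subring.coe_natCast, Subring.coe_one]
    exact inv_mul_cancel₀ (pow_ne_zero _ hp0)
  have h2 := congrArg (FA_S16_AU_rho ℓ) h1
  rw [map_mul, map_pow, map_natCast, map_one] at h2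
  exact eq_inv_of_mul_eq_one_left h2

theorem FA_S16_AU_red_unit_b (hp : p.Prime) (hpℓ : ℓ ≠ p) :
    FA_S16_AU_Red ℓ ((((p : ℂ) ^ 12)⁻¹ : ℂ) • qExpansion 1 Δ)
      (FA_S16_AU_cbar ℓ p • FA_S16_AU_DF ℓ) := by
  have := (FA_S16_AU_red_D ℓ).smul ⟨((p : ℂ) ^ 12)⁻¹, FA_S16_AU_pinv_mem ℓ p hp hpℓ⟩
  rw [FA_S16_AU_rho_pinv ℓ p hp hpℓ] at this
  exact this

/-! ### The conjugates in `L` -/

theorem FA_S16_AU_tau_iter_dL (j : ℕ) :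
    (FA_S16_AU_tau ℓ p)^[j] (FA_S16_AU_dL ℓ p) = FA_S16_AU_dL ℓ p :=
  Function.iterate_fixed (FA_S16_AU_tau_dL ℓ p) j

theorem FA_S16_AU_tau_iter_div (j : ℕ) (f : PowerSeries (FA_S16_AU_F ℓ)) (n : ℕ) :
    (FA_S16_AU_tau ℓ p)^[j] (FA_S16_AU_al ℓ f / FA_S16_AU_dL ℓ p ^ n) =
      FA_S16_AU_al ℓ (PowerSeries.rescale (FA_S16_AU_zetaF ℓ p (NeZero.ne p) ^ j) f) /
        FA_S16_AU_dL ℓ p ^ n := by
  rw [← RingHom.coe_pow, map_div₀, map_pow, RingHom.coe_pow, FA_S16_AU_tau_iter_al,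
    FA_S16_AU_tau_iter_dL]

theorem FA_S16_AU_tau_iter_u0 (j : ℕ) :
    (FA_S16_AU_tau ℓ p)^[j] (FA_S16_AU_u0 ℓ p) =
      FA_S16_AU_al ℓ (PowerSeries.rescale (FA_S16_AU_zetaF ℓ p (NeZero.ne p) ^ j)
        (FA_S16_AU_cbar ℓ p • FA_S16_AU_DF ℓ)) / FA_S16_AU_dL ℓ p := by
  have := FA_S16_AU_tau_iter_div ℓ p j (FA_S16_AU_cbar ℓ p • FA_S16_AU_DF ℓ) 1
  rwa [pow_one] at this

theorem FA_S16_AU_u0_coeff_one (j : ℕ) :
    PowerSeries.coeff 1 (PowerSeries.rescale (FA_S16_AU_zetaF ℓ p (NeZero.ne p) ^ j)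
        (FA_S16_AU_cbar ℓ p • FA_S16_AU_DF ℓ)) =
      FA_S16_AU_zetaF ℓ p (NeZero.ne p) ^ j * FA_S16_AU_cbar ℓ p := by
  rw [PowerSeries.coeff_rescale, pow_one, PowerSeries.coeff_smul, FA_S16_AU_DF_one, smul_eq_mul,
    mul_one]

theorem FA_S16_AU_uinf_coeff_one (hp : p.Prime) :
    PowerSeries.coeff 1 (PowerSeries.expand p (NeZero.ne p) (FA_S16_AU_dd ℓ p)) = 0 := by
  rw [PowerSeries.coeff_expand, if_neg]
  intro h
  exact hp.one_lt.ne' (Nat.dvd_one.1 h)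

/-- The conjugates of the unit over `𝔽`, divided by `Δ̄(X^p)`, in `L`. -/
theorem FA_S16_AU_Psi_eq :
    FA_S16_AU_Psi (FA_S16_AU_tau ℓ p) p (FA_S16_AU_uinf ℓ p) (FA_S16_AU_u0 ℓ p) =
      ∏ o : Option (Fin p), (Polynomial.X - Polynomial.C
        (FA_S16_AU_al ℓ (FA_S16_AU_conjF ℓ p (FA_S16_AU_dd ℓ p)
          (FA_S16_AU_cbar ℓ p • FA_S16_AU_DF ℓ) o) / FA_S16_AU_dL ℓ p)) := by
  rw [Fintype.prod_option, FA_S16_AU_Psi]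
  congr 1
  rw [← Fin.prod_univ_eq_prod_range]
  refine Finset.prod_congr rfl fun j _ => ?_
  rw [FA_S16_AU_tau_iter_u0]
  rfl

theorem FA_S16_AU_Psi_coeff (n : ℕ) :
    (FA_S16_AU_Psi (FA_S16_AU_tau ℓ p) p (FA_S16_AU_uinf ℓ p) (FA_S16_AU_u0 ℓ p)).coeff n *
        FA_S16_AU_dL ℓ p ^ (p + 1) =
      FA_S16_AU_al ℓ ((FA_S16_AU_charpolyF ℓ p (FA_S16_AU_dd ℓ p)
        (FA_S16_AU_cbar ℓ p • FA_S16_AU_DF ℓ)).coeff n) * FA_S16_AU_dL ℓ p ^ n := by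
  rw [FA_S16_AU_Psi_eq]
  have := FA_S16_AU_scale_coeff (Finset.univ : Finset (Option (Fin p)))
    (fun o => FA_S16_AU_al ℓ (FA_S16_AU_conjF ℓ p (FA_S16_AU_dd ℓ p)
          (FA_S16_AU_cbar ℓ p • FA_S16_AU_DF ℓ) o)) (FA_S16_AU_dL ℓ p)
    (FA_S16_AU_dL_ne_zero ℓ p) n
  rw [Finset.card_univ, Fintype.card_option, Fintype.card_fin] at this
  rw [this, ← Polynomial.coeff_map, FA_S16_AU_charpolyF, Polynomial.map_prod]
  simp only [Polynomial.map_sub, Polynomial.map_X, Polynomial.map_C]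

/-! ### Level one forms of weight `12 M` as polynomials in `t` -/

theorem FA_S16_AU_expand_basis (M : ℕ) (n : ℕ → FA_S16_AU_F ℓ) :
    PowerSeries.expand p (NeZero.ne p)
        (∑ c ∈ Finset.range (M + 1), n c • FA_S16_AU_basisF ℓ (12 * M) c) =
      ∑ c ∈ Finset.range (M + 1), n c • (FA_S16_AU_dd ℓ p ^ c * FA_S16_AU_ee ℓ p ^ (M - c)) := by
  rw [map_sum]
  refine Finset.sum_congr rfl fun c hc => ?_
  rw [Finset.mem_range] at hc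
  have he : FA_S16_AU_ee ℓ p = (PowerSeries.expand p (NeZero.ne p) (FA_S16_AU_E4F ℓ)) ^ 3 := by
    rw [FA_S16_AU_ee, map_pow]
  rw [FA_S16_AU_basisF_twelve ℓ M c (by omega), PowerSeries.expand_smul, map_mul, map_pow,
    map_pow, pow_mul, he]
  rfl

/-- The bridge, in `L`. -/
theorem FA_S16_AU_bridgeL (hSym : FA_S16_Target_AnSym) [Fact p.Prime] (M k i : ℕ)
    (hk : k * i = 12 * M) {a b : PowerSeries ℂ} (hab : FA_S16_IsPair p k a b)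
    {a' b' : PowerSeries (FA_S16_AU_F ℓ)} (ha : FA_S16_AU_Red ℓ a a') (hb : FA_S16_AU_Red ℓ b b')
    (hi : i ≤ p + 1) :
    ∃ n : ℕ → FA_S16_AU_F ℓ,
      FA_S16_AU_al ℓ ((FA_S16_AU_charpolyF ℓ p a' b').coeff (p + 1 - i)) / FA_S16_AU_dL ℓ p ^ M =
        ∑ c ∈ Finset.range (M + 1),
          algebraMap (FA_S16_AU_F ℓ) (FA_S16_AU_L ℓ) (n c) * FA_S16_AU_t ℓ p ^ (M - c) := by
  obtain ⟨n, hn⟩ := FA_S16_AU_bridge hSym p k hab ha hb i hi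
  refine ⟨n, ?_⟩
  rw [hk, Nat.mul_div_cancel_left M (by norm_num : 0 < 12), FA_S16_AU_expand_basis] at hn
  rw [hn, FA_S16_AU_homsum]

theorem FA_S16_AU_sum_mem_kappa (M : ℕ) (n : ℕ → FA_S16_AU_F ℓ) :
    ∑ c ∈ Finset.range (M + 1),
        algebraMap (FA_S16_AU_F ℓ) (FA_S16_AU_L ℓ) (n c) * FA_S16_AU_t ℓ p ^ (M - c) ∈
      FA_S16_AU_kappa ℓ p :=
  Subfield.sum_mem _ fun c _ =>
    Subfield.mul_mem _ (FA_S16_AU_algebraMap_mem ℓ p (n c))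
      (Subfield.pow_mem _ (FA_S16_AU_t_mem ℓ p) _)

theorem FA_S16_AU_sum_eq_aeval (M : ℕ) (n : ℕ → FA_S16_AU_F ℓ) :
    ∑ c ∈ Finset.range (M + 1),
        algebraMap (FA_S16_AU_F ℓ) (FA_S16_AU_L ℓ) (n c) * FA_S16_AU_t ℓ p ^ (M - c) =
      Polynomial.aeval (FA_S16_AU_t ℓ p)
        (∑ c ∈ Finset.range (M + 1), Polynomial.C (n c) * Polynomial.X ^ (M - c)) := by
  rw [map_sum]
  refine Finset.sum_congr rfl fun c _ => ?_
  rw [map_mul, Polynomial.aeval_C, map_pow, Polynomial.aeval_X]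

/-- The coefficients of `Ψ` in terms of those of the characteristic polynomial. -/
theorem FA_S16_AU_Psi_coeff_of (i : ℕ) (hi : i ≤ p + 1) (n : ℕ → FA_S16_AU_F ℓ)
    (hn : (FA_S16_AU_charpolyF ℓ p (FA_S16_AU_dd ℓ p)
        (FA_S16_AU_cbar ℓ p • FA_S16_AU_DF ℓ)).coeff (p + 1 - i) =
      PowerSeries.expand p (NeZero.ne p)
        (∑ c ∈ Finset.range (i + 1), n c • FA_S16_AU_basisF ℓ (12 * i) c)) :
    (FA_S16_AU_Psi (FA_S16_AU_tau ℓ p) p (FA_S16_AU_uinf ℓ p) (FA_S16_AU_u0 ℓ p)).coeff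
        (p + 1 - i) =
      ∑ c ∈ Finset.range (i + 1),
        algebraMap (FA_S16_AU_F ℓ) (FA_S16_AU_L ℓ) (n c) * FA_S16_AU_t ℓ p ^ (i - c) := by
  rw [FA_S16_AU_expand_basis] at hn
  rw [FA_S16_AU_homsum, ← hn]
  have hd := FA_S16_AU_dL_ne_zero ℓ p
  rw [eq_div_iff (pow_ne_zero _ hd)]
  have h1 := FA_S16_AU_Psi_coeff ℓ p (p + 1 - i)
  have h2 : FA_S16_AU_dL ℓ p ^ (p + 1) = FA_S16_AU_dL ℓ p ^ i * FA_S16_AU_dL ℓ p ^ (p + 1 - i) := by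
    rw [← pow_add]; congr 1; omega
  rw [h2, ← mul_assoc] at h1
  exact mul_right_cancel₀ (pow_ne_zero _ hd) h1

theorem FA_S16_AU_unit_bridge (hSym : FA_S16_Target_AnSym) (hRing : FA_S16_Target_AnRing)
    [Fact p.Prime] (hpℓ : ℓ ≠ p) (i : ℕ) (hi : i ≤ p + 1) :
    ∃ n : ℕ → FA_S16_AU_F ℓ,
      (FA_S16_AU_charpolyF ℓ p (FA_S16_AU_dd ℓ p)
        (FA_S16_AU_cbar ℓ p • FA_S16_AU_DF ℓ)).coeff (p + 1 - i) =
      PowerSeries.expand p (NeZero.ne p)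
        (∑ c ∈ Finset.range (i + 1), n c • FA_S16_AU_basisF ℓ (12 * i) c) := by
  have hpair : FA_S16_IsPair p ((12 : ℕ) : ℤ)
      (PowerSeries.expand p (NeZero.ne p) (qExpansion 1 Δ))
      ((((p : ℂ) ^ 12)⁻¹ : ℂ) • qExpansion 1 Δ) := (hRing p).2.2.2.2
  obtain ⟨n, hn⟩ := FA_S16_AU_bridge hSym p 12 hpair (FA_S16_AU_red_unit_a ℓ p)
    (FA_S16_AU_red_unit_b ℓ p Fact.out hpℓ) i hi
  rw [Nat.mul_div_cancel_left i (by norm_num : 0 < 12)] at hn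
  exact ⟨n, hn⟩

/-- The coefficients of `Ψ` are polynomials in `t`. -/
theorem FA_S16_AU_Psi_coeff_sum (hSym : FA_S16_Target_AnSym) (hRing : FA_S16_Target_AnRing)
    [Fact p.Prime] (hpℓ : ℓ ≠ p) (i : ℕ) (hi : i ≤ p + 1) :
    ∃ n : ℕ → FA_S16_AU_F ℓ,
      (FA_S16_AU_Psi (FA_S16_AU_tau ℓ p) p (FA_S16_AU_uinf ℓ p) (FA_S16_AU_u0 ℓ p)).coeff
          (p + 1 - i) =
        ∑ c ∈ Finset.range (i + 1),
          algebraMap (FA_S16_AU_F ℓ) (FA_S16_AU_L ℓ) (n c) * FA_S16_AU_t ℓ p ^ (i - c) := by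
  obtain ⟨n, hn⟩ := FA_S16_AU_unit_bridge ℓ p hSym hRing hpℓ i hi
  exact ⟨n, FA_S16_AU_Psi_coeff_of ℓ p i hi n hn⟩

theorem FA_S16_AU_Psi_coeff_mem (hSym : FA_S16_Target_AnSym) (hRing : FA_S16_Target_AnRing)
    [Fact p.Prime] (hpℓ : ℓ ≠ p) (n : ℕ) :
    ∃ Q : Polynomial (FA_S16_AU_F ℓ),
      (FA_S16_AU_Psi (FA_S16_AU_tau ℓ p) p (FA_S16_AU_uinf ℓ p) (FA_S16_AU_u0 ℓ p)).coeff n =
        Polynomial.aeval (FA_S16_AU_t ℓ p) Q := by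
  by_cases hn : n ≤ p + 1
  · obtain ⟨nn, h⟩ := FA_S16_AU_Psi_coeff_sum ℓ p hSym hRing hpℓ (p + 1 - n) (by omega)
    have h1 : p + 1 - (p + 1 - n) = n := by omega
    rw [h1, FA_S16_AU_sum_eq_aeval] at h
    exact ⟨_, h⟩
  · refine ⟨0, ?_⟩
    rw [map_zero]
    apply Polynomial.coeff_eq_zero_of_natDegree_lt
    rw [FA_S16_AU_Psi_natDegree]
    omega

theorem FA_S16_AU_aeval_mem (Q : Polynomial (FA_S16_AU_F ℓ)) :
    Polynomial.aeval (FA_S16_AU_t ℓ p) Q ∈ FA_S16_AU_kappa ℓ p := by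
  rw [Polynomial.aeval_eq_sum_range]
  refine Subfield.sum_mem _ fun c _ => ?_
  rw [Algebra.smul_def]
  exact Subfield.mul_mem _ (FA_S16_AU_algebraMap_mem ℓ p _)
      (Subfield.pow_mem _ (FA_S16_AU_t_mem ℓ p) _)

/-- **The system of conjugates.** -/
theorem FA_S16_AU_sys (hSym : FA_S16_Target_AnSym) (hRing : FA_S16_Target_AnRing)
    [Fact p.Prime] (hpℓ : ℓ ≠ p) :
    FA_S16_AU_Sys (FA_S16_AU_kappa ℓ p) (FA_S16_AU_tau ℓ p) p (FA_S16_AU_uinf ℓ p)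
      (FA_S16_AU_u0 ℓ p) where
  fixκ := FA_S16_AU_kappa_fix ℓ p
  fixinf := FA_S16_AU_tau_uinf ℓ p
  period := by
    rw [FA_S16_AU_tau_iter_u0, FA_S16_AU_zetaF_pow, PowerSeries.rescale_one]
    rfl
  inj := by
    intro i j hi hj h
    rw [FA_S16_AU_tau_iter_u0, FA_S16_AU_tau_iter_u0] at h
    have h1 := FA_S16_AU_al_inj ℓ ((div_left_inj' (FA_S16_AU_dL_ne_zero ℓ p)).1 h)
    have h2 := congrArg (PowerSeries.coeff 1) h1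
    rw [FA_S16_AU_u0_coeff_one, FA_S16_AU_u0_coeff_one] at h2
    have h3 := mul_right_cancel₀ (FA_S16_AU_cbar_ne_zero ℓ p Fact.out hpℓ) h2
    exact (FA_S16_AU_zetaF_prim ℓ p Fact.out hpℓ).pow_inj hi hj h3
  neinf := by
    intro j _ h
    rw [FA_S16_AU_tau_iter_u0] at h
    have h1 := FA_S16_AU_al_inj ℓ ((div_left_inj' (FA_S16_AU_dL_ne_zero ℓ p)).1 h)
    have h2 := congrArg (PowerSeries.coeff 1) h1
    rw [FA_S16_AU_u0_coeff_one, FA_S16_AU_uinf_coeff_one ℓ p Fact.out] at h2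
    exact mul_ne_zero (pow_ne_zero _ (FA_S16_AU_zetaF_ne_zero ℓ p))
      (FA_S16_AU_cbar_ne_zero ℓ p Fact.out hpℓ) h2
  coeff := by
    intro n
    obtain ⟨Q, hQ⟩ := FA_S16_AU_Psi_coeff_mem ℓ p hSym hRing hpℓ n
    have := FA_S16_AU_aeval_mem ℓ p Q
    rw [← hQ] at this
    exact this

/-! ### The constant term of `Ψ` -/

theorem FA_S16_AU_DF_ord : FA_S16_AU_Ord (FA_S16_AU_DF ℓ) 1 1 := by
  have := FA_S16_AU_Ord.of_coeff (f := FA_S16_AU_DF ℓ) (n := 1)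
    (by intro k hk; interval_cases k; exact FA_S16_AU_DF_zero ℓ)
  rwa [FA_S16_AU_DF_one] at this

theorem FA_S16_AU_E4F_ord : FA_S16_AU_Ord (FA_S16_AU_E4F ℓ) 0 1 := by
  have := FA_S16_AU_Ord.of_coeff (f := FA_S16_AU_E4F ℓ) (n := 0) (by intro k hk; omega)
  rwa [FA_S16_AU_E4F_zero] at this

theorem FA_S16_AU_E6F_ord : FA_S16_AU_Ord (FA_S16_AU_E6F ℓ) 0 1 := by
  have := FA_S16_AU_Ord.of_coeff (f := FA_S16_AU_E6F ℓ) (n := 0) (by intro k hk; omega)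
  rwa [FA_S16_AU_E6F_zero] at this

theorem FA_S16_AU_basisF_ord (k c : ℕ) : FA_S16_AU_Ord (FA_S16_AU_basisF ℓ k c) c 1 := by
  have := (((FA_S16_AU_DF_ord ℓ).pow c).mul ((FA_S16_AU_E4F_ord ℓ).pow
    ((k - 12 * c - 6 * (((k - 12 * c) / 2) % 2)) / 4))).mul
      ((FA_S16_AU_E6F_ord ℓ).pow (((k - 12 * c) / 2) % 2))
  simpa [FA_S16_AU_basisF] using this

theorem FA_S16_AU_charpolyF_zero_ord [Fact p.Prime] (hpℓ : ℓ ≠ p) :
    ∃ γ : FA_S16_AU_F ℓ, γ ≠ 0 ∧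
      FA_S16_AU_Ord ((FA_S16_AU_charpolyF ℓ p (FA_S16_AU_dd ℓ p)
        (FA_S16_AU_cbar ℓ p • FA_S16_AU_DF ℓ)).coeff 0) (p * (p + 1)) γ := by
  have h1 : FA_S16_AU_Ord (-FA_S16_AU_conjF ℓ p (FA_S16_AU_dd ℓ p)
      (FA_S16_AU_cbar ℓ p • FA_S16_AU_DF ℓ) none) (p * (p * 1)) (-1) :=
    (((FA_S16_AU_DF_ord ℓ).expand p (NeZero.ne p)).expand p (NeZero.ne p)).neg
  have h2 : ∀ j : Fin p, FA_S16_AU_Ord (-FA_S16_AU_conjF ℓ p (FA_S16_AU_dd ℓ p)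
      (FA_S16_AU_cbar ℓ p • FA_S16_AU_DF ℓ) (some j)) 1
      (-((FA_S16_AU_zetaF ℓ p (NeZero.ne p) ^ (j : ℕ)) ^ 1 * (FA_S16_AU_cbar ℓ p * 1))) :=
    fun j => (((FA_S16_AU_DF_ord ℓ).smul (FA_S16_AU_cbar ℓ p)).rescale _).neg
  have h3 := h1.mul (FA_S16_AU_Ord.prod Finset.univ (fun j _ => h2 j))
  refine ⟨-1 * ∏ i : Fin p, -((FA_S16_AU_zetaF ℓ p (NeZero.ne p) ^ (i : ℕ)) ^ 1 *
    (FA_S16_AU_cbar ℓ p * 1)), ?_, ?_⟩
  swap
  · rw [Polynomial.coeff_zero_eq_eval_zero, FA_S16_AU_charpolyF, Polynomial.eval_prod]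
    simp only [Polynomial.eval_sub, Polynomial.eval_X, Polynomial.eval_C, zero_sub]
    rw [Fintype.prod_option]
    have hn : p * (p + 1) = p * (p * 1) + ∑ _j : Fin p, 1 := by
      rw [Finset.sum_const, Finset.card_univ, Fintype.card_fin, smul_eq_mul]
      ring
    rw [hn]
    exact h3
  · refine mul_ne_zero (neg_ne_zero.2 one_ne_zero) ?_
    rw [Finset.prod_ne_zero_iff]
    intro j _
    refine neg_ne_zero.2 (mul_ne_zero (pow_ne_zero _ (pow_ne_zero _ (FA_S16_AU_zetaF_ne_zero ℓ p)))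
      (mul_ne_zero (FA_S16_AU_cbar_ne_zero ℓ p Fact.out hpℓ) one_ne_zero))

/-- The constant term of `Ψ` is a nonzero constant. -/
theorem FA_S16_AU_Psi_coeff_zero (hSym : FA_S16_Target_AnSym) (hRing : FA_S16_Target_AnRing)
    [Fact p.Prime] (hpℓ : ℓ ≠ p) :
    ∃ γ : FA_S16_AU_F ℓ, γ ≠ 0 ∧
      (FA_S16_AU_Psi (FA_S16_AU_tau ℓ p) p (FA_S16_AU_uinf ℓ p) (FA_S16_AU_u0 ℓ p)).coeff 0 =
        algebraMap (FA_S16_AU_F ℓ) (FA_S16_AU_L ℓ) γ := by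
  obtain ⟨n, hn⟩ := FA_S16_AU_unit_bridge ℓ p hSym hRing hpℓ (p + 1) le_rfl
  obtain ⟨γ, hγ, hord⟩ := FA_S16_AU_charpolyF_zero_ord ℓ p hpℓ
  have h0 : p + 1 - (p + 1) = 0 := Nat.sub_self _
  have hn' := hn
  rw [h0] at hn'
  have hp0 : 0 < p := Nat.pos_of_ne_zero (NeZero.ne p)
  have hS_lt : ∀ k, k < p + 1 → PowerSeries.coeff k
      (∑ c ∈ Finset.range (p + 1 + 1), n c • FA_S16_AU_basisF ℓ (12 * (p + 1)) c) = 0 := by
    intro k hk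
    rw [← PowerSeries.coeff_expand_mul p (NeZero.ne p), ← hn']
    exact hord.coeff_lt _ (Nat.mul_lt_mul_of_pos_left hk hp0)
  have hS_eq : PowerSeries.coeff (p + 1)
      (∑ c ∈ Finset.range (p + 1 + 1), n c • FA_S16_AU_basisF ℓ (12 * (p + 1)) c) = γ := by
    rw [← PowerSeries.coeff_expand_mul p (NeZero.ne p), ← hn']
    exact hord.coeff_eq
  have hn0 : ∀ c, c ≤ p + 1 → c < p + 1 → n c = 0 :=
    FA_S16_AU_tri (p + 1) (FA_S16_AU_basisF ℓ (12 * (p + 1)))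
      (fun c k hk => (FA_S16_AU_basisF_ord ℓ _ c).coeff_lt k hk)
      (fun c => (FA_S16_AU_basisF_ord ℓ _ c).coeff_eq)
      (fun x => x = 0) (fun x y hx hy => by rw [hx, hy, add_zero]) (fun x hx => by rw [hx, neg_zero])
      rfl (fun x c k hx => by rw [hx, zero_mul]) n (p + 1) hS_lt
  have hnγ : n (p + 1) = γ := by
    rw [← hS_eq, map_sum, Finset.sum_eq_single (p + 1)]
    · rw [PowerSeries.coeff_smul, (FA_S16_AU_basisF_ord ℓ _ (p + 1)).coeff_eq, smul_eq_mul, mul_one]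
    · intro c hc hc1
      rw [Finset.mem_range] at hc
      rw [hn0 c (by omega) (by omega), zero_smul, map_zero]
    · intro h
      exact absurd (Finset.mem_range.2 (Nat.lt_succ_self _)) h
  refine ⟨γ, hγ, ?_⟩
  have h1 := FA_S16_AU_Psi_coeff_of ℓ p (p + 1) le_rfl n hn
  rw [h0] at h1
  rw [h1, Finset.sum_eq_single (p + 1)]
  · rw [Nat.sub_self, pow_zero, mul_one, hnγ]
  · intro c hc hc1
    rw [Finset.mem_range] at hc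
    rw [hn0 c (by omega) (by omega), map_zero, zero_mul]
  · intro h
    exact absurd (Finset.mem_range.2 (Nat.lt_succ_self _)) h

/-! ### `uinf ∉ κ` -/

theorem FA_S16_AU_expand_dd_ne_zero :
    PowerSeries.expand p (NeZero.ne p) (FA_S16_AU_dd ℓ p) ≠ 0 := by
  intro h
  have := PowerSeries.coeff_expand_mul p (NeZero.ne p) (FA_S16_AU_dd ℓ p) p
  rw [h, FA_S16_AU_dd_coeff_p] at this
  simp at this

theorem FA_S16_AU_uinf_ne_zero : FA_S16_AU_uinf ℓ p ≠ 0 := by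
  unfold FA_S16_AU_uinf
  refine div_ne_zero ?_ (FA_S16_AU_dL_ne_zero ℓ p)
  intro h
  exact FA_S16_AU_expand_dd_ne_zero ℓ p (FA_S16_AU_al_inj ℓ (h.trans (map_zero _).symm))

theorem FA_S16_AU_uinf_not_const [Fact p.Prime] (a : FA_S16_AU_F ℓ) :
    FA_S16_AU_uinf ℓ p ≠ algebraMap (FA_S16_AU_F ℓ) (FA_S16_AU_L ℓ) a := by
  intro h
  have hp : p.Prime := Fact.out
  have h1 : FA_S16_AU_al ℓ (PowerSeries.expand p (NeZero.ne p) (FA_S16_AU_dd ℓ p)) =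
      FA_S16_AU_al ℓ (PowerSeries.C a * FA_S16_AU_dd ℓ p) := by
    rw [map_mul, ← FA_S16_AU_algebraMap_eq, ← h, FA_S16_AU_uinf]
    exact (div_mul_cancel₀ _ (FA_S16_AU_dL_ne_zero ℓ p)).symm
  have h2 := FA_S16_AU_al_inj ℓ h1
  have h3 := congrArg (PowerSeries.coeff p) h2
  have h4 : PowerSeries.coeff p (PowerSeries.expand p (NeZero.ne p) (FA_S16_AU_dd ℓ p)) = 0 := by
    have := PowerSeries.coeff_expand_mul p (NeZero.ne p) (FA_S16_AU_dd ℓ p) 1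
    rw [mul_one] at this
    rw [this, FA_S16_AU_dd, PowerSeries.coeff_expand, if_neg]
    intro hd
    exact hp.one_lt.ne' (Nat.dvd_one.1 hd)
  rw [h4, PowerSeries.coeff_C_mul, FA_S16_AU_dd_coeff_p, mul_one] at h3
  rw [← h3, map_zero] at h
  exact FA_S16_AU_uinf_ne_zero ℓ p h

theorem FA_S16_AU_uinf_not_rat (hSym : FA_S16_Target_AnSym) (hRing : FA_S16_Target_AnRing)
    [Fact p.Prime] (hpℓ : ℓ ≠ p) (A B : Polynomial (FA_S16_AU_F ℓ)) (hB : B ≠ 0) :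
    Polynomial.aeval (FA_S16_AU_t ℓ p) B * FA_S16_AU_uinf ℓ p ≠
      Polynomial.aeval (FA_S16_AU_t ℓ p) A := by
  intro h
  obtain ⟨γ, hγ, h0⟩ := FA_S16_AU_Psi_coeff_zero ℓ p hSym hRing hpℓ
  obtain ⟨a, ha⟩ := FA_S16_AU_const' (FA_S16_AU_t ℓ p) (FA_S16_AU_uinf ℓ p)
    (FA_S16_AU_t_transc ℓ p)
    (FA_S16_AU_Psi (FA_S16_AU_tau ℓ p) p (FA_S16_AU_uinf ℓ p) (FA_S16_AU_u0 ℓ p))
    (FA_S16_AU_Psi_monic _ _ _ _) (FA_S16_AU_Psi_coeff_mem ℓ p hSym hRing hpℓ) γ hγ h0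
    (by simp [FA_S16_AU_Psi]) A B hB h
  exact FA_S16_AU_uinf_not_const ℓ p a ha

theorem FA_S16_AU_uinf_notin (hSym : FA_S16_Target_AnSym) (hRing : FA_S16_Target_AnRing)
    [Fact p.Prime] (hpℓ : ℓ ≠ p) : FA_S16_AU_uinf ℓ p ∉ FA_S16_AU_kappa ℓ p := by
  intro h
  have h' : FA_S16_AU_uinf ℓ p ∈ IntermediateField.adjoin (FA_S16_AU_F ℓ) {FA_S16_AU_t ℓ p} := h
  rw [IntermediateField.mem_adjoin_simple_iff] at h'
  obtain ⟨r, s, hrs⟩ := h'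
  by_cases hs : Polynomial.aeval (FA_S16_AU_t ℓ p) s = 0
  · rw [hs, div_zero] at hrs
    exact FA_S16_AU_uinf_ne_zero ℓ p hrs
  · have hs0 : s ≠ 0 := by
      rintro rfl
      exact hs (map_zero _)
    refine FA_S16_AU_uinf_not_rat ℓ p hSym hRing hpℓ r s hs0 ?_
    rw [hrs, mul_div_cancel₀ _ hs]

end FA_S16
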