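import Mathlib
import Fermat.Agent.S16.AlgUnitSys
import Fermat.Agent.S16.AlgT2Interface

/-!
# S16, leaf ALG-T2: one step in weight `12 M`

If `(a, b)` is a pair of weight `12 M` with `ā = 0`, then `b̄ = 0`: the traces
`∑_j τ^j (b̄ / Δ̄(X^p)^M) (τ^j u0)^m`, `m ≤ p`, lie in `κ = 𝔽(t)` (AN-SYM for the pair
`(a Δ(pz)^m, b (p⁻¹² Δ)^m)`), so `b̄ = 0` by the trace lemma.
-/

set_option autoImplicit false

noncomputable section

namespace FA_S16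

open ModularForm ModularFormClass UpperHalfPlane CongruenceSubgroup MatrixGroups EisensteinSeries

local notation "Δ" => ModularForm.discriminant

variable (ℓ : ℕ) [hℓ : Fact ℓ.Prime] (p : ℕ) [NeZero p]

omit hℓ in
/-- The pair `(a Δ(pz)^m, b (p⁻¹² Δ)^m)`. -/
theorem FA_S16_T2_pair_pow (hRing : FA_S16_Target_AnRing) [Fact p.Prime] (M : ℕ)
    {a b : PowerSeries ℂ} (hab : FA_S16_IsPair p ((12 * M : ℕ) : ℤ) a b) (m : ℕ) :
    FA_S16_IsPair p ((12 * (M + m) : ℕ) : ℤ)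
      (a * PowerSeries.expand p (NeZero.ne p) (qExpansion 1 Δ) ^ m)
      (b * ((((p : ℂ) ^ 12)⁻¹ : ℂ) • qExpansion 1 Δ) ^ m) := by
  induction m with
  | zero => simpa using hab
  | succ m ih =>
    have h := (hRing p).2.1 _ _ _ _ _ _ ih (hRing p).2.2.2.2
    have e : ((12 * (M + (m + 1)) : ℕ) : ℤ) = ((12 * (M + m) : ℕ) : ℤ) + 12 := by
      push_cast; ring
    rw [e, pow_succ, ← mul_assoc, pow_succ, ← mul_assoc]
    exact h

/-- The sum of the conjugates is minus the coefficient of `T^p`. -/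
theorem FA_S16_T2_charpolyF_coeff (a b : PowerSeries (FA_S16_AU_F ℓ)) :
    (FA_S16_AU_charpolyF ℓ p a b).coeff (p + 1 - 1) =
      -(PowerSeries.expand p (NeZero.ne p) a +
        ∑ j ∈ Finset.range p, PowerSeries.rescale (FA_S16_AU_zetaF ℓ p (NeZero.ne p) ^ j) b) := by
  have hcard : (Finset.univ : Finset (Option (Fin p))).card = p + 1 := by simp
  have h := Polynomial.prod_X_sub_C_coeff_card_pred (Finset.univ : Finset (Option (Fin p)))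
    (FA_S16_AU_conjF ℓ p a b) (by rw [hcard]; omega)
  rw [hcard] at h
  rw [FA_S16_AU_charpolyF, h, Fintype.sum_option,
    ← Fin.sum_univ_eq_sum_range
      (fun j => PowerSeries.rescale (FA_S16_AU_zetaF ℓ p (NeZero.ne p) ^ j) b)]
  rfl

/-- The trace term. -/
theorem FA_S16_T2_trace_term (β : PowerSeries (FA_S16_AU_F ℓ)) (M m j : ℕ) :
    (FA_S16_AU_tau ℓ p)^[j] (FA_S16_AU_al ℓ β / FA_S16_AU_dL ℓ p ^ M) *
        ((FA_S16_AU_tau ℓ p)^[j] (FA_S16_AU_u0 ℓ p)) ^ m =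
      FA_S16_AU_al ℓ (PowerSeries.rescale (FA_S16_AU_zetaF ℓ p (NeZero.ne p) ^ j)
        (β * (FA_S16_AU_cbar ℓ p • FA_S16_AU_DF ℓ) ^ m)) / FA_S16_AU_dL ℓ p ^ (M + m) := by
  rw [FA_S16_AU_tau_iter_div, FA_S16_AU_tau_iter_u0, div_pow, div_mul_div_comm, ← pow_add,
    map_mul, map_mul, map_pow, map_pow]

/-- **One step, reduced form**: a pair of weight `12 M` with `ā = 0` has `b̄ = 0`. -/
theorem FA_S16_T2_red_step (hSym : FA_S16_Target_AnSym) (hRing : FA_S16_Target_AnRing)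
    [Fact p.Prime] (hpℓ : ℓ ≠ p) (M : ℕ) {a b : PowerSeries ℂ}
    (hab : FA_S16_IsPair p ((12 * M : ℕ) : ℤ) a b) (ha : FA_S16_AU_Red ℓ a 0)
    {β : PowerSeries (FA_S16_AU_F ℓ)} (hb : FA_S16_AU_Red ℓ b β) : β = 0 := by
  have hp0 : 0 < p := Nat.pos_of_ne_zero (NeZero.ne p)
  have hd := FA_S16_AU_dL_ne_zero ℓ p
  have key : FA_S16_AU_al ℓ β / FA_S16_AU_dL ℓ p ^ M = 0 := by
    refine FA_S16_AU_trace (FA_S16_AU_sys ℓ p hSym hRing hpℓ) hp0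
      (FA_S16_AU_uinf_notin ℓ p hSym hRing hpℓ) _ ?_
    intro m _
    obtain ⟨n, hn⟩ := FA_S16_AU_bridgeL ℓ p hSym (M + m) (12 * (M + m)) 1 (mul_one _)
      (FA_S16_T2_pair_pow p hRing M hab m)
      (ha.mul ((FA_S16_AU_red_unit_a ℓ p).pow m))
      (hb.mul ((FA_S16_AU_red_unit_b ℓ p Fact.out hpℓ).pow m)) (by omega)
    rw [FA_S16_T2_charpolyF_coeff, zero_mul, map_zero, zero_add, map_neg, neg_div,
      neg_eq_iff_eq_neg] at hn
    have hmem := Subfield.neg_mem _ (FA_S16_AU_sum_mem_kappa ℓ p (M + m) n)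
    rw [← hn, map_sum, Finset.sum_div] at hmem
    have : ∑ j ∈ Finset.range p,
        (FA_S16_AU_tau ℓ p)^[j] (FA_S16_AU_al ℓ β / FA_S16_AU_dL ℓ p ^ M) *
          ((FA_S16_AU_tau ℓ p)^[j] (FA_S16_AU_u0 ℓ p)) ^ m =
        ∑ j ∈ Finset.range p,
          FA_S16_AU_al ℓ (PowerSeries.rescale (FA_S16_AU_zetaF ℓ p (NeZero.ne p) ^ j)
            (β * (FA_S16_AU_cbar ℓ p • FA_S16_AU_DF ℓ) ^ m)) / FA_S16_AU_dL ℓ p ^ (M + m) :=
      Finset.sum_congr rfl fun j _ => FA_S16_T2_trace_term ℓ p β M m j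
    rw [this]
    exact hmem
  rw [div_eq_zero_iff] at key
  rcases key with h | h
  · exact FA_S16_AU_al_inj ℓ (h.trans (map_zero _).symm)
  · exact absurd h (pow_ne_zero _ hd)

/-- **One step of ALG-T2 in weight `12 M`.** -/
theorem FA_S16_T2_step12 : FA_S16_T2_Step12 := by
  intro hAn p ℓ _ hℓp hne M a b hab ha hb n
  have : Fact ℓ.Prime := ⟨hℓp⟩
  have : NeZero p := ⟨(Fact.out : p.Prime).ne_zero⟩
  obtain ⟨hSym, -, hRing, -, -⟩ := hAn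
  have hℓ0 : (ℓ : ℂ) ≠ 0 := Nat.cast_ne_zero.2 hℓp.ne_zero
  have hab' : FA_S16_IsPair p ((12 * M : ℕ) : ℤ) ((ℓ : ℂ) • a) ((ℓ : ℂ) • b) :=
    (hRing p).2.2.1 _ _ _ _ hab
  have ha' : FA_S16_AU_Red ℓ ((ℓ : ℂ) • a) 0 :=
    FA_S16_AU_Red.ell_smul a fun n => FA_S16_AU_isInt_mem ℓ (ha n)
  have hbint : ∀ n, FA_S16_IsInt ℓ (PowerSeries.coeff n ((ℓ : ℂ) • b)) := by
    intro n
    rw [PowerSeries.coeff_smul, smul_eq_mul]
    exact hb n
  obtain ⟨β, hβ⟩ := FA_S16_AU_Red.exists ((ℓ : ℂ) • b) fun n => FA_S16_AU_isInt_mem ℓ (hbint n)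
  have hβ0 : β = 0 := FA_S16_T2_red_step ℓ p hSym hRing hne M hab' ha' hβ
  rw [hβ0] at hβ
  obtain ⟨y, hy, hyeq⟩ := hβ.isInt_div hbint n
  rw [PowerSeries.coeff_smul, smul_eq_mul] at hyeq
  rw [mul_left_cancel₀ hℓ0 hyeq]
  exact hy

end FA_S16
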