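import Mathlib
import Fermat.Agent.S16.AlgUnitSys

/-!
# S16, leaf ALG-UNIT: `Δ̄(X^{p²}) / Δ̄(X^p)` is not a rational function of `j̄(X^p)`
-/

set_option autoImplicit false

noncomputable section

namespace FA_S16

open ModularForm ModularFormClass UpperHalfPlane CongruenceSubgroup MatrixGroups EisensteinSeries

local notation "Δ" => ModularForm.discriminant

variable (ℓ : ℕ) [hℓ : Fact ℓ.Prime] (p : ℕ) [NeZero p]

/-- A homogeneous form of degree `m` in `(Ē₄³, Δ̄)`. -/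
def FA_S16_AU_formF (m : ℕ) (n : ℕ → FA_S16_AU_F ℓ) : PowerSeries (FA_S16_AU_F ℓ) :=
  ∑ c ∈ Finset.range (m + 1), n c • (FA_S16_AU_E4F ℓ ^ (3 * (m - c)) * FA_S16_AU_DF ℓ ^ c)

theorem FA_S16_AU_formF_L (m : ℕ) (n : ℕ → FA_S16_AU_F ℓ) :
    FA_S16_AU_al ℓ (PowerSeries.expand p (NeZero.ne p) (FA_S16_AU_formF ℓ m n)) /
        FA_S16_AU_dL ℓ p ^ m =
      Polynomial.aeval (FA_S16_AU_t ℓ p)
        (∑ c ∈ Finset.range (m + 1), Polynomial.C (n c) * Polynomial.X ^ (m - c)) := by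
  rw [← FA_S16_AU_sum_eq_aeval, FA_S16_AU_homsum]
  congr 2
  rw [FA_S16_AU_formF, map_sum]
  refine Finset.sum_congr rfl fun c _ => ?_
  have he : FA_S16_AU_ee ℓ p = (PowerSeries.expand p (NeZero.ne p) (FA_S16_AU_E4F ℓ)) ^ 3 := by
    rw [FA_S16_AU_ee, map_pow]
  rw [PowerSeries.expand_smul, map_mul, map_pow, map_pow, pow_mul, he, mul_comm]
  rfl

theorem FA_S16_AU_formF_poly_ne_zero (m : ℕ) (n : ℕ → FA_S16_AU_F ℓ) (c0 : ℕ) (hc0 : c0 ≤ m)
    (hn : n c0 ≠ 0) :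
    (∑ c ∈ Finset.range (m + 1), Polynomial.C (n c) * Polynomial.X ^ (m - c) :
      Polynomial (FA_S16_AU_F ℓ)) ≠ 0 := by
  intro h
  have h1 := congrArg (fun P => Polynomial.coeff P (m - c0)) h
  simp only [Polynomial.finsetSum_coeff, Polynomial.coeff_C_mul, Polynomial.coeff_X_pow,
    Polynomial.coeff_zero] at h1
  rw [Finset.sum_eq_single c0] at h1
  · simp at h1
    exact hn h1
  · intro c hc hcc
    rw [Finset.mem_range] at hc
    rw [if_neg (by omega), mul_zero]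
  · intro hc
    exact absurd (Finset.mem_range.2 (by omega)) hc

variable {ℓ}

/-- Reduction of a homogeneous form with integer coefficients. -/
theorem FA_S16_AU_red_form (m : ℕ) (B : Fin (m + 1) → ℤ) :
    FA_S16_AU_Red ℓ
      (∑ c : Fin (m + 1), (B c : ℂ) •
        (qExpansion 1 E₄ ^ (3 * (m - (c : ℕ))) * qExpansion 1 Δ ^ (c : ℕ)))
      (FA_S16_AU_formF ℓ m fun c => if h : c < m + 1 then ((B ⟨c, h⟩ : ℤ) : FA_S16_AU_F ℓ) else 0) := by
  rw [FA_S16_AU_formF, Finset.sum_range]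
  refine FA_S16_AU_Red.sum _ fun c _ => ?_
  have := (((FA_S16_AU_red_E4 ℓ).pow (3 * (m - (c : ℕ)))).mul
    ((FA_S16_AU_red_D ℓ).pow (c : ℕ))).smul ((B c : ℤ) : FA_S16_AU_O ℓ)
  rw [map_intCast, Subring.coe_intCast] at this
  have hc : (c : ℕ) ≤ m := Nat.lt_succ_iff.1 c.isLt
  simpa [hc] using this

/-- **ALG-UNIT**. -/
theorem FA_S16_algUnit : FA_S16_Target_AlgUnit := by
  intro hAn p ℓ _ hℓp hne m A B hB H
  have : Fact ℓ.Prime := ⟨hℓp⟩
  have : NeZero p := ⟨(Fact.out : p.Prime).ne_zero⟩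
  obtain ⟨hSym, -, hRing, -, -⟩ := hAn
  obtain ⟨c0, hc0⟩ := hB
  set nB : ℕ → FA_S16_AU_F ℓ :=
    fun c => if h : c < m + 1 then ((B ⟨c, h⟩ : ℤ) : FA_S16_AU_F ℓ) else 0 with hnB
  set nA : ℕ → FA_S16_AU_F ℓ :=
    fun c => if h : c < m + 1 then ((A ⟨c, h⟩ : ℤ) : FA_S16_AU_F ℓ) else 0 with hnA
  -- the reduction of the series
  have hred : FA_S16_AU_Red ℓ
      ((∑ c : Fin (m + 1), (B c : ℂ) •
            (qExpansion 1 E₄ ^ (3 * (m - (c : ℕ))) * qExpansion 1 Δ ^ (c : ℕ))) *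
          PowerSeries.expand p (NeZero.ne p) (qExpansion 1 Δ) -
        (∑ c : Fin (m + 1), (A c : ℂ) •
            (qExpansion 1 E₄ ^ (3 * (m - (c : ℕ))) * qExpansion 1 Δ ^ (c : ℕ))) *
          qExpansion 1 Δ)
      (FA_S16_AU_formF ℓ m nB * FA_S16_AU_dd ℓ p - FA_S16_AU_formF ℓ m nA * FA_S16_AU_DF ℓ) :=
    ((FA_S16_AU_red_form m B).mul (FA_S16_AU_red_unit_a ℓ p)).sub
      ((FA_S16_AU_red_form m A).mul (FA_S16_AU_red_D ℓ))
  -- the series is divisible by `ℓ`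
  choose y hy using H
  have hzero : FA_S16_AU_Red ℓ
      ((∑ c : Fin (m + 1), (B c : ℂ) •
            (qExpansion 1 E₄ ^ (3 * (m - (c : ℕ))) * qExpansion 1 Δ ^ (c : ℕ))) *
          PowerSeries.expand p (NeZero.ne p) (qExpansion 1 Δ) -
        (∑ c : Fin (m + 1), (A c : ℂ) •
            (qExpansion 1 E₄ ^ (3 * (m - (c : ℕ))) * qExpansion 1 Δ ^ (c : ℕ))) *
          qExpansion 1 Δ) 0 := by
    have h1 := FA_S16_AU_Red.ell_smul (ℓ := ℓ) (PowerSeries.mk fun n => ((y n : ℤ) : ℂ))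
      (fun n => by rw [PowerSeries.coeff_mk]; exact FA_S16_AU_int_mem ℓ _)
    convert h1 using 1
    ext n
    rw [PowerSeries.coeff_smul, PowerSeries.coeff_mk, smul_eq_mul]
    exact hy n
  have h0 := hred.unique hzero
  -- pass to `L`
  have h1 : FA_S16_AU_formF ℓ m nB * FA_S16_AU_dd ℓ p = FA_S16_AU_formF ℓ m nA * FA_S16_AU_DF ℓ :=
    sub_eq_zero.1 h0
  have h2 := congrArg (fun f => FA_S16_AU_al ℓ (PowerSeries.expand p (NeZero.ne p) f)) h1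
  simp only [map_mul] at h2
  have hd := FA_S16_AU_dL_ne_zero ℓ p
  have h3 : Polynomial.aeval (FA_S16_AU_t ℓ p)
        (∑ c ∈ Finset.range (m + 1), Polynomial.C (nB c) * Polynomial.X ^ (m - c)) *
      FA_S16_AU_uinf ℓ p =
      Polynomial.aeval (FA_S16_AU_t ℓ p)
        (∑ c ∈ Finset.range (m + 1), Polynomial.C (nA c) * Polynomial.X ^ (m - c)) := by
    rw [← FA_S16_AU_formF_L, ← FA_S16_AU_formF_L, FA_S16_AU_uinf, div_mul_div_comm, h2]
    change _ * FA_S16_AU_dL ℓ p / (_ * FA_S16_AU_dL ℓ p) = _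
    rw [mul_div_mul_right _ _ hd]
  refine FA_S16_AU_uinf_not_rat ℓ p hSym hRing hne _ _ ?_ h3
  refine FA_S16_AU_formF_poly_ne_zero ℓ m nB (c0 : ℕ) (Nat.lt_succ_iff.1 c0.isLt) ?_
  rw [hnB]
  simp only [Fin.is_lt, dite_true, Fin.eta]
  intro h
  exact hc0 ((FA_S16_AU_intCast_eq_zero_iff ℓ (B c0)).1 h)

end FA_S16
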