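import Mathlib
import Fermat.Agent.S16.AlgUnitRed

/-!
# S16, case E3b: level one forms modulo `3` (lead)

In characteristic `3`: `Ē₄ = Ē₆ = 1`, so the triangular basis reduces to the powers of `Δ̄`.
-/

set_option autoImplicit false

noncomputable section

namespace FA_S16

open ModularForm ModularFormClass UpperHalfPlane CongruenceSubgroup MatrixGroups EisensteinSeries
open scoped ArithmeticFunction.sigma

local notation "Δ" => ModularForm.discriminant

instance FA_S16_E3b_charP : CharP (FA_S16_AU_F 3) 3 :=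
  (CharP.charP_iff_prime_eq_zero Nat.prime_three).mpr (FA_S16_AU_F_ell 3)

instance FA_S16_E3b_charP_ps : CharP (PowerSeries (FA_S16_AU_F 3)) 3 :=
  charP_of_injective_ringHom (f := PowerSeries.C (R := FA_S16_AU_F 3))
    PowerSeries.C_injective 3

/-- the reduction of a natural number divisible by `3` -/
theorem FA_S16_E3b_rho_nat (m : ℕ) (hm : 3 ∣ m) (x : ℂ) (hx : x ∈ FA_S16_AU_O 3)
    (hxm : x = (m : ℂ)) : FA_S16_AU_rho 3 ⟨x, hx⟩ = 0 := by
  have h1 : (⟨x, hx⟩ : FA_S16_AU_O 3) = ((m : ℕ) : FA_S16_AU_O 3) := by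
    apply Subtype.ext
    simp [hxm]
  rw [h1, map_natCast]
  obtain ⟨k, rfl⟩ := hm
  rw [Nat.cast_mul, FA_S16_AU_F_ell, zero_mul]

/-- the reduction of an integer divisible by `3` -/
theorem FA_S16_E3b_rho_int (m : ℤ) (hm : (3 : ℤ) ∣ m) (x : ℂ) (hx : x ∈ FA_S16_AU_O 3)
    (hxm : x = (m : ℂ)) : FA_S16_AU_rho 3 ⟨x, hx⟩ = 0 := by
  have h1 : (⟨x, hx⟩ : FA_S16_AU_O 3) = ((m : ℤ) : FA_S16_AU_O 3) := by
    apply Subtype.ext
    simp [hxm]
  rw [h1, map_intCast]
  exact (FA_S16_AU_intCast_eq_zero_iff 3 m).mpr (by exact_mod_cast hm)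

theorem FA_S16_E3b_E4F : FA_S16_AU_E4F 3 = 1 := by
  ext n
  rw [(FA_S16_AU_red_E4 3).coeff n (FA_S16_l1_E4_mem _ n), PowerSeries.coeff_one]
  by_cases hn : n = 0
  · subst hn
    rw [if_pos rfl]
    have : (⟨PowerSeries.coeff 0 (qExpansion 1 E₄), FA_S16_l1_E4_mem _ 0⟩ : FA_S16_AU_O 3) = 1 :=
      Subtype.ext FA_S16_anQ_E4_zero
    rw [this, map_one]
  · rw [if_neg hn]
    refine FA_S16_E3b_rho_nat (240 * σ 3 n) (Dvd.dvd.mul_right (by norm_num) _) _ _ ?_
    rw [FA_S16_anQ_E4 n (by omega)]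
    push_cast
    ring

theorem FA_S16_E3b_E6F : FA_S16_AU_E6F 3 = 1 := by
  ext n
  rw [(FA_S16_AU_red_E6 3).coeff n (FA_S16_l1_E6_mem _ n), PowerSeries.coeff_one]
  by_cases hn : n = 0
  · subst hn
    rw [if_pos rfl]
    have : (⟨PowerSeries.coeff 0 (qExpansion 1 E₆), FA_S16_l1_E6_mem _ 0⟩ : FA_S16_AU_O 3) = 1 :=
      Subtype.ext FA_S16_anQ_E6_zero
    rw [this, map_one]
  · rw [if_neg hn]
    refine FA_S16_E3b_rho_int (-504 * (σ 5 n : ℤ)) (Dvd.dvd.mul_right (by norm_num) _) _ _ ?_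
    rw [FA_S16_anQ_E6 n (by omega)]
    push_cast
    ring

theorem FA_S16_E3b_basisF (k c : ℕ) : FA_S16_AU_basisF 3 k c = FA_S16_AU_DF 3 ^ c := by
  unfold FA_S16_AU_basisF
  rw [FA_S16_E3b_E4F, FA_S16_E3b_E6F, one_pow, one_pow, mul_one, mul_one]

/-- congruent series have the same reduction -/
theorem FA_S16_E3b_red_of_congr {f g w : PowerSeries ℂ} {g' : PowerSeries (FA_S16_AU_F 3)}
    (hg : FA_S16_AU_Red 3 g g') (hw : ∀ n, PowerSeries.coeff n w ∈ FA_S16_AU_O 3)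
    (h : f = g + (3 : ℂ) • w) : FA_S16_AU_Red 3 f g' := by
  have h3 := FA_S16_AU_Red.ell_smul (ℓ := 3) w hw
  have h4 := hg.add h3
  rw [add_zero] at h4
  rw [h]
  simpa using h4

/-- the reduction of a constant -/
theorem FA_S16_E3b_red_C (x : FA_S16_AU_O 3) :
    FA_S16_AU_Red 3 (PowerSeries.C (x : ℂ)) (PowerSeries.C (FA_S16_AU_rho 3 x)) := by
  have := (FA_S16_AU_Red.one (ℓ := 3)).smul x
  rw [PowerSeries.smul_eq_C_mul, PowerSeries.smul_eq_C_mul, mul_one, mul_one] at this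
  exact this

/-- rescaling by a `p`-th root of unity fixes `f(X^p) + c`. -/
theorem FA_S16_E3b_rescale_fix {R : Type*} [CommRing R] (p : ℕ) (hp : p ≠ 0) (z : R)
    (hz : z ^ p = 1) (f : PowerSeries R) (c : R) :
    PowerSeries.rescale z (PowerSeries.expand p hp f + PowerSeries.C c)
      = PowerSeries.expand p hp f + PowerSeries.C c := by
  ext n
  rw [PowerSeries.coeff_rescale]
  by_cases hn : p ∣ n
  · obtain ⟨m, rfl⟩ := hn
    rw [pow_mul, hz, one_pow, one_mul]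
  · have hn0 : n ≠ 0 := fun h => hn (h ▸ dvd_zero p)
    rw [map_add, PowerSeries.coeff_expand_of_not_dvd p hp f hn, PowerSeries.coeff_C,
      if_neg hn0, add_zero, mul_zero]

end FA_S16
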