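import Mathlib
import Fermat.Agent.S16.E3aCore

/-!
# S16, case E3b: the pair of `V = (H² - E₄)/3` (lead)

`H = 1 + 9 h`.  Then `a_V = S₃ + 3 w_a` and `b_V = S₃(X^p) + κ + 3 w_b` with `3`-integral
`w_a`, `w_b`, `κ`; `S₃ = ∑ σ₃(n) qⁿ`.
-/

set_option autoImplicit false

noncomputable section

namespace FA_S16

open ModularForm ModularFormClass UpperHalfPlane CongruenceSubgroup MatrixGroups EisensteinSeries
open scoped ArithmeticFunction.sigma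

/-- `S₃ = ∑_{n ≥ 1} σ₃(n) qⁿ`. -/
def FA_S16_E3b_S3 : PowerSeries ℂ := PowerSeries.mk (fun n => if n = 0 then 0 else (σ 3 n : ℂ))

theorem FA_S16_E3b_S3_zero : PowerSeries.coeff 0 FA_S16_E3b_S3 = 0 := by
  simp [FA_S16_E3b_S3]

theorem FA_S16_E3b_S3_one : PowerSeries.coeff 1 FA_S16_E3b_S3 = 1 := by
  simp [FA_S16_E3b_S3]

theorem FA_S16_E3b_S3_int {ℓ : ℕ} (hℓ : ℓ.Prime) : FA_S16_E3a_IntPS ℓ FA_S16_E3b_S3 := by
  intro n
  simp only [FA_S16_E3b_S3, PowerSeries.coeff_mk]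
  split_ifs
  · simpa using FA_S16_E3a_isInt_intCast hℓ 0
  · exact FA_S16_E3a_isInt_natCast hℓ _

theorem FA_S16_E3b_qE4 (hQ : FA_S16_Target_AnQ) :
    qExpansion 1 E₄ = 1 + (240 : ℂ) • FA_S16_E3b_S3 := by
  ext n
  rw [map_add, PowerSeries.coeff_smul, smul_eq_mul]
  simp only [FA_S16_E3b_S3, PowerSeries.coeff_mk, PowerSeries.coeff_one]
  by_cases hn : n = 0
  · subst hn
    rw [if_pos rfl, if_pos rfl, mul_zero, add_zero]
    exact hQ.1.1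
  · rw [if_neg hn, if_neg hn, hQ.1.2 n (by omega), zero_add]

/-- the algebraic identity for `a_V` -/
theorem FA_S16_E3b_identity_a (h S : PowerSeries ℂ) :
    ((3 : ℂ)⁻¹) • ((1 + (9 : ℂ) • h) * (1 + (9 : ℂ) • h) + (-1 : ℂ) • (1 + (240 : ℂ) • S))
      = S + (3 : ℂ) • ((2 : ℂ) • h + (9 : ℂ) • h ^ 2 - (27 : ℂ) • S) := by
  have h3 : (PowerSeries.C (3 : ℂ)⁻¹) * (PowerSeries.C (3 : ℂ)) = 1 := by
    rw [← map_mul, inv_mul_cancel₀ (by norm_num : (3 : ℂ) ≠ 0), map_one]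
  have e9 : PowerSeries.C (9 : ℂ) = PowerSeries.C (3 : ℂ) * PowerSeries.C (3 : ℂ) := by
    rw [← map_mul]; norm_num
  have e27 : PowerSeries.C (27 : ℂ) = PowerSeries.C (3 : ℂ) * PowerSeries.C (3 : ℂ)
      * PowerSeries.C (3 : ℂ) := by
    rw [← map_mul, ← map_mul]; norm_num
  have e240 : PowerSeries.C (240 : ℂ) = PowerSeries.C (3 : ℂ) * PowerSeries.C (80 : ℂ) := by
    rw [← map_mul]; norm_num
  have e80 : PowerSeries.C (80 : ℂ) = PowerSeries.C (3 : ℂ) * PowerSeries.C (3 : ℂ)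
      * PowerSeries.C (3 : ℂ) * PowerSeries.C (3 : ℂ) - 1 := by
    rw [← map_mul, ← map_mul, ← map_mul, ← map_one (PowerSeries.C (R := ℂ)), ← map_sub]; norm_num
  have e2 : PowerSeries.C (2 : ℂ) = 2 := map_ofNat _ 2
  have em1 : PowerSeries.C (-1 : ℂ) = -1 := by rw [map_neg, map_one]
  simp only [PowerSeries.smul_eq_C_mul, e9, e27, e240, e80, e2, em1]
  linear_combination (PowerSeries.C (3 : ℂ) * (2 * h + PowerSeries.C (3 : ℂ) * PowerSeries.C (3 : ℂ) * h ^ 2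
    - PowerSeries.C (3 : ℂ) * PowerSeries.C (3 : ℂ) * PowerSeries.C (3 : ℂ) * S) + S) * h3

/-- the algebraic identity for `b_V` -/
theorem FA_S16_E3b_identity_b (β κ : ℂ) (hκ : 3 * κ = β ^ 2 - 1) (g e E : PowerSeries ℂ) :
    ((3 : ℂ)⁻¹) • ((PowerSeries.C β + (9 : ℂ) • g) * (PowerSeries.C β + (9 : ℂ) • g)
        + (-1 : ℂ) • E)
      = ((3 : ℂ)⁻¹) • ((1 + (9 : ℂ) • e) * (1 + (9 : ℂ) • e) + (-1 : ℂ) • E) + PowerSeries.C κ
        + (3 : ℂ) • ((2 * β) • g + (9 : ℂ) • g ^ 2 - (2 : ℂ) • e - (9 : ℂ) • e ^ 2) := by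
  have h3 : (PowerSeries.C (3 : ℂ)⁻¹) * (PowerSeries.C (3 : ℂ)) = 1 := by
    rw [← map_mul, inv_mul_cancel₀ (by norm_num : (3 : ℂ) ≠ 0), map_one]
  have e9 : PowerSeries.C (9 : ℂ) = PowerSeries.C (3 : ℂ) * PowerSeries.C (3 : ℂ) := by
    rw [← map_mul]; norm_num
  have e2 : PowerSeries.C (2 : ℂ) = 2 := map_ofNat _ 2
  have em1 : PowerSeries.C (-1 : ℂ) = -1 := by rw [map_neg, map_one]
  have hκ' : PowerSeries.C (3 : ℂ) * PowerSeries.C κ = PowerSeries.C β ^ 2 - 1 := by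
    rw [← map_mul, hκ, map_sub, map_pow, map_one]
  simp only [PowerSeries.smul_eq_C_mul, e9, e2, em1, map_mul]
  linear_combination (-(PowerSeries.C (3 : ℂ)⁻¹)) * hκ' + (PowerSeries.C κ
    + PowerSeries.C (3 : ℂ) * (2 * PowerSeries.C β * g + PowerSeries.C (3 : ℂ) * PowerSeries.C (3 : ℂ) * g ^ 2
      - 2 * e - PowerSeries.C (3 : ℂ) * PowerSeries.C (3 : ℂ) * e ^ 2)) * h3

end FA_S16
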