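import Mathlib

/-!
# S16, case E3b: polynomial lemmas in characteristic `3` (lead)
-/

set_option autoImplicit false

namespace FA_S16

open Polynomial

theorem FA_S16_E3b_coeff_X_sub_C_pow {R : Type*} [CommRing R] (r : R) (n k : ℕ) :
    ((X - C r : R[X]) ^ n).coeff k = (-r) ^ (n - k) * (n.choose k : R) := by
  rw [sub_eq_add_neg, ← map_neg, coeff_X_add_C_pow]

/-- `(X - C s)^(q^a) = X^(q^a) - C (s^(q^a))` is an expansion. -/
theorem FA_S16_E3b_frob {R : Type*} [CommRing R] (q : ℕ) [Fact q.Prime] [CharP R q]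
    (a : ℕ) (s : R) :
    (X - C s : R[X]) ^ (q ^ a) = expand R (q ^ a) (X - C (s ^ (q ^ a))) := by
  rw [sub_pow_char_pow, map_sub, expand_X, expand_C, map_pow]

/-- **Lemma B**: the coefficient of `T^(q^a (m - 1))` of `(T - s)^(q^a m)` is `- m s^(q^a)`. -/
theorem FA_S16_E3b_coeffB {R : Type*} [CommRing R] (q : ℕ) [Fact q.Prime] [CharP R q]
    (a m : ℕ) (hm : 1 ≤ m) (s : R) :
    ((X - C s : R[X]) ^ (q ^ a * m)).coeff (q ^ a * m - q ^ a) = - (m : R) * s ^ (q ^ a) := by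
  have hq : 0 < q ^ a := pow_pos (Fact.out : q.Prime).pos a
  rw [pow_mul, FA_S16_E3b_frob, ← map_pow]
  have h1 : q ^ a * m - q ^ a = (m - 1) * q ^ a := by
    rw [Nat.sub_mul, one_mul, mul_comm]
  rw [h1, coeff_expand_mul hq, FA_S16_E3b_coeff_X_sub_C_pow]
  have h2 : m - (m - 1) = 1 := by omega
  rw [h2, pow_one]
  have h3 : m.choose (m - 1) = m := by
    rw [Nat.choose_symm hm, Nat.choose_one_right]
  rw [h3]
  ring

/-- **Lemma A**: the coefficient of `T^(p-1)` of `(T - s)(T - s - κ)^p`, `3 ∣ p + 1`. -/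
theorem FA_S16_E3b_coeffA {R : Type*} [CommRing R] [CharP R 3] (p : ℕ) (hp : p % 3 = 2)
    (s κ : R) :
    ((X - C s : R[X]) * (X - C (s + κ)) ^ p).coeff (p - 1) = - (p : R) * κ * (s + κ) := by
  have : Fact (Nat.Prime 3) := ⟨Nat.prime_three⟩
  have hsplit : (X - C s : R[X]) * (X - C (s + κ)) ^ p
      = (X - C (s + κ)) ^ (p + 1) + C κ * (X - C (s + κ)) ^ p := by
    rw [pow_succ, map_add]
    ring
  obtain ⟨m, hm⟩ : 3 ∣ p + 1 := by omega
  have h1 : ((X - C (s + κ) : R[X]) ^ (p + 1)).coeff (p - 1) = 0 := by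
    have h3 : (X - C (s + κ) : R[X]) ^ (p + 1)
        = expand R 3 ((X - C ((s + κ) ^ 3)) ^ m) := by
      have := FA_S16_E3b_frob (R := R) 3 1 (s + κ)
      rw [pow_one] at this
      rw [hm, pow_mul, this, ← map_pow]
    rw [h3, coeff_expand (by norm_num)]
    rw [if_neg (by omega)]
  have h2 : p - (p - 1) = 1 := by omega
  have h4 : p.choose (p - 1) = p := by
    rw [Nat.choose_symm (by omega), Nat.choose_one_right]
  rw [hsplit, coeff_add, coeff_C_mul, h1, FA_S16_E3b_coeff_X_sub_C_pow, h2, h4, pow_one]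
  ring

/-- powers of a power series `f = X + …`. -/
theorem FA_S16_E3b_coeff_pow {R : Type*} [CommRing R] (f : PowerSeries R)
    (h0 : PowerSeries.coeff 0 f = 0) (h1 : PowerSeries.coeff 1 f = 1) (c : ℕ) :
    (∀ j, j < c → PowerSeries.coeff j (f ^ c) = 0) ∧ PowerSeries.coeff c (f ^ c) = 1 := by
  have hX : PowerSeries.X ∣ f := by
    rw [PowerSeries.X_dvd_iff, ← PowerSeries.coeff_zero_eq_constantCoeff_apply]
    exact h0
  obtain ⟨g, rfl⟩ := hX
  have hg : PowerSeries.coeff 0 g = 1 := by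
    have := h1
    rw [show (1 : ℕ) = 0 + 1 from rfl, PowerSeries.coeff_succ_X_mul] at this
    exact this
  rw [mul_pow]
  constructor
  · intro j hj
    rw [PowerSeries.coeff_X_pow_mul', if_neg (by omega)]
  · rw [PowerSeries.coeff_X_pow_mul', if_pos le_rfl, Nat.sub_self,
      PowerSeries.coeff_zero_eq_constantCoeff_apply, map_pow,
      ← PowerSeries.coeff_zero_eq_constantCoeff_apply, hg, one_pow]

end FA_S16
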