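import Mathlib
import Fermat.Agent.S16.E3bPoly
import Fermat.Agent.S16.E3bPair
import Fermat.Agent.S16.E3bBasis
import Fermat.Agent.S16.AlgUnitInt12

/-!
# S16, case E3b (lead): `p ≡ 2 mod 3`, there is no `H ≡ 1 mod 9`

`V = (H² - E₄)/3`; modulo `3` its conjugates are `s = S̄₃(X^p)` and `s + κ̄` (`p` times).
* `κ̄ ≠ 0`: the coefficient of `T^(p-1)` of `(T - s)(T - s - κ̄)^p` is `-p κ̄ (s + κ̄)`, and it is
  the reduction of a form of weight `8`, i.e. a constant.
* `κ̄ = 0`: `p + 1 = 3^a m`, the coefficient of `T^(p+1-3^a)` of `(T - s)^(p+1)` is `-m s^(3^a)`,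
  and it is a combination of `Δ̄^c`, `c ≤ 3^(a-1)`.
-/

set_option autoImplicit false

noncomputable section

namespace FA_S16

open ModularForm ModularFormClass UpperHalfPlane CongruenceSubgroup MatrixGroups EisensteinSeries
open scoped ArithmeticFunction.sigma

local notation "Δ" => ModularForm.discriminant

theorem FA_S16_E3b_coeff_expand_self {R : Type*} [CommRing R] (p : ℕ) (hp : p ≠ 0)
    (f : PowerSeries R) :
    PowerSeries.coeff p (PowerSeries.expand p hp f) = PowerSeries.coeff 1 f := by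
  have := PowerSeries.coeff_expand_mul p hp f 1
  rwa [mul_one] at this

/-- The algebraic core of E3b over `𝔽`: the two coefficient identities are contradictory. -/
theorem FA_S16_E3b_core (p : ℕ) [NeZero p] (hp : p.Prime) (hp3 : p % 3 = 2)
    (sig : PowerSeries (FA_S16_AU_F 3)) (h0 : PowerSeries.coeff 0 sig = 0)
    (h1 : PowerSeries.coeff 1 sig = 1) (κ : FA_S16_AU_F 3)
    (hbr : ∀ i, i ≤ p + 1 → ∃ n : ℕ → FA_S16_AU_F 3,
      ((Polynomial.X - Polynomial.C (PowerSeries.expand p (NeZero.ne p) sig)) *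
        (Polynomial.X - Polynomial.C (PowerSeries.expand p (NeZero.ne p) sig
          + PowerSeries.C κ)) ^ p).coeff (p + 1 - i) =
      PowerSeries.expand p (NeZero.ne p)
        (∑ c ∈ Finset.range (4 * i / 12 + 1), n c • FA_S16_AU_DF 3 ^ c)) :
    False := by
  have hp0 : p ≠ 0 := hp.ne_zero
  have hpF : ((p : ℕ) : FA_S16_AU_F 3) ≠ 0 := by
    refine FA_S16_AU_natCast_ne_zero 3 p ?_
    intro h
    have := (Nat.prime_dvd_prime_iff_eq Nat.prime_three hp).mp h
    omega
  by_cases hκ : κ = 0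
  · -- `κ̄ = 0`
    obtain ⟨a, m, hm3, hpm⟩ := Nat.exists_eq_pow_mul_and_not_dvd (n := p + 1) (by omega) 3
      (by norm_num)
    have hm1 : 1 ≤ m := by
      rcases Nat.eq_zero_or_pos m with h | h
      · rw [h] at hm3
        exact absurd (dvd_zero 3) hm3
      · exact h
    have h3a : 0 < 3 ^ a := pow_pos (by norm_num) a
    have hi : 3 ^ a ≤ p + 1 := by
      rw [hpm]
      exact Nat.le_mul_of_pos_right _ hm1
    obtain ⟨n, hn⟩ := hbr (3 ^ a) hi
    subst hκ
    rw [map_zero, add_zero, ← pow_succ', hpm, FA_S16_E3b_coeffB 3 a m hm1, ← map_pow,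
      ← map_natCast (PowerSeries.expand p (NeZero.ne p)), ← map_neg, ← map_mul] at hn
    have hinj : Function.Injective (PowerSeries.expand p (NeZero.ne p)
        (R := FA_S16_AU_F 3)) := by
      intro f g hfg
      ext k
      have := congrArg (PowerSeries.coeff (p * k)) hfg
      rwa [PowerSeries.coeff_expand_mul, PowerSeries.coeff_expand_mul] at this
    have hn' := hinj hn
    have hsig := FA_S16_E3b_coeff_pow sig h0 h1 (3 ^ a)
    -- all `n c` vanish
    have hD : ∀ c, (∀ j, j < c → PowerSeries.coeff j (FA_S16_AU_DF 3 ^ c) = 0) ∧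
        PowerSeries.coeff c (FA_S16_AU_DF 3 ^ c) = 1 :=
      fun c => FA_S16_E3b_coeff_pow _ (FA_S16_AU_DF_zero 3) (FA_S16_AU_DF_one 3) c
    have hlow : ∀ k, k < 3 ^ a → PowerSeries.coeff k
        (∑ c ∈ Finset.range (4 * 3 ^ a / 12 + 1), n c • FA_S16_AU_DF 3 ^ c) = 0 := by
      intro k hk
      rw [← hn', ← map_natCast (PowerSeries.C (R := FA_S16_AU_F 3)), ← map_neg,
        PowerSeries.coeff_C_mul, hsig.1 k hk, mul_zero]
    have hzero := FA_S16_AU_tri (4 * 3 ^ a / 12) (fun c => FA_S16_AU_DF 3 ^ c)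
      (fun c k hk => (hD c).1 k hk) (fun c => (hD c).2) (fun x => x = 0)
      (by intro x y hx hy; rw [hx, hy, add_zero]) (by intro x hx; rw [hx, neg_zero]) rfl
      (by intro x c k hx; rw [hx, zero_mul]) n (3 ^ a) hlow
    have hsum0 : (∑ c ∈ Finset.range (4 * 3 ^ a / 12 + 1), n c • FA_S16_AU_DF 3 ^ c) = 0 := by
      refine Finset.sum_eq_zero fun c hc => ?_
      have hc' : c ≤ 4 * 3 ^ a / 12 := by
        have := Finset.mem_range.mp hc
        omega
      have hc'' : c < 3 ^ a := by omega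
      rw [hzero c hc' hc'', zero_smul]
    rw [hsum0] at hn'
    have := congrArg (PowerSeries.coeff (3 ^ a)) hn'
    rw [← map_natCast (PowerSeries.C (R := FA_S16_AU_F 3)), ← map_neg,
      PowerSeries.coeff_C_mul, hsig.2, mul_one, map_zero, neg_eq_zero] at this
    exact FA_S16_AU_natCast_ne_zero 3 m hm3 this
  · -- `κ̄ ≠ 0`
    obtain ⟨n, hn⟩ := hbr 2 (by have := hp.two_le; omega)
    have hk : p + 1 - 2 = p - 1 := by omega
    rw [hk, FA_S16_E3b_coeffA p hp3] at hn
    have hr : Finset.range (4 * 2 / 12 + 1) = {0} := by decide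
    rw [hr, Finset.sum_singleton, pow_zero] at hn
    have := congrArg (PowerSeries.coeff p) hn
    have e1 : PowerSeries.coeff p (PowerSeries.expand p (NeZero.ne p) (n 0 • (1 : PowerSeries (FA_S16_AU_F 3)))) = 0 := by
      rw [FA_S16_E3b_coeff_expand_self, PowerSeries.coeff_smul, PowerSeries.coeff_one,
        if_neg one_ne_zero, smul_zero]
    have e2 : PowerSeries.coeff p (-(p : PowerSeries (FA_S16_AU_F 3)) * PowerSeries.C κ *
        (PowerSeries.expand p (NeZero.ne p) sig + PowerSeries.C κ)) = -(p : FA_S16_AU_F 3) * κ := by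
      rw [← map_natCast (PowerSeries.C (R := FA_S16_AU_F 3)), ← map_neg, ← map_mul,
        PowerSeries.coeff_C_mul, map_add, PowerSeries.coeff_C, if_neg hp0, add_zero]
      rw [FA_S16_E3b_coeff_expand_self, h1, mul_one]
    rw [e1, e2] at this
    rcases mul_eq_zero.mp this with h | h
    · exact hpF (neg_eq_zero.mp h)
    · exact hκ h

end FA_S16
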