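import Mathlib
import Fermat.Agent.S16.E3bMain

/-!
# S16, case E3b (lead): `FA_S16_E3b_of : FA_S16_An → FA_S16_Target_E3b`
-/

set_option autoImplicit false

noncomputable section

namespace FA_S16

open ModularForm ModularFormClass UpperHalfPlane CongruenceSubgroup MatrixGroups EisensteinSeries
open scoped ArithmeticFunction.sigma

local notation "Δ" => ModularForm.discriminant

/-- the characteristic polynomial over `𝔽` when `b̄ = ā(X^p) + κ̄` -/
theorem FA_S16_E3b_charpolyF (p : ℕ) [NeZero p] (sig : PowerSeries (FA_S16_AU_F 3))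
    (κ : FA_S16_AU_F 3) :
    FA_S16_AU_charpolyF 3 p sig (PowerSeries.expand p (NeZero.ne p) sig + PowerSeries.C κ)
      = (Polynomial.X - Polynomial.C (PowerSeries.expand p (NeZero.ne p) sig)) *
        (Polynomial.X - Polynomial.C (PowerSeries.expand p (NeZero.ne p) sig
          + PowerSeries.C κ)) ^ p := by
  unfold FA_S16_AU_charpolyF
  rw [Fintype.prod_option]
  have h1 : ∀ j : Fin p, FA_S16_AU_conjF 3 p sig
      (PowerSeries.expand p (NeZero.ne p) sig + PowerSeries.C κ) (some j)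
      = PowerSeries.expand p (NeZero.ne p) sig + PowerSeries.C κ := by
    intro j
    show PowerSeries.rescale _ _ = _
    apply FA_S16_E3b_rescale_fix
    rw [← pow_mul, mul_comm, pow_mul, FA_S16_AU_zetaF_pow, one_pow]
  simp only [h1, Finset.prod_const, Finset.card_univ, Fintype.card_fin]
  rfl

/-- **E3b**. -/
theorem FA_S16_E3b_of : FA_S16_Target_E3b_of := by
  intro hAn p hp _ hp3 H h0 hH
  have : Fact p.Prime := ⟨hp⟩
  have : NeZero p := ⟨hp.ne_zero⟩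
  obtain ⟨hSym, hT1, hRing, -, hQ⟩ := hAn
  obtain ⟨hadd, hmul, hsmul, hlvl, -⟩ := hRing p
  have h3 : Nat.Prime 3 := Nat.prime_three
  have hp0 : (p : ℂ) ≠ 0 := by exact_mod_cast hp.ne_zero
  have h3p : (3 : ℕ) ≠ p := by
    rintro rfl
    omega
  -- the pair of `H`
  obtain ⟨a, ha⟩ : ∃ a, a = qExpansion 1 H := ⟨_, rfl⟩
  obtain ⟨b, hb⟩ : ∃ b, b = qExpansion (p : ℝ) ((H : ℍ → ℂ) ∣[(2 : ℤ)] ModularGroup.S) :=
    ⟨_, rfl⟩
  have hpair : FA_S16_IsPair p 2 a b := ⟨H, ha.symm, hb.symm⟩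
  rw [← ha] at h0 hH
  -- `a = 1 + 9 h`
  classical
  let h : PowerSeries ℂ :=
    PowerSeries.mk (fun n => if hn : 1 ≤ n then Classical.choose (hH n hn) else 0)
  have hh : FA_S16_E3a_IntPS 3 h := by
    intro n
    simp only [h, PowerSeries.coeff_mk]
    split_ifs with hn
    · exact (Classical.choose_spec (hH n hn)).1
    · simpa using FA_S16_E3a_isInt_intCast h3 0
  have hah : a = 1 + (9 : ℂ) • h := by
    ext n
    rw [map_add, PowerSeries.coeff_smul, smul_eq_mul]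
    simp only [h, PowerSeries.coeff_mk, PowerSeries.coeff_one]
    by_cases hn : 1 ≤ n
    · rw [dif_pos hn, if_neg (by omega), zero_add]
      refine (Classical.choose_spec (hH n hn)).2.trans ?_
      norm_num
    · have hn0 : n = 0 := by omega
      subst hn0
      rw [dif_neg hn, if_pos rfl, mul_zero, add_zero]
      exact h0
  -- `b = β + 9 g`
  have hbn : ∀ n, PowerSeries.coeff n b = - PowerSeries.coeff (p * n) a / (p : ℂ) :=
    hT1 p a b hpair
  let g : PowerSeries ℂ := PowerSeries.mk (fun n => - PowerSeries.coeff (p * n) h / (p : ℂ))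
  have hg : FA_S16_E3a_IntPS 3 g := by
    intro n
    simp only [g, PowerSeries.coeff_mk]
    rw [div_eq_mul_inv]
    exact FA_S16_E3a_isInt_mul h3 (FA_S16_E3a_isInt_neg (hh _)) (FA_S16_E3a_isInt_inv h3 hp h3p)
  have hbg : b = PowerSeries.C (-1 / (p : ℂ)) + (9 : ℂ) • g := by
    ext n
    rw [hbn n, hah, map_add, map_add, PowerSeries.coeff_smul, PowerSeries.coeff_smul, smul_eq_mul,
      smul_eq_mul, PowerSeries.coeff_one, PowerSeries.coeff_C]
    simp only [g, PowerSeries.coeff_mk]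
    by_cases hn : n = 0
    · subst hn
      rw [mul_zero, if_pos rfl, if_pos rfl]
      ring
    · rw [if_neg (by simpa [hp.ne_zero] using hn), if_neg hn]
      ring
  -- the pair of `V`
  have hpair2 : FA_S16_IsPair p ((4 : ℕ) : ℤ) (a * a) (b * b) := by
    have := hmul _ _ _ _ _ _ hpair hpair
    have h4 : (2 : ℤ) + 2 = ((4 : ℕ) : ℤ) := by norm_num
    rw [h4] at this
    exact this
  have hpairE : FA_S16_IsPair p ((4 : ℕ) : ℤ) (qExpansion 1 E₄)
      (PowerSeries.expand p (NeZero.ne p) (qExpansion 1 E₄)) :=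
    hlvl ((4 : ℕ) : ℤ) (qExpansion 1 E₄) ⟨E₄, rfl⟩
  have hpairV : FA_S16_IsPair p ((4 : ℕ) : ℤ)
      (((3 : ℂ)⁻¹) • (a * a + (-1 : ℂ) • qExpansion 1 E₄))
      (((3 : ℂ)⁻¹) • (b * b + (-1 : ℂ) •
        PowerSeries.expand p (NeZero.ne p) (qExpansion 1 E₄))) :=
    hsmul _ _ _ _ (hadd _ _ _ _ _ hpair2 (hsmul _ _ _ _ hpairE))
  -- the expansions of `V`
  have hE4 := FA_S16_E3b_qE4 hQ
  have hS := FA_S16_E3b_S3_int h3
  let wa : PowerSeries ℂ := (2 : ℂ) • h + (9 : ℂ) • h ^ 2 - (27 : ℂ) • FA_S16_E3b_S3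
  have hwa : FA_S16_E3a_IntPS 3 wa := by
    refine FA_S16_E3a_intPS_sub h3 (FA_S16_E3a_intPS_add h3 ?_ ?_) ?_
    · exact FA_S16_E3a_intPS_smul h3 (by simpa using FA_S16_E3a_isInt_natCast h3 2) hh
    · exact FA_S16_E3a_intPS_smul h3 (by simpa using FA_S16_E3a_isInt_natCast h3 9)
        (FA_S16_E3a_intPS_pow h3 hh 2)
    · exact FA_S16_E3a_intPS_smul h3 (by simpa using FA_S16_E3a_isInt_natCast h3 27) hS
  have haV : ((3 : ℂ)⁻¹) • (a * a + (-1 : ℂ) • qExpansion 1 E₄)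
      = FA_S16_E3b_S3 + (3 : ℂ) • wa := by
    rw [hah, hE4]
    exact FA_S16_E3b_identity_a h FA_S16_E3b_S3
  -- `κ`
  obtain ⟨t, ht⟩ : ∃ t : ℤ, (1 : ℤ) - (p : ℤ) ^ 2 = 3 * t := by
    have hq : p = 3 * (p / 3) + 2 := by omega
    refine ⟨-(3 * ((p / 3 : ℕ) : ℤ) ^ 2 + 4 * ((p / 3 : ℕ) : ℤ) + 1), ?_⟩
    have hq' : (p : ℤ) = 3 * ((p / 3 : ℕ) : ℤ) + 2 := by exact_mod_cast hq
    rw [hq']
    ring
  let κ : ℂ := (t : ℂ) / ((p ^ 2 : ℕ) : ℂ)
  have hκint : FA_S16_IsInt 3 κ := by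
    refine ⟨t, p ^ 2, ?_, rfl⟩
    intro hd
    have := Nat.Prime.dvd_of_dvd_pow h3 hd
    exact h3p ((Nat.prime_dvd_prime_iff_eq h3 hp).mp this)
  have hκ : 3 * κ = (-1 / (p : ℂ)) ^ 2 - 1 := by
    have htC : (1 : ℂ) - (p : ℂ) ^ 2 = 3 * (t : ℂ) := by exact_mod_cast congrArg (Int.cast : ℤ → ℂ) ht
    simp only [κ]
    push_cast
    field_simp
    linear_combination - htC
  let e : PowerSeries ℂ := PowerSeries.expand p (NeZero.ne p) h
  have he : FA_S16_E3a_IntPS 3 e := FA_S16_E3a_intPS_expand h3 p _ hh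
  let wb : PowerSeries ℂ := (2 * (-1 / (p : ℂ))) • g + (9 : ℂ) • g ^ 2 - (2 : ℂ) • e
    - (9 : ℂ) • e ^ 2
  have hβint : FA_S16_IsInt 3 (2 * (-1 / (p : ℂ))) := by
    have : (2 * (-1 / (p : ℂ))) = ((-2 : ℤ) : ℂ) * (p : ℂ)⁻¹ := by
      push_cast
      ring
    rw [this]
    exact FA_S16_E3a_isInt_mul h3 (FA_S16_E3a_isInt_intCast h3 _) (FA_S16_E3a_isInt_inv h3 hp h3p)
  have hwb : FA_S16_E3a_IntPS 3 wb := by
    refine FA_S16_E3a_intPS_sub h3 (FA_S16_E3a_intPS_sub h3 (FA_S16_E3a_intPS_add h3 ?_ ?_) ?_) ?_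
    · exact FA_S16_E3a_intPS_smul h3 hβint hg
    · exact FA_S16_E3a_intPS_smul h3 (by simpa using FA_S16_E3a_isInt_natCast h3 9)
        (FA_S16_E3a_intPS_pow h3 hg 2)
    · exact FA_S16_E3a_intPS_smul h3 (by simpa using FA_S16_E3a_isInt_natCast h3 2) he
    · exact FA_S16_E3a_intPS_smul h3 (by simpa using FA_S16_E3a_isInt_natCast h3 9)
        (FA_S16_E3a_intPS_pow h3 he 2)
  have hexpa : PowerSeries.expand p (NeZero.ne p) a = 1 + (9 : ℂ) • e := by
    rw [hah, map_add, map_one, PowerSeries.expand_smul]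
  have hbV : ((3 : ℂ)⁻¹) • (b * b + (-1 : ℂ) •
        PowerSeries.expand p (NeZero.ne p) (qExpansion 1 E₄))
      = (PowerSeries.expand p (NeZero.ne p) FA_S16_E3b_S3 + PowerSeries.C κ)
        + (3 : ℂ) • (PowerSeries.expand p (NeZero.ne p) wa + wb) := by
    rw [hbg, FA_S16_E3b_identity_b (-1 / (p : ℂ)) κ hκ g e
      (PowerSeries.expand p (NeZero.ne p) (qExpansion 1 E₄))]
    have : ((3 : ℂ)⁻¹) • ((1 + (9 : ℂ) • e) * (1 + (9 : ℂ) • e) + (-1 : ℂ) •
        PowerSeries.expand p (NeZero.ne p) (qExpansion 1 E₄))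
        = PowerSeries.expand p (NeZero.ne p) (FA_S16_E3b_S3 + (3 : ℂ) • wa) := by
      rw [← haV, PowerSeries.expand_smul, map_add, map_mul, hexpa, PowerSeries.expand_smul]
    rw [this, map_add, PowerSeries.expand_smul, smul_add]
    ring
  -- reductions
  obtain ⟨sig, hsig⟩ := FA_S16_AU_Red.exists (ℓ := 3) FA_S16_E3b_S3
    (fun n => FA_S16_AU_isInt_mem 3 (hS n))
  have hsig0 : PowerSeries.coeff 0 sig = 0 := by
    rw [hsig.coeff 0 (FA_S16_AU_isInt_mem 3 (hS 0))]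
    have : (⟨PowerSeries.coeff 0 FA_S16_E3b_S3, FA_S16_AU_isInt_mem 3 (hS 0)⟩ : FA_S16_AU_O 3)
        = 0 := Subtype.ext FA_S16_E3b_S3_zero
    rw [this, map_zero]
  have hsig1 : PowerSeries.coeff 1 sig = 1 := by
    rw [hsig.coeff 1 (FA_S16_AU_isInt_mem 3 (hS 1))]
    have : (⟨PowerSeries.coeff 1 FA_S16_E3b_S3, FA_S16_AU_isInt_mem 3 (hS 1)⟩ : FA_S16_AU_O 3)
        = 1 := Subtype.ext FA_S16_E3b_S3_one
    rw [this, map_one]
  have hRa := FA_S16_E3b_red_of_congr hsig (fun n => FA_S16_AU_isInt_mem 3 (hwa n)) haV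
  let κO : FA_S16_AU_O 3 := ⟨κ, FA_S16_AU_isInt_mem 3 hκint⟩
  have hRb0 : FA_S16_AU_Red 3 (PowerSeries.expand p (NeZero.ne p) FA_S16_E3b_S3 + PowerSeries.C κ)
      (PowerSeries.expand p (NeZero.ne p) sig + PowerSeries.C (FA_S16_AU_rho 3 κO)) :=
    (hsig.expand p (NeZero.ne p)).add (FA_S16_E3b_red_C κO)
  have hRb := FA_S16_E3b_red_of_congr hRb0
    (fun n => FA_S16_AU_isInt_mem 3
      (FA_S16_E3a_intPS_add h3 (FA_S16_E3a_intPS_expand h3 p _ hwa) hwb n)) hbV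
  -- the bridge
  refine FA_S16_E3b_core p hp hp3 sig hsig0 hsig1 (FA_S16_AU_rho 3 κO) ?_
  intro i hi
  obtain ⟨n, hn⟩ := FA_S16_AU_bridge (ℓ := 3) hSym p 4 hpairV hRa hRb i hi
  refine ⟨n, ?_⟩
  rw [FA_S16_E3b_charpolyF] at hn
  simp only [FA_S16_E3b_basisF] at hn
  exact hn

end FA_S16
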