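import Mathlib
import Fermat.Agent.S16.UInterface
import Fermat.Prelude.Def_ModularForm_HeckeOperator

/-!
# S16, leaf AN-EIS (part 1): `E₂(z) - p E₂(pz)` is a modular form of weight `2` on `Γ₀(p)`

`E₂(z) - p E₂(pz) = E₂ - E₂ ∣[2] α`, `α = diag(p, 1)`.
-/

set_option autoImplicit false

noncomputable section

namespace FA_S16

open ModularForm ModularFormClass UpperHalfPlane CongruenceSubgroup MatrixGroups EisensteinSeries
open Matrix.SpecialLinearGroup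
open scoped Real Manifold

/-- The function `E₂(z) - p E₂(pz)`. -/
def FA_S16_anEis_fun (p : ℕ) : ℍ → ℂ := E2 - E2 ∣[(2 : ℤ)] heckeDiagMatrix p

theorem FA_S16_anEis_fun_apply {p : ℕ} (hp : p ≠ 0) (z : ℍ) :
    FA_S16_anEis_fun p z = E2 z - (p : ℂ) * E2 (heckeDiagMatrix p • z) := by
  unfold FA_S16_anEis_fun
  rw [Pi.sub_apply, slash_heckeDiagMatrix_apply 2 hp]
  norm_num

theorem FA_S16_anEis_mdiff (p : ℕ) : MDiff (FA_S16_anEis_fun p) :=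
  E2_mdifferentiable.sub (E2_mdifferentiable.slash 2 _)

theorem FA_S16_anEis_mapGL_apply (g : SL(2, ℤ)) (i j : Fin 2) :
    ((mapGL ℝ g : GL (Fin 2) ℝ) : Matrix (Fin 2) (Fin 2) ℝ) i j = ((g i j : ℤ) : ℝ) := by
  simp

theorem FA_S16_anEis_det_eq (g : SL(2, ℤ)) : g 0 0 * g 1 1 - g 0 1 * g 1 0 = 1 := by
  have h := g.det_coe
  rwa [Matrix.det_fin_two] at h

/-- `α γ = γ' α` for `γ ∈ Γ₀(p)`. -/
theorem FA_S16_anEis_comm {p : ℕ} (hp : p ≠ 0) (g : SL(2, ℤ)) (e : ℤ) (he : g 1 0 = p * e) :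
    ∃ g' : SL(2, ℤ), g' 1 0 = e ∧ g' 1 1 = g 1 1 ∧
      heckeDiagMatrix p * mapGL ℝ g = mapGL ℝ g' * heckeDiagMatrix p := by
  have hdet := FA_S16_anEis_det_eq g
  obtain ⟨g', h00, h01, h10, h11⟩ : ∃ g' : SL(2, ℤ), g' 0 0 = g 0 0 ∧ g' 0 1 = p * g 0 1 ∧
      g' 1 0 = e ∧ g' 1 1 = g 1 1 := by
    refine ⟨⟨!![g 0 0, p * g 0 1; e, g 1 1], ?_⟩, rfl, rfl, rfl, rfl⟩
    rw [Matrix.det_fin_two_of]
    linear_combination hdet + (g 0 1) * he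
  refine ⟨g', h10, h11, ?_⟩
  apply Units.ext
  rw [Units.val_mul, Units.val_mul, val_heckeDiagMatrix hp]
  have heR := congrArg (Int.cast : ℤ → ℝ) he
  push_cast at heR
  ext i j
  fin_cases i <;> fin_cases j <;>
    simp only [Matrix.mul_apply, Fin.sum_univ_two, FA_S16_anEis_mapGL_apply, h00, h01, h10, h11,
      Fin.zero_eta, Fin.mk_one, Matrix.of_apply, Matrix.cons_val', Matrix.cons_val_zero,
      Matrix.cons_val_one, Matrix.cons_val_fin_one, heR] <;> push_cast <;> ring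

theorem FA_S16_anEis_denom (g : SL(2, ℤ)) (w : ℂ) :
    denom (mapGL ℝ g) w = (g 1 0 : ℂ) * w + (g 1 1 : ℂ) := by
  simp [denom]

theorem FA_S16_anEis_D2_apply (g : SL(2, ℤ)) (z : ℍ) :
    D2 g z = (2 * π * Complex.I * (g 1 0 : ℂ)) / ((g 1 0 : ℂ) * (z : ℂ) + (g 1 1 : ℂ)) := by
  simp [D2, denom]

/-- `D₂ γ' ∣ α = D₂ γ`. -/
theorem FA_S16_anEis_D2_slash {p : ℕ} (hp : p ≠ 0) (g g' : SL(2, ℤ))
    (h10 : g 1 0 = p * g' 1 0) (h11 : g' 1 1 = g 1 1) :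
    (D2 g') ∣[(2 : ℤ)] heckeDiagMatrix p = D2 g := by
  ext z
  rw [slash_heckeDiagMatrix_apply 2 hp]
  simp only [FA_S16_anEis_D2_apply, coe_heckeDiagMatrix_smul hp, h10, h11]
  have hpC : (p : ℂ) ≠ 0 := by exact_mod_cast hp
  push_cast
  by_cases hd : ((g' 1 0 : ℤ) : ℂ) * ((p : ℂ) * (z : ℂ)) + ((g 1 1 : ℤ) : ℂ) = 0
  · have hd' : (p : ℂ) * ((g' 1 0 : ℤ) : ℂ) * (z : ℂ) + ((g 1 1 : ℤ) : ℂ) = 0 := by
      rw [← hd]; ring
    rw [hd, hd']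
    simp
  · have hd' : (p : ℂ) * ((g' 1 0 : ℤ) : ℂ) * (z : ℂ) + ((g 1 1 : ℤ) : ℂ) ≠ 0 := by
      intro h; apply hd; rw [← h]; ring
    field_simp

/-- Slash invariance under `Γ₀(p)`. -/
theorem FA_S16_anEis_slash {p : ℕ} (hp : p ≠ 0) (g : SL(2, ℤ)) (hg : g ∈ Gamma0 p) :
    FA_S16_anEis_fun p ∣[(2 : ℤ)] (mapGL ℝ g) = FA_S16_anEis_fun p := by
  have hdvd : (p : ℤ) ∣ g 1 0 := by
    rw [Gamma0_mem] at hg
    exact (ZMod.intCast_zmod_eq_zero_iff_dvd _ _).mp hg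
  obtain ⟨e, he⟩ := hdvd
  obtain ⟨g', hg'10, hg'11, hcomm⟩ := FA_S16_anEis_comm hp g e he
  have h1 : E2 ∣[(2 : ℤ)] (mapGL ℝ g) = E2 - (1 / (2 * riemannZeta 2)) • D2 g :=
    E2_slash_action g
  have h1' : E2 ∣[(2 : ℤ)] (mapGL ℝ g') = E2 - (1 / (2 * riemannZeta 2)) • D2 g' :=
    E2_slash_action g'
  have h2 : (E2 ∣[(2 : ℤ)] heckeDiagMatrix p) ∣[(2 : ℤ)] (mapGL ℝ g)
      = E2 ∣[(2 : ℤ)] heckeDiagMatrix p - (1 / (2 * riemannZeta 2)) • D2 g := by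
    rw [← SlashAction.slash_mul, hcomm, SlashAction.slash_mul, h1', sub_eq_add_neg,
      SlashAction.add_slash, SlashAction.neg_slash, ModularForm.smul_slash,
      FA_S16_anEis_D2_slash hp g g' (by rw [he, hg'10]) hg'11, ← sub_eq_add_neg]
    simp [σ_heckeDiagMatrix]
  unfold FA_S16_anEis_fun
  rw [sub_eq_add_neg, SlashAction.add_slash, SlashAction.neg_slash, h1, h2]
  abel

end FA_S16
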