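import Mathlib
import Fermat.Agent.S16.AnEisForm

/-!
# S16, leaf AN-EIS (part 2): boundedness at the cusps, the modular form `E₂(z) - p E₂(pz)`
-/

set_option autoImplicit false

noncomputable section

namespace FA_S16

open ModularForm ModularFormClass UpperHalfPlane CongruenceSubgroup MatrixGroups EisensteinSeries
open Matrix.SpecialLinearGroup OnePoint
open scoped Real Manifold

theorem FA_S16_anEis_D2_bdd (γ : SL(2, ℤ)) : IsBoundedAtImInfty (D2 γ) := by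
  rw [isBoundedAtImInfty_iff]
  refine ⟨2 * π, 1, fun z hz => ?_⟩
  rw [FA_S16_anEis_D2_apply]
  by_cases hc : γ 1 0 = 0
  · simp [hc]; positivity
  · have hcR : ((γ 1 0 : ℤ) : ℝ) ≠ 0 := by exact_mod_cast hc
    have him : (((γ 1 0 : ℤ) : ℂ) * (z : ℂ) + ((γ 1 1 : ℤ) : ℂ)).im = (γ 1 0 : ℝ) * z.im := by
      simp
    have hge : |((γ 1 0 : ℤ) : ℝ)| ≤ ‖((γ 1 0 : ℤ) : ℂ) * (z : ℂ) + ((γ 1 1 : ℤ) : ℂ)‖ := by
      calc |((γ 1 0 : ℤ) : ℝ)| ≤ |((γ 1 0 : ℤ) : ℝ)| * z.im := by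
            nlinarith [abs_nonneg ((γ 1 0 : ℤ) : ℝ)]
        _ = |(((γ 1 0 : ℤ) : ℂ) * (z : ℂ) + ((γ 1 1 : ℤ) : ℂ)).im| := by
            rw [him, abs_mul, abs_of_pos z.im_pos]
        _ ≤ _ := Complex.abs_im_le_norm _
    have hpos : 0 < ‖((γ 1 0 : ℤ) : ℂ) * (z : ℂ) + ((γ 1 1 : ℤ) : ℂ)‖ :=
      lt_of_lt_of_le (abs_pos.mpr hcR) hge
    rw [norm_div, div_le_iff₀ hpos]
    have h1 : ‖2 * (π : ℂ) * Complex.I * ((γ 1 0 : ℤ) : ℂ)‖ = 2 * π * |((γ 1 0 : ℤ) : ℝ)| := by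
      rw [norm_mul, norm_mul, norm_mul, Complex.norm_I, mul_one]
      simp [abs_of_pos Real.pi_pos]
    rw [h1]
    exact mul_le_mul_of_nonneg_left hge (by positivity)

/-- `E₂` is bounded at every cusp of `SL₂(ℤ)`. -/
theorem FA_S16_anEis_E2_bddAt {c : OnePoint ℝ} (hc : IsCusp c 𝒮ℒ) :
    c.IsBoundedAt E2 2 := by
  rw [OnePoint.isBoundedAt_iff_forall_SL2Z hc]
  intro γ _
  rw [E2_slash_action]
  exact isBoundedAtImInfty_E2.sub ((FA_S16_anEis_D2_bdd γ).const_smul_left _)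

theorem FA_S16_anEis_isCusp_smul {c : OnePoint ℝ} (hc : IsCusp c 𝒮ℒ)
    (g : GL (Fin 2) ℚ) :
    IsCusp (Matrix.GeneralLinearGroup.map (Rat.castHom ℝ) g • c) 𝒮ℒ := by
  rw [isCusp_SL2Z_iff] at hc ⊢
  obtain ⟨c, rfl⟩ := hc
  exact ⟨g • c, by rw [← Rat.coe_castHom, OnePoint.map_smul]⟩

theorem FA_S16_anEis_heckeDiag_eq_map (p : ℕ) :
    ∃ g : GL (Fin 2) ℚ, heckeDiagMatrix p = Matrix.GeneralLinearGroup.map (Rat.castHom ℝ) g := by
  rcases eq_or_ne p 0 with rfl | hp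
  · exact ⟨1, by rw [heckeDiagMatrix_zero, map_one]⟩
  · refine ⟨Matrix.GeneralLinearGroup.mkOfDetNeZero !![(p : ℚ), 0; 0, 1]
      (by rw [Matrix.det_fin_two_of]; simpa using hp), ?_⟩
    ext i j
    fin_cases i <;> fin_cases j <;>
      simp [heckeDiagMatrix, hp, upperTriangularGL, Matrix.GeneralLinearGroup.mkOfDetNeZero]

/-- `E₂ - E₂ ∣ α` is bounded at every cusp. -/
theorem FA_S16_anEis_bddAt (p : ℕ) {c : OnePoint ℝ} (hc : IsCusp c 𝒮ℒ) :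
    c.IsBoundedAt (FA_S16_anEis_fun p) 2 := by
  have h1 : c.IsBoundedAt E2 2 := FA_S16_anEis_E2_bddAt hc
  have h2 : c.IsBoundedAt (E2 ∣[(2 : ℤ)] heckeDiagMatrix p) 2 := by
    rw [← OnePoint.IsBoundedAt.smul_iff]
    obtain ⟨g, hg⟩ := FA_S16_anEis_heckeDiag_eq_map p
    rw [hg]
    exact FA_S16_anEis_E2_bddAt (FA_S16_anEis_isCusp_smul hc g)
  intro g hg
  unfold FA_S16_anEis_fun
  rw [sub_eq_add_neg, SlashAction.add_slash, SlashAction.neg_slash, ← sub_eq_add_neg]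
  exact (h1 g hg).sub (h2 g hg)

/-- The modular form `E₂(z) - p E₂(pz)` of weight `2` on `Γ₀(p)`. -/
def FA_S16_anEis_form (p : ℕ) [NeZero p] : ModularForm (Gamma0 p) 2 where
  toFun := FA_S16_anEis_fun p
  slash_action_eq' := by
    rintro _ ⟨γ, hγ, rfl⟩
    exact FA_S16_anEis_slash (NeZero.ne p) γ hγ
  holo' := FA_S16_anEis_mdiff p
  bdd_at_cusps' := fun {c} hc => by
    rw [Subgroup.IsArithmetic.isCusp_iff_isCusp_SL2Z] at hc
    exact FA_S16_anEis_bddAt p hc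

theorem FA_S16_anEis_form_apply (p : ℕ) [NeZero p] (z : ℍ) :
    FA_S16_anEis_form p z = E2 z - (p : ℂ) * E2 (heckeDiagMatrix p • z) :=
  FA_S16_anEis_fun_apply (NeZero.ne p) z

end FA_S16
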