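import Mathlib
import Fermat.Agent.S16.RedInterface

/-!
# S16 §0: the Hecke relations of `σ'`
-/

set_option autoImplicit false

namespace FA_S16

open scoped ArithmeticFunction.sigma
open ArithmeticFunction

theorem FA_S16_Red_sigma_prime_mul {ℓ : ℕ} (hℓ : ℓ.Prime) (m : ℕ) (hm : m ≠ 0) :
    ((σ 1 (m * ℓ) : ℕ) : ℤ) + (if ℓ ∣ m then (ℓ : ℤ) * (σ 1 (m / ℓ) : ℕ) else 0)
      = (1 + ℓ) * (σ 1 m : ℕ) := by
  obtain ⟨a, m', hm', rfl⟩ := Nat.exists_eq_pow_mul_and_not_dvd hm ℓ hℓ.ne_one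
  have hcop : ∀ i, Nat.Coprime (ℓ ^ i) m' := fun i =>
    Nat.Coprime.pow_left _ ((Nat.Prime.coprime_iff_not_dvd hℓ).mpr hm')
  have h1 : ℓ ^ a * m' * ℓ = ℓ ^ (a + 1) * m' := by ring
  rw [h1, isMultiplicative_sigma.map_mul_of_coprime (hcop (a + 1)),
    isMultiplicative_sigma.map_mul_of_coprime (hcop a),
    sigma_one_apply_prime_pow hℓ, sigma_one_apply_prime_pow hℓ]
  rcases Nat.eq_zero_or_pos a with rfl | ha
  · have : ¬ ℓ ∣ ℓ ^ 0 * m' := by simpa using hm'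
    rw [if_neg this]
    simp [Finset.sum_range_succ]
  · have hd : ℓ ∣ ℓ ^ a * m' := Dvd.dvd.mul_right (dvd_pow_self ℓ (by omega)) m'
    rw [if_pos hd]
    obtain ⟨b, rfl⟩ : ∃ b, a = b + 1 := ⟨a - 1, by omega⟩
    have h2 : ℓ ^ (b + 1) * m' / ℓ = ℓ ^ b * m' := by
      rw [pow_succ, mul_assoc, mul_comm ℓ m', ← mul_assoc, Nat.mul_div_cancel _ hℓ.pos]
    rw [h2, isMultiplicative_sigma.map_mul_of_coprime (hcop b), sigma_one_apply_prime_pow hℓ]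
    push_cast
    rw [Finset.sum_range_succ (fun k => (ℓ : ℤ) ^ k) (b + 1 + 1),
      Finset.sum_range_succ (fun k => (ℓ : ℤ) ^ k) (b + 1)]
    ring

/-- (H3) -/
theorem FA_S16_sigmaP_one (p : ℕ) : FA_S16_sigmaP p 1 = 1 := by
  simp [FA_S16_sigmaP]

/-- (H2) -/
theorem FA_S16_sigmaP_mul_self {p : ℕ} (hp : p.Prime) (k : ℕ) :
    FA_S16_sigmaP p (k * p) = FA_S16_sigmaP p k := by
  unfold FA_S16_sigmaP
  have h1 : ordCompl[p] p = 1 := by
    have := Nat.ordCompl_self_pow (k := 1) hp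
    rwa [pow_one] at this
  rw [Nat.ordCompl_mul, h1, mul_one]

theorem FA_S16_Red_ordCompl_prime {p ℓ : ℕ} (hp : p.Prime) (hℓ : ℓ.Prime) (hne : ℓ ≠ p) :
    ordCompl[p] ℓ = ℓ := by
  have : ¬ p ∣ ℓ := fun h => hne ((Nat.prime_dvd_prime_iff_eq hp hℓ).mp h).symm
  rw [Nat.factorization_eq_zero_of_not_dvd this, pow_zero, Nat.div_one]

/-- (H1) -/
theorem FA_S16_sigmaP_mul_prime {p ℓ : ℕ} (hp : p.Prime) (hℓ : ℓ.Prime) (hne : ℓ ≠ p)
    (k : ℕ) (hk : k ≠ 0) :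
    FA_S16_sigmaP p (k * ℓ) + (if ℓ ∣ k then (ℓ : ℤ) * FA_S16_sigmaP p (k / ℓ) else 0)
      = (1 + ℓ) * FA_S16_sigmaP p k := by
  unfold FA_S16_sigmaP
  have hm : ordCompl[p] k ≠ 0 := (Nat.ordCompl_pos p hk).ne'
  have hcop : Nat.Coprime ℓ (p ^ k.factorization p) :=
    Nat.Coprime.pow_right _ ((Nat.coprime_primes hℓ hp).mpr hne)
  have hiff : ℓ ∣ ordCompl[p] k ↔ ℓ ∣ k := by
    constructor
    · intro h
      exact h.trans (Nat.ordCompl_dvd k p)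
    · intro h
      have h2 : ℓ ∣ p ^ k.factorization p * ordCompl[p] k := by
        rw [Nat.ordProj_mul_ordCompl_eq_self]; exact h
      exact hcop.dvd_of_dvd_mul_left h2
  have hdiv : ℓ ∣ k → ordCompl[p] (k / ℓ) = ordCompl[p] k / ℓ := by
    intro h
    obtain ⟨c, rfl⟩ := h
    have hc : c ≠ 0 := by rintro rfl; simp at hk
    rw [Nat.mul_div_cancel_left _ hℓ.pos, Nat.ordCompl_mul,
      FA_S16_Red_ordCompl_prime hp hℓ hne, Nat.mul_div_cancel_left _ hℓ.pos]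
  rw [Nat.ordCompl_mul, FA_S16_Red_ordCompl_prime hp hℓ hne]
  have key := FA_S16_Red_sigma_prime_mul hℓ (ordCompl[p] k) hm
  by_cases h : ℓ ∣ k
  · rw [if_pos h, hdiv h]
    rw [if_pos (hiff.mpr h)] at key
    exact key
  · rw [if_neg h]
    rw [if_neg (fun h' => h (hiff.mp h'))] at key
    exact key

end FA_S16
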