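import Mathlib
import Fermat.Agent.S16.AnEisBdd
import Fermat.Agent.S16.RedSigma

/-!
# S16, leaf AN-EIS (part 3): the `q`-expansion of `E₂(z) - p E₂(pz)`
-/

set_option autoImplicit false

noncomputable section

namespace FA_S16

open ModularForm ModularFormClass UpperHalfPlane CongruenceSubgroup MatrixGroups EisensteinSeries
open Matrix.SpecialLinearGroup OnePoint ArithmeticFunction
open scoped Real Manifold ArithmeticFunction.sigma

/-- `σ'(k) = σ(k) - p σ(k/p)`. -/
theorem FA_S16_sigmaP_eq {p : ℕ} (hp : p.Prime) (k : ℕ) (hk : k ≠ 0) :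
    FA_S16_sigmaP p k
      = ((σ 1 k : ℕ) : ℤ) - (if p ∣ k then (p : ℤ) * ((σ 1 (k / p) : ℕ) : ℤ) else 0) := by
  obtain ⟨a, m, hm, rfl⟩ := Nat.exists_eq_pow_mul_and_not_dvd hk p hp.ne_one
  have hcop : ∀ i, Nat.Coprime (p ^ i) m := fun i =>
    Nat.Coprime.pow_left _ ((Nat.Prime.coprime_iff_not_dvd hp).mpr hm)
  unfold FA_S16_sigmaP
  rw [Nat.ordCompl_pow_mul_of_not_dvd a hp hm]
  rcases Nat.eq_zero_or_pos a with rfl | ha
  · have : ¬ p ∣ p ^ 0 * m := by simpa using hm
    rw [if_neg this]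
    simp
  · have hd : p ∣ p ^ a * m := Dvd.dvd.mul_right (dvd_pow_self p (by omega)) m
    rw [if_pos hd]
    obtain ⟨b, rfl⟩ : ∃ b, a = b + 1 := ⟨a - 1, by omega⟩
    have h2 : p ^ (b + 1) * m / p = p ^ b * m := by
      rw [pow_succ, mul_assoc, mul_comm p m, ← mul_assoc, Nat.mul_div_cancel _ hp.pos]
    rw [h2, isMultiplicative_sigma.map_mul_of_coprime (hcop (b + 1)),
      isMultiplicative_sigma.map_mul_of_coprime (hcop b),
      sigma_one_apply_prime_pow hp, sigma_one_apply_prime_pow hp]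
    push_cast
    rw [Finset.sum_range_succ' (fun k => (p : ℤ) ^ k) (b + 1)]
    simp only [pow_succ, pow_zero]
    rw [← Finset.sum_mul]
    ring

/-- The coefficients of `E₂`. -/
def FA_S16_anEis_e (m : ℕ) : ℂ := if m = 0 then 1 else -24 * (σ 1 m : ℂ)

/-- The coefficients of `E₂(z) - p E₂(pz)`. -/
def FA_S16_anEis_c (p : ℕ) (n : ℕ) : ℂ :=
  FA_S16_anEis_e n - (p : ℂ) * (if p ∣ n then FA_S16_anEis_e (n / p) else 0)

theorem FA_S16_anEis_hasSum_E2 (z : ℍ) :
    HasSum (fun m : ℕ => FA_S16_anEis_e m • Function.Periodic.qParam 1 (z : ℂ) ^ m) (E2 z) := by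
  simpa only [FA_S16_anEis_e, Function.Periodic.qParam, Complex.ofReal_one, div_one]
    using hasSum_qExpansion_E2 (z := z)

theorem FA_S16_anEis_hasSum_E2p {p : ℕ} (hp : p ≠ 0) (z : ℍ) :
    HasSum (fun n : ℕ => (if p ∣ n then FA_S16_anEis_e (n / p) else 0) •
      Function.Periodic.qParam 1 (z : ℂ) ^ n) (E2 (heckeDiagMatrix p • z)) := by
  have h1 := FA_S16_anEis_hasSum_E2 (heckeDiagMatrix p • z)
  have hq : Function.Periodic.qParam 1 ((heckeDiagMatrix p • z : ℍ) : ℂ)
      = Function.Periodic.qParam 1 (z : ℂ) ^ p := by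
    rw [coe_heckeDiagMatrix_smul hp]
    simp only [Function.Periodic.qParam, Complex.ofReal_one, div_one]
    rw [← Complex.exp_nat_mul]
    congr 1
    ring
  rw [hq] at h1
  have hinj : Function.Injective (fun m : ℕ => p * m) := fun a b h =>
    Nat.eq_of_mul_eq_mul_left (Nat.pos_of_ne_zero hp) h
  rw [← hinj.hasSum_iff]
  · convert h1 using 1
    funext m
    simp only [Function.comp_apply, dvd_mul_right, if_true, Nat.mul_div_cancel_left _
      (Nat.pos_of_ne_zero hp), pow_mul]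
  · intro n hn
    have : ¬ p ∣ n := by
      rintro ⟨m, rfl⟩
      exact hn ⟨m, rfl⟩
    rw [if_neg this, zero_smul]

theorem FA_S16_anEis_hasSum (p : ℕ) [NeZero p] (z : ℍ) :
    HasSum (fun n : ℕ => FA_S16_anEis_c p n • Function.Periodic.qParam 1 (z : ℂ) ^ n)
      (FA_S16_anEis_form p z) := by
  rw [FA_S16_anEis_form_apply]
  have h1 := FA_S16_anEis_hasSum_E2 z
  have h2 := (FA_S16_anEis_hasSum_E2p (NeZero.ne p) z).mul_left (p : ℂ)
  have h3 := h1.sub h2
  have e : (fun n : ℕ => FA_S16_anEis_c p n • Function.Periodic.qParam 1 (z : ℂ) ^ n)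
      = fun n : ℕ => FA_S16_anEis_e n • Function.Periodic.qParam 1 (z : ℂ) ^ n
        - (p : ℂ) * ((if p ∣ n then FA_S16_anEis_e (n / p) else 0) •
            Function.Periodic.qParam 1 (z : ℂ) ^ n) := by
    funext n
    simp only [FA_S16_anEis_c, smul_eq_mul]
    ring
  rw [e]
  exact h3

theorem FA_S16_anEis_coeff (p : ℕ) [NeZero p] (n : ℕ) :
    PowerSeries.coeff n (qExpansion 1 (FA_S16_anEis_form p)) = FA_S16_anEis_c p n :=
  (ModularFormClass.qExpansion_coeff_unique one_pos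
    (CongruenceSubgroup.one_mem_strictPeriods_Gamma0 p)
    (fun τ => FA_S16_anEis_hasSum p τ) n).symm

/-- **AN-EIS**. -/
theorem FA_S16_anEis : FA_S16_Target_AnEis := by
  intro p hp
  have hpp : p.Prime := Fact.out
  have : NeZero p := ⟨hpp.ne_zero⟩
  refine ⟨FA_S16_anEis_form p, ?_, ?_⟩
  · rw [FA_S16_anEis_coeff]
    simp [FA_S16_anEis_c, FA_S16_anEis_e]
  · intro k hk
    have hk0 : k ≠ 0 := by omega
    rw [FA_S16_anEis_coeff, FA_S16_sigmaP_eq hpp k hk0]
    unfold FA_S16_anEis_c FA_S16_anEis_e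
    rw [if_neg hk0]
    by_cases hd : p ∣ k
    · have hkp : k / p ≠ 0 := by
        have := Nat.div_pos (Nat.le_of_dvd (by omega) hd) hpp.pos
        omega
      rw [if_pos hd, if_pos hd, if_neg hkp]
      push_cast
      ring
    · rw [if_neg hd, if_neg hd]
      push_cast
      ring

end FA_S16
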