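import Mathlib
import Fermat.Prelude.Thm_UpperHalfPlane_qExpansion_prod
import Fermat.Prelude.Thm_UpperHalfPlane_qExpansion_coeff_nat_mul

/-!
# S16, analytic toolkit for `q`-expansions with a period `h` (helper5)

`FA_S16_Good h f`: `f : ℍ → ℂ` is `h`-periodic, holomorphic and bounded at `i∞`.
On such functions `qExpansion h` is additive, multiplicative, and characterised by `HasSum`.
-/

set_option autoImplicit false
set_option linter.style.haveILetI false
set_option linter.unusedSectionVars false

open UpperHalfPlane ModularForm Function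
open scoped MatrixGroups ModularForm Manifold

noncomputable section

local notation "𝕢" => Periodic.qParam

/-- a wrapper for plain functions `ℍ → ℂ` (to use lemmas stated for `FunLike` types). -/
structure FA_S16_Fn where
  /-- the function -/
  toFun : ℍ → ℂ

instance FA_S16_Fn.instFunLike : FunLike FA_S16_Fn ℍ ℂ where
  coe := FA_S16_Fn.toFun
  coe_injective := fun f g h => by cases f; cases g; congr

/-- `f` is `h`-periodic, holomorphic and bounded at `i∞`. -/
structure FA_S16_Good (h : ℝ) (f : ℍ → ℂ) : Prop where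
  per : Function.Periodic (f ∘ ofComplex) h
  holo : MDiff f
  bdd : IsBoundedAtImInfty f

namespace FA_S16_Good

variable {h : ℝ} {f g : ℍ → ℂ}

theorem analytic (hf : FA_S16_Good h f) (hh : 0 < h) : AnalyticAt ℂ (cuspFunction h f) 0 :=
  UpperHalfPlane.analyticAt_cuspFunction_zero hh hf.per hf.holo hf.bdd

theorem hasSum (hf : FA_S16_Good h f) (hh : 0 < h) (τ : ℍ) :
    HasSum (fun m : ℕ ↦ (qExpansion h f).coeff m • 𝕢 h τ ^ m) (f τ) :=
  UpperHalfPlane.hasSum_qExpansion hh hf.per hf.holo hf.bdd τ

theorem add (hf : FA_S16_Good h f) (hg : FA_S16_Good h g) : FA_S16_Good h (f + g) where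
  per := by
    intro z
    have h1 := hf.per z
    have h2 := hg.per z
    simp only [Function.comp_apply, Pi.add_apply] at h1 h2 ⊢
    rw [h1, h2]
  holo := hf.holo.add hg.holo
  bdd := hf.bdd.add hg.bdd

theorem mul (hf : FA_S16_Good h f) (hg : FA_S16_Good h g) : FA_S16_Good h (f * g) where
  per := by
    intro z
    have h1 := hf.per z
    have h2 := hg.per z
    simp only [Function.comp_apply, Pi.mul_apply] at h1 h2 ⊢
    rw [h1, h2]
  holo := hf.holo.mul hg.holo
  bdd := hf.bdd.mul hg.bdd

theorem const (h : ℝ) (c : ℂ) : FA_S16_Good h (fun _ => c) where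
  per := fun _ => rfl
  holo := mdifferentiable_const
  bdd := Filter.const_boundedAtFilter _ c

theorem one (h : ℝ) : FA_S16_Good h (1 : ℍ → ℂ) := const h 1

theorem zero (h : ℝ) : FA_S16_Good h (0 : ℍ → ℂ) := const h 0

theorem smul (hf : FA_S16_Good h f) (c : ℂ) : FA_S16_Good h (c • f) := by
  have : c • f = (fun _ => c) * f := by ext; simp
  rw [this]
  exact (const h c).mul hf

theorem neg (hf : FA_S16_Good h f) : FA_S16_Good h (-f) := by
  have : -f = (-1 : ℂ) • f := by ext; simp
  rw [this]
  exact hf.smul _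

theorem sum {ι : Type*} (s : Finset ι) {F : ι → ℍ → ℂ} (hF : ∀ i ∈ s, FA_S16_Good h (F i)) :
    FA_S16_Good h (∑ i ∈ s, F i) := by
  classical
  induction s using Finset.induction_on with
  | empty => simpa using zero h
  | insert a s ha ih =>
    rw [Finset.sum_insert ha]
    exact (hF a (Finset.mem_insert_self _ _)).add
      (ih fun i hi => hF i (Finset.mem_insert_of_mem hi))

theorem prod {ι : Type*} (s : Finset ι) {F : ι → ℍ → ℂ} (hF : ∀ i ∈ s, FA_S16_Good h (F i)) :
    FA_S16_Good h (∏ i ∈ s, F i) := by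
  classical
  induction s using Finset.induction_on with
  | empty => simpa using one h
  | insert a s ha ih =>
    rw [Finset.prod_insert ha]
    exact (hF a (Finset.mem_insert_self _ _)).mul
      (ih fun i hi => hF i (Finset.mem_insert_of_mem hi))

theorem qExpansion_add (hf : FA_S16_Good h f) (hg : FA_S16_Good h g) (hh : 0 < h) :
    qExpansion h (f + g) = qExpansion h f + qExpansion h g :=
  UpperHalfPlane.qExpansion_add (hf.analytic hh) (hg.analytic hh)

theorem qExpansion_mul (hf : FA_S16_Good h f) (hg : FA_S16_Good h g) (hh : 0 < h) :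
    qExpansion h (f * g) = qExpansion h f * qExpansion h g :=
  UpperHalfPlane.qExpansion_mul (hf.analytic hh) (hg.analytic hh)

theorem qExpansion_smul (hf : FA_S16_Good h f) (hh : 0 < h) (c : ℂ) :
    qExpansion h (c • f) = c • qExpansion h f :=
  UpperHalfPlane.qExpansion_smul (hf.analytic hh) c

theorem qExpansion_neg (hf : FA_S16_Good h f) (hh : 0 < h) :
    qExpansion h (-f) = -qExpansion h f :=
  UpperHalfPlane.qExpansion_neg (hf.analytic hh)

theorem qExpansion_sum {ι : Type*} (s : Finset ι) {F : ι → ℍ → ℂ}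
    (hF : ∀ i ∈ s, FA_S16_Good h (F i)) (hh : 0 < h) :
    qExpansion h (∑ i ∈ s, F i) = ∑ i ∈ s, qExpansion h (F i) := by
  classical
  induction s using Finset.induction_on with
  | empty => simpa using UpperHalfPlane.qExpansion_zero h
  | insert a s ha ih =>
    rw [Finset.sum_insert ha, Finset.sum_insert ha,
      (hF a (Finset.mem_insert_self _ _)).qExpansion_add
        (sum s fun i hi => hF i (Finset.mem_insert_of_mem hi)) hh,
      ih fun i hi => hF i (Finset.mem_insert_of_mem hi)]

theorem qExpansion_prod {ι : Type*} (s : Finset ι) {F : ι → ℍ → ℂ}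
    (hF : ∀ i ∈ s, FA_S16_Good h (F i)) (hh : 0 < h) :
    qExpansion h (∏ i ∈ s, F i) = ∏ i ∈ s, qExpansion h (F i) :=
  UpperHalfPlane.qExpansion_prod s fun i hi => (hF i hi).analytic hh

/-- uniqueness of the `q`-expansion. -/
theorem qExpansion_eq_of_hasSum (hf : FA_S16_Good h f) (hh : 0 < h) {c : ℕ → ℂ}
    (hc : ∀ τ : ℍ, HasSum (fun m ↦ c m • 𝕢 h τ ^ m) (f τ)) :
    qExpansion h f = PowerSeries.mk c := by
  ext m
  rw [PowerSeries.coeff_mk]
  exact (UpperHalfPlane.qExpansion_coeff_unique (⟨f⟩ : FA_S16_Fn) hh (hf.analytic hh) hc m).symm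

/-- a function of period `1` has period `p`. -/
theorem of_one (hf : FA_S16_Good 1 f) (p : ℕ) : FA_S16_Good (p : ℝ) f where
  per := by simpa using hf.per.nat_mul p
  holo := hf.holo
  bdd := hf.bdd

/-- the expansion in `q^{1/p}` of a function of period `1`. -/
theorem qExpansion_of_one (hf : FA_S16_Good 1 f) {p : ℕ} (hp : p ≠ 0) :
    qExpansion (p : ℝ) f = PowerSeries.expand p hp (qExpansion 1 f) := by
  ext n
  have h := UpperHalfPlane.qExpansion_coeff_nat_mul (h := 1) one_pos hf.per hf.holo hf.bdd
    (Nat.pos_of_ne_zero hp) n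
  rw [mul_one] at h
  rw [h, PowerSeries.coeff_expand]

end FA_S16_Good

end
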