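import Mathlib
import Fermat.Agent.S16.AnBasic

/-!
# S16, analytic toolkit: translations `τ ↦ τ + n` and `q`-expansions (helper5)
-/

set_option autoImplicit false
set_option linter.style.haveILetI false
set_option linter.unusedSectionVars false

open UpperHalfPlane ModularForm Function
open scoped MatrixGroups ModularForm Manifold

noncomputable section

local notation "𝕢" => Periodic.qParam

namespace FA_S16_Good

variable {h : ℝ} {f g : ℍ → ℂ}

theorem slash_T_apply (f : ℍ → ℂ) (k : ℤ) (n : ℤ) (τ : ℍ) :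
    (f ∣[k] (ModularGroup.T ^ n)) τ = f ((n : ℝ) +ᵥ τ) := by
  rw [ModularForm.SL_slash_apply, UpperHalfPlane.modular_T_zpow_smul]
  have : denom (ModularGroup.T ^ n : SL(2, ℤ)) τ = 1 := by
    have e := ModularGroup.coe_T_zpow n
    have e10 : (ModularGroup.T ^ n : SL(2, ℤ)) 1 0 = 0 := by
      show (ModularGroup.T ^ n : SL(2, ℤ)).1 1 0 = 0
      rw [e]; rfl
    have e11 : (ModularGroup.T ^ n : SL(2, ℤ)) 1 1 = 1 := by
      show (ModularGroup.T ^ n : SL(2, ℤ)).1 1 1 = 1
      rw [e]; rfl
    simp only [denom, Matrix.SpecialLinearGroup.coe_GL_coe_matrix,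
      Matrix.SpecialLinearGroup.map_apply_coe, RingHom.mapMatrix_apply, Matrix.map_apply, e10, e11]
    simp
  rw [this]
  simp

theorem coe_vadd_ofComplex (x : ℝ) {z : ℂ} (hz : 0 < z.im) :
    x +ᵥ ofComplex z = ofComplex (z + x) := by
  have hz' : 0 < (z + x).im := by simpa using hz
  rw [ofComplex_apply_of_im_pos hz, ofComplex_apply_of_im_pos hz']
  apply UpperHalfPlane.ext
  simp [UpperHalfPlane.coe_vadd, add_comm]

theorem slash_T (hf : FA_S16_Good h f) (k : ℤ) (n : ℤ) :
    FA_S16_Good h (f ∣[k] (ModularGroup.T ^ n)) where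
  per := by
    intro z
    simp only [Function.comp_apply, slash_T_apply]
    by_cases hz : 0 < z.im
    · have hz' : 0 < (z + h).im := by simpa using hz
      rw [coe_vadd_ofComplex _ hz, coe_vadd_ofComplex _ hz']
      have := hf.per (z + (n : ℝ))
      simp only [Function.comp_apply] at this
      rw [← this]
      congr 2
      push_cast
      ring
    · have hz' : (z + h).im ≤ 0 := by simpa using not_lt.mp hz
      rw [ofComplex_apply_eq_of_im_nonpos hz' (not_lt.mp hz)]
  holo := by
    rw [ModularForm.SL_slash]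
    exact hf.holo.slash k _
  bdd := by
    rw [ModularForm.SL_slash]
    apply IsBoundedAtImInfty.slash
    · have e := ModularGroup.coe_T_zpow n
      have e10 : (ModularGroup.T ^ n : SL(2, ℤ)) 1 0 = 0 := by
        show (ModularGroup.T ^ n : SL(2, ℤ)).1 1 0 = 0
        rw [e]; rfl
      simp only [Matrix.SpecialLinearGroup.coe_GL_coe_matrix,
        Matrix.SpecialLinearGroup.map_apply_coe, RingHom.mapMatrix_apply, Matrix.map_apply, e10]
      simp
    · exact hf.bdd

theorem qParam_vadd (hh : h ≠ 0) (n : ℤ) (τ : ℍ) :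
    𝕢 h (((n : ℝ) +ᵥ τ : ℍ) : ℂ) = Complex.exp (2 * Real.pi * Complex.I * n / h) * 𝕢 h τ := by
  rw [Periodic.qParam, Periodic.qParam, ← Complex.exp_add]
  congr 1
  rw [UpperHalfPlane.coe_vadd]
  push_cast
  ring

theorem qExpansion_slash_T (hf : FA_S16_Good h f) (hh : 0 < h) (k : ℤ) (n : ℤ) :
    qExpansion h (f ∣[k] (ModularGroup.T ^ n)) =
      PowerSeries.rescale (Complex.exp (2 * Real.pi * Complex.I * n / h)) (qExpansion h f) := by
  rw [(hf.slash_T k n).qExpansion_eq_of_hasSum hh
    (c := fun m => Complex.exp (2 * Real.pi * Complex.I * n / h) ^ m * (qExpansion h f).coeff m)]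
  · ext m
    simp [PowerSeries.coeff_rescale]
  · intro τ
    rw [slash_T_apply]
    have := hf.hasSum hh ((n : ℝ) +ᵥ τ)
    rw [qParam_vadd hh.ne'] at this
    convert this using 2 with m
    simp only [smul_eq_mul, mul_pow]
    ring

end FA_S16_Good

end
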