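import Mathlib
import Fermat.Prelude.Def_ModularForm_HeckeOperator

set_option autoImplicit false
set_option linter.style.haveILetI false
open UpperHalfPlane ModularForm
open scoped MatrixGroups ModularForm

namespace FA_S16_T1

/-- coset representatives of `SL(2,ℤ) ⧸ Γ₀(p)` (left cosets): `1` and `(S T^j)⁻¹`. -/
def rep (p : ℕ) : Option (Fin p) → SL(2, ℤ)
  | none => 1
  | some j => ⟨!![(j : ℤ), 1; -1, 0], by simp [Matrix.det_fin_two_of]⟩

/-- `S T^j`. -/
def repInv (p : ℕ) : Option (Fin p) → SL(2, ℤ)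
  | none => 1
  | some j => ⟨!![0, -1; 1, (j : ℤ)], by simp [Matrix.det_fin_two_of]⟩

theorem rep_inv (p : ℕ) (i : Option (Fin p)) : (rep p i)⁻¹ = repInv p i := by
  cases i with
  | none => simp [rep, repInv]
  | some j =>
    rw [Matrix.SpecialLinearGroup.SL2_inv_expl]
    ext a b
    fin_cases a <;> fin_cases b <;> simp [rep, repInv]

theorem repInv_mul_apply (p : ℕ) (i : Option (Fin p)) (g : SL(2, ℤ)) :
    ((repInv p i * g : SL(2, ℤ)) 1 0 : ℤ) =
      match i with
      | none => g 1 0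
      | some j => g 0 0 + (j : ℤ) * g 1 0 := by
  rcases i with _ | j <;>
    simp [repInv, Matrix.SpecialLinearGroup.coe_mul, Matrix.mul_apply, Fin.sum_univ_two]

theorem rep_injective (p : ℕ) [hp : Fact p.Prime] :
    Function.Injective
      (fun i => (QuotientGroup.mk (rep p i) : SL(2, ℤ) ⧸ CongruenceSubgroup.Gamma0 p)) := by
  intro i i' h
  have h' := QuotientGroup.eq.mp h
  rw [rep_inv, CongruenceSubgroup.Gamma0_mem, repInv_mul_apply] at h'
  have hp1 : (1 : ZMod p) ≠ 0 := one_ne_zero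
  rcases i with _ | j <;> rcases i' with _ | j'
  · rfl
  · simp [rep] at h'
  · simp [rep] at h'
  · simp only [rep] at h'
    have : ((j : ℕ) : ZMod p) = ((j' : ℕ) : ZMod p) := by
      have := h'
      simp at this
      linear_combination -this
    have h2 := (ZMod.natCast_eq_natCast_iff' _ _ _).mp this
    rw [Nat.mod_eq_of_lt j.2, Nat.mod_eq_of_lt j'.2] at h2
    congr 1
    exact Fin.ext h2

theorem rep_surjective (p : ℕ) [hp : Fact p.Prime] :
    Function.Surjective
      (fun i => (QuotientGroup.mk (rep p i) : SL(2, ℤ) ⧸ CongruenceSubgroup.Gamma0 p)) := by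
  intro q
  induction q using QuotientGroup.induction_on with
  | H g =>
  by_cases hc : ((g 1 0 : ℤ) : ZMod p) = 0
  · refine ⟨none, ?_⟩
    apply QuotientGroup.eq.mpr
    rw [rep_inv, CongruenceSubgroup.Gamma0_mem, repInv_mul_apply]
    exact hc
  · -- j = - a / c
    haveI : NeZero p := ⟨hp.out.ne_zero⟩
    set x : ZMod p := - ((g 0 0 : ℤ) : ZMod p) * (((g 1 0 : ℤ) : ZMod p))⁻¹ with hx
    refine ⟨some ⟨x.val, ZMod.val_lt x⟩, ?_⟩
    apply QuotientGroup.eq.mpr
    rw [rep_inv, CongruenceSubgroup.Gamma0_mem, repInv_mul_apply]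
    push_cast
    rw [ZMod.natCast_zmod_val, hx]
    field_simp
    ring

theorem rep_bijective (p : ℕ) [hp : Fact p.Prime] :
    Function.Bijective
      (fun i => (QuotientGroup.mk (rep p i) : SL(2, ℤ) ⧸ CongruenceSubgroup.Gamma0 p)) :=
  ⟨rep_injective p, rep_surjective p⟩

end FA_S16_T1
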