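import Mathlib
import Fermat.Prelude.Thm_CongruenceSubgroup_one_mem_strictPeriods_Gamma0
import Fermat.Agent.S16.AnTrans
import Fermat.Agent.S16.T1Coset
import Fermat.Agent.S16.UInterface

/-!
# S16: the conjugates of a form on `Γ₀(p)` and their expansions in `q^{1/p}` (helper5)
-/

set_option autoImplicit false
set_option linter.style.haveILetI false
set_option linter.unusedSectionVars false

open UpperHalfPlane ModularForm Function CongruenceSubgroup
open scoped MatrixGroups ModularForm Manifold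

noncomputable section

local notation "𝕢" => Periodic.qParam

namespace FA_S16_Pair

variable (p : ℕ) [hp : Fact p.Prime] {k : ℤ}

theorem good_one (F : ModularForm (Gamma0 p) k) : FA_S16_Good 1 (F : ℍ → ℂ) where
  per := SlashInvariantFormClass.periodic_comp_ofComplex F
    (CongruenceSubgroup.one_mem_strictPeriods_Gamma0 p)
  holo := ModularFormClass.holo F
  bdd := ModularFormClass.bdd_at_infty F

theorem repInv_some_eq (j : Fin p) :
    FA_S16_T1.repInv p (some j) = ModularGroup.S * ModularGroup.T ^ ((j : ℕ) : ℤ) := by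
  ext a b
  rw [Matrix.SpecialLinearGroup.coe_mul, ModularGroup.coe_T_zpow]
  fin_cases a <;> fin_cases b <;>
    simp [FA_S16_T1.repInv, ModularGroup.S, Matrix.mul_apply, Fin.sum_univ_two]

/-- `S T^p = γ S` with `γ = [[1,0],[-p,1]] ∈ Γ₀(p)`. -/
theorem S_mul_T_pow : ∃ γ ∈ Gamma0 p,
    ModularGroup.S * ModularGroup.T ^ ((p : ℕ) : ℤ) = γ * ModularGroup.S := by
  refine ⟨⟨!![1, 0; -(p : ℤ), 1], by simp [Matrix.det_fin_two_of]⟩, ?_, ?_⟩
  · rw [Gamma0_mem]
    simp
  · ext a b
    rw [Matrix.SpecialLinearGroup.coe_mul, Matrix.SpecialLinearGroup.coe_mul,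
      ModularGroup.coe_T_zpow]
    fin_cases a <;> fin_cases b <;>
      simp [ModularGroup.S, Matrix.mul_apply, Fin.sum_univ_two]

theorem slash_S_slash_T_pow (F : ModularForm (Gamma0 p) k) :
    ((F : ℍ → ℂ) ∣[k] ModularGroup.S) ∣[k] (ModularGroup.T ^ ((p : ℕ) : ℤ)) =
      (F : ℍ → ℂ) ∣[k] ModularGroup.S := by
  obtain ⟨γ, hγ, h⟩ := S_mul_T_pow p
  rw [← SlashAction.slash_mul, h, SlashAction.slash_mul]
  congr 1
  rw [ModularForm.SL_slash]
  exact SlashInvariantFormClass.slash_action_eq F _ ⟨γ, hγ, rfl⟩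

theorem good_S (F : ModularForm (Gamma0 p) k) :
    FA_S16_Good (p : ℝ) ((F : ℍ → ℂ) ∣[k] ModularGroup.S) where
  per := by
    intro z
    simp only [Function.comp_apply]
    by_cases hz : 0 < z.im
    · have h1 := congrFun (slash_S_slash_T_pow p F) (ofComplex z)
      rw [FA_S16_Good.slash_T_apply, FA_S16_Good.coe_vadd_ofComplex _ hz] at h1
      rw [← h1]
      congr 2
    · have hz' : (z + (p : ℝ)).im ≤ 0 := by simpa using not_lt.mp hz
      rw [ofComplex_apply_eq_of_im_nonpos hz' (not_lt.mp hz)]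
  holo := by
    rw [ModularForm.SL_slash]
    exact (ModularFormClass.holo F).slash k _
  bdd := ModularFormClass.bdd_at_infty_slash F ModularGroup.S

/-- the conjugates of `F`. -/
def cf (F : ModularForm (Gamma0 p) k) (o : Option (Fin p)) : ℍ → ℂ :=
  (F : ℍ → ℂ) ∣[k] FA_S16_T1.repInv p o

theorem cf_none (F : ModularForm (Gamma0 p) k) : cf p F none = F := by
  simp [cf, FA_S16_T1.repInv]

theorem cf_some (F : ModularForm (Gamma0 p) k) (j : Fin p) :
    cf p F (some j) =
      ((F : ℍ → ℂ) ∣[k] ModularGroup.S) ∣[k] (ModularGroup.T ^ ((j : ℕ) : ℤ)) := by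
  rw [cf, repInv_some_eq, SlashAction.slash_mul]

theorem good_cf (F : ModularForm (Gamma0 p) k) (o : Option (Fin p)) :
    FA_S16_Good (p : ℝ) (cf p F o) := by
  rcases o with _ | j
  · rw [cf_none]
    exact (good_one p F).of_one p
  · rw [cf_some]
    exact (good_S p F).slash_T k _

theorem zeta_pow (j : ℕ) :
    Complex.exp (2 * Real.pi * Complex.I * ((j : ℤ) : ℂ) / ((p : ℕ) : ℝ)) =
      FA_S16.FA_S16_zeta p ^ j := by
  rw [FA_S16.FA_S16_zeta, ← Complex.exp_nat_mul]
  congr 1
  push_cast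
  ring

theorem qExpansion_cf (F : ModularForm (Gamma0 p) k) (o : Option (Fin p)) :
    haveI : NeZero p := ⟨hp.out.ne_zero⟩
    qExpansion (p : ℝ) (cf p F o) =
      FA_S16.FA_S16_conj p (qExpansion 1 F) (qExpansion (p : ℝ) ((F : ℍ → ℂ) ∣[k] ModularGroup.S))
        o := by
  have hp0 : (0 : ℝ) < p := by exact_mod_cast hp.out.pos
  rcases o with _ | j
  · rw [cf_none]
    exact (good_one p F).qExpansion_of_one hp.out.ne_zero
  · rw [cf_some, (good_S p F).qExpansion_slash_T hp0, zeta_pow]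
    rfl

end FA_S16_Pair

end
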