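import Mathlib
import Fermat.Agent.S16.AnPair
import Fermat.Agent.S16.AnEisBdd

/-!
# S16, leaf AN-RING (helper9): closure properties of pairs

`FA_S16_anRing : FA_S16_Target_AnRing`; and the general `V_p` clause `FA_S16_anV_gen`
(`(s(X^p), p^{-k} s)` is a pair for every level one `q`-expansion `s` of weight `k`).
-/

set_option autoImplicit false

noncomputable section

namespace FA_S16

open ModularForm ModularFormClass UpperHalfPlane CongruenceSubgroup MatrixGroups EisensteinSeries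
open Matrix.SpecialLinearGroup OnePoint
open scoped Real Manifold

local notation "Δ" => ModularForm.discriminant

variable (p : ℕ) [hp : Fact p.Prime]

theorem FA_S16_anRing_add {k : ℤ} {a b a' b' : PowerSeries ℂ} (h : FA_S16_IsPair p k a b)
    (h' : FA_S16_IsPair p k a' b') : FA_S16_IsPair p k (a + a') (b + b') := by
  obtain ⟨F, rfl, rfl⟩ := h
  obtain ⟨F', rfl, rfl⟩ := h'
  have hp0 : (0 : ℝ) < p := by exact_mod_cast hp.out.pos
  refine ⟨F + F', ?_, ?_⟩
  · rw [show ((F + F' : ModularForm (Gamma0 p) k) : ℍ → ℂ) = (F : ℍ → ℂ) + (F' : ℍ → ℂ) from rfl]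
    exact (FA_S16_Pair.good_one p F).qExpansion_add (FA_S16_Pair.good_one p F') one_pos
  · rw [show ((F + F' : ModularForm (Gamma0 p) k) : ℍ → ℂ) = (F : ℍ → ℂ) + (F' : ℍ → ℂ) from rfl,
      SlashAction.add_slash]
    exact (FA_S16_Pair.good_S p F).qExpansion_add (FA_S16_Pair.good_S p F') hp0

theorem FA_S16_anRing_mul {k k' : ℤ} {a b a' b' : PowerSeries ℂ} (h : FA_S16_IsPair p k a b)
    (h' : FA_S16_IsPair p k' a' b') : FA_S16_IsPair p (k + k') (a * a') (b * b') := by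
  obtain ⟨F, rfl, rfl⟩ := h
  obtain ⟨F', rfl, rfl⟩ := h'
  have hp0 : (0 : ℝ) < p := by exact_mod_cast hp.out.pos
  refine ⟨F.mul F', ?_, ?_⟩
  · rw [ModularForm.coe_mul]
    exact (FA_S16_Pair.good_one p F).qExpansion_mul (FA_S16_Pair.good_one p F') one_pos
  · rw [ModularForm.coe_mul, ModularForm.mul_slash_SL2]
    exact (FA_S16_Pair.good_S p F).qExpansion_mul (FA_S16_Pair.good_S p F') hp0

theorem FA_S16_anRing_smul {k : ℤ} (c : ℂ) {a b : PowerSeries ℂ} (h : FA_S16_IsPair p k a b) :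
    FA_S16_IsPair p k (c • a) (c • b) := by
  obtain ⟨F, rfl, rfl⟩ := h
  have hp0 : (0 : ℝ) < p := by exact_mod_cast hp.out.pos
  refine ⟨c • F, ?_, ?_⟩
  · rw [show ((c • F : ModularForm (Gamma0 p) k) : ℍ → ℂ) = c • (F : ℍ → ℂ) from rfl]
    exact (FA_S16_Pair.good_one p F).qExpansion_smul one_pos c
  · rw [show ((c • F : ModularForm (Gamma0 p) k) : ℍ → ℂ) = c • (F : ℍ → ℂ) from rfl,
      ModularForm.SL_smul_slash]
    exact (FA_S16_Pair.good_S p F).qExpansion_smul hp0 c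

/-- a level one form, seen as a form on `Γ₀(p)`. -/
def FA_S16_anRing_res {k : ℤ} (G : ModularForm 𝒮ℒ k) : ModularForm (Gamma0 p) k where
  toFun := G
  slash_action_eq' := by
    rintro _ ⟨γ, -, rfl⟩
    exact SlashInvariantFormClass.slash_action_eq G _ ⟨γ, rfl⟩
  holo' := ModularFormClass.holo G
  bdd_at_cusps' := fun {c} hc => by
    rw [Subgroup.IsArithmetic.isCusp_iff_isCusp_SL2Z] at hc
    exact ModularFormClass.bdd_at_cusps G hc

theorem FA_S16_anRing_res_coe {k : ℤ} (G : ModularForm 𝒮ℒ k) :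
    (FA_S16_anRing_res p G : ℍ → ℂ) = G := rfl

theorem FA_S16_anRing_l1 {k : ℤ} {s : PowerSeries ℂ} (h : s ∈ FA_S16_qL1 k) :
    FA_S16_IsPair p k s (PowerSeries.expand p hp.out.ne_zero s) := by
  obtain ⟨G, rfl⟩ := h
  refine ⟨FA_S16_anRing_res p G, rfl, ?_⟩
  have hS : ((FA_S16_anRing_res p G : ℍ → ℂ) ∣[k] ModularGroup.S) = G := by
    rw [FA_S16_anRing_res_coe, ModularForm.SL_slash]
    exact SlashInvariantFormClass.slash_action_eq G _ ⟨ModularGroup.S, rfl⟩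
  rw [hS]
  exact (FA_S16_Pair.good_one p (FA_S16_anRing_res p G)).qExpansion_of_one hp.out.ne_zero

/-- `G ∣[k] diag(p, 1)`, i.e. `z ↦ p^(k-1) G(pz)`, as a form on `Γ₀(p)`. -/
def FA_S16_anRing_V {k : ℤ} (G : ModularForm 𝒮ℒ k) : ModularForm (Gamma0 p) k where
  toFun := (G : ℍ → ℂ) ∣[k] heckeDiagMatrix p
  slash_action_eq' := by
    rintro _ ⟨γ, hγ, rfl⟩
    have hγ' : γ ∈ Gamma0 p := hγ
    have hdvd : (p : ℤ) ∣ γ 1 0 := by
      rw [Gamma0_mem] at hγ'
      exact (ZMod.intCast_zmod_eq_zero_iff_dvd _ _).mp hγ'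
    obtain ⟨e, he⟩ := hdvd
    obtain ⟨g', -, -, hcomm⟩ := FA_S16_anEis_comm hp.out.ne_zero γ e he
    show ((G : ℍ → ℂ) ∣[k] heckeDiagMatrix p) ∣[k] (mapGL ℝ γ) = (G : ℍ → ℂ) ∣[k] heckeDiagMatrix p
    rw [← SlashAction.slash_mul, hcomm, SlashAction.slash_mul]
    congr 1
    exact SlashInvariantFormClass.slash_action_eq G _ ⟨g', rfl⟩
  holo' := (ModularFormClass.holo G).slash k _
  bdd_at_cusps' := fun {c} hc => by
    rw [Subgroup.IsArithmetic.isCusp_iff_isCusp_SL2Z] at hc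
    show c.IsBoundedAt ((G : ℍ → ℂ) ∣[k] heckeDiagMatrix p) k
    rw [← OnePoint.IsBoundedAt.smul_iff]
    obtain ⟨g, hg⟩ := FA_S16_anEis_heckeDiag_eq_map p
    rw [hg]
    exact ModularFormClass.bdd_at_cusps G (FA_S16_anEis_isCusp_smul hc g)

theorem FA_S16_anRing_V_coe {k : ℤ} (G : ModularForm 𝒮ℒ k) :
    (FA_S16_anRing_V p G : ℍ → ℂ) = (G : ℍ → ℂ) ∣[k] heckeDiagMatrix p := rfl

theorem FA_S16_anRing_V_apply {k : ℤ} (G : ModularForm 𝒮ℒ k) (z : ℍ) :
    FA_S16_anRing_V p G z = (p : ℂ) ^ (k - 1) * G (heckeDiagMatrix p • z) := by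
  rw [FA_S16_anRing_V_coe, slash_heckeDiagMatrix_apply k hp.out.ne_zero]

theorem FA_S16_anRing_l1_hasSum {k : ℤ} (G : ModularForm 𝒮ℒ k) (z : ℍ) :
    HasSum (fun m : ℕ => (qExpansion 1 G).coeff m • Function.Periodic.qParam 1 (z : ℂ) ^ m)
      (G z) :=
  UpperHalfPlane.hasSum_qExpansion one_pos
    (SlashInvariantFormClass.periodic_comp_ofComplex G one_mem_strictPeriods_SL)
    (ModularFormClass.holo G) (ModularFormClass.bdd_at_infty G) z

theorem FA_S16_anRing_V_hasSum {k : ℤ} (G : ModularForm 𝒮ℒ k) (z : ℍ) :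
    HasSum (fun n : ℕ => (PowerSeries.coeff n
        ((p : ℂ) ^ (k - 1) • PowerSeries.expand p hp.out.ne_zero (qExpansion 1 G))) •
      Function.Periodic.qParam 1 (z : ℂ) ^ n) (FA_S16_anRing_V p G z) := by
  have hp' : p ≠ 0 := hp.out.ne_zero
  rw [FA_S16_anRing_V_apply]
  have h1 := FA_S16_anRing_l1_hasSum G (heckeDiagMatrix p • z)
  have hq : Function.Periodic.qParam 1 ((heckeDiagMatrix p • z : ℍ) : ℂ)
      = Function.Periodic.qParam 1 (z : ℂ) ^ p := by
    rw [coe_heckeDiagMatrix_smul hp']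
    simp only [Function.Periodic.qParam, Complex.ofReal_one, div_one]
    rw [← Complex.exp_nat_mul]
    congr 1
    ring
  rw [hq] at h1
  have hinj : Function.Injective (fun m : ℕ => p * m) := fun a b h =>
    Nat.eq_of_mul_eq_mul_left (Nat.pos_of_ne_zero hp') h
  have h2 : HasSum (fun n : ℕ => (PowerSeries.coeff n
        (PowerSeries.expand p hp.out.ne_zero (qExpansion 1 G))) •
      Function.Periodic.qParam 1 (z : ℂ) ^ n) (G (heckeDiagMatrix p • z)) := by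
    rw [← hinj.hasSum_iff]
    · convert h1 using 1
      funext m
      simp only [Function.comp_apply, PowerSeries.coeff_expand, dvd_mul_right, if_true,
        Nat.mul_div_cancel_left _ (Nat.pos_of_ne_zero hp'), pow_mul]
    · intro n hn
      have : ¬ p ∣ n := by
        rintro ⟨m, rfl⟩
        exact hn ⟨m, rfl⟩
      rw [PowerSeries.coeff_expand, if_neg this, zero_smul]
  have h3 := h2.mul_left ((p : ℂ) ^ (k - 1))
  have e : (fun n : ℕ => (PowerSeries.coeff n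
        ((p : ℂ) ^ (k - 1) • PowerSeries.expand p hp.out.ne_zero (qExpansion 1 G))) •
      Function.Periodic.qParam 1 (z : ℂ) ^ n)
      = fun n : ℕ => (p : ℂ) ^ (k - 1) * ((PowerSeries.coeff n
        (PowerSeries.expand p hp.out.ne_zero (qExpansion 1 G))) •
      Function.Periodic.qParam 1 (z : ℂ) ^ n) := by
    funext n
    simp only [_root_.map_smul, smul_eq_mul]
    ring
  rw [e]
  exact h3

theorem FA_S16_anRing_V_q {k : ℤ} (G : ModularForm 𝒮ℒ k) :
    qExpansion 1 (FA_S16_anRing_V p G) =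
      (p : ℂ) ^ (k - 1) • PowerSeries.expand p hp.out.ne_zero (qExpansion 1 G) := by
  ext n
  exact (ModularFormClass.qExpansion_coeff_unique one_pos
    (CongruenceSubgroup.one_mem_strictPeriods_Gamma0 p)
    (fun τ => FA_S16_anRing_V_hasSum p G τ) n).symm

/-- `diag(p,1) S = S diag(1,p)`. -/
theorem FA_S16_anRing_comm_S :
    heckeDiagMatrix p * mapGL ℝ ModularGroup.S = mapGL ℝ ModularGroup.S * heckeMatrix p 0 := by
  apply Units.ext
  rw [Units.val_mul, Units.val_mul, val_heckeDiagMatrix hp.out.ne_zero,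
    val_heckeMatrix hp.out.ne_zero]
  ext i j
  fin_cases i <;> fin_cases j <;>
    simp [Matrix.mul_apply, Fin.sum_univ_two, ModularGroup.S]

theorem FA_S16_anRing_V_S {k : ℤ} (G : ModularForm 𝒮ℒ k) :
    (FA_S16_anRing_V p G : ℍ → ℂ) ∣[k] ModularGroup.S = (G : ℍ → ℂ) ∣[k] heckeMatrix p 0 := by
  rw [FA_S16_anRing_V_coe, ModularForm.SL_slash, ← SlashAction.slash_mul]
  show (G : ℍ → ℂ) ∣[k] (heckeDiagMatrix p * mapGL ℝ ModularGroup.S) = _
  rw [FA_S16_anRing_comm_S, SlashAction.slash_mul]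
  congr 1
  exact SlashInvariantFormClass.slash_action_eq G _ ⟨ModularGroup.S, rfl⟩

theorem FA_S16_anRing_V_S_hasSum {k : ℤ} (G : ModularForm 𝒮ℒ k) (z : ℍ) :
    HasSum (fun n : ℕ => (PowerSeries.coeff n ((p : ℂ)⁻¹ • qExpansion 1 G)) •
      Function.Periodic.qParam (p : ℝ) (z : ℂ) ^ n)
      (((FA_S16_anRing_V p G : ℍ → ℂ) ∣[k] ModularGroup.S) z) := by
  have hp' : p ≠ 0 := hp.out.ne_zero
  have hpC : (p : ℂ) ≠ 0 := by exact_mod_cast hp'
  rw [FA_S16_anRing_V_S, slash_heckeMatrix_apply k hp']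
  have h1 := FA_S16_anRing_l1_hasSum G (heckeMatrix p 0 • z)
  have hq : Function.Periodic.qParam 1 ((heckeMatrix p 0 • z : ℍ) : ℂ)
      = Function.Periodic.qParam (p : ℝ) (z : ℂ) := by
    rw [coe_heckeMatrix_smul hp', Nat.cast_zero, add_zero]
    simp only [Function.Periodic.qParam, Complex.ofReal_one, div_one, Complex.ofReal_natCast]
    congr 1
    field_simp
  rw [hq] at h1
  have h3 := h1.mul_left ((p : ℂ)⁻¹)
  have e : (fun n : ℕ => (PowerSeries.coeff n ((p : ℂ)⁻¹ • qExpansion 1 G)) •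
      Function.Periodic.qParam (p : ℝ) (z : ℂ) ^ n)
      = fun n : ℕ => (p : ℂ)⁻¹ * ((PowerSeries.coeff n (qExpansion 1 G)) •
      Function.Periodic.qParam (p : ℝ) (z : ℂ) ^ n) := by
    funext n
    simp only [_root_.map_smul, smul_eq_mul]
    ring
  rw [e]
  exact h3

theorem FA_S16_anRing_V_S_q {k : ℤ} (G : ModularForm 𝒮ℒ k) :
    qExpansion (p : ℝ) ((FA_S16_anRing_V p G : ℍ → ℂ) ∣[k] ModularGroup.S) =
      (p : ℂ)⁻¹ • qExpansion 1 G := by
  have hp0 : (0 : ℝ) < p := by exact_mod_cast hp.out.pos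
  rw [(FA_S16_Pair.good_S p (FA_S16_anRing_V p G)).qExpansion_eq_of_hasSum hp0
    (fun τ => FA_S16_anRing_V_S_hasSum p G τ)]
  ext n
  simp


/-- **AN-V** (general form): `(s(X^p), p^{-k} s)` is a pair of weight `k`. -/
theorem FA_S16_anV_gen {k : ℤ} {s : PowerSeries ℂ} (h : s ∈ FA_S16_qL1 k) :
    FA_S16_IsPair p k (PowerSeries.expand p hp.out.ne_zero s) (((p : ℂ) ^ k)⁻¹ • s) := by
  obtain ⟨G, rfl⟩ := h
  have hpC : (p : ℂ) ≠ 0 := by exact_mod_cast hp.out.ne_zero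
  have h0 : FA_S16_IsPair p k
      ((p : ℂ) ^ (k - 1) • PowerSeries.expand p hp.out.ne_zero (qExpansion 1 G))
      ((p : ℂ)⁻¹ • qExpansion 1 G) :=
    ⟨FA_S16_anRing_V p G, FA_S16_anRing_V_q p G, FA_S16_anRing_V_S_q p G⟩
  have h1 := FA_S16_anRing_smul p (((p : ℂ) ^ (k - 1))⁻¹) h0
  rw [smul_smul, smul_smul] at h1
  have e1 : ((p : ℂ) ^ (k - 1))⁻¹ * (p : ℂ) ^ (k - 1) = 1 :=
    inv_mul_cancel₀ (zpow_ne_zero _ hpC)
  have e2 : ((p : ℂ) ^ (k - 1))⁻¹ * (p : ℂ)⁻¹ = ((p : ℂ) ^ k)⁻¹ := by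
    rw [← mul_inv, ← zpow_add_one₀ hpC, sub_add_cancel]
  rw [e1, e2, one_smul] at h1
  exact h1

/-- **AN-RING**. -/
theorem FA_S16_anRing : FA_S16_Target_AnRing := by
  intro p hp hne
  refine ⟨fun k a b a' b' h h' => FA_S16_anRing_add p h h',
    fun k k' a b a' b' h h' => FA_S16_anRing_mul p h h',
    fun k c a b h => FA_S16_anRing_smul p c h,
    fun k s h => FA_S16_anRing_l1 p h, ?_⟩
  have h := FA_S16_anV_gen p (k := 12) (s := qExpansion 1 Δ) ⟨CuspForm.discriminant, rfl⟩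
  have e : ((p : ℂ) ^ (12 : ℤ))⁻¹ = ((p : ℂ) ^ (12 : ℕ))⁻¹ := by
    rw [← zpow_natCast]
    rfl
  rw [e] at h
  exact h

end FA_S16
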