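import Mathlib
import Fermat.Prelude.Def_ModularForm_HeckeOperator
import Fermat.Agent.S16.T1Coset

set_option autoImplicit false
set_option linter.style.haveILetI false
open UpperHalfPlane ModularForm
open scoped MatrixGroups ModularForm

namespace FA_S16_T1

variable (p : ℕ) [hp : Fact p.Prime]

local notation "Γp" => (CongruenceSubgroup.Gamma0 p : Subgroup (GL (Fin 2) ℝ))

/-- the coset of `rep p i` in `𝒮ℒ ⧸ Γ₀(p)`. -/
def repQ (i : Option (Fin p)) : (𝒮ℒ : Subgroup (GL (Fin 2) ℝ)) ⧸ (Γp).subgroupOf 𝒮ℒ :=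
  QuotientGroup.mk ⟨Matrix.SpecialLinearGroup.mapGL ℝ (rep p i), ⟨rep p i, rfl⟩⟩

theorem mapGL_mem_iff (g : SL(2, ℤ)) :
    Matrix.SpecialLinearGroup.mapGL ℝ g ∈ Γp ↔ g ∈ CongruenceSubgroup.Gamma0 p := by
  constructor
  · rintro ⟨γ, hγ, h⟩
    have : γ = g := Matrix.SpecialLinearGroup.mapGL_injective h
    exact this ▸ hγ
  · intro h
    exact ⟨g, h, rfl⟩

theorem repQ_bijective : Function.Bijective (repQ p) := by
  constructor
  · intro i i' h
    apply rep_injective p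
    have h' := QuotientGroup.eq.mp h
    rw [Subgroup.mem_subgroupOf] at h'
    apply QuotientGroup.eq.mpr
    rw [← mapGL_mem_iff]
    simpa using h'
  · intro q
    induction q using QuotientGroup.induction_on with
    | H h =>
    obtain ⟨h, g, rfl⟩ := h
    obtain ⟨i, hi⟩ := rep_surjective p (QuotientGroup.mk g)
    refine ⟨i, ?_⟩
    have h' := QuotientGroup.eq.mp hi
    apply QuotientGroup.eq.mpr
    rw [Subgroup.mem_subgroupOf]
    rw [← mapGL_mem_iff] at h'
    simpa using h'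

theorem quotientFunc_repQ (H : ModularForm Γp 2) (i : Option (Fin p)) :
    SlashInvariantForm.quotientFunc H (repQ p i) = (H : ℍ → ℂ) ∣[(2 : ℤ)] (repInv p i) := by
  rw [repQ]
  show SlashInvariantForm.quotientFunc H ⟦_⟧ = _
  rw [SlashInvariantForm.quotientFunc_mk, ← rep_inv, ModularForm.SL_slash]
  simp
  rfl

theorem trace_eq_sum (H : ModularForm Γp 2) :
    (ModularForm.trace 𝒮ℒ H : ℍ → ℂ) =
      ∑ i : Option (Fin p), (H : ℍ → ℂ) ∣[(2 : ℤ)] (repInv p i) := by
  rw [ModularForm.coe_trace]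
  letI := Fintype.ofFinite ((𝒮ℒ : Subgroup (GL (Fin 2) ℝ)) ⧸ (Γp).subgroupOf 𝒮ℒ)
  rw [Fintype.sum_bijective (repQ p) (repQ_bijective p)
    (fun i => (H : ℍ → ℂ) ∣[(2 : ℤ)] (repInv p i))
    (fun q => SlashInvariantForm.quotientFunc H q) (fun i => (quotientFunc_repQ p H i).symm)]

theorem trace_eq_zero (H : ModularForm Γp 2) : ModularForm.trace 𝒮ℒ H = 0 := by
  have h := levelOne_weight_two_rank_zero
  rw [rank_zero_iff_forall_zero] at h
  exact h _

theorem sum_slash_eq_zero (H : ModularForm Γp 2) :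
    ∑ i : Option (Fin p), (H : ℍ → ℂ) ∣[(2 : ℤ)] (repInv p i) = 0 := by
  rw [← trace_eq_sum, trace_eq_zero]
  rfl

end FA_S16_T1
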