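import Mathlib
import Fermat.Agent.S16.AnPair
import Fermat.Agent.S16.T1Trace

/-!
# S16 leaf AN-SYM (helper5): the symmetric functions of the conjugates are level one forms.
-/

set_option autoImplicit false
set_option linter.style.haveILetI false
set_option linter.unusedSectionVars false

open UpperHalfPlane ModularForm Function CongruenceSubgroup
open scoped MatrixGroups ModularForm Manifold

noncomputable section

local notation "𝕢" => Periodic.qParam

namespace FA_S16_Pair

variable (p : ℕ) [hp : Fact p.Prime] {k : ℤ}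

local notation "Γp" => (CongruenceSubgroup.Gamma0 p : Subgroup (GL (Fin 2) ℝ))

theorem quotientFunc_repQ' (F : ModularForm (Gamma0 p) k) (o : Option (Fin p)) :
    SlashInvariantForm.quotientFunc F (FA_S16_T1.repQ p o) = cf p F o := by
  rw [FA_S16_T1.repQ]
  show SlashInvariantForm.quotientFunc F ⟦_⟧ = _
  rw [SlashInvariantForm.quotientFunc_mk, cf, ← FA_S16_T1.rep_inv, ModularForm.SL_slash]
  simp
  rfl

/-- slashing by `γ ∈ SL(2,ℤ)` permutes the conjugates. -/
theorem exists_perm_cf (F : ModularForm (Gamma0 p) k) (γ : SL(2, ℤ)) :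
    ∃ π : Equiv.Perm (Option (Fin p)), ∀ o, (cf p F o) ∣[k] γ = cf p F (π o) := by
  let e : Option (Fin p) ≃ ((𝒮ℒ : Subgroup (GL (Fin 2) ℝ)) ⧸ (Γp).subgroupOf 𝒮ℒ) :=
    Equiv.ofBijective (FA_S16_T1.repQ p) (FA_S16_T1.repQ_bijective p)
  let h : (𝒮ℒ : Subgroup (GL (Fin 2) ℝ)) := ⟨Matrix.SpecialLinearGroup.mapGL ℝ γ, ⟨γ, rfl⟩⟩
  refine ⟨e.trans ((MulAction.toPerm h⁻¹).trans e.symm), fun o => ?_⟩
  rw [← quotientFunc_repQ', ModularForm.SL_slash]
  have h1 := SlashInvariantForm.quotientFunc_smul (ℋ := 𝒮ℒ) F h.2 (FA_S16_T1.repQ p o)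
  change SlashInvariantForm.quotientFunc F (FA_S16_T1.repQ p o) ∣[k] (h : GL (Fin 2) ℝ) = _
  rw [h1, ← quotientFunc_repQ']
  congr 1
  simp only [Equiv.trans_apply, MulAction.toPerm_apply]
  exact (e.apply_symm_apply _).symm

/-- the `i`-th elementary symmetric function of the conjugates. -/
def esym (F : ModularForm (Gamma0 p) k) (i : ℕ) : ℍ → ℂ :=
  ∑ t ∈ (Finset.univ : Finset (Option (Fin p))).powersetCard i, ∏ o ∈ t, cf p F o

theorem good_esym (F : ModularForm (Gamma0 p) k) (i : ℕ) :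
    FA_S16_Good (p : ℝ) (esym p F i) :=
  FA_S16_Good.sum _ fun _ _ => FA_S16_Good.prod _ fun o _ => good_cf p F o

theorem esym_slash (F : ModularForm (Gamma0 p) k) (i : ℕ) (γ : SL(2, ℤ)) :
    (esym p F i) ∣[k * i] γ = esym p F i := by
  classical
  obtain ⟨π, hπ⟩ := exists_perm_cf p F γ
  rw [esym, SlashAction.sum_slash]
  have h1 : ∀ t ∈ (Finset.univ : Finset (Option (Fin p))).powersetCard i,
      (∏ o ∈ t, cf p F o) ∣[k * i] γ = ∏ o ∈ t.map π.toEmbedding, cf p F o := by
    intro t ht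
    have hcard : t.card = i := (Finset.mem_powersetCard.mp ht).2
    rw [ModularForm.SL_slash, ← hcard, ModularForm.prod_slash]
    simp only [Finset.prod_map, Equiv.coe_toEmbedding]
    have hdet : |(((γ : GL (Fin 2) ℝ)).det : ℝ)| = 1 := by simp
    rw [hdet, one_zpow, one_smul]
    refine Finset.prod_congr rfl fun o _ => ?_
    rw [← hπ o, ModularForm.SL_slash]
  rw [Finset.sum_congr rfl h1]
  refine Finset.sum_bij (fun t _ => t.map π.toEmbedding) ?_ ?_ ?_ ?_
  · intro t ht
    rw [Finset.mem_powersetCard] at ht ⊢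
    exact ⟨Finset.subset_univ _, by rw [Finset.card_map]; exact ht.2⟩
  · intro t _ t' _ h
    exact Finset.map_injective _ h
  · intro t ht
    refine ⟨t.map π.symm.toEmbedding, ?_, ?_⟩
    · rw [Finset.mem_powersetCard] at ht ⊢
      exact ⟨Finset.subset_univ _, by rw [Finset.card_map]; exact ht.2⟩
    · ext o
      simp
  · intro t _
    rfl

/-- the level one form `e_i(F|γ)`. -/
def esymForm (F : ModularForm (Gamma0 p) k) (i : ℕ) : ModularForm 𝒮ℒ (k * i) where
  toFun := esym p F i
  slash_action_eq' γ hγ := by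
    obtain ⟨g, rfl⟩ := hγ
    exact esym_slash p F i g
  holo' := (good_esym p F i).holo
  bdd_at_cusps' {c} hc := by
    rw [OnePoint.isBoundedAt_iff_forall_SL2Z hc]
    intro γ _
    rw [esym_slash]
    exact (good_esym p F i).bdd

@[simp] theorem coe_esymForm (F : ModularForm (Gamma0 p) k) (i : ℕ) :
    (esymForm p F i : ℍ → ℂ) = esym p F i := rfl

theorem one_mem_strictPeriods_SL : (1 : ℝ) ∈ (𝒮ℒ : Subgroup (GL (Fin 2) ℝ)).strictPeriods := by
  rw [Subgroup.mem_strictPeriods_iff]
  refine ⟨ModularGroup.T, ?_⟩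
  apply Matrix.GeneralLinearGroup.ext
  intro a b
  fin_cases a <;> fin_cases b <;> simp [ModularGroup.T]

theorem good_one_esym (F : ModularForm (Gamma0 p) k) (i : ℕ) :
    FA_S16_Good 1 (esym p F i) where
  per := SlashInvariantFormClass.periodic_comp_ofComplex (esymForm p F i)
    (one_mem_strictPeriods_SL)
  holo := (good_esym p F i).holo
  bdd := (good_esym p F i).bdd

/-- expansion of `e_i` in `q^{1/p}`: the elementary symmetric function of the conjugate series. -/
theorem qExpansion_esym (F : ModularForm (Gamma0 p) k) (i : ℕ) :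
    haveI : NeZero p := ⟨hp.out.ne_zero⟩
    qExpansion (p : ℝ) (esym p F i) =
      ∑ t ∈ (Finset.univ : Finset (Option (Fin p))).powersetCard i, ∏ o ∈ t,
        FA_S16.FA_S16_conj p (qExpansion 1 F)
          (qExpansion (p : ℝ) ((F : ℍ → ℂ) ∣[k] ModularGroup.S)) o := by
  have hp0 : (0 : ℝ) < p := by exact_mod_cast hp.out.pos
  rw [esym, FA_S16_Good.qExpansion_sum _ (fun _ _ => FA_S16_Good.prod _ fun o _ => good_cf p F o)
    hp0]
  refine Finset.sum_congr rfl fun t _ => ?_
  rw [FA_S16_Good.qExpansion_prod _ (fun o _ => good_cf p F o) hp0]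
  exact Finset.prod_congr rfl fun o _ => qExpansion_cf p F o

/-- Vieta for the characteristic polynomial. -/
theorem charpoly_coeff [NeZero p] (a b : PowerSeries ℂ) (i : ℕ) (hi : i ≤ p + 1) :
    (FA_S16.FA_S16_charpoly p a b).coeff (p + 1 - i) =
      (-1) ^ i * ∑ t ∈ (Finset.univ : Finset (Option (Fin p))).powersetCard i, ∏ o ∈ t,
        FA_S16.FA_S16_conj p a b o := by
  have hcard : Multiset.card ((Finset.univ : Finset (Option (Fin p))).val.map
      (FA_S16.FA_S16_conj p a b)) = p + 1 := by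
    simp
  have h1 : FA_S16.FA_S16_charpoly p a b =
      (((Finset.univ : Finset (Option (Fin p))).val.map (FA_S16.FA_S16_conj p a b)).map
        fun t => Polynomial.X - Polynomial.C t).prod := by
    rw [FA_S16.FA_S16_charpoly, Multiset.map_map]
    rfl
  rw [h1, Multiset.prod_X_sub_C_coeff _ (by rw [hcard]; omega), hcard,
    Finset.esymm_map_val]
  have : p + 1 - (p + 1 - i) = i := by omega
  rw [this]

end FA_S16_Pair

/-- **AN-SYM**. -/
theorem FA_S16_anSym : FA_S16.FA_S16_Target_AnSym := by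
  intro p hp hne k a b hab i hi
  obtain ⟨F, ha, hb⟩ := hab
  have hp0 : (0 : ℝ) < p := by exact_mod_cast hp.out.pos
  refine ⟨qExpansion 1 (((-1 : ℂ) ^ i) • FA_S16_Pair.esymForm p F i), ?_, ?_⟩
  · exact ⟨ModularForm.mcast (by push_cast; ring) (((-1 : ℂ) ^ i) • FA_S16_Pair.esymForm p F i),
      rfl⟩
  · rw [FA_S16_Pair.charpoly_coeff p a b i hi, ← ha, ← hb]
    have h1 := FA_S16_Pair.qExpansion_esym p F i
    rw [← h1]
    rw [FA_S16_Pair.coe_esymForm,
      (FA_S16_Pair.good_one_esym p F i).qExpansion_smul one_pos,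
      (FA_S16_Pair.good_one_esym p F i).qExpansion_of_one hp.out.ne_zero]
    have h3 : ∀ (c : ℂ) (s : PowerSeries ℂ),
        PowerSeries.expand p (NeZero.ne p) (c • s) = c • PowerSeries.expand p (NeZero.ne p) s := by
      intro c s
      ext n
      simp [PowerSeries.coeff_expand]
    rw [h3]
    have h4 : ((-1 : PowerSeries ℂ) ^ i) = PowerSeries.C ((-1 : ℂ) ^ i) := by
      simp
    rw [h4, ← PowerSeries.smul_eq_C_mul]

end
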