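import Mathlib
import Fermat.Prelude.Def_ModularForm_HeckeOperator
import Fermat.Agent.S16.T1Trace

set_option autoImplicit false
set_option linter.style.haveILetI false
set_option linter.unusedSectionVars false
open UpperHalfPlane ModularForm
open scoped MatrixGroups ModularForm

noncomputable section

namespace FA_S16_T1

/-- weight-2 slash is insensitive to positive scalars. -/
theorem slash_two_eq_of_smul (f : ℍ → ℂ) (A B : GL (Fin 2) ℝ) (c : ℝ) (hc : c ≠ 0)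
    (hB : 0 < (B.det : ℝ))
    (h : (A : Matrix (Fin 2) (Fin 2) ℝ) = c • (B : Matrix (Fin 2) (Fin 2) ℝ)) :
    f ∣[(2 : ℤ)] A = f ∣[(2 : ℤ)] B := by
  have hdet : (A.det : ℝ) = c ^ 2 * (B.det : ℝ) := by
    rw [Matrix.GeneralLinearGroup.val_det_apply, Matrix.GeneralLinearGroup.val_det_apply, h,
      Matrix.det_smul]
    simp
  have hA : 0 < (A.det : ℝ) := by rw [hdet]; positivity
  have hden : ∀ τ : ℍ, denom A τ = c * denom B τ := by
    intro τ
    simp only [denom, h, Matrix.smul_apply, smul_eq_mul]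
    push_cast
    ring
  have hnum : ∀ τ : ℍ, num A τ = c * num B τ := by
    intro τ
    simp only [num, h, Matrix.smul_apply, smul_eq_mul]
    push_cast
    ring
  have hsmul : ∀ τ : ℍ, A • τ = B • τ := by
    intro τ
    apply UpperHalfPlane.ext
    rw [UpperHalfPlane.coe_smul_of_det_pos hA, UpperHalfPlane.coe_smul_of_det_pos hB, hnum, hden]
    have hc' : (c : ℂ) ≠ 0 := by exact_mod_cast hc
    field_simp
  ext τ
  rw [slash_apply, slash_apply, hsmul, hden, hdet]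
  have hσA : σ A = .refl ℝ ℂ := by rw [σ, if_pos hA]
  have hσB : σ B = .refl ℝ ℂ := by rw [σ, if_pos hB]
  rw [hσA, hσB]
  have hc' : (c : ℂ) ≠ 0 := by exact_mod_cast hc
  have hdB : denom B τ ≠ 0 := denom_ne_zero B τ
  simp only [ContinuousAlgEquiv.refl_apply]
  rw [abs_of_pos (by positivity), abs_of_pos hB]
  norm_num
  push_cast
  field_simp

variable (p : ℕ) [hp : Fact p.Prime]

/-- the Fricke matrix `[[0,-1],[p,0]]`. -/
def W : GL (Fin 2) ℝ :=
  Matrix.GeneralLinearGroup.mkOfDetNeZero !![0, -1; (p : ℝ), 0]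
    (by simp [Matrix.det_fin_two_of, hp.out.ne_zero])

theorem val_W : ((W p : GL (Fin 2) ℝ) : Matrix (Fin 2) (Fin 2) ℝ) = !![0, -1; (p : ℝ), 0] := rfl

theorem det_W : ((W p).det : ℝ) = p := by
  rw [Matrix.GeneralLinearGroup.val_det_apply, val_W, Matrix.det_fin_two_of]
  ring

theorem det_mapGL (g : SL(2, ℤ)) : ((Matrix.SpecialLinearGroup.mapGL ℝ g).det : ℝ) = 1 := by
  simp

/-- `(f|W)|[[1,j],[0,p]] = f|S T^j`. -/
theorem slash_W_heckeMatrix (f : ℍ → ℂ) (j : Fin p) :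
    (f ∣[(2 : ℤ)] W p) ∣[(2 : ℤ)] heckeMatrix p j = f ∣[(2 : ℤ)] (repInv p (some j)) := by
  rw [← SlashAction.slash_mul, ModularForm.SL_slash]
  apply slash_two_eq_of_smul f _ _ (p : ℝ) (by exact_mod_cast hp.out.ne_zero)
  · simp
  · rw [Matrix.GeneralLinearGroup.coe_mul, val_W, val_heckeMatrix hp.out.ne_zero]
    ext a b
    fin_cases a <;> fin_cases b <;> simp [repInv, Matrix.mul_apply, Fin.sum_univ_two]

/-- `(f|W)|W = f` in weight 2. -/
theorem slash_W_W (f : ℍ → ℂ) : (f ∣[(2 : ℤ)] W p) ∣[(2 : ℤ)] W p = f := by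
  rw [← SlashAction.slash_mul]
  have h1 : f ∣[(2 : ℤ)] (W p * W p) = f ∣[(2 : ℤ)] (1 : GL (Fin 2) ℝ) := by
    apply slash_two_eq_of_smul f _ _ (-(p : ℝ)) (by simpa using hp.out.ne_zero)
    · simp
    · rw [Matrix.GeneralLinearGroup.coe_mul, val_W]
      ext a b
      fin_cases a <;> fin_cases b <;> simp [Matrix.mul_apply, Fin.sum_univ_two]
  rw [h1, SlashAction.slash_one]

end FA_S16_T1

namespace FA_S16_T1

variable (p : ℕ) [hp : Fact p.Prime]

local notation "Γp" => (CongruenceSubgroup.Gamma0 p : Subgroup (GL (Fin 2) ℝ))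

/-- conjugation by the Fricke matrix on `Γ₀(p)`: `[[a,b],[c,d]] ↦ [[d,-c/p],[-pb,a]]`. -/
def conjW (g : SL(2, ℤ)) : SL(2, ℤ) :=
  if h : (p : ℤ) ∣ g 1 0 then
    ⟨!![g 1 1, -(g 1 0 / p); -(p * g 0 1), g 0 0], by
      have hd := Matrix.SpecialLinearGroup.det_coe g
      rw [Matrix.det_fin_two] at hd
      rw [Matrix.det_fin_two_of]
      obtain ⟨c, hc⟩ := h
      have hp0 : (p : ℤ) ≠ 0 := by exact_mod_cast hp.out.ne_zero
      rw [hc, Int.mul_ediv_cancel_left _ hp0]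
      rw [hc] at hd
      linear_combination hd⟩
  else 1

theorem dvd_of_mem_Gamma0 {g : SL(2, ℤ)} (hg : g ∈ CongruenceSubgroup.Gamma0 p) :
    (p : ℤ) ∣ g 1 0 := by
  rw [CongruenceSubgroup.Gamma0_mem] at hg
  exact (ZMod.intCast_zmod_eq_zero_iff_dvd _ _).mp hg

theorem conjW_mem {g : SL(2, ℤ)} (hg : g ∈ CongruenceSubgroup.Gamma0 p) :
    conjW p g ∈ CongruenceSubgroup.Gamma0 p := by
  rw [CongruenceSubgroup.Gamma0_mem, conjW, dif_pos (dvd_of_mem_Gamma0 p hg)]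
  simp

theorem coe_conjW {g : SL(2, ℤ)} (hg : g ∈ CongruenceSubgroup.Gamma0 p) :
    ((conjW p g : SL(2, ℤ)) : Matrix (Fin 2) (Fin 2) ℤ) =
      !![g 1 1, -(g 1 0 / p); -(p * g 0 1), g 0 0] := by
  rw [conjW, dif_pos (dvd_of_mem_Gamma0 p hg)]

theorem W_mul_conjW {g : SL(2, ℤ)} (hg : g ∈ CongruenceSubgroup.Gamma0 p) :
    W p * Matrix.SpecialLinearGroup.mapGL ℝ (conjW p g) =
      Matrix.SpecialLinearGroup.mapGL ℝ g * W p := by
  apply Matrix.GeneralLinearGroup.ext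
  intro a b
  have hdvd := dvd_of_mem_Gamma0 p hg
  obtain ⟨c, hc⟩ := hdvd
  have hp0 : (p : ℤ) ≠ 0 := by exact_mod_cast hp.out.ne_zero
  have hdiv : (g 1 0 : ℤ) / p = c := by rw [hc, Int.mul_ediv_cancel_left _ hp0]
  rw [Matrix.GeneralLinearGroup.coe_mul, Matrix.GeneralLinearGroup.coe_mul, val_W]
  have hc' : ((g 1 0 : ℤ) : ℝ) = p * c := by rw [hc]; push_cast; ring
  have e := coe_conjW p hg
  rw [hdiv] at e
  have e00 : (conjW p g) 0 0 = g 1 1 := by rw [e]; rfl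
  have e01 : (conjW p g) 0 1 = -c := by rw [e]; rfl
  have e10 : (conjW p g) 1 0 = -(p * g 0 1) := by rw [e]; rfl
  have e11 : (conjW p g) 1 1 = g 0 0 := by rw [e]; rfl
  fin_cases a <;> fin_cases b <;>
    simp [Matrix.mul_apply, Fin.sum_univ_two, hc', e00, e01, e10, e11] <;> ring

theorem conjW_conjW {g : SL(2, ℤ)} (hg : g ∈ CongruenceSubgroup.Gamma0 p) :
    conjW p (conjW p g) = g := by
  apply Matrix.SpecialLinearGroup.mapGL_injective (R := ℤ) (S := ℝ)
  have h1 := W_mul_conjW p (conjW_mem p hg)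
  have h2 := W_mul_conjW p hg
  -- W c(c g) = c(g) W, W c(g) = g W ⇒ W W c(c g) = W c(g) W = g W W, and W W is central
  have h3 : W p * W p * Matrix.SpecialLinearGroup.mapGL ℝ (conjW p (conjW p g)) =
      Matrix.SpecialLinearGroup.mapGL ℝ g * (W p * W p) := by
    rw [mul_assoc, h1, ← mul_assoc, h2, mul_assoc]
  have hcomm : ∀ x : GL (Fin 2) ℝ, x * (W p * W p) = W p * W p * x := by
    intro x
    apply Matrix.GeneralLinearGroup.ext
    intro a b
    have hWW : ((W p : GL (Fin 2) ℝ) : Matrix (Fin 2) (Fin 2) ℝ) * (W p : GL (Fin 2) ℝ) =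
        !![-(p : ℝ), 0; 0, -(p : ℝ)] := by
      rw [val_W]
      ext a b
      fin_cases a <;> fin_cases b <;> simp [Matrix.mul_apply, Fin.sum_univ_two]
    simp only [Matrix.GeneralLinearGroup.coe_mul]
    rw [hWW]
    fin_cases a <;> fin_cases b <;> simp [Matrix.mul_apply, Fin.sum_univ_two] <;> ring
  rw [hcomm] at h3
  exact mul_left_cancel h3

/-- slash invariance of `H|W`. -/
theorem slash_W_invariant (H : ModularForm Γp 2) (γ : GL (Fin 2) ℝ) (hγ : γ ∈ Γp) :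
    ((H : ℍ → ℂ) ∣[(2 : ℤ)] W p) ∣[(2 : ℤ)] γ = (H : ℍ → ℂ) ∣[(2 : ℤ)] W p := by
  obtain ⟨g, hg, rfl⟩ := hγ
  have h1 := W_mul_conjW p (conjW_mem p hg)
  rw [conjW_conjW p hg] at h1
  rw [← SlashAction.slash_mul, h1, SlashAction.slash_mul]
  congr 1
  exact SlashInvariantFormClass.slash_action_eq H _ ⟨_, conjW_mem p hg, rfl⟩

open ConjAct Pointwise in
theorem conj_W_Gamma0 : toConjAct (W p)⁻¹ • Γp = Γp := by
  ext x
  rw [Subgroup.mem_pointwise_smul_iff_inv_smul_mem]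
  simp only [ConjAct.smul_def]
  constructor
  · rintro ⟨g, hg, hx⟩
    -- W x W⁻¹ = g  ⇒  x = W⁻¹ g W = conjW g
    refine ⟨conjW p g, conjW_mem p hg, ?_⟩
    have h1 := W_mul_conjW p hg
    have hx' : Matrix.SpecialLinearGroup.mapGL ℝ g = W p * x * (W p)⁻¹ := by
      rw [hx]; simp
    have : x = (W p)⁻¹ * Matrix.SpecialLinearGroup.mapGL ℝ g * W p := by
      rw [hx']; group
    rw [this, mul_assoc, ← h1]; group
  · rintro ⟨g, hg, rfl⟩
    refine ⟨conjW p g, conjW_mem p hg, ?_⟩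
    have h1 := W_mul_conjW p (conjW_mem p hg)
    rw [conjW_conjW p hg] at h1
    have h2 : Matrix.SpecialLinearGroup.mapGL ℝ (conjW p g) =
        W p * Matrix.SpecialLinearGroup.mapGL ℝ g * (W p)⁻¹ := by
      rw [h1]; group
    rw [h2]; simp

/-- The Fricke involution on `M₂(Γ₀(p))`. -/
def WForm (H : ModularForm Γp 2) : ModularForm Γp 2 where
  toFun := (H : ℍ → ℂ) ∣[(2 : ℤ)] W p
  slash_action_eq' γ hγ := slash_W_invariant p H γ hγ
  holo' := (ModularForm.translate H (W p)).holo'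
  bdd_at_cusps' {c} hc := by
    have := (ModularForm.translate H (W p)).bdd_at_cusps' (c := c)
      (by rw [conj_W_Gamma0]; exact hc)
    exact this

theorem coe_WForm (H : ModularForm Γp 2) :
    (WForm p H : ℍ → ℂ) = (H : ℍ → ℂ) ∣[(2 : ℤ)] W p := rfl

theorem WForm_WForm (H : ModularForm Γp 2) : WForm p (WForm p H) = H := by
  apply DFunLike.coe_injective
  rw [coe_WForm, coe_WForm, slash_W_W]

/-- `∑_j H|S T^j = -H`. -/
theorem sum_slash_repInv (H : ModularForm Γp 2) :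
    ∑ j : Fin p, (H : ℍ → ℂ) ∣[(2 : ℤ)] (repInv p (some j)) = -(H : ℍ → ℂ) := by
  have h := sum_slash_eq_zero p H
  rw [Fintype.sum_option] at h
  have h1 : (H : ℍ → ℂ) ∣[(2 : ℤ)] (repInv p none) = H := by
    simp [repInv]
  rw [h1] at h
  exact eq_neg_of_add_eq_zero_right h

/-- **T1**: `U_p (H|W) = -H` on `M₂(Γ₀(p))`. -/
theorem heckeU_slash_W (H : ModularForm Γp 2) :
    heckeU 2 p ((H : ℍ → ℂ) ∣[(2 : ℤ)] W p) = -(H : ℍ → ℂ) := by
  rw [heckeU_def, ← sum_slash_repInv p H, Finset.sum_range]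
  exact Finset.sum_congr rfl fun j _ => slash_W_heckeMatrix p _ j

/-- **T1**: `U_p H = -H|W` on `M₂(Γ₀(p))`. -/
theorem heckeU_eq_neg_slash_W (H : ModularForm Γp 2) :
    heckeU 2 p (H : ℍ → ℂ) = -((H : ℍ → ℂ) ∣[(2 : ℤ)] W p) := by
  have h := heckeU_slash_W p (WForm p H)
  rw [coe_WForm, slash_W_W] at h
  exact h

/-- the conjugates of `H`: `H|S T^j = -(U_p H)|[[1,j],[0,p]]`. -/
theorem slash_repInv_eq (H : ModularForm Γp 2) (j : Fin p) :
    (H : ℍ → ℂ) ∣[(2 : ℤ)] (repInv p (some j)) =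
      -((heckeU 2 p (H : ℍ → ℂ)) ∣[(2 : ℤ)] heckeMatrix p j) := by
  rw [heckeU_eq_neg_slash_W, ← slash_W_heckeMatrix]
  simp [SlashAction.neg_slash]

end FA_S16_T1

end
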