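import Mathlib
import Fermat.Prelude.Thm_ModularFormClass_qCoeff_heckeU
import Fermat.Prelude.Thm_ModularForm_periodic_heckeU_comp_ofComplex
import Fermat.Prelude.Thm_ModularForm_mdifferentiable_heckeU
import Fermat.Prelude.Thm_ModularForm_isBoundedAtImInfty_heckeU
import Fermat.Agent.S16.AnPair
import Fermat.Agent.S16.T1W

/-!
# S16 leaf AN-T1 (helper5): for weight `2`, `b = -p⁻¹ U_p a`.
-/

set_option autoImplicit false
set_option linter.style.haveILetI false
set_option linter.unusedSectionVars false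

open UpperHalfPlane ModularForm Function CongruenceSubgroup
open scoped MatrixGroups ModularForm Manifold

noncomputable section

local notation "𝕢" => Periodic.qParam

namespace FA_S16_Pair

variable (p : ℕ) [hp : Fact p.Prime]

theorem good_heckeU (F : ModularForm (Gamma0 p) 2) :
    FA_S16_Good 1 (heckeU 2 p (F : ℍ → ℂ)) where
  per := ModularForm.periodic_heckeU_comp_ofComplex (good_one p F).per 2 p
  holo := ModularForm.mdifferentiable_heckeU (good_one p F).holo 2 p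
  bdd := ModularForm.isBoundedAtImInfty_heckeU (good_one p F).bdd 2 p

theorem repInv_zero_eq_S (h0 : 0 < p) :
    FA_S16_T1.repInv p (some ⟨0, h0⟩) = ModularGroup.S := by
  ext a b
  fin_cases a <;> fin_cases b <;> simp [FA_S16_T1.repInv, ModularGroup.S]

theorem slash_S_eq (F : ModularForm (Gamma0 p) 2) :
    (F : ℍ → ℂ) ∣[(2 : ℤ)] ModularGroup.S =
      -((heckeU 2 p (F : ℍ → ℂ)) ∣[(2 : ℤ)] heckeMatrix p 0) := by
  rw [← repInv_zero_eq_S p hp.out.pos]
  exact FA_S16_T1.slash_repInv_eq p F ⟨0, hp.out.pos⟩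

theorem qParam_heckeMatrix_zero (τ : ℍ) :
    𝕢 1 ((heckeMatrix p 0 • τ : ℍ) : ℂ) = 𝕢 (p : ℝ) τ := by
  rw [coe_heckeMatrix_smul hp.out.ne_zero, Periodic.qParam, Periodic.qParam]
  congr 1
  push_cast
  ring

theorem qExpansion_slash_S (F : ModularForm (Gamma0 p) 2) :
    qExpansion (p : ℝ) ((F : ℍ → ℂ) ∣[(2 : ℤ)] ModularGroup.S) =
      (-(p : ℂ)⁻¹) • qExpansion 1 (heckeU 2 p (F : ℍ → ℂ)) := by
  have hp0 : (0 : ℝ) < p := by exact_mod_cast hp.out.pos
  rw [(good_S p F).qExpansion_eq_of_hasSum hp0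
    (c := fun m => (-(p : ℂ)⁻¹) * (qExpansion 1 (heckeU 2 p (F : ℍ → ℂ))).coeff m)]
  · ext m
    simp
  · intro τ
    rw [slash_S_eq, Pi.neg_apply, slash_heckeMatrix_apply 2 hp.out.ne_zero]
    have := (good_heckeU p F).hasSum one_pos (heckeMatrix p 0 • τ)
    rw [qParam_heckeMatrix_zero] at this
    have h2 := this.mul_left (-(p : ℂ)⁻¹)
    have h3 : -((p : ℂ)⁻¹ * heckeU 2 p (⇑F) (heckeMatrix p 0 • τ)) =
        -(p : ℂ)⁻¹ * heckeU 2 p (⇑F) (heckeMatrix p 0 • τ) := by ring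
    rw [h3]
    have h4 : (fun m : ℕ => (-(p : ℂ)⁻¹ * (PowerSeries.coeff m)
        (qExpansion 1 (heckeU 2 p (F : ℍ → ℂ)))) • 𝕢 (p : ℝ) τ ^ m) =
        fun i => -(p : ℂ)⁻¹ * (PowerSeries.coeff i) (qExpansion 1 (heckeU 2 p (F : ℍ → ℂ))) •
          𝕢 (p : ℝ) τ ^ i := by
      funext m
      simp only [smul_eq_mul]
      ring
    rw [h4]
    exact h2

end FA_S16_Pair

/-- **AN-T1**. -/
theorem FA_S16_anT1 : FA_S16.FA_S16_Target_AnT1 := by
  intro p hp a b hab n
  obtain ⟨F, ha, hb⟩ := hab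
  rw [← hb, ← ha, FA_S16_Pair.qExpansion_slash_S]
  have h2 := ModularFormClass.qCoeff_heckeU F (CongruenceSubgroup.one_mem_strictPeriods_Gamma0 p)
    hp.out.ne_zero (k := 2) (p := p) n
  rw [coeffHeckeU_apply] at h2
  unfold ModularFormClass.qCoeff at h2
  simp only [map_smul, smul_eq_mul]
  rw [h2, mul_comm n p]
  field_simp

end
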