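import Mathlib
import Fermat.Agent.S16.UInterface

/-!
# S16, case E2b (helper3): the ring of `2`-integral algebraic numbers and reduction mod `2`

`FA_S16_c2b_O ⊂ ℂ` : all `x` with `d x` an algebraic integer for some odd `d`.
`FA_S16_c2b_A = O / 2 O` (a nontrivial ring).
`FA_S16_c2b_Red F f` : the power series `F` over `ℂ` has coefficients in `O` and reduces to `f`.
-/

set_option autoImplicit false

noncomputable section

namespace FA_S16

open PowerSeries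

/-- The ring of `2`-integral algebraic numbers. -/
def FA_S16_c2b_O : Subring ℂ where
  carrier := {x | ∃ d : ℕ, ¬ 2 ∣ d ∧ IsIntegral ℤ ((d : ℂ) * x)}
  zero_mem' := ⟨1, by decide, by simpa using isIntegral_zero⟩
  one_mem' := ⟨1, by decide, by simpa using isIntegral_one⟩
  add_mem' := by
    rintro x y ⟨d, hd, hx⟩ ⟨e, he, hy⟩
    refine ⟨d * e, ?_, ?_⟩
    · intro h
      rcases (Nat.Prime.dvd_mul Nat.prime_two).mp h with h | h
      exacts [hd h, he h]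
    · have h1 : (((d * e : ℕ) : ℂ)) * (x + y) = (e : ℂ) * ((d : ℂ) * x) + (d : ℂ) * ((e : ℂ) * y) := by
        push_cast; ring
      rw [h1]
      exact ((isIntegral_natCast e).mul hx).add ((isIntegral_natCast d).mul hy)
  neg_mem' := by
    rintro x ⟨d, hd, hx⟩
    refine ⟨d, hd, ?_⟩
    have : (d : ℂ) * -x = -((d : ℂ) * x) := by ring
    rw [this]
    exact hx.neg
  mul_mem' := by
    rintro x y ⟨d, hd, hx⟩ ⟨e, he, hy⟩
    refine ⟨d * e, ?_, ?_⟩
    · intro h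
      rcases (Nat.Prime.dvd_mul Nat.prime_two).mp h with h | h
      exacts [hd h, he h]
    · have h1 : (((d * e : ℕ) : ℂ)) * (x * y) = ((d : ℂ) * x) * ((e : ℂ) * y) := by
        push_cast; ring
      rw [h1]
      exact hx.mul hy

theorem FA_S16_c2b_mem_O {x : ℂ} :
    x ∈ FA_S16_c2b_O ↔ ∃ d : ℕ, ¬ 2 ∣ d ∧ IsIntegral ℤ ((d : ℂ) * x) := Iff.rfl

theorem FA_S16_c2b_O_of_isIntegral {x : ℂ} (hx : IsIntegral ℤ x) : x ∈ FA_S16_c2b_O :=
  ⟨1, by decide, by simpa using hx⟩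

theorem FA_S16_c2b_O_of_isInt {x : ℂ} (hx : FA_S16_IsInt 2 x) : x ∈ FA_S16_c2b_O := by
  obtain ⟨m, d, hd, rfl⟩ := hx
  refine ⟨d, hd, ?_⟩
  have hd0 : (d : ℂ) ≠ 0 := by
    intro h
    have : d = 0 := by exact_mod_cast h
    exact hd (this ▸ dvd_zero 2)
  have : (d : ℂ) * ((m : ℂ) / (d : ℂ)) = (m : ℂ) := by field_simp
  rw [this]
  exact isIntegral_algebraMap (R := ℤ) (A := ℂ) (x := m)

theorem FA_S16_c2b_O_intCast (m : ℤ) : (m : ℂ) ∈ FA_S16_c2b_O :=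
  intCast_mem FA_S16_c2b_O m

theorem FA_S16_c2b_O_natCast (m : ℕ) : (m : ℂ) ∈ FA_S16_c2b_O :=
  natCast_mem FA_S16_c2b_O m

theorem FA_S16_c2b_O_inv_odd {d : ℕ} (hd : ¬ 2 ∣ d) : ((d : ℂ))⁻¹ ∈ FA_S16_c2b_O := by
  refine ⟨d, hd, ?_⟩
  have hd0 : (d : ℂ) ≠ 0 := by
    intro h
    have : d = 0 := by exact_mod_cast h
    exact hd (this ▸ dvd_zero 2)
  rw [mul_inv_cancel₀ hd0]
  exact isIntegral_one

/-- `1/2` is not `2`-integral. -/
theorem FA_S16_c2b_O_half_not_mem : ((2 : ℂ))⁻¹ ∉ FA_S16_c2b_O := by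
  rintro ⟨d, hd, hx⟩
  have h1 : (d : ℂ) * (2 : ℂ)⁻¹ = algebraMap ℚ ℂ ((d : ℚ) / 2) := by
    simp [div_eq_mul_inv]
  rw [h1] at hx
  have h2 : IsIntegral ℤ ((d : ℚ) / 2) :=
    (isIntegral_algebraMap_iff (algebraMap ℚ ℂ).injective).mp hx
  obtain ⟨n, hn⟩ := IsIntegrallyClosed.isIntegral_iff.mp h2
  have h3 : (d : ℚ) = 2 * (n : ℚ) := by
    have : (algebraMap ℤ ℚ) n = (n : ℚ) := rfl
    rw [this] at hn
    linarith [hn]
  have h4 : (d : ℤ) = 2 * n := by exact_mod_cast h3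
  apply hd
  have : (2 : ℤ) ∣ (d : ℤ) := ⟨n, h4⟩
  exact_mod_cast this

/-- A root of unity is in `O`. -/
theorem FA_S16_c2b_O_of_pow_eq_one {x : ℂ} {n : ℕ} (hn : 0 < n) (hx : x ^ n = 1) :
    x ∈ FA_S16_c2b_O := by
  apply FA_S16_c2b_O_of_isIntegral
  exact IsIntegral.of_pow hn (hx ▸ isIntegral_one)

/-- The coefficient ring. -/
abbrev FA_S16_c2b_R : Type := ↥FA_S16_c2b_O

/-- The residue ring `O / 2 O`. -/
abbrev FA_S16_c2b_A : Type := FA_S16_c2b_R ⧸ Ideal.span {(2 : FA_S16_c2b_R)}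

/-- The inclusion `O → ℂ`. -/
def FA_S16_c2b_iota : FA_S16_c2b_R →+* ℂ := FA_S16_c2b_O.subtype

/-- The reduction `O → O / 2 O`. -/
def FA_S16_c2b_pi : FA_S16_c2b_R →+* FA_S16_c2b_A := Ideal.Quotient.mk _

theorem FA_S16_c2b_iota_injective : Function.Injective FA_S16_c2b_iota :=
  Subtype.val_injective

theorem FA_S16_c2b_pi_two : FA_S16_c2b_pi 2 = 0 := by
  unfold FA_S16_c2b_pi
  rw [Ideal.Quotient.eq_zero_iff_mem]
  exact Ideal.mem_span_singleton_self _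

theorem FA_S16_c2b_two_not_unit : ¬ IsUnit (2 : FA_S16_c2b_R) := by
  intro h
  obtain ⟨y, hy⟩ := h.exists_right_inv
  have h1 : (2 : ℂ) * (y : ℂ) = 1 := by
    have := congrArg (fun z : FA_S16_c2b_R => (z : ℂ)) hy
    simp only [Subring.coe_mul, Subring.coe_one] at this
    exact this
  have h2 : (y : ℂ) = (2 : ℂ)⁻¹ := by
    field_simp
    linear_combination h1
  exact FA_S16_c2b_O_half_not_mem (h2 ▸ y.2)

instance FA_S16_c2b_A_nontrivial : Nontrivial FA_S16_c2b_A := by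
  apply Ideal.Quotient.nontrivial_iff.mpr
  intro h
  exact FA_S16_c2b_two_not_unit (Ideal.span_singleton_eq_top.mp h)

end FA_S16
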