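import Mathlib
import Fermat.Agent.S16.C2bRing

/-!
# S16, case E2b (helper3): reduction mod `2` of power series with `2`-integral coefficients

`FA_S16_c2b_Red F f` : `F ∈ ℂ⟦X⟧` is the image of some `g ∈ O⟦X⟧` whose reduction mod `2` is `f`.
-/

set_option autoImplicit false

noncomputable section

namespace FA_S16

open PowerSeries

/-- `F` has coefficients in `O` and reduces to `f` modulo `2`. -/
def FA_S16_c2b_Red (F : PowerSeries ℂ) (f : PowerSeries FA_S16_c2b_A) : Prop :=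
  ∃ g : PowerSeries FA_S16_c2b_R,
    PowerSeries.map FA_S16_c2b_iota g = F ∧ PowerSeries.map FA_S16_c2b_pi g = f

theorem FA_S16_c2b_mapIota_injective :
    Function.Injective (PowerSeries.map FA_S16_c2b_iota) := by
  intro g g' h
  refine PowerSeries.ext fun n => ?_
  have := congrArg (PowerSeries.coeff n) h
  simp only [PowerSeries.coeff_map] at this
  exact FA_S16_c2b_iota_injective this

theorem FA_S16_c2b_Red_zero : FA_S16_c2b_Red 0 0 := ⟨0, by simp, by simp⟩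

theorem FA_S16_c2b_Red_one : FA_S16_c2b_Red 1 1 := ⟨1, by simp, by simp⟩

theorem FA_S16_c2b_Red_add {F G : PowerSeries ℂ} {f g : PowerSeries FA_S16_c2b_A}
    (hF : FA_S16_c2b_Red F f) (hG : FA_S16_c2b_Red G g) : FA_S16_c2b_Red (F + G) (f + g) := by
  obtain ⟨x, rfl, rfl⟩ := hF
  obtain ⟨y, rfl, rfl⟩ := hG
  exact ⟨x + y, by simp, by simp⟩

theorem FA_S16_c2b_Red_neg {F : PowerSeries ℂ} {f : PowerSeries FA_S16_c2b_A}
    (hF : FA_S16_c2b_Red F f) : FA_S16_c2b_Red (-F) (-f) := by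
  obtain ⟨x, rfl, rfl⟩ := hF
  exact ⟨-x, by simp, by simp⟩

theorem FA_S16_c2b_Red_sub {F G : PowerSeries ℂ} {f g : PowerSeries FA_S16_c2b_A}
    (hF : FA_S16_c2b_Red F f) (hG : FA_S16_c2b_Red G g) : FA_S16_c2b_Red (F - G) (f - g) := by
  obtain ⟨x, rfl, rfl⟩ := hF
  obtain ⟨y, rfl, rfl⟩ := hG
  exact ⟨x - y, by simp, by simp⟩

theorem FA_S16_c2b_Red_mul {F G : PowerSeries ℂ} {f g : PowerSeries FA_S16_c2b_A}
    (hF : FA_S16_c2b_Red F f) (hG : FA_S16_c2b_Red G g) : FA_S16_c2b_Red (F * G) (f * g) := by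
  obtain ⟨x, rfl, rfl⟩ := hF
  obtain ⟨y, rfl, rfl⟩ := hG
  exact ⟨x * y, by simp, by simp⟩

theorem FA_S16_c2b_Red_pow {F : PowerSeries ℂ} {f : PowerSeries FA_S16_c2b_A}
    (hF : FA_S16_c2b_Red F f) (n : ℕ) : FA_S16_c2b_Red (F ^ n) (f ^ n) := by
  obtain ⟨x, rfl, rfl⟩ := hF
  exact ⟨x ^ n, by simp, by simp⟩

theorem FA_S16_c2b_Red_C (x : FA_S16_c2b_R) :
    FA_S16_c2b_Red (PowerSeries.C (x : ℂ)) (PowerSeries.C (FA_S16_c2b_pi x)) :=
  ⟨PowerSeries.C x, by simp [FA_S16_c2b_iota], by simp⟩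

theorem FA_S16_c2b_Red_C' {x : ℂ} (hx : x ∈ FA_S16_c2b_O) :
    FA_S16_c2b_Red (PowerSeries.C x) (PowerSeries.C (FA_S16_c2b_pi ⟨x, hx⟩)) :=
  FA_S16_c2b_Red_C ⟨x, hx⟩

theorem FA_S16_c2b_Red_expand {F : PowerSeries ℂ} {f : PowerSeries FA_S16_c2b_A}
    (hF : FA_S16_c2b_Red F f) (p : ℕ) (hp : p ≠ 0) :
    FA_S16_c2b_Red (PowerSeries.expand p hp F) (PowerSeries.expand p hp f) := by
  obtain ⟨x, rfl, rfl⟩ := hF
  exact ⟨PowerSeries.expand p hp x, by simp, by simp⟩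

theorem FA_S16_c2b_Red_rescale {F : PowerSeries ℂ} {f : PowerSeries FA_S16_c2b_A}
    (hF : FA_S16_c2b_Red F f) (r : FA_S16_c2b_R) :
    FA_S16_c2b_Red (PowerSeries.rescale (r : ℂ) F) (PowerSeries.rescale (FA_S16_c2b_pi r) f) := by
  obtain ⟨x, rfl, rfl⟩ := hF
  refine ⟨PowerSeries.rescale r x, ?_, ?_⟩
  · exact (PowerSeries.rescale_map FA_S16_c2b_iota r x).symm
  · exact (PowerSeries.rescale_map FA_S16_c2b_pi r x).symm

theorem FA_S16_c2b_Red_prod {ι : Type*} (s : Finset ι) (F : ι → PowerSeries ℂ)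
    (f : ι → PowerSeries FA_S16_c2b_A) (h : ∀ i ∈ s, FA_S16_c2b_Red (F i) (f i)) :
    FA_S16_c2b_Red (∏ i ∈ s, F i) (∏ i ∈ s, f i) := by
  classical
  induction s using Finset.induction_on with
  | empty => simpa using FA_S16_c2b_Red_one
  | insert a s ha ih =>
    rw [Finset.prod_insert ha, Finset.prod_insert ha]
    exact FA_S16_c2b_Red_mul (h a (Finset.mem_insert_self a s))
      (ih fun i hi => h i (Finset.mem_insert_of_mem hi))

theorem FA_S16_c2b_Red_sum {ι : Type*} (s : Finset ι) (F : ι → PowerSeries ℂ)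
    (f : ι → PowerSeries FA_S16_c2b_A) (h : ∀ i ∈ s, FA_S16_c2b_Red (F i) (f i)) :
    FA_S16_c2b_Red (∑ i ∈ s, F i) (∑ i ∈ s, f i) := by
  classical
  induction s using Finset.induction_on with
  | empty => simpa using FA_S16_c2b_Red_zero
  | insert a s ha ih =>
    rw [Finset.sum_insert ha, Finset.sum_insert ha]
    exact FA_S16_c2b_Red_add (h a (Finset.mem_insert_self a s))
      (ih fun i hi => h i (Finset.mem_insert_of_mem hi))

theorem FA_S16_c2b_Red_unique {F : PowerSeries ℂ} {f f' : PowerSeries FA_S16_c2b_A}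
    (h : FA_S16_c2b_Red F f) (h' : FA_S16_c2b_Red F f') : f = f' := by
  obtain ⟨x, hx, rfl⟩ := h
  obtain ⟨y, hy, rfl⟩ := h'
  have : x = y := FA_S16_c2b_mapIota_injective (hx.trans hy.symm)
  rw [this]

theorem FA_S16_c2b_Red_coeff {F : PowerSeries ℂ} {f : PowerSeries FA_S16_c2b_A}
    (h : FA_S16_c2b_Red F f) (n : ℕ) :
    ∃ r : FA_S16_c2b_R, (r : ℂ) = PowerSeries.coeff n F ∧
      FA_S16_c2b_pi r = PowerSeries.coeff n f := by
  obtain ⟨x, rfl, rfl⟩ := h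
  exact ⟨PowerSeries.coeff n x, by simp [FA_S16_c2b_iota], by simp⟩

theorem FA_S16_c2b_Red_coeff_mem {F : PowerSeries ℂ} {f : PowerSeries FA_S16_c2b_A}
    (h : FA_S16_c2b_Red F f) (n : ℕ) : PowerSeries.coeff n F ∈ FA_S16_c2b_O := by
  obtain ⟨r, hr, -⟩ := FA_S16_c2b_Red_coeff h n
  rw [← hr]
  exact r.2

/-- The reduction of a series with coefficients in `O`. -/
def FA_S16_c2b_lift (F : PowerSeries ℂ) (h : ∀ n, PowerSeries.coeff n F ∈ FA_S16_c2b_O) :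
    PowerSeries FA_S16_c2b_R :=
  PowerSeries.mk fun n => ⟨PowerSeries.coeff n F, h n⟩

theorem FA_S16_c2b_Red_of_coeff (F : PowerSeries ℂ)
    (h : ∀ n, PowerSeries.coeff n F ∈ FA_S16_c2b_O) :
    FA_S16_c2b_Red F (PowerSeries.map FA_S16_c2b_pi (FA_S16_c2b_lift F h)) := by
  refine ⟨FA_S16_c2b_lift F h, ?_, rfl⟩
  ext n
  simp [FA_S16_c2b_lift, FA_S16_c2b_iota]

theorem FA_S16_c2b_Red_iff_coeff {F : PowerSeries ℂ} {f : PowerSeries FA_S16_c2b_A} :
    FA_S16_c2b_Red F f ↔ ∀ n, ∃ r : FA_S16_c2b_R, (r : ℂ) = PowerSeries.coeff n F ∧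
      FA_S16_c2b_pi r = PowerSeries.coeff n f := by
  constructor
  · intro h n
    exact FA_S16_c2b_Red_coeff h n
  · intro h
    choose r hr1 hr2 using h
    refine ⟨PowerSeries.mk r, ?_, ?_⟩
    · ext n
      simp [FA_S16_c2b_iota, hr1]
    · ext n
      simp [hr2]

theorem FA_S16_c2b_Red_two_mul {F : PowerSeries ℂ} {f : PowerSeries FA_S16_c2b_A}
    (hF : FA_S16_c2b_Red F f) : FA_S16_c2b_Red (2 * F) 0 := by
  obtain ⟨x, rfl, rfl⟩ := hF
  refine ⟨2 * x, ?_, ?_⟩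
  · rw [map_mul, map_ofNat]
  rw [map_mul]
  have : PowerSeries.map FA_S16_c2b_pi (2 : PowerSeries FA_S16_c2b_R) = 0 := by
    have h2 : (2 : PowerSeries FA_S16_c2b_R) = PowerSeries.C (2 : FA_S16_c2b_R) :=
      (map_ofNat (PowerSeries.C (R := FA_S16_c2b_R)) 2).symm
    rw [h2, PowerSeries.map_C, FA_S16_c2b_pi_two, map_zero]
  rw [this, zero_mul]

theorem FA_S16_c2b_Red_of_expand {F : PowerSeries ℂ} {g : PowerSeries FA_S16_c2b_A}
    (p : ℕ) (hp : p ≠ 0) (h : FA_S16_c2b_Red (PowerSeries.expand p hp F) g) :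
    ∃ f, FA_S16_c2b_Red F f ∧ g = PowerSeries.expand p hp f := by
  have hc : ∀ n, PowerSeries.coeff n F ∈ FA_S16_c2b_O := by
    intro n
    have := FA_S16_c2b_Red_coeff_mem h (p * n)
    rwa [PowerSeries.coeff_expand_mul] at this
  refine ⟨_, FA_S16_c2b_Red_of_coeff F hc, ?_⟩
  exact FA_S16_c2b_Red_unique h (FA_S16_c2b_Red_expand (FA_S16_c2b_Red_of_coeff F hc) p hp)

theorem FA_S16_c2b_expand_injective {R : Type*} [CommRing R] (p : ℕ) (hp : p ≠ 0) :
    Function.Injective (PowerSeries.expand p hp : PowerSeries R → PowerSeries R) := by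
  intro f g h
  ext n
  have := congrArg (PowerSeries.coeff (p * n)) h
  simpa using this

end FA_S16
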