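import Mathlib
import Fermat.Agent.S16.C2bRed

/-!
# S16, case E2b (helper3): two algebraic lemmas

* `FA_S16_c2b_aeval_ne_zero` : a nonzero polynomial does not vanish at a power series `u = X·(unit)`.
* `FA_S16_c2b_span` : elimination with a triangular family + Sturm property gives that the
  reduction of a `2`-integral element of `V` is a polynomial of degree `≤ J` in `ū`.
-/

set_option autoImplicit false

noncomputable section

namespace FA_S16

open PowerSeries

theorem FA_S16_c2b_coeff_pow_of_lt {A : Type*} [CommRing A] (u : PowerSeries A)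
    (hu0 : PowerSeries.constantCoeff u = 0) (i n : ℕ) (h : n < i) :
    PowerSeries.coeff n (u ^ i) = 0 := by
  have hX : (PowerSeries.X : PowerSeries A) ∣ u := PowerSeries.X_dvd_iff.mpr hu0
  have hXi : (PowerSeries.X : PowerSeries A) ^ i ∣ u ^ i := pow_dvd_pow_of_dvd hX i
  exact (PowerSeries.X_pow_dvd_iff.mp hXi) n h

theorem FA_S16_c2b_coeff_pow_self {A : Type*} [CommRing A] (u : PowerSeries A)
    (hu0 : PowerSeries.constantCoeff u = 0) (i : ℕ) :
    PowerSeries.coeff i (u ^ i) = (PowerSeries.coeff 1 u) ^ i := by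
  obtain ⟨w, hw⟩ := PowerSeries.X_dvd_iff.mpr hu0
  have h1 : PowerSeries.coeff 1 u = PowerSeries.constantCoeff w := by
    rw [hw]
    have := PowerSeries.coeff_succ_X_mul (R := A) 0 w
    simpa using this
  rw [h1, hw, mul_pow]
  have := PowerSeries.coeff_X_pow_mul (R := A) (w ^ i) i 0
  simp only [zero_add] at this
  rw [this]
  simp

/-- A nonzero polynomial does not vanish at `u = u₁ X + …` with `u₁` a unit. -/
theorem FA_S16_c2b_aeval_ne_zero {A : Type*} [CommRing A] (Q : Polynomial A) (hQ : Q ≠ 0)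
    (u : PowerSeries A) (hu0 : PowerSeries.constantCoeff u = 0)
    (hu1 : IsUnit (PowerSeries.coeff 1 u)) :
    Polynomial.aeval u Q ≠ 0 := by
  intro h
  have hc := congrArg (PowerSeries.coeff Q.natTrailingDegree) h
  rw [Polynomial.aeval_eq_sum_range, map_sum, map_zero] at hc
  have hterm : ∀ i ∈ Finset.range (Q.natDegree + 1),
      PowerSeries.coeff Q.natTrailingDegree (Q.coeff i • u ^ i) =
        if i = Q.natTrailingDegree then Q.coeff i * (PowerSeries.coeff 1 u) ^ i else 0 := by
    intro i _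
    rw [PowerSeries.coeff_smul, smul_eq_mul]
    split_ifs with hi
    · rw [← hi, FA_S16_c2b_coeff_pow_self u hu0]
    · rcases lt_or_gt_of_ne hi with hlt | hgt
      · rw [Polynomial.coeff_eq_zero_of_lt_natTrailingDegree hlt, zero_mul]
      · rw [FA_S16_c2b_coeff_pow_of_lt u hu0 i _ hgt, mul_zero]
  rw [Finset.sum_congr rfl hterm, Finset.sum_ite_eq'] at hc
  have hmem : Q.natTrailingDegree ∈ Finset.range (Q.natDegree + 1) :=
    Finset.mem_range.mpr (Nat.lt_succ_of_le (Polynomial.natTrailingDegree_le_natDegree Q))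
  rw [if_pos hmem] at hc
  have h0 : Q.coeff Q.natTrailingDegree = 0 := by
    have hu := hu1.pow Q.natTrailingDegree
    exact (hu.mul_left_eq_zero).mp hc
  exact (Polynomial.trailingCoeff_nonzero_iff_nonzero.mpr hQ) h0

/-- Triangular elimination + Sturm. -/
theorem FA_S16_c2b_span (V : Submodule ℂ (PowerSeries ℂ)) (J : ℕ)
    (hsturm : ∀ x ∈ V, (∀ n ≤ J, PowerSeries.coeff n x = 0) → x = 0)
    (M : ℕ → PowerSeries ℂ) (u : PowerSeries FA_S16_c2b_A)
    (hMV : ∀ j ≤ J, M j ∈ V)
    (hMred : ∀ j ≤ J, FA_S16_c2b_Red (M j) (u ^ j))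
    (hMlow : ∀ j ≤ J, ∀ n < j, PowerSeries.coeff n (M j) = 0)
    (hMne : ∀ j ≤ J, PowerSeries.coeff j (M j) ≠ 0)
    (hMlead : ∀ j ≤ J, (PowerSeries.coeff j (M j))⁻¹ ∈ FA_S16_c2b_O)
    (F : PowerSeries ℂ) (hFV : F ∈ V) (f : PowerSeries FA_S16_c2b_A)
    (hF : FA_S16_c2b_Red F f) :
    ∃ c : ℕ → FA_S16_c2b_A, f = ∑ j ∈ Finset.range (J + 1), PowerSeries.C (c j) * u ^ j := by
  -- downward induction on the number of known zero coefficients
  have key : ∀ d t : ℕ, t + d = J + 1 → ∀ (F : PowerSeries ℂ), F ∈ V →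
      ∀ f : PowerSeries FA_S16_c2b_A, FA_S16_c2b_Red F f →
      (∀ n < t, PowerSeries.coeff n F = 0) →
      ∃ c : ℕ → FA_S16_c2b_A,
        f = ∑ j ∈ Finset.range (J + 1), PowerSeries.C (c j) * u ^ j := by
    intro d
    induction d with
    | zero =>
      intro t ht F hFV f hF hlow
      have hF0 : F = 0 := hsturm F hFV fun n hn => hlow n (by omega)
      have hf0 : f = 0 := FA_S16_c2b_Red_unique (hF0 ▸ hF) FA_S16_c2b_Red_zero
      exact ⟨fun _ => 0, by simp [hf0]⟩
    | succ d ih =>
      intro t ht F hFV f hF hlow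
      have htJ : t ≤ J := by omega
      obtain ⟨r, hr, -⟩ := FA_S16_c2b_Red_coeff hF t
      set l := PowerSeries.coeff t (M t) with hl
      have hlne : l ≠ 0 := hMne t htJ
      let c₀ : FA_S16_c2b_R := r * ⟨l⁻¹, hMlead t htJ⟩
      have hc₀ : (c₀ : ℂ) = PowerSeries.coeff t F * l⁻¹ := by
        simp only [c₀, Subring.coe_mul, hr]
      have hF' : F - PowerSeries.C (c₀ : ℂ) * M t ∈ V := by
        apply V.sub_mem hFV
        have : PowerSeries.C (c₀ : ℂ) * M t = (c₀ : ℂ) • M t := by
          rw [PowerSeries.smul_eq_C_mul]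
        rw [this]
        exact V.smul_mem _ (hMV t htJ)
      have hRed' : FA_S16_c2b_Red (F - PowerSeries.C (c₀ : ℂ) * M t)
          (f - PowerSeries.C (FA_S16_c2b_pi c₀) * u ^ t) :=
        FA_S16_c2b_Red_sub hF (FA_S16_c2b_Red_mul (FA_S16_c2b_Red_C c₀) (hMred t htJ))
      have hlow' : ∀ n < t + 1, PowerSeries.coeff n (F - PowerSeries.C (c₀ : ℂ) * M t) = 0 := by
        intro n hn
        rw [map_sub, PowerSeries.coeff_C_mul]
        rcases Nat.lt_succ_iff_lt_or_eq.mp hn with h | h
        · rw [hlow n h, hMlow t htJ n h, mul_zero, sub_zero]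
        · subst h
          rw [hc₀, ← hl]
          field_simp
          ring
      obtain ⟨c', hc'⟩ := ih (t + 1) (by omega) _ hF' _ hRed' hlow'
      refine ⟨fun j => c' j + if j = t then FA_S16_c2b_pi c₀ else 0, ?_⟩
      have hsum : ∑ j ∈ Finset.range (J + 1),
          PowerSeries.C (c' j + if j = t then FA_S16_c2b_pi c₀ else 0) * u ^ j =
          (∑ j ∈ Finset.range (J + 1), PowerSeries.C (c' j) * u ^ j) +
            PowerSeries.C (FA_S16_c2b_pi c₀) * u ^ t := by
        have : ∀ j ∈ Finset.range (J + 1),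
            PowerSeries.C (c' j + if j = t then FA_S16_c2b_pi c₀ else 0) * u ^ j =
            PowerSeries.C (c' j) * u ^ j +
              (if j = t then PowerSeries.C (FA_S16_c2b_pi c₀) * u ^ j else 0) := by
          intro j _
          split_ifs with h
          · rw [map_add, add_mul]
          · rw [add_zero, add_zero]
        rw [Finset.sum_congr rfl this, Finset.sum_add_distrib, Finset.sum_ite_eq',
          if_pos (Finset.mem_range.mpr (by omega))]
      rw [hsum, ← hc']
      ring
  exact key (J + 1) 0 (by omega) F hFV f hF (fun n hn => absurd hn (Nat.not_lt_zero n))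

end FA_S16
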