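import Mathlib
import Fermat.Agent.S16.C2bAlg

/-!
# S16, case E2b (helper3): the level `3` series `β, c₄, c₆` and the monomials `M_j`

`β = 1 + 4u` is the `q`-expansion of `B = (3E₂(3z) − E₂(z))/2 ∈ M₂(Γ₀(3))`,
`c₄ = (E₄ − β²)/8 = 27 q + …`, `c₆ = (β³ − 20 β c₄ − E₆)/8 = 729 q² + …`;
modulo `2`: `β ≡ 1`, `c₄ ≡ ū`, `c₆ ≡ ū²`.
-/

set_option autoImplicit false

noncomputable section

namespace FA_S16

open PowerSeries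
open scoped ArithmeticFunction.sigma

/-- `∑ σ_k(n) qⁿ`. -/
def FA_S16_c2b_S (k : ℕ) : PowerSeries ℂ := PowerSeries.mk fun n => ((σ k n : ℕ) : ℂ)

/-- `u = 3 ∑ σ'(n) qⁿ`, `σ'(n) = σ₁` of the prime-to-`3` part. -/
def FA_S16_c2b_u : PowerSeries ℂ := PowerSeries.mk fun n => 3 * ((FA_S16_sigmaP 3 n : ℤ) : ℂ)

/-- The `q`-expansion of `B`. -/
def FA_S16_c2b_beta : PowerSeries ℂ := 1 + 4 * FA_S16_c2b_u

/-- The `q`-expansion of `E₄`. -/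
def FA_S16_c2b_e4 : PowerSeries ℂ := 1 + 240 * FA_S16_c2b_S 3

/-- The `q`-expansion of `E₆`. -/
def FA_S16_c2b_e6 : PowerSeries ℂ := 1 - 504 * FA_S16_c2b_S 5

/-- `c₄ = (E₄ − B²)/8`. -/
def FA_S16_c2b_c4 : PowerSeries ℂ :=
  (8 : ℂ)⁻¹ • (FA_S16_c2b_e4 - FA_S16_c2b_beta ^ 2)

/-- `c₆ = (B³ − 20 B c₄ − E₆)/8`. -/
def FA_S16_c2b_c6 : PowerSeries ℂ :=
  (8 : ℂ)⁻¹ • (FA_S16_c2b_beta ^ 3 - 20 * (FA_S16_c2b_beta * FA_S16_c2b_c4) - FA_S16_c2b_e6)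

/-- The reduction of `u`. -/
def FA_S16_c2b_ubar : PowerSeries FA_S16_c2b_A :=
  PowerSeries.mk fun n => ((3 * FA_S16_sigmaP 3 n : ℤ) : FA_S16_c2b_A)

/-- The reduction of `S k`. -/
def FA_S16_c2b_sbar (k : ℕ) : PowerSeries FA_S16_c2b_A :=
  PowerSeries.mk fun n => ((σ k n : ℕ) : FA_S16_c2b_A)

theorem FA_S16_c2b_Red_u : FA_S16_c2b_Red FA_S16_c2b_u FA_S16_c2b_ubar := by
  rw [FA_S16_c2b_Red_iff_coeff]
  intro n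
  refine ⟨((3 * FA_S16_sigmaP 3 n : ℤ) : FA_S16_c2b_R), ?_, ?_⟩
  · have h : ((((3 * FA_S16_sigmaP 3 n : ℤ) : FA_S16_c2b_R)) : ℂ)
        = ((3 * FA_S16_sigmaP 3 n : ℤ) : ℂ) := map_intCast FA_S16_c2b_iota _
    rw [h]
    simp [FA_S16_c2b_u]
  · rw [map_intCast]
    simp [FA_S16_c2b_ubar]

theorem FA_S16_c2b_Red_S (k : ℕ) : FA_S16_c2b_Red (FA_S16_c2b_S k) (FA_S16_c2b_sbar k) := by
  rw [FA_S16_c2b_Red_iff_coeff]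
  intro n
  refine ⟨((σ k n : ℕ) : FA_S16_c2b_R), ?_, ?_⟩
  · have h : ((((σ k n : ℕ) : FA_S16_c2b_R)) : ℂ) = ((σ k n : ℕ) : ℂ) :=
      map_natCast FA_S16_c2b_iota _
    rw [h]
    simp [FA_S16_c2b_S]
  · rw [map_natCast]
    simp [FA_S16_c2b_sbar]

theorem FA_S16_c2b_two_eq_zero : (2 : FA_S16_c2b_A) = 0 := by
  have := FA_S16_c2b_pi_two
  rwa [map_ofNat] at this

theorem FA_S16_c2b_two_eq_zero' : (2 : PowerSeries FA_S16_c2b_A) = 0 := by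
  have h : (2 : PowerSeries FA_S16_c2b_A) = PowerSeries.C (2 : FA_S16_c2b_A) :=
    (map_ofNat (PowerSeries.C (R := FA_S16_c2b_A)) 2).symm
  rw [h, FA_S16_c2b_two_eq_zero, map_zero]

theorem FA_S16_c2b_natCast_sq (d : ℕ) : ((d : FA_S16_c2b_A)) ^ 2 = (d : FA_S16_c2b_A) := by
  rcases Nat.even_or_odd' d with ⟨k, rfl | rfl⟩
  · push_cast
    rw [FA_S16_c2b_two_eq_zero]
    ring
  · push_cast
    rw [FA_S16_c2b_two_eq_zero]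
    ring

theorem FA_S16_c2b_natCast_pow (d k : ℕ) (hk : 1 ≤ k) :
    ((d : FA_S16_c2b_A)) ^ k = (d : FA_S16_c2b_A) := by
  induction k with
  | zero => omega
  | succ k ih =>
    rcases Nat.eq_zero_or_pos k with h0 | hpos
    · subst h0; simp
    · rw [pow_succ, ih hpos, ← sq, FA_S16_c2b_natCast_sq]

theorem FA_S16_c2b_sbar_eq (k : ℕ) (hk : 1 ≤ k) : FA_S16_c2b_sbar k = FA_S16_c2b_sbar 1 := by
  ext n
  simp only [FA_S16_c2b_sbar, PowerSeries.coeff_mk]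
  rw [ArithmeticFunction.sigma_apply, ArithmeticFunction.sigma_apply]
  push_cast
  refine Finset.sum_congr rfl fun d _ => ?_
  rw [FA_S16_c2b_natCast_pow d k hk, pow_one]

theorem FA_S16_c2b_c4_eq :
    FA_S16_c2b_c4 = 30 * FA_S16_c2b_S 3 - FA_S16_c2b_u - 2 * FA_S16_c2b_u ^ 2 := by
  have h : FA_S16_c2b_e4 - FA_S16_c2b_beta ^ 2 =
      (8 : ℂ) • (30 * FA_S16_c2b_S 3 - FA_S16_c2b_u - 2 * FA_S16_c2b_u ^ 2) := by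
    rw [PowerSeries.smul_eq_C_mul]
    have h8 : PowerSeries.C (8 : ℂ) = (8 : PowerSeries ℂ) := map_ofNat _ 8
    rw [h8, FA_S16_c2b_e4, FA_S16_c2b_beta]
    ring
  rw [FA_S16_c2b_c4, h, smul_smul]
  norm_num

theorem FA_S16_c2b_c6_eq :
    FA_S16_c2b_c6 = 4 * FA_S16_c2b_u + 21 * FA_S16_c2b_u ^ 2 + 28 * FA_S16_c2b_u ^ 3
      - 300 * (FA_S16_c2b_u * FA_S16_c2b_S 3) - 75 * FA_S16_c2b_S 3 + 63 * FA_S16_c2b_S 5 := by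
  have h : FA_S16_c2b_beta ^ 3 - 20 * (FA_S16_c2b_beta * FA_S16_c2b_c4) - FA_S16_c2b_e6 =
      (8 : ℂ) • (4 * FA_S16_c2b_u + 21 * FA_S16_c2b_u ^ 2 + 28 * FA_S16_c2b_u ^ 3
      - 300 * (FA_S16_c2b_u * FA_S16_c2b_S 3) - 75 * FA_S16_c2b_S 3 + 63 * FA_S16_c2b_S 5) := by
    rw [PowerSeries.smul_eq_C_mul]
    have h8 : PowerSeries.C (8 : ℂ) = (8 : PowerSeries ℂ) := map_ofNat _ 8
    rw [h8, FA_S16_c2b_c4_eq, FA_S16_c2b_e6, FA_S16_c2b_beta]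
    ring
  rw [FA_S16_c2b_c6, h, smul_smul]
  norm_num

theorem FA_S16_c2b_Red_ofNat (n : ℕ) [n.AtLeastTwo] :
    FA_S16_c2b_Red (OfNat.ofNat n) (OfNat.ofNat n) :=
  ⟨OfNat.ofNat n, map_ofNat _ n, map_ofNat _ n⟩

theorem FA_S16_c2b_Red_beta : FA_S16_c2b_Red FA_S16_c2b_beta 1 := by
  have h := FA_S16_c2b_Red_add FA_S16_c2b_Red_one
    (FA_S16_c2b_Red_mul (FA_S16_c2b_Red_ofNat 4) FA_S16_c2b_Red_u)
  have h4 : (4 : PowerSeries FA_S16_c2b_A) = 0 := by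
    have : (4 : PowerSeries FA_S16_c2b_A) = 2 * 2 := by norm_num
    rw [this, FA_S16_c2b_two_eq_zero', mul_zero]
  rw [h4, zero_mul, add_zero] at h
  exact h

theorem FA_S16_c2b_Red_c4 : FA_S16_c2b_Red FA_S16_c2b_c4 FA_S16_c2b_ubar := by
  rw [FA_S16_c2b_c4_eq]
  have h := FA_S16_c2b_Red_sub (FA_S16_c2b_Red_sub
    (FA_S16_c2b_Red_mul (FA_S16_c2b_Red_ofNat 30) (FA_S16_c2b_Red_S 3)) FA_S16_c2b_Red_u)
    (FA_S16_c2b_Red_mul (FA_S16_c2b_Red_ofNat 2) (FA_S16_c2b_Red_pow FA_S16_c2b_Red_u 2))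
  have e : (30 : PowerSeries FA_S16_c2b_A) * FA_S16_c2b_sbar 3 - FA_S16_c2b_ubar
      - 2 * FA_S16_c2b_ubar ^ 2 = FA_S16_c2b_ubar := by
    linear_combination (15 * FA_S16_c2b_sbar 3 - FA_S16_c2b_ubar - FA_S16_c2b_ubar ^ 2) *
      FA_S16_c2b_two_eq_zero'
  rw [e] at h
  exact h

theorem FA_S16_c2b_Red_c6 : FA_S16_c2b_Red FA_S16_c2b_c6 (FA_S16_c2b_ubar ^ 2) := by
  rw [FA_S16_c2b_c6_eq]
  have hu := FA_S16_c2b_Red_u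
  have h := FA_S16_c2b_Red_add (FA_S16_c2b_Red_sub (FA_S16_c2b_Red_sub (FA_S16_c2b_Red_add
    (FA_S16_c2b_Red_add (FA_S16_c2b_Red_mul (FA_S16_c2b_Red_ofNat 4) hu)
      (FA_S16_c2b_Red_mul (FA_S16_c2b_Red_ofNat 21) (FA_S16_c2b_Red_pow hu 2)))
      (FA_S16_c2b_Red_mul (FA_S16_c2b_Red_ofNat 28) (FA_S16_c2b_Red_pow hu 3)))
      (FA_S16_c2b_Red_mul (FA_S16_c2b_Red_ofNat 300)
        (FA_S16_c2b_Red_mul hu (FA_S16_c2b_Red_S 3))))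
      (FA_S16_c2b_Red_mul (FA_S16_c2b_Red_ofNat 75) (FA_S16_c2b_Red_S 3)))
      (FA_S16_c2b_Red_mul (FA_S16_c2b_Red_ofNat 63) (FA_S16_c2b_Red_S 5))
  have e35 : FA_S16_c2b_sbar 5 = FA_S16_c2b_sbar 3 := by
    rw [FA_S16_c2b_sbar_eq 5 (by norm_num), FA_S16_c2b_sbar_eq 3 (by norm_num)]
  rw [e35] at h
  have e : (4 : PowerSeries FA_S16_c2b_A) * FA_S16_c2b_ubar + 21 * FA_S16_c2b_ubar ^ 2
      + 28 * FA_S16_c2b_ubar ^ 3 - 300 * (FA_S16_c2b_ubar * FA_S16_c2b_sbar 3)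
      - 75 * FA_S16_c2b_sbar 3 + 63 * FA_S16_c2b_sbar 3 = FA_S16_c2b_ubar ^ 2 := by
    linear_combination (2 * FA_S16_c2b_ubar + 10 * FA_S16_c2b_ubar ^ 2
      + 14 * FA_S16_c2b_ubar ^ 3 - 150 * (FA_S16_c2b_ubar * FA_S16_c2b_sbar 3)
      - 6 * FA_S16_c2b_sbar 3) * FA_S16_c2b_two_eq_zero'
  rw [e] at h
  exact h

end FA_S16
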