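import Mathlib
import Fermat.Agent.S16.C2bMono

/-!
# S16, case E2b (helper3): leading terms of `c₄ = 27 q + …`, `c₆ = 729 q² + …` and the
monomials `M_j = β^a c₄^b c₆^c`.
-/

set_option autoImplicit false

noncomputable section

namespace FA_S16

open PowerSeries
open scoped ArithmeticFunction.sigma

theorem FA_S16_c2b_sigmaP3_zero : FA_S16_sigmaP 3 0 = 0 := by
  simp [FA_S16_sigmaP]

theorem FA_S16_c2b_sigmaP3_one : FA_S16_sigmaP 3 1 = 1 := by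
  simp [FA_S16_sigmaP]

theorem FA_S16_c2b_sigmaP3_two : FA_S16_sigmaP 3 2 = 3 := by
  have h : (2 : ℕ).factorization 3 = 0 := Nat.factorization_eq_zero_of_not_dvd (by norm_num)
  simp [FA_S16_sigmaP, h, ArithmeticFunction.sigma_apply, Nat.Prime.sum_divisors Nat.prime_two]

theorem FA_S16_c2b_u_coeff0 : PowerSeries.coeff 0 FA_S16_c2b_u = 0 := by
  simp [FA_S16_c2b_u, FA_S16_c2b_sigmaP3_zero]

theorem FA_S16_c2b_u_coeff1 : PowerSeries.coeff 1 FA_S16_c2b_u = 3 := by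
  simp [FA_S16_c2b_u, FA_S16_c2b_sigmaP3_one]

theorem FA_S16_c2b_u_coeff2 : PowerSeries.coeff 2 FA_S16_c2b_u = 9 := by
  simp [FA_S16_c2b_u, FA_S16_c2b_sigmaP3_two]
  norm_num

theorem FA_S16_c2b_S_coeff0 (k : ℕ) : PowerSeries.coeff 0 (FA_S16_c2b_S k) = 0 := by
  simp [FA_S16_c2b_S]

theorem FA_S16_c2b_S_coeff1 (k : ℕ) : PowerSeries.coeff 1 (FA_S16_c2b_S k) = 1 := by
  simp [FA_S16_c2b_S, ArithmeticFunction.sigma_apply]

theorem FA_S16_c2b_S3_coeff2 : PowerSeries.coeff 2 (FA_S16_c2b_S 3) = 9 := by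
  have : σ 3 2 = 9 := by
    rw [ArithmeticFunction.sigma_apply, Nat.Prime.sum_divisors Nat.prime_two]
    norm_num
  simp [FA_S16_c2b_S, this]

theorem FA_S16_c2b_S5_coeff2 : PowerSeries.coeff 2 (FA_S16_c2b_S 5) = 33 := by
  have : σ 5 2 = 33 := by
    rw [ArithmeticFunction.sigma_apply, Nat.Prime.sum_divisors Nat.prime_two]
    norm_num
  simp [FA_S16_c2b_S, this]

/-- The shift `φ ↦ (φ - φ₀)/X`. -/
def FA_S16_c2b_sh (φ : PowerSeries ℂ) : PowerSeries ℂ :=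
  PowerSeries.mk fun n => PowerSeries.coeff (n + 1) φ

theorem FA_S16_c2b_sh_spec (φ : PowerSeries ℂ) :
    φ = PowerSeries.C (PowerSeries.coeff 0 φ) + PowerSeries.X * FA_S16_c2b_sh φ := by
  have := PowerSeries.eq_X_mul_shift_add_const φ
  rw [add_comm] at this
  rw [PowerSeries.coeff_zero_eq_constantCoeff_apply]
  exact this

theorem FA_S16_c2b_sh_const (φ : PowerSeries ℂ) :
    PowerSeries.constantCoeff (FA_S16_c2b_sh φ) = PowerSeries.coeff 1 φ := by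
  rw [← PowerSeries.coeff_zero_eq_constantCoeff_apply]
  simp [FA_S16_c2b_sh]

theorem FA_S16_c2b_sh_coeff1 (φ : PowerSeries ℂ) :
    PowerSeries.coeff 1 (FA_S16_c2b_sh φ) = PowerSeries.coeff 2 φ := by
  simp [FA_S16_c2b_sh]

theorem FA_S16_c2b_C_ofNat (n : ℕ) [n.AtLeastTwo] :
    PowerSeries.C (OfNat.ofNat n : ℂ) = (OfNat.ofNat n : PowerSeries ℂ) :=
  map_ofNat (PowerSeries.C (R := ℂ)) n

/-- `c₄ = X · w₄`. -/
def FA_S16_c2b_w4 : PowerSeries ℂ :=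
  30 * FA_S16_c2b_sh (FA_S16_c2b_S 3) - FA_S16_c2b_sh FA_S16_c2b_u
    - 2 * PowerSeries.X * (FA_S16_c2b_sh FA_S16_c2b_u) ^ 2

/-- `c₆ = X² · w₆`. -/
def FA_S16_c2b_w6 : PowerSeries ℂ :=
  4 * FA_S16_c2b_sh (FA_S16_c2b_sh FA_S16_c2b_u)
    - 75 * FA_S16_c2b_sh (FA_S16_c2b_sh (FA_S16_c2b_S 3))
    + 63 * FA_S16_c2b_sh (FA_S16_c2b_sh (FA_S16_c2b_S 5))
    + 21 * (FA_S16_c2b_sh FA_S16_c2b_u) ^ 2
    + 28 * PowerSeries.X * (FA_S16_c2b_sh FA_S16_c2b_u) ^ 3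
    - 300 * (FA_S16_c2b_sh FA_S16_c2b_u * FA_S16_c2b_sh (FA_S16_c2b_S 3))

theorem FA_S16_c2b_u_eq : FA_S16_c2b_u = PowerSeries.X * FA_S16_c2b_sh FA_S16_c2b_u := by
  have := FA_S16_c2b_sh_spec FA_S16_c2b_u
  rw [FA_S16_c2b_u_coeff0, map_zero, zero_add] at this
  exact this

theorem FA_S16_c2b_S_eq (k : ℕ) :
    FA_S16_c2b_S k = PowerSeries.X * FA_S16_c2b_sh (FA_S16_c2b_S k) := by
  have := FA_S16_c2b_sh_spec (FA_S16_c2b_S k)
  rw [FA_S16_c2b_S_coeff0, map_zero, zero_add] at this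
  exact this

theorem FA_S16_c2b_u1_eq : FA_S16_c2b_sh FA_S16_c2b_u =
    3 + PowerSeries.X * FA_S16_c2b_sh (FA_S16_c2b_sh FA_S16_c2b_u) := by
  have := FA_S16_c2b_sh_spec (FA_S16_c2b_sh FA_S16_c2b_u)
  rw [PowerSeries.coeff_zero_eq_constantCoeff_apply, FA_S16_c2b_sh_const, FA_S16_c2b_u_coeff1,
    FA_S16_c2b_C_ofNat] at this
  exact this

theorem FA_S16_c2b_S1_eq (k : ℕ) : FA_S16_c2b_sh (FA_S16_c2b_S k) =
    1 + PowerSeries.X * FA_S16_c2b_sh (FA_S16_c2b_sh (FA_S16_c2b_S k)) := by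
  have := FA_S16_c2b_sh_spec (FA_S16_c2b_sh (FA_S16_c2b_S k))
  rw [PowerSeries.coeff_zero_eq_constantCoeff_apply, FA_S16_c2b_sh_const, FA_S16_c2b_S_coeff1,
    map_one] at this
  exact this

theorem FA_S16_c2b_c4_factor : FA_S16_c2b_c4 = PowerSeries.X * FA_S16_c2b_w4 := by
  rw [FA_S16_c2b_c4_eq, FA_S16_c2b_w4]
  have hu := FA_S16_c2b_u_eq
  have hS := FA_S16_c2b_S_eq 3
  linear_combination (30 : PowerSeries ℂ) * hS - hu
    - 2 * (FA_S16_c2b_u + PowerSeries.X * FA_S16_c2b_sh FA_S16_c2b_u) * hu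

theorem FA_S16_c2b_w4_const : PowerSeries.constantCoeff FA_S16_c2b_w4 = 27 := by
  simp only [FA_S16_c2b_w4, map_sub, map_mul, map_pow, map_ofNat, FA_S16_c2b_sh_const,
    FA_S16_c2b_u_coeff1, FA_S16_c2b_S_coeff1, PowerSeries.constantCoeff_X]
  norm_num

theorem FA_S16_c2b_c6_factor : FA_S16_c2b_c6 = PowerSeries.X ^ 2 * FA_S16_c2b_w6 := by
  rw [FA_S16_c2b_c6_eq, FA_S16_c2b_w6]
  have hu := FA_S16_c2b_u_eq
  have hu1 := FA_S16_c2b_u1_eq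
  have hS3 := FA_S16_c2b_S_eq 3
  have hS5 := FA_S16_c2b_S_eq 5
  have ht1 := FA_S16_c2b_S1_eq 3
  have hv1 := FA_S16_c2b_S1_eq 5
  generalize FA_S16_c2b_sh (FA_S16_c2b_sh FA_S16_c2b_u) = U2 at *
  generalize FA_S16_c2b_sh (FA_S16_c2b_sh (FA_S16_c2b_S 3)) = T2 at *
  generalize FA_S16_c2b_sh (FA_S16_c2b_sh (FA_S16_c2b_S 5)) = V2 at *
  generalize FA_S16_c2b_sh FA_S16_c2b_u = U1 at *
  generalize FA_S16_c2b_sh (FA_S16_c2b_S 3) = T1 at *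
  generalize FA_S16_c2b_sh (FA_S16_c2b_S 5) = V1 at *
  generalize FA_S16_c2b_u = U at *
  generalize FA_S16_c2b_S 3 = T at *
  generalize FA_S16_c2b_S 5 = V at *
  subst hu hS3 hS5
  subst hu1 ht1 hv1
  ring

theorem FA_S16_c2b_w6_const : PowerSeries.constantCoeff FA_S16_c2b_w6 = 729 := by
  simp only [FA_S16_c2b_w6, map_sub, map_add, map_mul, map_pow, map_ofNat, FA_S16_c2b_sh_const,
    FA_S16_c2b_sh_coeff1, FA_S16_c2b_u_coeff1, FA_S16_c2b_u_coeff2, FA_S16_c2b_S_coeff1,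
    FA_S16_c2b_S3_coeff2, FA_S16_c2b_S5_coeff2, PowerSeries.constantCoeff_X]
  norm_num

theorem FA_S16_c2b_beta_const : PowerSeries.constantCoeff FA_S16_c2b_beta = 1 := by
  have h0 : PowerSeries.constantCoeff FA_S16_c2b_u = 0 := by
    rw [← PowerSeries.coeff_zero_eq_constantCoeff_apply, FA_S16_c2b_u_coeff0]
  simp only [FA_S16_c2b_beta, map_add, map_mul, map_one, h0, mul_zero, add_zero]

/-- The monomial `M_j = β^(m - 3⌊j/2⌋ - 2 (j mod 2)) c₄^(j mod 2) c₆^⌊j/2⌋` of weight `2m`. -/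
def FA_S16_c2b_M (m j : ℕ) : PowerSeries ℂ :=
  FA_S16_c2b_beta ^ (m - 3 * (j / 2) - 2 * (j % 2)) * FA_S16_c2b_c4 ^ (j % 2)
    * FA_S16_c2b_c6 ^ (j / 2)

theorem FA_S16_c2b_M_factor (m j : ℕ) :
    FA_S16_c2b_M m j = PowerSeries.X ^ j *
      (FA_S16_c2b_beta ^ (m - 3 * (j / 2) - 2 * (j % 2)) * FA_S16_c2b_w4 ^ (j % 2)
        * FA_S16_c2b_w6 ^ (j / 2)) := by
  rw [FA_S16_c2b_M, FA_S16_c2b_c4_factor, FA_S16_c2b_c6_factor]
  have hj : PowerSeries.X ^ j = (PowerSeries.X : PowerSeries ℂ) ^ (j % 2) *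
      (PowerSeries.X ^ 2) ^ (j / 2) := by
    rw [← pow_mul, ← pow_add]
    congr 1
    omega
  rw [hj]
  ring

theorem FA_S16_c2b_M_low (m j n : ℕ) (h : n < j) : PowerSeries.coeff n (FA_S16_c2b_M m j) = 0 := by
  rw [FA_S16_c2b_M_factor, PowerSeries.coeff_X_pow_mul', if_neg (by omega)]

theorem FA_S16_c2b_M_lead (m j : ℕ) :
    PowerSeries.coeff j (FA_S16_c2b_M m j) = ((27 ^ (j % 2) * 729 ^ (j / 2) : ℕ) : ℂ) := by
  rw [FA_S16_c2b_M_factor]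
  have := PowerSeries.coeff_X_pow_mul (R := ℂ)
    (FA_S16_c2b_beta ^ (m - 3 * (j / 2) - 2 * (j % 2)) * FA_S16_c2b_w4 ^ (j % 2)
        * FA_S16_c2b_w6 ^ (j / 2)) j 0
  rw [zero_add] at this
  rw [this, PowerSeries.coeff_zero_eq_constantCoeff_apply, map_mul, map_mul, map_pow, map_pow,
    map_pow, FA_S16_c2b_beta_const, FA_S16_c2b_w4_const, FA_S16_c2b_w6_const, one_pow, one_mul]
  push_cast
  ring

theorem FA_S16_c2b_M_lead_ne (m j : ℕ) : PowerSeries.coeff j (FA_S16_c2b_M m j) ≠ 0 := by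
  rw [FA_S16_c2b_M_lead]
  exact_mod_cast (by positivity : (27 ^ (j % 2) * 729 ^ (j / 2) : ℕ) ≠ 0)

theorem FA_S16_c2b_M_lead_inv (m j : ℕ) :
    (PowerSeries.coeff j (FA_S16_c2b_M m j))⁻¹ ∈ FA_S16_c2b_O := by
  rw [FA_S16_c2b_M_lead]
  apply FA_S16_c2b_O_inv_odd
  have hodd : Odd (27 ^ (j % 2) * 729 ^ (j / 2)) :=
    Odd.mul (Odd.pow (by decide)) (Odd.pow (by decide))
  intro h2
  exact (Nat.not_even_iff_odd.mpr hodd) (even_iff_two_dvd.mpr h2)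

theorem FA_S16_c2b_M_red (m j : ℕ) :
    FA_S16_c2b_Red (FA_S16_c2b_M m j) (FA_S16_c2b_ubar ^ j) := by
  have h := FA_S16_c2b_Red_mul (FA_S16_c2b_Red_mul
    (FA_S16_c2b_Red_pow FA_S16_c2b_Red_beta (m - 3 * (j / 2) - 2 * (j % 2)))
    (FA_S16_c2b_Red_pow FA_S16_c2b_Red_c4 (j % 2)))
    (FA_S16_c2b_Red_pow FA_S16_c2b_Red_c6 (j / 2))
  have e : (1 : PowerSeries FA_S16_c2b_A) ^ (m - 3 * (j / 2) - 2 * (j % 2))
      * FA_S16_c2b_ubar ^ (j % 2) * (FA_S16_c2b_ubar ^ 2) ^ (j / 2) = FA_S16_c2b_ubar ^ j := by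
    rw [one_pow, one_mul, ← pow_mul, ← pow_add]
    congr 1
    omega
  rw [e] at h
  exact h

end FA_S16
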