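import Mathlib
import Fermat.Agent.S16.C2bLead

/-!
# S16, case E2b (helper3): the algebraic core

No `H ≡ 1 mod 8` on `Γ₀(p)`, `p ≡ 3 mod 4`: with `B ∈ M₂(Γ₀(3))`, `β = qExp B = 1 + 4u`,
`N := 4^{-(p+1)} ∏_c (β − c)` over the conjugates `c` of `H` is a form of weight `2(p+1)` on
`Γ₀(3)` with `2`-integral coefficients and `N ≡ ū (ū + ε)^p mod 2`, a polynomial of degree
`p + 1` in `ū`; but by Sturm every such form is a polynomial of degree `≤ 2(p+1)/3` in `ū`.
-/

set_option autoImplicit false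

noncomputable section

namespace FA_S16

open PowerSeries

theorem FA_S16_c2b_rescale_C (z c : ℂ) :
    PowerSeries.rescale z (PowerSeries.C c) = PowerSeries.C c := by
  ext n
  rw [PowerSeries.coeff_rescale, PowerSeries.coeff_C]
  split_ifs with h
  · subst h; simp
  · simp

theorem FA_S16_c2b_zeta_pow (p : ℕ) (hp : p ≠ 0) : FA_S16_zeta p ^ p = 1 := by
  unfold FA_S16_zeta
  rw [← Complex.exp_nat_mul]
  have hp' : (p : ℂ) ≠ 0 := Nat.cast_ne_zero.mpr hp
  have : (p : ℂ) * (2 * Real.pi * Complex.I / p) = 2 * Real.pi * Complex.I := by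
    field_simp
  rw [this, Complex.exp_two_pi_mul_I]

theorem FA_S16_c2b_zeta_mem (p : ℕ) (hp : p ≠ 0) (j : ℕ) :
    FA_S16_zeta p ^ j ∈ FA_S16_c2b_O :=
  FA_S16_c2b_O.pow_mem
    (FA_S16_c2b_O_of_pow_eq_one (Nat.pos_of_ne_zero hp) (FA_S16_c2b_zeta_pow p hp)) j

/-- Evaluation of the characteristic polynomial. -/
theorem FA_S16_c2b_eval_charpoly (p : ℕ) [NeZero p] (a b y : PowerSeries ℂ) :
    Polynomial.eval y (FA_S16_charpoly p a b) =
      ∏ o : Option (Fin p), (y - FA_S16_conj p a b o) := by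
  unfold FA_S16_charpoly
  rw [Polynomial.eval_prod]
  simp

theorem FA_S16_c2b_natDegree_charpoly (p : ℕ) [NeZero p] (a b : PowerSeries ℂ) :
    (FA_S16_charpoly p a b).natDegree = p + 1 := by
  unfold FA_S16_charpoly
  rw [Polynomial.natDegree_prod_of_monic _ _ (fun o _ => Polynomial.monic_X_sub_C _)]
  simp

/-- Evaluation of the characteristic polynomial via its coefficients. -/
theorem FA_S16_c2b_eval_sum (p : ℕ) [NeZero p] (a b β : PowerSeries ℂ) (s : ℕ → PowerSeries ℂ)
    (hchar : ∀ i ≤ p + 1, (FA_S16_charpoly p a b).coeff (p + 1 - i) =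
      PowerSeries.expand p (NeZero.ne p) (s i)) :
    Polynomial.eval (PowerSeries.expand p (NeZero.ne p) β) (FA_S16_charpoly p a b) =
      PowerSeries.expand p (NeZero.ne p) (∑ i ∈ Finset.range (p + 2), s i * β ^ (p + 1 - i)) := by
  rw [Polynomial.eval_eq_sum_range, FA_S16_c2b_natDegree_charpoly, map_sum,
    ← Finset.sum_range_reflect]
  refine Finset.sum_congr rfl fun i hi => ?_
  have hi' : i ≤ p + 1 := by
    have := Finset.mem_range.mp hi
    omega
  have e : p + 1 + 1 - 1 - i = p + 1 - i := by omega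
  rw [e, hchar i hi', map_mul, map_pow]

theorem FA_S16_c2b_prod_option {M : Type*} [CommMonoid M] (p : ℕ) (x y : M) :
    (∏ o : Option (Fin p), (match o with | none => x | some _ => y)) = x * y ^ p := by
  rw [Fintype.prod_option]
  simp

/-- The main algebraic statement. -/
theorem FA_S16_c2b_core (p : ℕ) [NeZero p] (hp : p.Prime) (hp4 : p % 4 = 3)
    (a b : PowerSeries ℂ) (s : ℕ → PowerSeries ℂ) (V : Submodule ℂ (PowerSeries ℂ))
    (ha0 : PowerSeries.coeff 0 a = 1)
    (han : ∀ n : ℕ, 1 ≤ n → ∃ x : ℂ, FA_S16_IsInt 2 x ∧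
      PowerSeries.coeff n a = (2 : ℂ) ^ 3 * x)
    (hb : ∀ n : ℕ, PowerSeries.coeff n b = - PowerSeries.coeff (p * n) a / (p : ℂ))
    (hchar : ∀ i ≤ p + 1, (FA_S16_charpoly p a b).coeff (p + 1 - i) =
      PowerSeries.expand p (NeZero.ne p) (s i))
    (hV1 : ∀ i ≤ p + 1, s i * FA_S16_c2b_beta ^ (p + 1 - i) ∈ V)
    (hV2 : ∀ j ≤ 2 * (p + 1) / 3, FA_S16_c2b_M (p + 1) j ∈ V)
    (hV3 : ∀ x ∈ V, (∀ n ≤ 2 * (p + 1) / 3, PowerSeries.coeff n x = 0) → x = 0) : False := by
  have hp0 : p ≠ 0 := NeZero.ne p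
  have hpC : (p : ℂ) ≠ 0 := Nat.cast_ne_zero.mpr hp0
  have hpodd : ¬ 2 ∣ p := by
    intro h
    have : p % 2 = 0 := Nat.mod_eq_zero_of_dvd h
    omega
  have hpinv : ((p : ℂ))⁻¹ ∈ FA_S16_c2b_O := FA_S16_c2b_O_inv_odd hpodd
  -- `a = 1 + 8 a'`
  set a' : PowerSeries ℂ := PowerSeries.mk fun n => if n = 0 then 0 else PowerSeries.coeff n a / 8
    with ha'
  have ha_eq : a = 1 + 8 * a' := by
    ext n
    rw [map_add, ← FA_S16_c2b_C_ofNat 8, PowerSeries.coeff_C_mul, ha', PowerSeries.coeff_mk,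
      PowerSeries.coeff_one]
    split_ifs with h
    · subst h; rw [ha0]; ring
    · field_simp; ring
  have ha'O : ∀ n, PowerSeries.coeff n a' ∈ FA_S16_c2b_O := by
    intro n
    rw [ha', PowerSeries.coeff_mk]
    split_ifs with h
    · exact FA_S16_c2b_O.zero_mem
    · obtain ⟨x, hx, hxa⟩ := han n (Nat.one_le_iff_ne_zero.mpr h)
      have : PowerSeries.coeff n a / 8 = x := by
        rw [hxa]; norm_num
      rw [this]
      exact FA_S16_c2b_O_of_isInt hx
  -- `b = -1/p + 8 b''`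
  set b'' : PowerSeries ℂ :=
    PowerSeries.mk fun n => if n = 0 then 0 else - PowerSeries.coeff (p * n) a' * ((p : ℂ))⁻¹
    with hb''
  have hb_eq : b = PowerSeries.C (-((p : ℂ))⁻¹) + 8 * b'' := by
    ext n
    rw [map_add, ← FA_S16_c2b_C_ofNat 8, PowerSeries.coeff_C_mul, hb'', PowerSeries.coeff_mk,
      PowerSeries.coeff_C, hb n]
    split_ifs with h
    · subst h; rw [mul_zero, ha0]; field_simp; ring
    · have hpn : p * n ≠ 0 := Nat.mul_ne_zero hp0 h
      rw [ha_eq, map_add, ← FA_S16_c2b_C_ofNat 8, PowerSeries.coeff_C_mul,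
        PowerSeries.coeff_one, if_neg hpn]
      field_simp
      ring
  have hb''O : ∀ n, PowerSeries.coeff n b'' ∈ FA_S16_c2b_O := by
    intro n
    rw [hb'', PowerSeries.coeff_mk]
    split_ifs with h
    · exact FA_S16_c2b_O.zero_mem
    · exact FA_S16_c2b_O.mul_mem (FA_S16_c2b_O.neg_mem (ha'O _)) hpinv
  have hRa' := FA_S16_c2b_Red_of_coeff a' ha'O
  have hRb'' := FA_S16_c2b_Red_of_coeff b'' hb''O
  -- the constant `ε = (1 + 1/p)/4`
  obtain ⟨q, hq⟩ : ∃ q : ℕ, p + 1 = 4 * q := ⟨(p + 1) / 4, by omega⟩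
  set ε : ℂ := (q : ℂ) * ((p : ℂ))⁻¹ with hε
  have hεO : ε ∈ FA_S16_c2b_O := FA_S16_c2b_O.mul_mem (FA_S16_c2b_O_natCast q) hpinv
  have hε4 : 4 * ε = 1 + ((p : ℂ))⁻¹ := by
    have : ((p : ℂ) + 1) = 4 * (q : ℂ) := by exact_mod_cast hq
    rw [hε]
    field_simp
    linear_combination (-1 : ℂ) * this
  set εbar : FA_S16_c2b_A := FA_S16_c2b_pi ⟨ε, hεO⟩ with hεbar
  -- the factors
  set y : PowerSeries ℂ := PowerSeries.expand p hp0 FA_S16_c2b_beta with hy
  let G : Option (Fin p) → PowerSeries ℂ := fun o =>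
    match o with
    | none => PowerSeries.expand p hp0 (FA_S16_c2b_u - 2 * a')
    | some j => PowerSeries.C ε + PowerSeries.expand p hp0 FA_S16_c2b_u
        - 2 * PowerSeries.rescale (FA_S16_zeta p ^ (j : ℕ)) b''
  let g : Option (Fin p) → PowerSeries FA_S16_c2b_A := fun o =>
    match o with
    | none => PowerSeries.expand p hp0 FA_S16_c2b_ubar
    | some _ => PowerSeries.C εbar + PowerSeries.expand p hp0 FA_S16_c2b_ubar
  have hfac : ∀ o : Option (Fin p), y - FA_S16_conj p a b o = 4 * G o := by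
    intro o
    cases o with
    | none =>
      show y - PowerSeries.expand p (NeZero.ne p) a =
        4 * PowerSeries.expand p hp0 (FA_S16_c2b_u - 2 * a')
      rw [hy, ← map_sub, FA_S16_c2b_beta, ha_eq]
      have : (1 + 4 * FA_S16_c2b_u - (1 + 8 * a') : PowerSeries ℂ) =
          4 * (FA_S16_c2b_u - 2 * a') := by ring
      rw [this, map_mul, map_ofNat]
    | some j =>
      show y - PowerSeries.rescale (FA_S16_zeta p ^ (j : ℕ)) b =
        4 * (PowerSeries.C ε + PowerSeries.expand p hp0 FA_S16_c2b_u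
          - 2 * PowerSeries.rescale (FA_S16_zeta p ^ (j : ℕ)) b'')
      have h_y : y = 1 + 4 * PowerSeries.expand p hp0 FA_S16_c2b_u := by
        rw [hy, FA_S16_c2b_beta, map_add, map_one, map_mul, map_ofNat]
      have h_r : PowerSeries.rescale (FA_S16_zeta p ^ (j : ℕ)) b =
          -PowerSeries.C (((p : ℂ))⁻¹) + 8 * PowerSeries.rescale (FA_S16_zeta p ^ (j : ℕ)) b'' := by
        rw [hb_eq, map_add, FA_S16_c2b_rescale_C, map_mul, map_ofNat, map_neg]
      have hC : (4 : PowerSeries ℂ) * PowerSeries.C ε = 1 + PowerSeries.C (((p : ℂ))⁻¹) := by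
        rw [← FA_S16_c2b_C_ofNat 4, ← map_mul, hε4, map_add, map_one]
      rw [h_y, h_r]
      linear_combination (-1 : PowerSeries ℂ) * hC
  have hRed : ∀ o : Option (Fin p), FA_S16_c2b_Red (G o) (g o) := by
    intro o
    cases o with
    | none =>
      show FA_S16_c2b_Red (PowerSeries.expand p hp0 (FA_S16_c2b_u - 2 * a'))
        (PowerSeries.expand p hp0 FA_S16_c2b_ubar)
      have h := FA_S16_c2b_Red_sub FA_S16_c2b_Red_u (FA_S16_c2b_Red_two_mul hRa')
      rw [sub_zero] at h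
      exact FA_S16_c2b_Red_expand h p hp0
    | some j =>
      show FA_S16_c2b_Red (PowerSeries.C ε + PowerSeries.expand p hp0 FA_S16_c2b_u
          - 2 * PowerSeries.rescale (FA_S16_zeta p ^ (j : ℕ)) b'')
        (PowerSeries.C εbar + PowerSeries.expand p hp0 FA_S16_c2b_ubar)
      have h1 := FA_S16_c2b_Red_rescale hRb'' ⟨_, FA_S16_c2b_zeta_mem p hp0 j⟩
      have h := FA_S16_c2b_Red_sub (FA_S16_c2b_Red_add (FA_S16_c2b_Red_C' hεO)
        (FA_S16_c2b_Red_expand FA_S16_c2b_Red_u p hp0)) (FA_S16_c2b_Red_two_mul h1)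
      rw [sub_zero] at h
      exact h
  -- the product
  set S : PowerSeries ℂ := ∑ i ∈ Finset.range (p + 2), s i * FA_S16_c2b_beta ^ (p + 1 - i)
    with hS
  have hSV : S ∈ V := V.sum_mem fun i hi => hV1 i (by have := Finset.mem_range.mp hi; omega)
  have hprod : PowerSeries.expand p hp0 S = 4 ^ (p + 1) * ∏ o : Option (Fin p), G o := by
    rw [hS, ← FA_S16_c2b_eval_sum p a b FA_S16_c2b_beta s hchar, FA_S16_c2b_eval_charpoly]
    rw [Finset.prod_congr rfl fun o _ => hfac o, Finset.prod_mul_distrib, Finset.prod_const,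
      Finset.card_univ, Fintype.card_option, Fintype.card_fin]
  set S' : PowerSeries ℂ := ((4 : ℂ) ^ (p + 1))⁻¹ • S with hS'
  have hS'V : S' ∈ V := V.smul_mem _ hSV
  have hprod' : PowerSeries.expand p hp0 S' = ∏ o : Option (Fin p), G o := by
    rw [hS', PowerSeries.expand_smul, hprod, PowerSeries.smul_eq_C_mul, ← mul_assoc]
    have : PowerSeries.C (((4 : ℂ) ^ (p + 1))⁻¹) * (4 : PowerSeries ℂ) ^ (p + 1) = 1 := by
      rw [← FA_S16_c2b_C_ofNat 4, ← map_pow, ← map_mul,
        inv_mul_cancel₀ (pow_ne_zero _ (by norm_num)), map_one]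
    rw [this, one_mul]
  have hRprod : FA_S16_c2b_Red (PowerSeries.expand p hp0 S')
      (PowerSeries.expand p hp0
        (FA_S16_c2b_ubar * (PowerSeries.C εbar + FA_S16_c2b_ubar) ^ p)) := by
    rw [hprod']
    have h := FA_S16_c2b_Red_prod Finset.univ G g fun o _ => hRed o
    have e : ∏ o : Option (Fin p), g o = PowerSeries.expand p hp0
        (FA_S16_c2b_ubar * (PowerSeries.C εbar + FA_S16_c2b_ubar) ^ p) := by
      rw [Fintype.prod_option]
      simp only [g, Finset.prod_const, Finset.card_univ, Fintype.card_fin]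
      rw [map_mul, map_pow, map_add, PowerSeries.expand_C]
    rw [e] at h
    exact h
  obtain ⟨f, hRf, hfe⟩ := FA_S16_c2b_Red_of_expand p hp0 hRprod
  have hf : f = FA_S16_c2b_ubar * (PowerSeries.C εbar + FA_S16_c2b_ubar) ^ p :=
    (FA_S16_c2b_expand_injective p hp0 hfe).symm
  -- Sturm spanning
  obtain ⟨c, hc⟩ := FA_S16_c2b_span V (2 * (p + 1) / 3) hV3 (FA_S16_c2b_M (p + 1))
    FA_S16_c2b_ubar hV2 (fun j _ => FA_S16_c2b_M_red (p + 1) j)
    (fun j _ n hn => FA_S16_c2b_M_low (p + 1) j n hn)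
    (fun j _ => FA_S16_c2b_M_lead_ne (p + 1) j)
    (fun j _ => FA_S16_c2b_M_lead_inv (p + 1) j) S' hS'V f hRf
  -- the polynomial
  set J := 2 * (p + 1) / 3 with hJ
  have hJlt : J < p + 1 := by omega
  let Q : Polynomial FA_S16_c2b_A :=
    Polynomial.X * (Polynomial.C εbar + Polynomial.X) ^ p
      - ∑ j ∈ Finset.range (J + 1), Polynomial.C (c j) * Polynomial.X ^ j
  have hQ0 : Polynomial.aeval FA_S16_c2b_ubar Q = 0 := by
    have hCalg : ∀ r : FA_S16_c2b_A,
        algebraMap FA_S16_c2b_A (PowerSeries FA_S16_c2b_A) r = PowerSeries.C r := fun _ => rfl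
    simp only [Q, map_sub, map_mul, map_pow, map_add, map_sum, Polynomial.aeval_X,
      Polynomial.aeval_C, hCalg]
    rw [← hf, hc]
    exact sub_self _
  have hQne : Q ≠ 0 := by
    intro h
    have hcoeff := congrArg (fun P : Polynomial FA_S16_c2b_A => P.coeff (p + 1)) h
    simp only [Q, Polynomial.coeff_sub, Polynomial.coeff_zero, Polynomial.finsetSum_coeff,
      Polynomial.coeff_C_mul_X_pow] at hcoeff
    have h1 : (Polynomial.X * (Polynomial.C εbar + Polynomial.X) ^ p :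
        Polynomial FA_S16_c2b_A).coeff (p + 1) = 1 := by
      rw [Polynomial.coeff_X_mul, add_comm (Polynomial.C εbar)]
      have hm : ((Polynomial.X + Polynomial.C εbar) ^ p : Polynomial FA_S16_c2b_A).Monic :=
        (Polynomial.monic_X_add_C εbar).pow p
      have hd : ((Polynomial.X + Polynomial.C εbar) ^ p : Polynomial FA_S16_c2b_A).natDegree
          = p := by
        rw [(Polynomial.monic_X_add_C εbar).natDegree_pow, Polynomial.natDegree_X_add_C, mul_one]
      have := hm.coeff_natDegree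
      rwa [hd] at this
    have h2 : ∑ j ∈ Finset.range (J + 1), (if p + 1 = j then c j else 0) = 0 := by
      apply Finset.sum_eq_zero
      intro j hj
      have := Finset.mem_range.mp hj
      rw [if_neg (by omega)]
    rw [h1, h2, sub_zero] at hcoeff
    exact one_ne_zero hcoeff
  have hu0 : PowerSeries.constantCoeff FA_S16_c2b_ubar = 0 := by
    rw [← PowerSeries.coeff_zero_eq_constantCoeff_apply]
    simp [FA_S16_c2b_ubar, FA_S16_c2b_sigmaP3_zero]
  have hu1 : IsUnit (PowerSeries.coeff 1 FA_S16_c2b_ubar) := by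
    have : PowerSeries.coeff 1 FA_S16_c2b_ubar = 1 := by
      simp only [FA_S16_c2b_ubar, PowerSeries.coeff_mk, FA_S16_c2b_sigmaP3_one]
      push_cast
      linear_combination FA_S16_c2b_two_eq_zero
    rw [this]
    exact isUnit_one
  exact FA_S16_c2b_aeval_ne_zero Q hQne FA_S16_c2b_ubar hu0 hu1 hQ0

end FA_S16
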