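import Mathlib
import Fermat.Prelude.Thm_ModularForm_sturm_bound_Gamma0
import Fermat.Prelude.Thm_CongruenceSubgroup_one_mem_strictPeriods_Gamma0
import Fermat.Agent.S24.BIndex
import Fermat.Agent.S16.C2bLead

/-!
# S16, case E2b (helper3): `q`-expansions of modular forms on `Γ₀(3)`

`FA_S16_c2b_L3 k` : the space of `q`-expansions of `M_k(Γ₀(3))`; closure under products,
restriction from level one, Sturm bound `⌊k/3⌋`.
-/

set_option autoImplicit false

noncomputable section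

namespace FA_S16

open ModularForm ModularFormClass UpperHalfPlane CongruenceSubgroup MatrixGroups EisensteinSeries
open scoped ArithmeticFunction.sigma

theorem FA_S16_c2b_hΓ :
    (1 : ℝ) ∈ ((Gamma0 3 : Subgroup SL(2, ℤ)) : Subgroup (GL (Fin 2) ℝ)).strictPeriods :=
  CongruenceSubgroup.one_mem_strictPeriods_Gamma0 3

/-- The `q`-expansions of modular forms of weight `k` on `Γ₀(3)`. -/
def FA_S16_c2b_L3 (k : ℤ) : Submodule ℂ (PowerSeries ℂ) where
  carrier := {s | ∃ G : ModularForm (Gamma0 3) k, qExpansion 1 G = s}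
  zero_mem' := ⟨0, by
    rw [show ((0 : ModularForm (Gamma0 3) k) : ℍ → ℂ) = 0 from rfl]
    exact qExpansion_zero 1⟩
  add_mem' := by
    rintro _ _ ⟨G, rfl⟩ ⟨G', rfl⟩
    exact ⟨G + G', ModularForm.qExpansion_add one_pos FA_S16_c2b_hΓ G G'⟩
  smul_mem' := by
    rintro c _ ⟨G, rfl⟩
    exact ⟨c • G, ModularForm.qExpansion_smul one_pos FA_S16_c2b_hΓ c G⟩

theorem FA_S16_c2b_mem_L3 {k : ℤ} {s : PowerSeries ℂ} :
    s ∈ FA_S16_c2b_L3 k ↔ ∃ G : ModularForm (Gamma0 3) k, qExpansion 1 G = s := Iff.rfl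

theorem FA_S16_c2b_L3_mul {k k' k'' : ℤ} (h : k + k' = k'') {x y : PowerSeries ℂ}
    (hx : x ∈ FA_S16_c2b_L3 k) (hy : y ∈ FA_S16_c2b_L3 k') : x * y ∈ FA_S16_c2b_L3 k'' := by
  subst h
  obtain ⟨G, rfl⟩ := hx
  obtain ⟨G', rfl⟩ := hy
  exact ⟨G.mul G', ModularForm.qExpansion_mul one_pos FA_S16_c2b_hΓ G G'⟩

theorem FA_S16_c2b_L3_one : (1 : PowerSeries ℂ) ∈ FA_S16_c2b_L3 0 :=
  ⟨1, ModularForm.qExpansion_one⟩

theorem FA_S16_c2b_L3_pow {k : ℤ} {x : PowerSeries ℂ} (hx : x ∈ FA_S16_c2b_L3 k) (n : ℕ) :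
    x ^ n ∈ FA_S16_c2b_L3 (n * k) := by
  induction n with
  | zero => simpa using FA_S16_c2b_L3_one
  | succ n ih =>
    rw [pow_succ]
    exact FA_S16_c2b_L3_mul (by push_cast; ring) ih hx

/-- A level one form, seen as a form on `Γ₀(3)`. -/
def FA_S16_c2b_res {k : ℤ} (G : ModularForm 𝒮ℒ k) : ModularForm (Gamma0 3) k where
  toFun := G
  slash_action_eq' := by
    rintro _ ⟨γ, -, rfl⟩
    exact SlashInvariantFormClass.slash_action_eq G _ ⟨γ, rfl⟩
  holo' := ModularFormClass.holo G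
  bdd_at_cusps' := fun {c} hc => by
    rw [Subgroup.IsArithmetic.isCusp_iff_isCusp_SL2Z] at hc
    exact ModularFormClass.bdd_at_cusps G hc

theorem FA_S16_c2b_L3_of_qL1 {k : ℤ} {s : PowerSeries ℂ} (h : s ∈ FA_S16_qL1 k) :
    s ∈ FA_S16_c2b_L3 k := by
  obtain ⟨G, rfl⟩ := h
  exact ⟨FA_S16_c2b_res G, rfl⟩

theorem FA_S16_c2b_index3 : (Gamma0 3).index = 4 := by
  rw [Fermat.Agent.S24.FA_S24_index_Gamma0 3 (by norm_num)]
  rw [ModularCurve.dedekindPsi, Nat.Prime.divisors Nat.prime_three]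
  rw [Finset.sum_filter]
  have h3 : Squarefree 3 := Nat.prime_three.squarefree
  simp [h3]

/-- Sturm bound at level `3`. -/
theorem FA_S16_c2b_sturm (k : ℕ) (x : PowerSeries ℂ) (hx : x ∈ FA_S16_c2b_L3 (k : ℤ))
    (h : ∀ n ≤ k / 3, PowerSeries.coeff n x = 0) : x = 0 := by
  obtain ⟨G, rfl⟩ := hx
  have hG : G = 0 := by
    apply ModularForm.sturm_bound_Gamma0 3
    intro n hn
    apply h
    rw [FA_S16_c2b_index3] at hn
    have e : (((k : ℤ) * ((4 : ℕ) : ℤ)).toNat) = k * 4 := by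
      have : ((k : ℤ) * ((4 : ℕ) : ℤ)) = ((k * 4 : ℕ) : ℤ) := by push_cast; ring
      rw [this, Int.toNat_natCast]
    rw [e] at hn
    omega
  rw [hG]
  rw [show ((0 : ModularForm (Gamma0 3) (k : ℤ)) : ℍ → ℂ) = 0 from rfl]
  exact qExpansion_zero 1

end FA_S16
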