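import Mathlib
import Fermat.Agent.S16.C2bCore
import Fermat.Agent.S16.C2bL3

/-!
# S16, case E2b (helper3): `p ≡ 3 mod 4`, no `H ≡ 1 mod 8` in `M₂(Γ₀(p))`

`FA_S16_e2b_of : AnSym → AnT1 → AnQ → AnEis → FA_S16_Target_E2b`.
-/

set_option autoImplicit false

noncomputable section

namespace FA_S16

open ModularForm ModularFormClass UpperHalfPlane CongruenceSubgroup MatrixGroups EisensteinSeries
open scoped ArithmeticFunction.sigma

theorem FA_S16_c2b_beta_mem (hEis : FA_S16_Target_AnEis) :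
    FA_S16_c2b_beta ∈ FA_S16_c2b_L3 2 := by
  haveI : Fact (Nat.Prime 3) := ⟨Nat.prime_three⟩
  obtain ⟨E, h0, hk⟩ := hEis 3
  have e : FA_S16_c2b_beta = (-(1 / 2) : ℂ) • qExpansion 1 E := by
    ext n
    rw [PowerSeries.coeff_smul, FA_S16_c2b_beta, map_add, ← FA_S16_c2b_C_ofNat 4,
      PowerSeries.coeff_C_mul, PowerSeries.coeff_one]
    rcases Nat.eq_zero_or_pos n with rfl | hn
    · rw [h0, FA_S16_c2b_u_coeff0]
      push_cast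
      norm_num
    · rw [hk n hn, if_neg (by omega), FA_S16_c2b_u, PowerSeries.coeff_mk]
      simp only [smul_eq_mul]
      ring
  rw [e]
  exact (FA_S16_c2b_L3 2).smul_mem _ ⟨E, rfl⟩

theorem FA_S16_c2b_e4_mem (hQ : FA_S16_Target_AnQ) :
    FA_S16_c2b_e4 ∈ FA_S16_c2b_L3 4 := by
  apply FA_S16_c2b_L3_of_qL1
  refine ⟨E₄, ?_⟩
  obtain ⟨⟨h0, hn⟩, -, -⟩ := hQ
  ext n
  rw [FA_S16_c2b_e4, map_add, ← FA_S16_c2b_C_ofNat 240, PowerSeries.coeff_C_mul,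
    PowerSeries.coeff_one, FA_S16_c2b_S, PowerSeries.coeff_mk]
  rcases Nat.eq_zero_or_pos n with rfl | hpos
  · rw [h0]; simp
  · rw [hn n hpos, if_neg (by omega)]; ring

theorem FA_S16_c2b_e6_mem (hQ : FA_S16_Target_AnQ) :
    FA_S16_c2b_e6 ∈ FA_S16_c2b_L3 6 := by
  apply FA_S16_c2b_L3_of_qL1
  refine ⟨E₆, ?_⟩
  obtain ⟨-, ⟨h0, hn⟩, -⟩ := hQ
  ext n
  rw [FA_S16_c2b_e6, map_sub, ← FA_S16_c2b_C_ofNat 504, PowerSeries.coeff_C_mul,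
    PowerSeries.coeff_one, FA_S16_c2b_S, PowerSeries.coeff_mk]
  rcases Nat.eq_zero_or_pos n with rfl | hpos
  · rw [h0]; simp
  · rw [hn n hpos, if_neg (by omega)]; ring

theorem FA_S16_c2b_c4_mem (hQ : FA_S16_Target_AnQ) (hEis : FA_S16_Target_AnEis) :
    FA_S16_c2b_c4 ∈ FA_S16_c2b_L3 4 := by
  unfold FA_S16_c2b_c4
  apply (FA_S16_c2b_L3 4).smul_mem
  apply (FA_S16_c2b_L3 4).sub_mem (FA_S16_c2b_e4_mem hQ)
  have := FA_S16_c2b_L3_pow (FA_S16_c2b_beta_mem hEis) 2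
  norm_num at this
  exact this

theorem FA_S16_c2b_c6_mem (hQ : FA_S16_Target_AnQ) (hEis : FA_S16_Target_AnEis) :
    FA_S16_c2b_c6 ∈ FA_S16_c2b_L3 6 := by
  unfold FA_S16_c2b_c6
  apply (FA_S16_c2b_L3 6).smul_mem
  apply (FA_S16_c2b_L3 6).sub_mem _ (FA_S16_c2b_e6_mem hQ)
  apply (FA_S16_c2b_L3 6).sub_mem
  · have := FA_S16_c2b_L3_pow (FA_S16_c2b_beta_mem hEis) 3
    norm_num at this
    exact this
  · have h := FA_S16_c2b_L3_mul (k'' := 6) (by norm_num) (FA_S16_c2b_beta_mem hEis)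
      (FA_S16_c2b_c4_mem hQ hEis)
    have e : (20 : PowerSeries ℂ) * (FA_S16_c2b_beta * FA_S16_c2b_c4) =
        (20 : ℂ) • (FA_S16_c2b_beta * FA_S16_c2b_c4) := by
      rw [PowerSeries.smul_eq_C_mul, FA_S16_c2b_C_ofNat]
    rw [e]
    exact (FA_S16_c2b_L3 6).smul_mem _ h

theorem FA_S16_c2b_M_mem (hQ : FA_S16_Target_AnQ) (hEis : FA_S16_Target_AnEis) (m j : ℕ)
    (hj : j ≤ 2 * m / 3) : FA_S16_c2b_M m j ∈ FA_S16_c2b_L3 ((2 * m : ℕ) : ℤ) := by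
  unfold FA_S16_c2b_M
  have h1 := FA_S16_c2b_L3_pow (FA_S16_c2b_beta_mem hEis) (m - 3 * (j / 2) - 2 * (j % 2))
  have h2 := FA_S16_c2b_L3_pow (FA_S16_c2b_c4_mem hQ hEis) (j % 2)
  have h3 := FA_S16_c2b_L3_pow (FA_S16_c2b_c6_mem hQ hEis) (j / 2)
  refine FA_S16_c2b_L3_mul ?_ (FA_S16_c2b_L3_mul rfl h1 h2) h3
  have hle : 3 * (j / 2) + 2 * (j % 2) ≤ m := by omega
  have : ((m - 3 * (j / 2) - 2 * (j % 2) : ℕ) : ℤ) = (m : ℤ) - 3 * ((j / 2 : ℕ) : ℤ)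
      - 2 * ((j % 2 : ℕ) : ℤ) := by
    omega
  rw [this]
  push_cast
  ring

/-- **E2b** from the analytic leaves. -/
theorem FA_S16_e2b_of (hSym : FA_S16_Target_AnSym) (hT1 : FA_S16_Target_AnT1)
    (hQ : FA_S16_Target_AnQ) (hEis : FA_S16_Target_AnEis) : FA_S16_Target_E2b := by
  intro p hp _ hp4 H h0 hn
  haveI : Fact p.Prime := ⟨hp⟩
  haveI : NeZero p := ⟨hp.ne_zero⟩
  have hpair : FA_S16_IsPair p 2 (qExpansion 1 H)
      (qExpansion (p : ℝ) ((H : ℍ → ℂ) ∣[(2 : ℤ)] ModularGroup.S)) := ⟨H, rfl, rfl⟩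
  have hb := hT1 p _ _ hpair
  have hsym := hSym p 2 _ _ hpair
  let s : ℕ → PowerSeries ℂ := fun i =>
    if hi : i ≤ p + 1 then Classical.choose (hsym i hi) else 0
  have hs : ∀ i (hi : i ≤ p + 1), s i ∈ FA_S16_qL1 ((2 * i : ℕ) : ℤ) ∧
      (FA_S16_charpoly p (qExpansion 1 H)
        (qExpansion (p : ℝ) ((H : ℍ → ℂ) ∣[(2 : ℤ)] ModularGroup.S))).coeff (p + 1 - i) =
        PowerSeries.expand p (NeZero.ne p) (s i) := by
    intro i hi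
    have := Classical.choose_spec (hsym i hi)
    simp only [s, dif_pos hi]
    exact this
  refine FA_S16_c2b_core p hp hp4 _ _ s (FA_S16_c2b_L3 ((2 * (p + 1) : ℕ) : ℤ)) h0 hn hb
    (fun i hi => (hs i hi).2) ?_ ?_ ?_
  · intro i hi
    have h1 := FA_S16_c2b_L3_of_qL1 (hs i hi).1
    have h2 := FA_S16_c2b_L3_pow (FA_S16_c2b_beta_mem hEis) (p + 1 - i)
    refine FA_S16_c2b_L3_mul ?_ h1 h2
    have : ((p + 1 - i : ℕ) : ℤ) = (p : ℤ) + 1 - (i : ℤ) := by omega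
    rw [this]
    push_cast
    ring
  · intro j hj
    exact FA_S16_c2b_M_mem hQ hEis (p + 1) j hj
  · intro x hx h
    exact FA_S16_c2b_sturm (2 * (p + 1)) x hx h

end FA_S16
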