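import Mathlib
import Fermat.Agent.S16.C2b
import Fermat.Agent.S16.AnSym
import Fermat.Agent.S16.AnT1
import Fermat.Agent.S16.AnQ
import Fermat.Agent.S16.AnEisQ

/-!
# S16, case E2b (helper3), closed: `FA_S16_e2b : FA_S16_Target_E2b`
-/

set_option autoImplicit false

namespace FA_S16

/-- **E2b**: for a prime `p ≥ 5`, `p ≡ 3 mod 4`, there is no `H ∈ M₂(Γ₀(p))` with constant term
`1` and all higher coefficients in `8 ℤ_(2)`. -/
theorem FA_S16_e2b : FA_S16_Target_E2b :=
  FA_S16_e2b_of _root_.FA_S16_anSym _root_.FA_S16_anT1 FA_S16_anQ FA_S16_anEis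

end FA_S16
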