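import Mathlib
import Fermat.Agent.S16.E3aCore

/-!
# S16, cases E3a and E2a (lead): `FA_S16_E3a_of`, `FA_S16_E2a_of`
-/

set_option autoImplicit false

noncomputable section

namespace FA_S16

open ModularForm ModularFormClass UpperHalfPlane CongruenceSubgroup MatrixGroups EisensteinSeries
open scoped ArithmeticFunction.sigma

/-- The power series identity behind the integrality of `(H³ - E₆)/ℓ²`. -/
theorem FA_S16_E3a_identity (ℓ e c₁ c₂ c₃ c₄ : ℕ)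
    (h1 : 3 * ℓ ^ e = ℓ ^ 2 * c₁) (h2 : 3 * ℓ ^ (2 * e) = ℓ ^ 2 * c₂)
    (h3 : ℓ ^ (3 * e) = ℓ ^ 2 * c₃) (h4 : 504 = ℓ ^ 2 * c₄) (h S : PowerSeries ℂ) :
    (1 + ((ℓ : ℂ) ^ e) • h) ^ 3 - (1 - (504 : ℂ) • S) =
      ((ℓ : ℂ) ^ 2) • (((c₁ : ℂ) • h + (c₂ : ℂ) • h ^ 2 + (c₃ : ℂ) • h ^ 3) + (c₄ : ℂ) • S) := by
  have h1' : (3 : PowerSeries ℂ) * (ℓ : PowerSeries ℂ) ^ e =
      (ℓ : PowerSeries ℂ) ^ 2 * (c₁ : PowerSeries ℂ) := by
    exact_mod_cast congrArg (Nat.cast : ℕ → PowerSeries ℂ) h1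
  have h2' : (3 : PowerSeries ℂ) * (ℓ : PowerSeries ℂ) ^ (2 * e) =
      (ℓ : PowerSeries ℂ) ^ 2 * (c₂ : PowerSeries ℂ) := by
    exact_mod_cast congrArg (Nat.cast : ℕ → PowerSeries ℂ) h2
  have h3' : (ℓ : PowerSeries ℂ) ^ (3 * e) =
      (ℓ : PowerSeries ℂ) ^ 2 * (c₃ : PowerSeries ℂ) := by
    exact_mod_cast congrArg (Nat.cast : ℕ → PowerSeries ℂ) h3
  have h4' : (504 : PowerSeries ℂ) =
      (ℓ : PowerSeries ℂ) ^ 2 * (c₄ : PowerSeries ℂ) := by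
    exact_mod_cast congrArg (Nat.cast : ℕ → PowerSeries ℂ) h4
  have hC504 : PowerSeries.C (504 : ℂ) = (504 : PowerSeries ℂ) := map_ofNat _ 504
  simp only [PowerSeries.smul_eq_C_mul, map_pow, map_natCast, hC504]
  linear_combination h * h1' + h ^ 2 * h2' + h ^ 3 * h3' + S * h4'

/-- **Core of E3a and E2a.** -/
theorem FA_S16_E3a_core (hAn : FA_S16_An) (hAU : FA_S16_Target_AlgUnit)
    (hT2 : FA_S16_Target_AlgT2) (p ℓ e c₁ c₂ c₃ c₄ : ℕ) (hp : p.Prime) (hℓ : ℓ.Prime)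
    (hℓp : ℓ ≠ p)
    (h1 : 3 * ℓ ^ e = ℓ ^ 2 * c₁) (h2 : 3 * ℓ ^ (2 * e) = ℓ ^ 2 * c₂)
    (h3 : ℓ ^ (3 * e) = ℓ ^ 2 * c₃) (h4 : 504 = ℓ ^ 2 * c₄)
    (hcon : ∀ d : ℕ, ¬ ℓ ∣ d → ¬ ℓ ^ 2 ∣ (1 + p ^ 3) * d) :
    FA_S16_Target_Case p ℓ e := by
  intro H h0 hH
  have : Fact p.Prime := ⟨hp⟩
  have : NeZero p := ⟨hp.ne_zero⟩
  have hAn' := hAn
  obtain ⟨-, hT1, hRing, -, hQ⟩ := hAn'
  obtain ⟨hadd, hmul, hsmul, hlvl, -⟩ := hRing p
  have hℓ0 : (ℓ : ℂ) ≠ 0 := by exact_mod_cast hℓ.ne_zero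
  have hp0 : (p : ℂ) ≠ 0 := by exact_mod_cast hp.ne_zero
  -- the pair of `H`
  obtain ⟨a, ha⟩ : ∃ a, a = qExpansion 1 H := ⟨_, rfl⟩
  obtain ⟨b, hb⟩ : ∃ b, b = qExpansion (p : ℝ) ((H : ℍ → ℂ) ∣[(2 : ℤ)] ModularGroup.S) :=
    ⟨_, rfl⟩
  have hpair : FA_S16_IsPair p 2 a b := ⟨H, ha.symm, hb.symm⟩
  rw [← ha] at h0 hH
  -- `a = 1 + ℓ^e h`
  classical
  let h : PowerSeries ℂ :=
    PowerSeries.mk (fun n => if hn : 1 ≤ n then Classical.choose (hH n hn) else 0)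
  have hh : FA_S16_E3a_IntPS ℓ h := by
    intro n
    simp only [h, PowerSeries.coeff_mk]
    split_ifs with hn
    · exact (Classical.choose_spec (hH n hn)).1
    · simpa using FA_S16_E3a_isInt_intCast hℓ 0
  have hah : a = 1 + ((ℓ : ℂ) ^ e) • h := by
    ext n
    rw [map_add, PowerSeries.coeff_smul, smul_eq_mul]
    simp only [h, PowerSeries.coeff_mk, PowerSeries.coeff_one]
    by_cases hn : 1 ≤ n
    · rw [dif_pos hn, if_neg (by omega), zero_add]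
      exact (Classical.choose_spec (hH n hn)).2
    · have hn0 : n = 0 := by omega
      subst hn0
      rw [dif_neg hn, if_pos rfl, mul_zero, add_zero]
      exact h0
  have haInt : FA_S16_E3a_IntPS ℓ a := by
    rw [hah]
    exact FA_S16_E3a_intPS_add hℓ (FA_S16_E3a_intPS_one hℓ)
      (FA_S16_E3a_intPS_smul hℓ
        ((FA_S16_E3a_intRing ℓ hℓ).pow_mem (FA_S16_E3a_isInt_natCast hℓ ℓ) e) hh)
  -- `E₆ = 1 - 504 S₅`
  let S : PowerSeries ℂ := PowerSeries.mk (fun n => if n = 0 then 0 else (σ 5 n : ℂ))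
  have hS : FA_S16_E3a_IntPS ℓ S := by
    intro n
    simp only [S, PowerSeries.coeff_mk]
    split_ifs
    · simpa using FA_S16_E3a_isInt_intCast hℓ 0
    · exact FA_S16_E3a_isInt_natCast hℓ _
  have hE : qExpansion 1 E₆ = 1 - (504 : ℂ) • S := by
    ext n
    rw [map_sub, PowerSeries.coeff_smul, smul_eq_mul]
    simp only [S, PowerSeries.coeff_mk, PowerSeries.coeff_one]
    by_cases hn : n = 0
    · subst hn
      rw [if_pos rfl, if_pos rfl, mul_zero, sub_zero]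
      exact hQ.2.1.1
    · rw [if_neg hn, if_neg hn, hQ.2.1.2 n (by omega)]
      ring
  have hEInt : FA_S16_E3a_IntPS ℓ (qExpansion 1 E₆) := by
    rw [hE]
    exact FA_S16_E3a_intPS_sub hℓ (FA_S16_E3a_intPS_one hℓ)
      (FA_S16_E3a_intPS_smul hℓ (by simpa using FA_S16_E3a_isInt_natCast hℓ 504) hS)
  -- the pair of `F = (H³ - E₆)/ℓ²`
  have hpair3 : FA_S16_IsPair p 6 (a ^ 3) (b ^ 3) := by
    have := hmul _ _ _ _ _ _ (hmul _ _ _ _ _ _ hpair hpair) hpair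
    have h6 : (2 : ℤ) + 2 + 2 = 6 := by norm_num
    rw [h6] at this
    rw [pow_succ, pow_two, pow_succ, pow_two]
    exact this
  have hpairE : FA_S16_IsPair p 6 (qExpansion 1 E₆)
      (PowerSeries.expand p (NeZero.ne p) (qExpansion 1 E₆)) := by
    have := hlvl ((6 : ℕ) : ℤ) (qExpansion 1 E₆) ⟨E₆, rfl⟩
    simpa using this
  have hpairF : FA_S16_IsPair p 6
      ((((ℓ : ℂ) ^ 2)⁻¹) • (a ^ 3 + (-1 : ℂ) • qExpansion 1 E₆))
      ((((ℓ : ℂ) ^ 2)⁻¹) • (b ^ 3 + (-1 : ℂ) •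
        PowerSeries.expand p (NeZero.ne p) (qExpansion 1 E₆))) :=
    hsmul _ _ _ _ (hadd _ _ _ _ _ hpair3 (hsmul _ _ _ _ hpairE))
  -- integrality at `∞`
  have hAF : FA_S16_E3a_IntPS ℓ ((((ℓ : ℂ) ^ 2)⁻¹) • (a ^ 3 + (-1 : ℂ) • qExpansion 1 E₆)) := by
    have hid := FA_S16_E3a_identity ℓ e c₁ c₂ c₃ c₄ h1 h2 h3 h4 h S
    have : a ^ 3 + (-1 : ℂ) • qExpansion 1 E₆ = (1 + ((ℓ : ℂ) ^ e) • h) ^ 3 -
        (1 - (504 : ℂ) • S) := by
      rw [← hah, ← hE, neg_one_smul, sub_eq_add_neg]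
    rw [this, hid, inv_smul_smul₀ (pow_ne_zero 2 hℓ0)]
    refine FA_S16_E3a_intPS_add hℓ (FA_S16_E3a_intPS_add hℓ (FA_S16_E3a_intPS_add hℓ ?_ ?_) ?_) ?_
    · exact FA_S16_E3a_intPS_smul hℓ (FA_S16_E3a_isInt_natCast hℓ _) hh
    · exact FA_S16_E3a_intPS_smul hℓ (FA_S16_E3a_isInt_natCast hℓ _)
        (FA_S16_E3a_intPS_pow hℓ hh 2)
    · exact FA_S16_E3a_intPS_smul hℓ (FA_S16_E3a_isInt_natCast hℓ _)
        (FA_S16_E3a_intPS_pow hℓ hh 3)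
    · exact FA_S16_E3a_intPS_smul hℓ (FA_S16_E3a_isInt_natCast hℓ _) hS
  -- the expansion at `0`
  have hbn : ∀ n, PowerSeries.coeff n b = - PowerSeries.coeff (p * n) a / (p : ℂ) :=
    hT1 p a b hpair
  have hbInt : FA_S16_E3a_IntPS ℓ b := by
    intro n
    rw [hbn n, div_eq_mul_inv]
    exact FA_S16_E3a_isInt_mul hℓ (FA_S16_E3a_isInt_neg (haInt _))
      (FA_S16_E3a_isInt_inv hℓ hp hℓp)
  have hBF : FA_S16_E3a_IntPS ℓ (b ^ 3 + (-1 : ℂ) •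
        PowerSeries.expand p (NeZero.ne p) (qExpansion 1 E₆)) := by
    refine FA_S16_E3a_intPS_add hℓ (FA_S16_E3a_intPS_pow hℓ hbInt 3) ?_
    rw [neg_one_smul]
    exact FA_S16_E3a_intPS_neg (FA_S16_E3a_intPS_expand hℓ p _ hEInt)
  have hbdd : ∃ N : ℕ, ∀ n, FA_S16_IsInt ℓ ((ℓ : ℂ) ^ N * PowerSeries.coeff n
      ((((ℓ : ℂ) ^ 2)⁻¹) • (b ^ 3 + (-1 : ℂ) •
        PowerSeries.expand p (NeZero.ne p) (qExpansion 1 E₆)))) := by
    refine ⟨2, fun n => ?_⟩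
    rw [PowerSeries.coeff_smul, smul_eq_mul, ← mul_assoc, mul_inv_cancel₀ (pow_ne_zero 2 hℓ0),
      one_mul]
    exact hBF n
  -- ALG-T2
  have hkey := hT2 hAn hAU p ℓ hℓ hℓp 6 _ _ (by simpa using hpairF) hAF hbdd 0
  -- the constant term
  have hb0 : PowerSeries.coeff 0 b = - 1 / (p : ℂ) := by
    rw [hbn 0, mul_zero, h0]
  have hc0 : PowerSeries.coeff 0 ((((ℓ : ℂ) ^ 2)⁻¹) • (b ^ 3 + (-1 : ℂ) •
        PowerSeries.expand p (NeZero.ne p) (qExpansion 1 E₆))) =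
      (((ℓ : ℂ) ^ 2)⁻¹) * ((- 1 / (p : ℂ)) ^ 3 - 1) := by
    rw [PowerSeries.coeff_smul, smul_eq_mul, map_add, PowerSeries.coeff_smul, smul_eq_mul,
      PowerSeries.coeff_zero_eq_constantCoeff_apply, PowerSeries.coeff_zero_eq_constantCoeff_apply,
      map_pow, PowerSeries.constantCoeff_expand, ← PowerSeries.coeff_zero_eq_constantCoeff_apply,
      ← PowerSeries.coeff_zero_eq_constantCoeff_apply, hb0, hQ.2.1.1]
    ring
  rw [hc0] at hkey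
  obtain ⟨m, d, hd, hmd⟩ := hkey
  have hd0 := FA_S16_E3a_den_ne hd
  have hZ : (((1 + p ^ 3) * d : ℕ) : ℤ) = (ℓ : ℤ) ^ 2 * (- m * (p : ℤ) ^ 3) := by
    have hC : (((((1 + p ^ 3) * d : ℕ) : ℤ)) : ℂ) = (((ℓ : ℤ) ^ 2 * (- m * (p : ℤ) ^ 3) : ℤ) : ℂ) := by
      push_cast
      field_simp at hmd
      linear_combination - hmd
    exact_mod_cast hC
  apply hcon d hd
  have : ((ℓ ^ 2 : ℕ) : ℤ) ∣ (((1 + p ^ 3) * d : ℕ) : ℤ) := by
    rw [hZ]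
    push_cast
    exact dvd_mul_right _ _
  exact Int.natCast_dvd_natCast.mp this

/-- **E3a**: `p ≡ 1 mod 3`, there is no `H ≡ 1 mod 3`. -/
theorem FA_S16_E3a_of : FA_S16_Target_E3a_of := by
  intro hAn hAU hT2 p hp hp3
  refine FA_S16_E3a_core hAn hAU hT2 p 3 1 1 3 3 56 hp Nat.prime_three ?_
    (by norm_num) (by norm_num) (by norm_num) (by norm_num) ?_
  · rintro rfl
    omega
  · intro d hd hdvd
    have h3 : 3 ∣ (1 + p ^ 3) * d := Dvd.dvd.trans (by norm_num) hdvd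
    rcases (Nat.Prime.dvd_mul Nat.prime_three).mp h3 with h | h
    · have : p ^ 3 % 3 = 1 := by
        rw [Nat.pow_mod, hp3]
      omega
    · exact hd h

/-- **E2a**: `p ≡ 1 mod 4`, there is no `H ≡ 1 mod 4`. -/
theorem FA_S16_E2a_of : FA_S16_Target_E2a_of := by
  intro hAn hAU hT2 p hp hp4
  refine FA_S16_E3a_core hAn hAU hT2 p 2 2 3 12 16 126 hp Nat.prime_two ?_
    (by norm_num) (by norm_num) (by norm_num) (by norm_num) ?_
  · rintro rfl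
    omega
  · intro d hd hdvd
    have hd2 : d % 2 = 1 := by
      rcases Nat.mod_two_eq_zero_or_one d with h | h
      · exact absurd (Nat.dvd_of_mod_eq_zero h) hd
      · exact h
    have hp3 : p ^ 3 % 4 = 1 := by
      rw [Nat.pow_mod, hp4]
    have h4 : ((1 + p ^ 3) * d) % 4 = 0 := Nat.mod_eq_zero_of_dvd (by simpa using hdvd)
    rw [Nat.mul_mod] at h4
    have h5 : (1 + p ^ 3) % 4 = 2 := by omega
    rw [h5] at h4
    have h6 : d % 4 = 1 ∨ d % 4 = 3 := by omega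
    rcases h6 with h | h <;> rw [h] at h4 <;> omega

end FA_S16
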