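import Mathlib

/-!
# S16, case (U, ℓ ≥ 5): the algebraic core for weight `2 ℓ^α`

Over a perfect field of characteristic `ℓ`, an isobaric relation `∑ g_{ab} Q^a R^b = u` of weight
`2 ℓ^α` (`2a + 3b = ℓ^α`) between power series `Q, R` with constant term `1` and
`3 q₁ - 2 r₁ ≠ 0` forces `u = 0`.  (For `α = 1` this is `FA_S16_up_core` of helper9, whose
derivative trick we iterate: a polynomial in `c = Q³/R²` with vanishing derivative is an `ℓ`-th
power.)
-/

set_option autoImplicit false

namespace FA_S16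

open PowerSeries

/-- Power series over a field of characteristic `ℓ` have characteristic `ℓ`. -/
theorem FA_S16_w_charP (K : Type*) [Field K] (ℓ : ℕ) [CharP K ℓ] : CharP (K⟦X⟧) ℓ :=
  charP_of_injective_algebraMap (R := K) (A := K⟦X⟧)
    (by
      intro x y h
      exact PowerSeries.C_injective (by simpa [PowerSeries.algebraMap_apply] using h)) ℓ

/-- If `c' ≠ 0`, then `c` is transcendental over `K` (perfect of characteristic `ℓ`). -/
theorem FA_S16_w_aeval_inj {K : Type*} [Field K] (ℓ : ℕ) [Fact ℓ.Prime] [CharP K ℓ]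
    [PerfectRing K ℓ] (c : K⟦X⟧) (hc : d⁄dX K c ≠ 0) :
    ∀ (n : ℕ) (f : Polynomial K), f.natDegree ≤ n → Polynomial.aeval c f = 0 → f = 0 := by
  classical
  haveI : CharP (K⟦X⟧) ℓ := FA_S16_w_charP K ℓ
  have hℓ : ℓ.Prime := Fact.out
  intro n
  induction n with
  | zero =>
    intro f hf h0
    have hC := Polynomial.eq_C_of_natDegree_eq_zero (Nat.le_zero.mp hf)
    rw [hC, Polynomial.aeval_C] at h0
    have : f.coeff 0 = 0 := by
      have h1 := congrArg (PowerSeries.constantCoeff (R := K)) h0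
      simpa [PowerSeries.algebraMap_apply] using h1
    rw [hC, this, map_zero]
  | succ n ih =>
    intro f hf h0
    by_cases hfn : f.natDegree ≤ n
    · exact ih f hfn h0
    have hfd : f.natDegree = n + 1 := by omega
    -- the derivative vanishes at `c`, hence vanishes
    have hD : Polynomial.aeval c (Polynomial.derivative f) = 0 := by
      have h1 : d⁄dX K (Polynomial.aeval c f) = 0 := by rw [h0, map_zero]
      rw [Derivation.map_aeval, smul_eq_mul] at h1
      rcases mul_eq_zero.mp h1 with h2 | h2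
      · exact h2
      · exact absurd h2 hc
    have hD0 : Polynomial.derivative f = 0 := by
      apply ih _ _ hD
      have := Polynomial.natDegree_derivative_le f
      omega
    -- so `f` is an `ℓ`-th power
    have hf1 : f = (Polynomial.map ((frobeniusEquiv K ℓ).symm : K →+* K)
        (Polynomial.contract ℓ f)) ^ ℓ := by
      rw [← polynomial_expand_eq, Polynomial.expand_contract ℓ hD0 hℓ.ne_zero]
    set g := Polynomial.map ((frobeniusEquiv K ℓ).symm : K →+* K) (Polynomial.contract ℓ f)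
      with hgdef
    have hg0 : Polynomial.aeval c g = 0 := by
      have h1 : (Polynomial.aeval c g) ^ ℓ = 0 := by
        rw [← map_pow, ← hf1]; exact h0
      exact pow_eq_zero_iff hℓ.ne_zero |>.mp h1
    have hgdeg : g.natDegree ≤ n := by
      have h1 : f.natDegree = ℓ * g.natDegree := by
        conv_lhs => rw [hf1]
        rw [Polynomial.natDegree_pow]
      have h2 : 2 ≤ ℓ := hℓ.two_le
      have h3 : g.natDegree ≠ 0 := by
        intro h4; rw [h4, mul_zero] at h1; omega
      have h4 : 2 * g.natDegree ≤ ℓ * g.natDegree := Nat.mul_le_mul_right _ h2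
      omega
    have hg := ih g hgdeg hg0
    rw [hf1, hg, zero_pow hℓ.ne_zero]

/-- If `aeval c h = C u * s ^ (ℓ ^ α)` in characteristic `ℓ`, `c' ≠ 0`, `s ≠ 0`, `deg h < ℓ ^ α`
and `h(0) = 0`, then `u = 0`. -/
theorem FA_S16_w_core_poly {K : Type*} [Field K] (ℓ : ℕ) [Fact ℓ.Prime] [CharP K ℓ]
    [PerfectRing K ℓ] (c s : K⟦X⟧) (hc : d⁄dX K c ≠ 0) (hs : s ≠ 0) :
    ∀ (α : ℕ) (h : Polynomial K), h.natDegree < ℓ ^ α → h.coeff 0 = 0 → ∀ u : K,
      Polynomial.aeval c h = PowerSeries.C u * s ^ (ℓ ^ α) → u = 0 := by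
  classical
  haveI : CharP (K⟦X⟧) ℓ := FA_S16_w_charP K ℓ
  have hℓ : ℓ.Prime := Fact.out
  intro α
  induction α with
  | zero =>
    intro h hdeg h0 u heq
    have hC := Polynomial.eq_C_of_natDegree_eq_zero (by simpa using hdeg : h.natDegree = 0)
    rw [hC, h0, map_zero, map_zero, pow_zero, pow_one] at heq
    rcases mul_eq_zero.mp heq.symm with h1 | h1
    · simpa using h1
    · exact absurd h1 hs
  | succ α ih =>
    intro h hdeg h0 u heq
    have hp : (ℓ : K⟦X⟧) = 0 := by
      rw [← map_natCast (PowerSeries.C (R := K)), CharP.cast_eq_zero, map_zero]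
    have hD : Polynomial.aeval c (Polynomial.derivative h) = 0 := by
      have h1 : d⁄dX K (Polynomial.aeval c h) = 0 := by
        rw [heq, pow_succ, pow_mul, Derivation.leibniz, PowerSeries.derivative_C, smul_zero,
          add_zero, Derivation.leibniz_pow, smul_eq_mul, smul_eq_mul]
        have : ((ℓ : ℕ) • ((s ^ ℓ ^ α) ^ (ℓ - 1) * d⁄dX K (s ^ ℓ ^ α)) : K⟦X⟧) = 0 := by
          rw [nsmul_eq_mul, hp, zero_mul]
        rw [this, mul_zero]
      rw [Derivation.map_aeval, smul_eq_mul] at h1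
      rcases mul_eq_zero.mp h1 with h2 | h2
      · exact h2
      · exact absurd h2 hc
    have hD0 : Polynomial.derivative h = 0 :=
      FA_S16_w_aeval_inj ℓ c hc _ _ le_rfl hD
    have hf1 : h = (Polynomial.map ((frobeniusEquiv K ℓ).symm : K →+* K)
        (Polynomial.contract ℓ h)) ^ ℓ := by
      rw [← polynomial_expand_eq, Polynomial.expand_contract ℓ hD0 hℓ.ne_zero]
    set g := Polynomial.map ((frobeniusEquiv K ℓ).symm : K →+* K) (Polynomial.contract ℓ h)
      with hgdef
    set u' : K := (frobeniusEquiv K ℓ).symm u with hu'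
    have hu : u' ^ ℓ = u := by
      rw [hu']; exact frobeniusEquiv_symm_pow_p K ℓ u
    have hg1 : (Polynomial.aeval c g) ^ ℓ = (PowerSeries.C u' * s ^ (ℓ ^ α)) ^ ℓ := by
      rw [← map_pow, ← hf1, heq, mul_pow, ← map_pow, hu, ← pow_mul, ← pow_succ]
    have hg2 : Polynomial.aeval c g = PowerSeries.C u' * s ^ (ℓ ^ α) :=
      frobenius_inj (K⟦X⟧) ℓ hg1
    have hgdeg : g.natDegree < ℓ ^ α := by
      have h1 : h.natDegree = ℓ * g.natDegree := by
        conv_lhs => rw [hf1]
        rw [Polynomial.natDegree_pow]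
      rw [h1, pow_succ, mul_comm] at hdeg
      exact Nat.lt_of_mul_lt_mul_right hdeg
    have hg0 : g.coeff 0 = 0 := by
      have h1 : (g.coeff 0) ^ ℓ = 0 := by
        have h2 : (g ^ ℓ).coeff 0 = (g.coeff 0) ^ ℓ := by
          rw [Polynomial.coeff_zero_eq_eval_zero, Polynomial.eval_pow,
            ← Polynomial.coeff_zero_eq_eval_zero]
        rw [← h2, ← hf1, h0]
      exact pow_eq_zero_iff hℓ.ne_zero |>.mp h1
    have := ih g hgdeg hg0 u' hg2
    rw [← hu, this, zero_pow hℓ.ne_zero]

/-- **Algebraic core of (U, ℓ ≥ 5)**: an isobaric relation of weight `2 ℓ^α` between `Q` and `R`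
(constant terms `1`, `3 q₁ - 2 r₁ ≠ 0`) with constant value `u` forces `u = 0`. -/
theorem FA_S16_w_core {K : Type*} [Field K] (ℓ : ℕ) [Fact ℓ.Prime] [CharP K ℓ]
    [PerfectRing K ℓ] (α : ℕ)
    (Q R : K⟦X⟧) (hQ : constantCoeff Q = 1) (hR : constantCoeff R = 1)
    (hQR : 3 * coeff 1 Q - 2 * coeff 1 R ≠ 0)
    (g : ℕ × ℕ →₀ K) (hg : ∀ ab ∈ g.support, 2 * ab.1 + 3 * ab.2 = ℓ ^ α)
    (u : K) (heq : (g.sum fun ab x => PowerSeries.C x * Q ^ ab.1 * R ^ ab.2) = PowerSeries.C u) :
    u = 0 := by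
  classical
  have hℓ : ℓ.Prime := Fact.out
  have hL0 : 0 < ℓ ^ α := pow_pos hℓ.pos α
  have hRne : constantCoeff R ≠ 0 := by rw [hR]; exact one_ne_zero
  have hRi : R * R⁻¹ = 1 := PowerSeries.mul_inv_cancel R hRne
  have hRic : constantCoeff R⁻¹ = 1 := by
    have := congrArg (constantCoeff (R := K)) hRi
    simpa [hR] using this
  set Ri := R⁻¹ with hRidef
  set c : K⟦X⟧ := Q ^ 3 * Ri ^ 2 with hcdef
  set s : K⟦X⟧ := Q * Ri with hsdef
  set h : Polynomial K := g.sum fun ab x => Polynomial.C x * Polynomial.X ^ (ab.1 + ab.2)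
    with hhdef
  -- key identity
  have hkey : ∀ a b : ℕ, 2 * a + 3 * b = ℓ ^ α →
      Q ^ a * R ^ b * s ^ (ℓ ^ α) = c ^ (a + b) := by
    intro a b hab
    rw [← hab, hsdef, hcdef]
    calc Q ^ a * R ^ b * (Q * Ri) ^ (2 * a + 3 * b)
        = Q ^ (3 * (a + b)) * (R * Ri) ^ b * Ri ^ (2 * (a + b)) := by ring
      _ = (Q ^ 3 * Ri ^ 2) ^ (a + b) := by rw [hRi]; ring
  have haeval : Polynomial.aeval c h = PowerSeries.C u * s ^ (ℓ ^ α) := by
    rw [← heq, hhdef, Finsupp.sum, Finsupp.sum, map_sum, Finset.sum_mul]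
    refine Finset.sum_congr rfl fun ab hab => ?_
    rw [map_mul, Polynomial.aeval_C, map_pow, Polynomial.aeval_X, ← hkey ab.1 ab.2 (hg ab hab)]
    change PowerSeries.C (g ab) * _ = _
    ring
  have hsne : s ≠ 0 := by
    intro h0
    have := congrArg (constantCoeff (R := K)) h0
    rw [hsdef, map_mul, hQ, hRic] at this
    simp at this
  have hcne : d⁄dX K c ≠ 0 := by
    intro h0
    have h1 := congrArg (constantCoeff (R := K)) h0
    have hDRi : d⁄dX K Ri = -Ri ^ 2 * d⁄dX K R := PowerSeries.derivative_inv' R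
    rw [hcdef, Derivation.leibniz, Derivation.leibniz_pow, Derivation.leibniz_pow, hDRi] at h1
    simp only [smul_eq_mul, map_add, map_mul, map_pow, map_neg, hQ, hRic, map_zero,
      nsmul_eq_mul, map_natCast, one_pow, mul_one, one_mul] at h1
    have e1 : constantCoeff (d⁄dX K Q) = coeff 1 Q := by
      rw [← PowerSeries.coeff_zero_eq_constantCoeff_apply, PowerSeries.coeff_derivative]
      simp
    have e2 : constantCoeff (d⁄dX K R) = coeff 1 R := by
      rw [← PowerSeries.coeff_zero_eq_constantCoeff_apply, PowerSeries.coeff_derivative]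
      simp
    rw [e1, e2] at h1
    apply hQR
    have h2 : -(2 * (coeff 1) R) + 3 * (coeff 1) Q = 0 := by simpa using h1
    linear_combination h2
  have hdeg : h.natDegree < ℓ ^ α := by
    rw [hhdef, Finsupp.sum]
    refine lt_of_le_of_lt
      (Polynomial.natDegree_sum_le_of_forall_le _ _ (n := ℓ ^ α - 1) ?_) (by omega)
    intro ab hab
    have := hg ab hab
    refine le_trans (Polynomial.natDegree_C_mul_X_pow_le _ _) ?_
    omega
  have h0 : h.coeff 0 = 0 := by
    rw [hhdef, Finsupp.sum, Polynomial.finsetSum_coeff]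
    refine Finset.sum_eq_zero fun ab hab => ?_
    have := hg ab hab
    rw [Polynomial.coeff_C_mul, Polynomial.coeff_X_pow, if_neg (by omega), mul_zero]
  exact FA_S16_w_core_poly ℓ c s hcne hsne α h hdeg h0 u haeval

end FA_S16
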