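import Mathlib
import Fermat.Agent.S16.WCore

/-!
# S16, cases E5 (`ℓ ≥ 5`, `ℓ ≠ p`) and Ep (`ℓ = p ≥ 5`): the algebra over the residue field

`K` is a perfect field of characteristic `ℓ ≥ 5`, `Q, R ∈ K⟦X⟧` the reductions of `E₄, E₆`.
The reduction of the characteristic polynomial of `H` is `(T - 1)(T - β)^p`, `β = -1/p`
(resp. `T (T + 1)^p` if `ℓ = p`, for `p H`), and each coefficient (of `T^(p+1-i)`) is an isobaric
polynomial of weight `2i` in `Q, R`.  This is contradictory.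
-/

set_option autoImplicit false

namespace FA_S16

open PowerSeries

/-- `2 * C(n+2, 2) = (n+2)(n+1)`. -/
theorem FA_S16_e5_choose_two (n : ℕ) : 2 * (n + 2).choose 2 = (n + 2) * (n + 1) := by
  have h := Nat.add_one_mul_choose_eq (n + 1) 1
  simp only [Nat.choose_one_right] at h
  have e : n + 1 + 1 = n + 2 := rfl
  have e' : (1 : ℕ) + 1 = 2 := rfl
  rw [e, e'] at h
  rw [mul_comm, ← h]

/-- `6 * C(n+3, 3) = (n+3)(n+2)(n+1)`. -/
theorem FA_S16_e5_choose_three (n : ℕ) :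
    6 * (n + 3).choose 3 = (n + 3) * (n + 2) * (n + 1) := by
  have h := Nat.add_one_mul_choose_eq (n + 2) 2
  have h2 := FA_S16_e5_choose_two n
  have e : n + 2 + 1 = n + 3 := rfl
  rw [e] at h
  have e2 : (2 : ℕ) + 1 = 3 := rfl
  rw [e2] at h
  -- h : (n + 3) * (n+2).choose 2 = (n+3).choose 3 * 3
  have : 6 * (n + 3).choose 3 = (n + 3) * (2 * (n + 2).choose 2) := by
    calc 6 * (n + 3).choose 3 = 2 * ((n + 3).choose 3 * 3) := by ring
      _ = 2 * ((n + 3) * (n + 2).choose 2) := by rw [h]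
      _ = (n + 3) * (2 * (n + 2).choose 2) := by ring
  rw [this, h2]; ring

/-- The coefficient of `T^(p-1)` in `(T - 1)(T - β)^p`, `p β = -1`. -/
theorem FA_S16_e5_gamma2 {K : Type*} [Field K] (p : ℕ) (hp : 2 ≤ p) (β : K)
    (hβ : (p : K) * β = -1) :
    2 * (p : K) * ((Polynomial.X - Polynomial.C (1 : K)) *
      (Polynomial.X - Polynomial.C β) ^ p).coeff (p - 1) = -((p : K) + 1) := by
  obtain ⟨n, rfl⟩ : ∃ n, p = n + 2 := ⟨p - 2, by omega⟩
  have e1 : n + 2 - 1 = n + 1 := by omega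
  rw [e1, Polynomial.coeff_X_sub_C_mul, one_mul]
  have e2 : (Polynomial.X - Polynomial.C β : Polynomial K) =
      Polynomial.X + Polynomial.C (-β) := by
    rw [map_neg, sub_eq_add_neg]
  rw [e2, Polynomial.coeff_X_add_C_pow, Polynomial.coeff_X_add_C_pow]
  have e3 : n + 2 - n = 2 := by omega
  have e4 : n + 2 - (n + 1) = 1 := by omega
  rw [e3, e4]
  have c1 : (n + 2).choose n = (n + 2).choose 2 := by
    rw [← Nat.choose_symm (by omega : 2 ≤ n + 2)]; simp
  have c2 : (n + 2).choose (n + 1) = n + 2 := Nat.choose_succ_self_right (n + 1)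
  rw [c1, c2]
  have h2 : (2 : K) * ((n + 2).choose 2 : K) = ((n + 2 : ℕ) : K) * (((n + 2 : ℕ) : K) - 1) := by
    have := congrArg (Nat.cast (R := K)) (FA_S16_e5_choose_two n)
    push_cast at this ⊢
    rw [this]; ring
  set P : K := ((n + 2 : ℕ) : K) with hP
  set c : K := ((n + 2).choose 2 : K) with hc
  linear_combination (P * β ^ 2) * h2 + ((P - 1) * (P * β - 1) + 2 * P) * hβ

/-- The coefficient of `T^(p-2)` in `(T - 1)(T - β)^p`, `p β = -1`. -/
theorem FA_S16_e5_gamma3 {K : Type*} [Field K] (p : ℕ) (hp : 3 ≤ p) (β : K)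
    (hβ : (p : K) * β = -1) :
    6 * (p : K) ^ 2 * ((Polynomial.X - Polynomial.C (1 : K)) *
      (Polynomial.X - Polynomial.C β) ^ p).coeff (p - 2) =
        -(2 * ((p : K) - 1) * ((p : K) + 1)) := by
  obtain ⟨n, rfl⟩ : ∃ n, p = n + 3 := ⟨p - 3, by omega⟩
  have e1 : n + 3 - 2 = n + 1 := by omega
  rw [e1, Polynomial.coeff_X_sub_C_mul, one_mul]
  have e2 : (Polynomial.X - Polynomial.C β : Polynomial K) =
      Polynomial.X + Polynomial.C (-β) := by
    rw [map_neg, sub_eq_add_neg]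
  rw [e2, Polynomial.coeff_X_add_C_pow, Polynomial.coeff_X_add_C_pow]
  have e3 : n + 3 - n = 3 := by omega
  have e4 : n + 3 - (n + 1) = 2 := by omega
  rw [e3, e4]
  have c1 : (n + 3).choose n = (n + 3).choose 3 := by
    rw [← Nat.choose_symm (by omega : 3 ≤ n + 3)]; simp
  have c2 : (n + 3).choose (n + 1) = (n + 3).choose 2 := by
    rw [← Nat.choose_symm (by omega : 2 ≤ n + 3)]; simp
  rw [c1, c2]
  have h2 : (2 : K) * ((n + 3).choose 2 : K) = ((n + 3 : ℕ) : K) * (((n + 3 : ℕ) : K) - 1) := by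
    have := congrArg (Nat.cast (R := K)) (FA_S16_e5_choose_two (n + 1))
    push_cast at this ⊢
    rw [this]; ring
  have h3 : (6 : K) * ((n + 3).choose 3 : K) =
      ((n + 3 : ℕ) : K) * (((n + 3 : ℕ) : K) - 1) * (((n + 3 : ℕ) : K) - 2) := by
    have := congrArg (Nat.cast (R := K)) (FA_S16_e5_choose_three n)
    push_cast at this ⊢
    rw [this]; ring
  set P : K := ((n + 3 : ℕ) : K) with hP
  set c : K := ((n + 3).choose 2 : K) with hc
  set d : K := ((n + 3).choose 3 : K) with hd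
  have hβ2 : (P * β) ^ 2 = 1 := by rw [hβ]; ring
  have hβ3 : (P * β) ^ 3 = -1 := by rw [hβ]; ring
  linear_combination (-(P ^ 2 * β ^ 3)) * h3 + (-(3 * P ^ 2 * β ^ 2)) * h2 +
    (-(P - 1) * (P - 2)) * hβ3 + (-(3 * P * (P - 1))) * hβ2

/-- A relation of weight `4`: `g Q = γ` forces `γ · 240 = 0`. -/
theorem FA_S16_e5_rel2 {K : Type*} [Field K] (Q R : K⟦X⟧) (hQ0 : constantCoeff Q = 1)
    (hQ1 : coeff 1 Q = 240) (γ : K) (g : ℕ × ℕ →₀ K)
    (hg : ∀ ab ∈ g.support, 4 * ab.1 + 6 * ab.2 = 2 * 2)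
    (heq : (g.sum fun ab x => PowerSeries.C x * Q ^ ab.1 * R ^ ab.2) = PowerSeries.C γ) :
    γ * 240 = 0 := by
  classical
  have hsub : g.support ⊆ {((1 : ℕ), (0 : ℕ))} := by
    intro ab hab
    have := hg ab hab
    rw [Finset.mem_singleton]
    ext
    · simp only; omega
    · simp only; omega
  rw [Finsupp.sum_of_support_subset g hsub _ (by intro i _; simp)] at heq
  simp only [Finset.sum_singleton, pow_one, pow_zero, mul_one] at heq
  have h0 := congrArg (PowerSeries.coeff 0) heq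
  have h1 := congrArg (PowerSeries.coeff 1) heq
  rw [PowerSeries.coeff_C_mul, PowerSeries.coeff_zero_eq_constantCoeff_apply, hQ0, mul_one,
    PowerSeries.coeff_zero_eq_constantCoeff_apply, PowerSeries.constantCoeff_C] at h0
  rw [PowerSeries.coeff_C_mul, hQ1, PowerSeries.coeff_C, if_neg one_ne_zero] at h1
  rw [← h0]; exact h1

/-- A relation of weight `6`: `g R = γ` forces `γ · 504 = 0`. -/
theorem FA_S16_e5_rel3 {K : Type*} [Field K] (Q R : K⟦X⟧) (hR0 : constantCoeff R = 1)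
    (hR1 : coeff 1 R = -504) (γ : K) (g : ℕ × ℕ →₀ K)
    (hg : ∀ ab ∈ g.support, 4 * ab.1 + 6 * ab.2 = 2 * 3)
    (heq : (g.sum fun ab x => PowerSeries.C x * Q ^ ab.1 * R ^ ab.2) = PowerSeries.C γ) :
    γ * 504 = 0 := by
  classical
  have hsub : g.support ⊆ {((0 : ℕ), (1 : ℕ))} := by
    intro ab hab
    have := hg ab hab
    rw [Finset.mem_singleton]
    ext
    · simp only; omega
    · simp only; omega
  rw [Finsupp.sum_of_support_subset g hsub _ (by intro i _; simp)] at heq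
  simp only [Finset.sum_singleton, pow_one, pow_zero, mul_one] at heq
  have h0 := congrArg (PowerSeries.coeff 0) heq
  have h1 := congrArg (PowerSeries.coeff 1) heq
  rw [PowerSeries.coeff_C_mul, PowerSeries.coeff_zero_eq_constantCoeff_apply, hR0, mul_one,
    PowerSeries.coeff_zero_eq_constantCoeff_apply, PowerSeries.constantCoeff_C] at h0
  rw [PowerSeries.coeff_C_mul, hR1, PowerSeries.coeff_C, if_neg one_ne_zero] at h1
  rw [← h0]
  linear_combination (-1 : K) * h1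

/-- `(T - 1)^(L m)` in characteristic `ℓ`, `L = ℓ^α`: the coefficient of `T^(L (m-1))` is `-m`. -/
theorem FA_S16_e5_coeffL_minus {K : Type*} [Field K] (ℓ : ℕ) [Fact ℓ.Prime] [CharP K ℓ]
    (α m : ℕ) (hm : 1 ≤ m) :
    ((Polynomial.X - Polynomial.C (1 : K)) ^ (ℓ ^ α * m)).coeff (ℓ ^ α * (m - 1)) = -(m : K) := by
  have hℓ : ℓ.Prime := Fact.out
  have hL : 0 < ℓ ^ α := pow_pos hℓ.pos α
  have h1 : (Polynomial.X - Polynomial.C (1 : K)) ^ (ℓ ^ α * m) =
      Polynomial.expand K (ℓ ^ α) ((Polynomial.X - Polynomial.C (1 : K)) ^ m) := by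
    rw [pow_mul, sub_pow_char_pow, map_pow, map_sub, Polynomial.expand_X, Polynomial.expand_C,
      ← map_pow, one_pow]
  rw [h1, mul_comm, Polynomial.coeff_expand_mul hL]
  have e2 : (Polynomial.X - Polynomial.C (1 : K) : Polynomial K) =
      Polynomial.X + Polynomial.C (-1) := by
    rw [map_neg, sub_eq_add_neg]
  rw [e2, Polynomial.coeff_X_add_C_pow]
  obtain ⟨n, rfl⟩ : ∃ n, m = n + 1 := ⟨m - 1, by omega⟩
  have e3 : n + 1 - (n + 1 - 1) = 1 := by omega
  have e4 : n + 1 - 1 = n := by omega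
  rw [e3, e4, Nat.choose_succ_self_right]
  push_cast; ring

/-- `(T - 1)(T + 1)^(L m + 1)` in characteristic `ℓ`, `L = ℓ^α ≥ 3`: the coefficient of
`T^(L (m-1) + 2)` is `m`. -/
theorem FA_S16_e5_coeffL_plus {K : Type*} [Field K] (ℓ : ℕ) [Fact ℓ.Prime] [CharP K ℓ]
    (α m : ℕ) (hm : 1 ≤ m) (hL3 : 3 ≤ ℓ ^ α) :
    ((Polynomial.X - Polynomial.C (1 : K)) *
      (Polynomial.X + Polynomial.C (1 : K)) ^ (ℓ ^ α * m + 1)).coeff (ℓ ^ α * (m - 1) + 2) =
        (m : K) := by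
  have hℓ : ℓ.Prime := Fact.out
  have hL : 0 < ℓ ^ α := pow_pos hℓ.pos α
  have h1 : (Polynomial.X + Polynomial.C (1 : K)) ^ (ℓ ^ α * m) =
      Polynomial.expand K (ℓ ^ α) ((Polynomial.X + Polynomial.C (1 : K)) ^ m) := by
    rw [pow_mul, add_pow_char_pow, map_pow, map_add, Polynomial.expand_X, Polynomial.expand_C,
      ← map_pow, one_pow]
  have h2 : (Polynomial.X - Polynomial.C (1 : K)) *
      (Polynomial.X + Polynomial.C (1 : K)) ^ (ℓ ^ α * m + 1) =
      Polynomial.X ^ 2 * Polynomial.expand K (ℓ ^ α) ((Polynomial.X + Polynomial.C (1 : K)) ^ m)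
        - Polynomial.expand K (ℓ ^ α) ((Polynomial.X + Polynomial.C (1 : K)) ^ m) := by
    rw [pow_succ, h1]
    simp only [map_one]
    ring
  rw [h2, Polynomial.coeff_sub, Polynomial.coeff_X_pow_mul, mul_comm (ℓ ^ α) (m - 1),
    Polynomial.coeff_expand_mul hL, Polynomial.coeff_expand hL, if_neg, sub_zero,
    Polynomial.coeff_X_add_C_pow]
  · obtain ⟨n, rfl⟩ : ∃ n, m = n + 1 := ⟨m - 1, by omega⟩
    have e3 : n + 1 - (n + 1 - 1) = 1 := by omega
    have e4 : n + 1 - 1 = n := by omega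
    rw [e3, e4, Nat.choose_succ_self_right]
    push_cast; ring
  · intro hdvd
    have h3 : ℓ ^ α ∣ 2 := by
      have := (Nat.dvd_add_right (Dvd.intro_left (m - 1) rfl)).mp hdvd
      exact this
    have := Nat.le_of_dvd (by norm_num) h3
    omega

/-- **E5, algebraic part.** -/
theorem FA_S16_e5_alg {K : Type*} [Field K] (ℓ : ℕ) [Fact ℓ.Prime] [CharP K ℓ]
    [PerfectRing K ℓ] (h5 : 5 ≤ ℓ) (p : ℕ) (h3p : 3 ≤ p)
    (Q R : K⟦X⟧) (hQ0 : constantCoeff Q = 1) (hR0 : constantCoeff R = 1)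
    (hQ1 : coeff 1 Q = 240) (hR1 : coeff 1 R = -504)
    (β : K) (hβ : (p : K) * β = -1)
    (hrel : ∀ i : ℕ, i ≤ p + 1 → ∃ g : ℕ × ℕ →₀ K,
      (∀ ab ∈ g.support, 4 * ab.1 + 6 * ab.2 = 2 * i) ∧
      (g.sum fun ab x => PowerSeries.C x * Q ^ ab.1 * R ^ ab.2) =
        PowerSeries.C (((Polynomial.X - Polynomial.C (1 : K)) *
          (Polynomial.X - Polynomial.C β) ^ p).coeff (p + 1 - i))) :
    False := by
  classical
  have hℓ : ℓ.Prime := Fact.out
  have hcast : ∀ n : ℕ, (n : K) = 0 ↔ ℓ ∣ n := fun n => CharP.cast_eq_zero_iff K ℓ n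
  have h1728 : (3 : K) * coeff 1 Q - 2 * coeff 1 R ≠ 0 := by
    rw [hQ1, hR1]
    have e : (3 : K) * 240 - 2 * (-504) = ((1728 : ℕ) : K) := by push_cast; norm_num
    rw [e, Ne, hcast]
    intro hdvd
    have e2 : (1728 : ℕ) = 2 ^ 6 * 3 ^ 3 := by norm_num
    rw [e2] at hdvd
    rcases (Nat.Prime.dvd_mul hℓ).mp hdvd with h | h
    · have := Nat.le_of_dvd (by norm_num) (hℓ.dvd_of_dvd_pow h); omega
    · have := Nat.le_of_dvd (by norm_num) (hℓ.dvd_of_dvd_pow h); omega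
  -- the `L`-argument
  have hLarg : ∀ (α : ℕ) (γ : K), ℓ ^ α ≤ p + 1 → γ ≠ 0 →
      ((Polynomial.X - Polynomial.C (1 : K)) *
          (Polynomial.X - Polynomial.C β) ^ p).coeff (p + 1 - ℓ ^ α) = γ → False := by
    intro α γ hle hγ hco
    obtain ⟨g, hg, hsum⟩ := hrel (ℓ ^ α) hle
    rw [hco] at hsum
    exact hγ (FA_S16_w_core ℓ α Q R hQ0 hR0 h1728 g
      (fun ab hab => by have := hg ab hab; omega) γ hsum)
  by_cases hd1 : ℓ ∣ p - 1
  · -- `p ≡ 1 mod ℓ`
    obtain ⟨α, m, hm, hpm⟩ := Nat.exists_eq_pow_mul_and_not_dvd (n := p - 1) (by omega) ℓ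
      hℓ.ne_one
    have hα : α ≠ 0 := by
      rintro rfl
      rw [pow_zero, one_mul] at hpm
      exact hm (hpm ▸ hd1)
    have hm1 : 1 ≤ m := by
      rcases Nat.eq_zero_or_pos m with h | h
      · rw [h, mul_zero] at hpm; omega
      · exact h
    have hLℓ : ℓ ≤ ℓ ^ α := Nat.le_self_pow hα ℓ
    have hp1 : p = ℓ ^ α * m + 1 := by omega
    have hP : (p : K) = 1 := by
      rw [hp1]; push_cast
      have : (ℓ : K) = 0 := (hcast ℓ).mpr dvd_rfl
      rw [this, zero_pow hα, zero_mul, zero_add]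
    have hβ1 : β = -1 := by rw [hP, one_mul] at hβ; exact hβ
    have hmK : (m : K) ≠ 0 := by rw [Ne, hcast]; exact hm
    refine hLarg α (m : K) ?_ hmK ?_
    · have : ℓ ^ α ≤ ℓ ^ α * m := Nat.le_mul_of_pos_right _ hm1
      omega
    · have e1 : p + 1 - ℓ ^ α = ℓ ^ α * (m - 1) + 2 := by
        obtain ⟨n, rfl⟩ : ∃ n, m = n + 1 := ⟨m - 1, by omega⟩
        rw [hp1, Nat.add_sub_cancel, mul_add, mul_one]; omega
      rw [e1, hβ1, map_neg, sub_neg_eq_add]
      conv_lhs => rw [hp1]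
      exact FA_S16_e5_coeffL_plus ℓ α m hm1 (by omega)
  by_cases hd2 : ℓ ∣ p + 1
  · -- `p ≡ -1 mod ℓ`
    obtain ⟨α, m, hm, hpm⟩ := Nat.exists_eq_pow_mul_and_not_dvd (n := p + 1) (by omega) ℓ
      hℓ.ne_one
    have hα : α ≠ 0 := by
      rintro rfl
      rw [pow_zero, one_mul] at hpm
      exact hm (hpm ▸ hd2)
    have hm1 : 1 ≤ m := by
      rcases Nat.eq_zero_or_pos m with h | h
      · rw [h, mul_zero] at hpm; omega
      · exact h
    have hP : (p : K) = -1 := by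
      have h1 : ((p + 1 : ℕ) : K) = 0 := (hcast _).mpr hd2
      push_cast at h1
      linear_combination h1
    have hβ1 : β = 1 := by rw [hP] at hβ; linear_combination (-1 : K) * hβ
    have hmK : (m : K) ≠ 0 := by rw [Ne, hcast]; exact hm
    refine hLarg α (-(m : K)) ?_ (neg_ne_zero.mpr hmK) ?_
    · have : ℓ ^ α ≤ ℓ ^ α * m := Nat.le_mul_of_pos_right _ hm1
      omega
    · have e1 : p + 1 - ℓ ^ α = ℓ ^ α * (m - 1) := by
        obtain ⟨n, rfl⟩ : ∃ n, m = n + 1 := ⟨m - 1, by omega⟩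
        rw [hpm, Nat.add_sub_cancel, mul_add, mul_one, Nat.add_sub_cancel]
      rw [e1, hβ1, ← pow_succ', hpm]
      exact FA_S16_e5_coeffL_minus ℓ α m hm1
  -- `p² ≢ 1 mod ℓ`
  have hPm : (p : K) - 1 ≠ 0 := by
    intro h
    apply hd1
    rw [← hcast]
    have : ((p - 1 : ℕ) : K) = (p : K) - 1 := by
      rw [Nat.cast_sub (by omega)]; simp
    rw [this]; exact h
  have hPp : (p : K) + 1 ≠ 0 := by
    intro h
    apply hd2
    rw [← hcast]; push_cast; exact h
  have h2K : (2 : K) ≠ 0 := by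
    have := (hcast 2).not.mpr (fun h => by have := Nat.le_of_dvd (by norm_num) h; omega)
    simpa using this
  obtain ⟨g2, hg2, hs2⟩ := hrel 2 (by omega)
  obtain ⟨g3, hg3, hs3⟩ := hrel 3 (by omega)
  have e2 : p + 1 - 2 = p - 1 := by omega
  have e3 : p + 1 - 3 = p - 2 := by omega
  rw [e2] at hs2
  rw [e3] at hs3
  have r2 := FA_S16_e5_rel2 Q R hQ0 hQ1 _ g2 hg2 hs2
  have r3 := FA_S16_e5_rel3 Q R hR0 hR1 _ g3 hg3 hs3
  have c2 := FA_S16_e5_gamma2 p (by omega) β hβ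
  have c3 := FA_S16_e5_gamma3 p h3p β hβ
  have hγ2 : ((Polynomial.X - Polynomial.C (1 : K)) *
      (Polynomial.X - Polynomial.C β) ^ p).coeff (p - 1) ≠ 0 := by
    intro h
    rw [h, mul_zero] at c2
    exact hPp (by linear_combination c2)
  have hγ3 : ((Polynomial.X - Polynomial.C (1 : K)) *
      (Polynomial.X - Polynomial.C β) ^ p).coeff (p - 2) ≠ 0 := by
    intro h
    rw [h, mul_zero] at c3
    have : (2 : K) * (((p : K) - 1) * ((p : K) + 1)) = 0 := by linear_combination c3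
    rcases mul_eq_zero.mp this with h' | h'
    · exact h2K h'
    · rcases mul_eq_zero.mp h' with h'' | h''
      · exact hPm h''
      · exact hPp h''
  have h240 : (240 : K) = 0 := (mul_eq_zero.mp r2).resolve_left hγ2
  have h504 : (504 : K) = 0 := (mul_eq_zero.mp r3).resolve_left hγ3
  have h24 : ((24 : ℕ) : K) = 0 := by
    push_cast
    linear_combination h504 - 2 * h240
  have hdvd := (hcast 24).mp h24
  have e24 : (24 : ℕ) = 2 ^ 3 * 3 := by norm_num
  rw [e24] at hdvd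
  rcases (Nat.Prime.dvd_mul hℓ).mp hdvd with h | h
  · have := Nat.le_of_dvd (by norm_num) (hℓ.dvd_of_dvd_pow h); omega
  · have := Nat.le_of_dvd (by norm_num) h; omega

/-- **Ep, algebraic part.** -/
theorem FA_S16_ep_alg {K : Type*} [Field K] (p : ℕ) [Fact p.Prime] [CharP K p]
    [PerfectRing K p] (h5 : 5 ≤ p)
    (Q R : K⟦X⟧) (hQ0 : constantCoeff Q = 1) (hR0 : constantCoeff R = 1)
    (hQ1 : coeff 1 Q = 240) (hR1 : coeff 1 R = -504)
    (hrel : ∃ g : ℕ × ℕ →₀ K,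
      (∀ ab ∈ g.support, 4 * ab.1 + 6 * ab.2 = 2 * p) ∧
      (g.sum fun ab x => PowerSeries.C x * Q ^ ab.1 * R ^ ab.2) =
        PowerSeries.C (((Polynomial.X - Polynomial.C (0 : K)) *
          (Polynomial.X - Polynomial.C (-1 : K)) ^ p).coeff (p + 1 - p))) :
    False := by
  classical
  have hℓ : p.Prime := Fact.out
  have hcast : ∀ n : ℕ, (n : K) = 0 ↔ p ∣ n := fun n => CharP.cast_eq_zero_iff K p n
  have h1728 : (3 : K) * coeff 1 Q - 2 * coeff 1 R ≠ 0 := by
    rw [hQ1, hR1]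
    have e : (3 : K) * 240 - 2 * (-504) = ((1728 : ℕ) : K) := by push_cast; norm_num
    rw [e, Ne, hcast]
    intro hdvd
    have e2 : (1728 : ℕ) = 2 ^ 6 * 3 ^ 3 := by norm_num
    rw [e2] at hdvd
    rcases (Nat.Prime.dvd_mul hℓ).mp hdvd with h | h
    · have := Nat.le_of_dvd (by norm_num) (hℓ.dvd_of_dvd_pow h); omega
    · have := Nat.le_of_dvd (by norm_num) (hℓ.dvd_of_dvd_pow h); omega
  obtain ⟨g, hg, hsum⟩ := hrel
  have hco : ((Polynomial.X - Polynomial.C (0 : K)) *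
      (Polynomial.X - Polynomial.C (-1 : K)) ^ p).coeff (p + 1 - p) = 1 := by
    have e1 : p + 1 - p = 1 := by omega
    have e2 : (Polynomial.X - Polynomial.C (-1 : K)) ^ p =
        Polynomial.X ^ p + 1 := by
      rw [map_neg, sub_neg_eq_add, map_one, add_pow_char, one_pow]
    rw [e1, e2, map_zero, sub_zero, mul_add, mul_one, Polynomial.coeff_add,
      Polynomial.coeff_X_one, ← pow_succ', Polynomial.coeff_X_pow, if_neg (by omega), zero_add]
  rw [hco] at hsum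
  have := FA_S16_w_core p 1 Q R hQ0 hR0 h1728 g
    (fun ab hab => by have := hg ab hab; rw [pow_one]; omega) 1 hsum
  exact one_ne_zero this

end FA_S16
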