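import Mathlib
import Fermat.Agent.S16.UInterfaceInt

/-!
# S16 (U): reduction of the characteristic polynomial of a pair modulo a prime

`A ⊆ ℂ` a subring, `φ : A →+* K` a ring homomorphism to a field.  Power series over `ℂ` with
coefficients in `A` are lifted to `A⟦X⟧` (`FA_S16_lf_lift`) and reduced by `PowerSeries.map φ`.

* `FA_S16_lf_charpoly` : if the conjugates `c o` have lifts whose reductions are `κ o (X^p)`, and
  the coefficient of `T^j` of `∏ (T - c o)` is `s (X^p)`, then `s` has a lift `s'` whose reduction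
  is the coefficient of `T^j` of `∏ (T - κ o)`.
* `FA_S16_lf_mon` : reduction of an `A`-combination of `E₄^a E₆^b`.
* `FA_S16_lf_main` : a pair of weight `2` with constant reductions `κ₁` (at `∞`), `κ₂` (at `0`):
  the coefficients of `(T - κ₁)(T - κ₂)^p` are isobaric polynomials in the reductions of `E₄, E₆`.
-/

set_option autoImplicit false

noncomputable section

namespace FA_S16

open PowerSeries ModularForm ModularFormClass UpperHalfPlane CongruenceSubgroup MatrixGroups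
  EisensteinSeries

/-- The inclusion `A⟦X⟧ → ℂ⟦X⟧`. -/
def FA_S16_lf_incl (A : Subring ℂ) : (↥A)⟦X⟧ →+* ℂ⟦X⟧ := PowerSeries.map A.subtype

theorem FA_S16_lf_coeff_incl (A : Subring ℂ) (s : (↥A)⟦X⟧) (n : ℕ) :
    coeff n (FA_S16_lf_incl A s) = ((coeff n s : A) : ℂ) := by
  rw [FA_S16_lf_incl, PowerSeries.coeff_map]; rfl

theorem FA_S16_lf_incl_inj (A : Subring ℂ) : Function.Injective (FA_S16_lf_incl A) := by
  intro x y h
  ext n
  have := congrArg (coeff n) h
  rw [FA_S16_lf_coeff_incl, FA_S16_lf_coeff_incl] at this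
  exact this

theorem FA_S16_lf_incl_mem (A : Subring ℂ) (s : (↥A)⟦X⟧) (n : ℕ) :
    coeff n (FA_S16_lf_incl A s) ∈ A := by
  rw [FA_S16_lf_coeff_incl]; exact (coeff n s).2

/-- The lift of a power series with coefficients in `A`. -/
def FA_S16_lf_lift (A : Subring ℂ) (s : ℂ⟦X⟧) (hs : ∀ n, coeff n s ∈ A) : (↥A)⟦X⟧ :=
  PowerSeries.mk fun n => ⟨coeff n s, hs n⟩

theorem FA_S16_lf_incl_lift (A : Subring ℂ) (s : ℂ⟦X⟧) (hs : ∀ n, coeff n s ∈ A) :
    FA_S16_lf_incl A (FA_S16_lf_lift A s hs) = s := by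
  ext n
  rw [FA_S16_lf_coeff_incl, FA_S16_lf_lift, PowerSeries.coeff_mk]

theorem FA_S16_lf_lift_eq (A : Subring ℂ) (s : ℂ⟦X⟧) (hs : ∀ n, coeff n s ∈ A) (s' : (↥A)⟦X⟧)
    (h : FA_S16_lf_incl A s' = s) : s' = FA_S16_lf_lift A s hs :=
  FA_S16_lf_incl_inj A (by rw [h, FA_S16_lf_incl_lift])

theorem FA_S16_lf_coeff_map_lift (A : Subring ℂ) {K : Type*} [Field K] (φ : A →+* K)
    (s : ℂ⟦X⟧) (hs : ∀ n, coeff n s ∈ A) (n : ℕ) :
    coeff n (PowerSeries.map φ (FA_S16_lf_lift A s hs)) = φ ⟨coeff n s, hs n⟩ := by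
  rw [PowerSeries.coeff_map, FA_S16_lf_lift, PowerSeries.coeff_mk]

/-- `expand` is injective. -/
theorem FA_S16_lf_expand_inj {R : Type*} [CommRing R] (p : ℕ) (hp : p ≠ 0) :
    Function.Injective (PowerSeries.expand (R := R) p hp) := by
  intro x y h
  ext n
  have := congrArg (coeff (p * n)) h
  rw [PowerSeries.coeff_expand, PowerSeries.coeff_expand, if_pos (dvd_mul_right p n),
    if_pos (dvd_mul_right p n), Nat.mul_div_cancel_left n (Nat.pos_of_ne_zero hp)] at this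
  exact this

/-- **Reduction of the characteristic polynomial.** -/
theorem FA_S16_lf_charpoly (A : Subring ℂ) {K : Type*} [Field K] (φ : A →+* K) (p : ℕ)
    (hp : p ≠ 0) {ι : Type*} [Fintype ι]
    (c : ι → ℂ⟦X⟧) (c' : ι → (↥A)⟦X⟧) (hc : ∀ o, FA_S16_lf_incl A (c' o) = c o)
    (κ : ι → K⟦X⟧) (hκ : ∀ o, PowerSeries.map φ (c' o) = PowerSeries.expand p hp (κ o))
    (j : ℕ) (s : ℂ⟦X⟧)
    (hs : (∏ o, (Polynomial.X - Polynomial.C (c o))).coeff j = PowerSeries.expand p hp s) :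
    ∃ s' : (↥A)⟦X⟧, FA_S16_lf_incl A s' = s ∧
      PowerSeries.map φ s' = (∏ o, (Polynomial.X - Polynomial.C (κ o))).coeff j := by
  classical
  set P' : Polynomial ((↥A)⟦X⟧) := ∏ o, (Polynomial.X - Polynomial.C (c' o)) with hP'
  have hP1 : Polynomial.map (FA_S16_lf_incl A) P' = ∏ o, (Polynomial.X - Polynomial.C (c o)) := by
    rw [hP', Polynomial.map_prod]
    refine Finset.prod_congr rfl fun o _ => ?_
    rw [Polynomial.map_sub, Polynomial.map_X, Polynomial.map_C, hc]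
  have hcoef : FA_S16_lf_incl A (P'.coeff j) = PowerSeries.expand p hp s := by
    rw [← Polynomial.coeff_map, hP1, hs]
  set s' : (↥A)⟦X⟧ := PowerSeries.mk fun n => coeff (p * n) (P'.coeff j) with hs'
  have hincl : FA_S16_lf_incl A s' = s := by
    ext n
    rw [FA_S16_lf_coeff_incl, hs', PowerSeries.coeff_mk, ← FA_S16_lf_coeff_incl, hcoef,
      PowerSeries.coeff_expand, if_pos (dvd_mul_right p n),
      Nat.mul_div_cancel_left n (Nat.pos_of_ne_zero hp)]
  have hexp : PowerSeries.expand p hp s' = P'.coeff j := by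
    apply FA_S16_lf_incl_inj A
    rw [hcoef, ← hincl, FA_S16_lf_incl, PowerSeries.map_expand]
  refine ⟨s', hincl, ?_⟩
  apply FA_S16_lf_expand_inj p hp
  rw [← PowerSeries.map_expand, hexp, ← Polynomial.coeff_map, hP', Polynomial.map_prod]
  have h1 : ∀ o, Polynomial.map (PowerSeries.map φ) (Polynomial.X - Polynomial.C (c' o)) =
      Polynomial.map ((PowerSeries.expand (R := K) p hp : K⟦X⟧ →ₐ[K] K⟦X⟧) : K⟦X⟧ →+* K⟦X⟧)
        (Polynomial.X - Polynomial.C (κ o)) := by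
    intro o
    rw [Polynomial.map_sub, Polynomial.map_X, Polynomial.map_C, hκ, Polynomial.map_sub,
      Polynomial.map_X, Polynomial.map_C]
    rfl
  rw [Finset.prod_congr rfl fun o _ => h1 o, ← Polynomial.map_prod, Polynomial.coeff_map]
  rfl

/-- Reduction of an `A`-combination of monomials `Q^a R^b`. -/
theorem FA_S16_lf_mon (A : Subring ℂ) {K : Type*} [Field K] (φ : A →+* K)
    (Qc Rc : ℂ⟦X⟧) (Q' R' : (↥A)⟦X⟧) (hQ : FA_S16_lf_incl A Q' = Qc)
    (hR : FA_S16_lf_incl A R' = Rc) (k : ℕ) (s : ℂ⟦X⟧) (s' : (↥A)⟦X⟧)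
    (hs' : FA_S16_lf_incl A s' = s)
    (g : ℕ × ℕ →₀ ℂ) (hg : ∀ ab ∈ g.support, 4 * ab.1 + 6 * ab.2 = k) (hgA : ∀ ab, g ab ∈ A)
    (hsg : s = g.sum fun ab x => x • (Qc ^ ab.1 * Rc ^ ab.2)) :
    ∃ g' : ℕ × ℕ →₀ K, (∀ ab ∈ g'.support, 4 * ab.1 + 6 * ab.2 = k) ∧
      (g'.sum fun ab x => PowerSeries.C x * (PowerSeries.map φ Q') ^ ab.1 *
        (PowerSeries.map φ R') ^ ab.2) = PowerSeries.map φ s' := by
  classical
  have hs'' : s' = ∑ ab ∈ g.support,
      PowerSeries.C (⟨g ab, hgA ab⟩ : A) * Q' ^ ab.1 * R' ^ ab.2 := by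
    apply FA_S16_lf_incl_inj A
    rw [hs', hsg, Finsupp.sum, map_sum]
    refine Finset.sum_congr rfl fun ab _ => ?_
    rw [map_mul, map_mul, map_pow, map_pow, hQ, hR, FA_S16_lf_incl, PowerSeries.map_C]
    simp only [Subring.subtype_apply]
    rw [PowerSeries.smul_eq_C_mul, mul_assoc]
  refine ⟨Finsupp.onFinset g.support (fun ab => φ ⟨g ab, hgA ab⟩) ?_, ?_, ?_⟩
  · intro ab hab
    rw [Finsupp.mem_support_iff]
    intro h0
    apply hab
    have : (⟨g ab, hgA ab⟩ : A) = 0 := Subtype.ext h0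
    rw [this, map_zero]
  · intro ab hab
    exact hg ab (Finsupp.support_onFinset_subset hab)
  · rw [Finsupp.sum_of_support_subset _ Finsupp.support_onFinset_subset _
      (by intro i _; simp), hs'', map_sum]
    refine Finset.sum_congr rfl fun ab _ => ?_
    rw [Finsupp.onFinset_apply, map_mul, map_mul, map_pow, map_pow, PowerSeries.map_C]

end FA_S16
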