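import Mathlib
import Fermat.Agent.S16.E5Alg
import Fermat.Agent.S16.E5Lift
import Fermat.Agent.S16.AlgUnitO
import Fermat.Agent.S16.AnL1Int

/-!
# S16 (U): cases E5 (`ℓ ≥ 5`, `ℓ ≠ p`) and Ep (`ℓ = p ≥ 5`)

`FA_S16_e5_of : FA_S16_Target_E5_of`, `FA_S16_ep_of : FA_S16_Target_Ep_of`.
-/

set_option autoImplicit false

noncomputable section

namespace FA_S16

open PowerSeries ModularForm ModularFormClass UpperHalfPlane CongruenceSubgroup MatrixGroups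
  EisensteinSeries

/-- A pair of weight `2` whose two expansions reduce to constants `κ₁`, `κ₂`: every coefficient of
`(T - κ₁)(T - κ₂)^p` is an isobaric polynomial in the reductions of `E₄`, `E₆`. -/
theorem FA_S16_lf_main (A : Subring ℂ) {K : Type*} [Field K] (φ : A →+* K) (p : ℕ)
    [Fact p.Prime] [NeZero p]
    (hζ : FA_S16_zeta p ∈ A) (h1728 : (1728 : ℂ)⁻¹ ∈ A)
    (hSym : FA_S16_Target_AnSym) (hInt6 : FA_S16_Target_AnL1Int6)
    (hQ : ∀ n, coeff n (qExpansion 1 E₄) ∈ A) (hR : ∀ n, coeff n (qExpansion 1 E₆) ∈ A)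
    (a b : ℂ⟦X⟧) (hab : FA_S16_IsPair p ((2 : ℕ) : ℤ) a b)
    (ha : ∀ n, coeff n a ∈ A) (hb : ∀ n, coeff n b ∈ A)
    (κ₁ κ₂ : K) (h1 : PowerSeries.map φ (FA_S16_lf_lift A a ha) = PowerSeries.C κ₁)
    (h2 : PowerSeries.map φ (FA_S16_lf_lift A b hb) = PowerSeries.C κ₂)
    (i : ℕ) (hi : i ≤ p + 1) :
    ∃ g' : ℕ × ℕ →₀ K, (∀ ab ∈ g'.support, 4 * ab.1 + 6 * ab.2 = 2 * i) ∧
      (g'.sum fun ab x => PowerSeries.C x *
          (PowerSeries.map φ (FA_S16_lf_lift A (qExpansion 1 E₄) hQ)) ^ ab.1 *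
          (PowerSeries.map φ (FA_S16_lf_lift A (qExpansion 1 E₆) hR)) ^ ab.2) =
        PowerSeries.C (((Polynomial.X - Polynomial.C κ₁) *
          (Polynomial.X - Polynomial.C κ₂) ^ p).coeff (p + 1 - i)) := by
  classical
  have hp0 : p ≠ 0 := NeZero.ne p
  obtain ⟨s, hsL1, hs⟩ := hSym p 2 a b hab i hi
  set ζ' : A := ⟨FA_S16_zeta p, hζ⟩ with hζ'
  set a' := FA_S16_lf_lift A a ha with ha'
  set b' := FA_S16_lf_lift A b hb with hb'
  -- the lifted conjugates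
  set c' : Option (Fin p) → (↥A)⟦X⟧ := fun o =>
    match o with
    | none => PowerSeries.expand p hp0 a'
    | some j => PowerSeries.rescale (ζ' ^ (j : ℕ)) b' with hc'
  set κ : Option (Fin p) → K⟦X⟧ := fun o =>
    match o with
    | none => PowerSeries.C κ₁
    | some _ => PowerSeries.C κ₂ with hκdef
  have hc : ∀ o, FA_S16_lf_incl A (c' o) = FA_S16_conj p a b o := by
    intro o
    cases o with
    | none =>
      change FA_S16_lf_incl A (PowerSeries.expand p hp0 a') = PowerSeries.expand p _ a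
      rw [FA_S16_lf_incl, PowerSeries.map_expand]
      congr 1
      exact FA_S16_lf_incl_lift A a ha
    | some j =>
      change FA_S16_lf_incl A (PowerSeries.rescale (ζ' ^ (j : ℕ)) b') =
        PowerSeries.rescale (FA_S16_zeta p ^ (j : ℕ)) b
      ext n
      rw [FA_S16_lf_coeff_incl, PowerSeries.coeff_rescale, PowerSeries.coeff_rescale, hb',
        FA_S16_lf_lift, PowerSeries.coeff_mk]
      simp [hζ']
  have hκ : ∀ o, PowerSeries.map φ (c' o) = PowerSeries.expand p hp0 (κ o) := by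
    intro o
    cases o with
    | none =>
      change PowerSeries.map φ (PowerSeries.expand p hp0 a') =
        PowerSeries.expand p hp0 (PowerSeries.C κ₁)
      rw [PowerSeries.map_expand, h1]
    | some j =>
      change PowerSeries.map φ (PowerSeries.rescale (ζ' ^ (j : ℕ)) b') =
        PowerSeries.expand p hp0 (PowerSeries.C κ₂)
      rw [PowerSeries.expand_C]
      ext n
      have h2n := congrArg (coeff n) h2
      rw [PowerSeries.coeff_map] at h2n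
      rw [PowerSeries.coeff_map, PowerSeries.coeff_rescale, map_mul, h2n, PowerSeries.coeff_C]
      split_ifs with hn
      · rw [hn, pow_zero, map_one, one_mul]
      · rw [mul_zero]
  have hs2 : (∏ o, (Polynomial.X - Polynomial.C (FA_S16_conj p a b o))).coeff (p + 1 - i) =
      PowerSeries.expand p hp0 s := hs
  obtain ⟨s', hincl, hred⟩ := FA_S16_lf_charpoly A φ p hp0 (FA_S16_conj p a b) c' hc κ hκ
    (p + 1 - i) s hs2
  have hsmem : ∀ n, coeff n s ∈ A := by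
    intro n; rw [← hincl]; exact FA_S16_lf_incl_mem A s' n
  obtain ⟨g, hg, hgA, hsg⟩ := hInt6 A h1728 (2 * i) s hsL1 hsmem
  obtain ⟨g', hg', hsum⟩ := FA_S16_lf_mon A φ (qExpansion 1 E₄) (qExpansion 1 E₆)
    (FA_S16_lf_lift A _ hQ) (FA_S16_lf_lift A _ hR) (FA_S16_lf_incl_lift A _ hQ)
    (FA_S16_lf_incl_lift A _ hR) (2 * i) s s' hincl g hg hgA hsg
  refine ⟨g', hg', ?_⟩
  rw [hsum, hred, Fintype.prod_option]
  have e1 : (∏ j : Fin p, (Polynomial.X - Polynomial.C (κ (some j)))) =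
      (Polynomial.X - Polynomial.C (PowerSeries.C κ₂)) ^ p := by
    have hj : ∀ j : Fin p, (Polynomial.X - Polynomial.C (κ (some j))) =
        (Polynomial.X - Polynomial.C (PowerSeries.C κ₂)) := fun _ => rfl
    rw [Finset.prod_congr rfl (fun j _ => hj j), Finset.prod_const, Finset.card_univ,
      Fintype.card_fin]
  rw [e1]
  have e2 : (Polynomial.X - Polynomial.C (κ none)) *
      (Polynomial.X - Polynomial.C (PowerSeries.C κ₂)) ^ p =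
      Polynomial.map (PowerSeries.C (R := K)) ((Polynomial.X - Polynomial.C κ₁) *
          (Polynomial.X - Polynomial.C κ₂) ^ p) := by
    rw [Polynomial.map_mul, Polynomial.map_pow, Polynomial.map_sub, Polynomial.map_sub,
      Polynomial.map_X, Polynomial.map_C, Polynomial.map_C]
  rw [e2, Polynomial.coeff_map]

section concrete

variable (ℓ : ℕ) [hℓ : Fact ℓ.Prime]

/-- The (perfect) residue field. -/
abbrev FA_S16_e5_K : Type := AlgebraicClosure (FA_S16_AU_F ℓ)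

/-- The reduction map to the perfect residue field. -/
def FA_S16_e5_phi : FA_S16_AU_O ℓ →+* FA_S16_e5_K ℓ :=
  (algebraMap (FA_S16_AU_F ℓ) (FA_S16_e5_K ℓ)).comp (FA_S16_AU_rho ℓ)

theorem FA_S16_e5_K_ell : ((ℓ : ℕ) : FA_S16_e5_K ℓ) = 0 := by
  rw [← map_natCast (algebraMap (FA_S16_AU_F ℓ) (FA_S16_e5_K ℓ)), FA_S16_AU_F_ell, map_zero]

instance FA_S16_e5_K_charP : CharP (FA_S16_e5_K ℓ) ℓ :=
  (CharP.charP_iff_prime_eq_zero hℓ.out).mpr (FA_S16_e5_K_ell ℓ)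

theorem FA_S16_e5_phi_int (m : ℤ) (h : (m : ℂ) ∈ FA_S16_AU_O ℓ) :
    FA_S16_e5_phi ℓ ⟨(m : ℂ), h⟩ = (m : FA_S16_e5_K ℓ) := by
  have : (⟨(m : ℂ), h⟩ : FA_S16_AU_O ℓ) = ((m : ℤ) : FA_S16_AU_O ℓ) := by
    apply Subtype.ext; simp
  rw [this, map_intCast]

theorem FA_S16_e5_phi_eq_int (z : ℂ) (hz : z ∈ FA_S16_AU_O ℓ) (m : ℤ) (h : z = (m : ℂ)) :
    FA_S16_e5_phi ℓ ⟨z, hz⟩ = (m : FA_S16_e5_K ℓ) := by
  subst h; exact FA_S16_e5_phi_int ℓ m hz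

theorem FA_S16_e5_phi_ell_mul (z : ℂ) (hz : z ∈ FA_S16_AU_O ℓ) (x : ℂ) (hx : x ∈ FA_S16_AU_O ℓ)
    (h : z = (ℓ : ℂ) * x) : FA_S16_e5_phi ℓ ⟨z, hz⟩ = 0 := by
  have : (⟨z, hz⟩ : FA_S16_AU_O ℓ) = FA_S16_AU_ellO ℓ * ⟨x, hx⟩ := by
    apply Subtype.ext; simp [FA_S16_AU_ellO, h]
  rw [this, map_mul, FA_S16_e5_phi, RingHom.comp_apply, FA_S16_AU_rho_ell, map_zero, zero_mul]

theorem FA_S16_e5_phi_mul (z w : ℂ) (hz : z ∈ FA_S16_AU_O ℓ) (hw : w ∈ FA_S16_AU_O ℓ)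
    (hzw : z * w ∈ FA_S16_AU_O ℓ) :
    FA_S16_e5_phi ℓ ⟨z * w, hzw⟩ = FA_S16_e5_phi ℓ ⟨z, hz⟩ * FA_S16_e5_phi ℓ ⟨w, hw⟩ := by
  rw [← map_mul]; rfl

theorem FA_S16_e5_1728_mem (h5 : 5 ≤ ℓ) : (1728 : ℂ)⁻¹ ∈ FA_S16_AU_O ℓ := by
  apply FA_S16_AU_isInt_mem
  refine ⟨1, 1728, ?_, by simp⟩
  intro hdvd
  have e2 : (1728 : ℕ) = 2 ^ 6 * 3 ^ 3 := by norm_num
  rw [e2] at hdvd
  rcases (Nat.Prime.dvd_mul hℓ.out).mp hdvd with h | h
  · have := Nat.le_of_dvd (by norm_num) (hℓ.out.dvd_of_dvd_pow h); omega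
  · have := Nat.le_of_dvd (by norm_num) (hℓ.out.dvd_of_dvd_pow h); omega

theorem FA_S16_e5_E4_mem (n : ℕ) : coeff n (qExpansion 1 E₄) ∈ FA_S16_AU_O ℓ := by
  obtain ⟨m, hm⟩ := FA_S16_anQ_E4_int n
  rw [hm]; exact FA_S16_AU_int_mem ℓ m

theorem FA_S16_e5_E6_mem (n : ℕ) : coeff n (qExpansion 1 E₆) ∈ FA_S16_AU_O ℓ := by
  obtain ⟨m, hm⟩ := FA_S16_anQ_E6_int n
  rw [hm]; exact FA_S16_AU_int_mem ℓ m

/-- The reduction of `E₄`. -/
def FA_S16_e5_Qbar : (FA_S16_e5_K ℓ)⟦X⟧ :=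
  PowerSeries.map (FA_S16_e5_phi ℓ) (FA_S16_lf_lift _ (qExpansion 1 E₄) (FA_S16_e5_E4_mem ℓ))

/-- The reduction of `E₆`. -/
def FA_S16_e5_Rbar : (FA_S16_e5_K ℓ)⟦X⟧ :=
  PowerSeries.map (FA_S16_e5_phi ℓ) (FA_S16_lf_lift _ (qExpansion 1 E₆) (FA_S16_e5_E6_mem ℓ))

theorem FA_S16_e5_Qbar_zero : constantCoeff (FA_S16_e5_Qbar ℓ) = 1 := by
  rw [← PowerSeries.coeff_zero_eq_constantCoeff_apply, FA_S16_e5_Qbar, FA_S16_lf_coeff_map_lift,
    FA_S16_e5_phi_eq_int ℓ _ _ 1 (by rw [FA_S16_anQ_E4_zero]; simp)]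
  simp

theorem FA_S16_e5_Rbar_zero : constantCoeff (FA_S16_e5_Rbar ℓ) = 1 := by
  rw [← PowerSeries.coeff_zero_eq_constantCoeff_apply, FA_S16_e5_Rbar, FA_S16_lf_coeff_map_lift,
    FA_S16_e5_phi_eq_int ℓ _ _ 1 (by rw [FA_S16_anQ_E6_zero]; simp)]
  simp

theorem FA_S16_e5_Qbar_one : coeff 1 (FA_S16_e5_Qbar ℓ) = 240 := by
  rw [FA_S16_e5_Qbar, FA_S16_lf_coeff_map_lift,
    FA_S16_e5_phi_eq_int ℓ _ _ 240 (by rw [FA_S16_anQ_E4 1 le_rfl]; simp)]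
  simp

theorem FA_S16_e5_Rbar_one : coeff 1 (FA_S16_e5_Rbar ℓ) = -504 := by
  rw [FA_S16_e5_Rbar, FA_S16_lf_coeff_map_lift,
    FA_S16_e5_phi_eq_int ℓ _ _ (-504) (by rw [FA_S16_anQ_E6 1 le_rfl]; simp)]
  simp

end concrete

end FA_S16
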