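import Mathlib
import Fermat.Agent.S16.E5Main

/-!
# S16 (U): cases E5 and Ep — final statements

* `FA_S16_e5_of : FA_S16_Target_E5_of`
* `FA_S16_ep_of : FA_S16_Target_Ep_of`
-/

set_option autoImplicit false

noncomputable section

namespace FA_S16

open PowerSeries ModularForm ModularFormClass UpperHalfPlane CongruenceSubgroup MatrixGroups
  EisensteinSeries

/-- **E5** from the analytic leaves. -/
theorem FA_S16_e5_of : FA_S16_Target_E5_of := by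
  intro hAn p ℓ hp hℓ h5p h5ℓ hne H hH0 hHn
  haveI : Fact p.Prime := ⟨hp⟩
  haveI hℓF : Fact ℓ.Prime := ⟨hℓ⟩
  haveI : NeZero p := ⟨hp.ne_zero⟩
  obtain ⟨hSym, hT1, hRing, hL1, hQ⟩ := hAn
  set a := qExpansion 1 H with ha
  set b := qExpansion (p : ℝ) ((H : ℍ → ℂ) ∣[(2 : ℤ)] ModularGroup.S) with hb
  have hab : FA_S16_IsPair p 2 a b := ⟨H, rfl, rfl⟩
  have hbn := hT1 p a b hab
  have hℓp : ¬ ℓ ∣ p := fun h => hne ((Nat.prime_dvd_prime_iff_eq hℓ hp).mp h)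
  have hpinv : ((p : ℂ))⁻¹ ∈ FA_S16_AU_O ℓ :=
    FA_S16_AU_isInt_mem ℓ ⟨1, p, hℓp, by simp⟩
  have hℓmem : (ℓ : ℂ) ∈ FA_S16_AU_O ℓ := by
    simpa using FA_S16_AU_int_mem ℓ (ℓ : ℤ)
  have hx : ∀ n, 1 ≤ n → ∃ x ∈ FA_S16_AU_O ℓ, coeff n a = (ℓ : ℂ) * x := by
    intro n hn
    obtain ⟨x, hx, h⟩ := hHn n hn
    exact ⟨x, FA_S16_AU_isInt_mem ℓ hx, by rw [h, pow_one]⟩
  have ha_mem : ∀ n, coeff n a ∈ FA_S16_AU_O ℓ := by
    intro n
    rcases Nat.eq_zero_or_pos n with rfl | hn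
    · rw [hH0]; exact one_mem _
    · obtain ⟨x, hx, h⟩ := hx n hn
      rw [h]; exact mul_mem hℓmem hx
  have hb_mem : ∀ n, coeff n b ∈ FA_S16_AU_O ℓ := by
    intro n
    rw [hbn, div_eq_mul_inv]
    exact mul_mem (neg_mem (ha_mem _)) hpinv
  have h1 : PowerSeries.map (FA_S16_e5_phi ℓ) (FA_S16_lf_lift _ a ha_mem) =
      PowerSeries.C (1 : FA_S16_e5_K ℓ) := by
    ext n
    rw [FA_S16_lf_coeff_map_lift, PowerSeries.coeff_C]
    split_ifs with hn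
    · subst hn
      exact (FA_S16_e5_phi_eq_int ℓ _ _ 1 (by rw [hH0]; simp)).trans (by simp)
    · obtain ⟨x, hx, h⟩ := hx n (by omega)
      exact FA_S16_e5_phi_ell_mul ℓ _ _ x hx h
  set β : FA_S16_e5_K ℓ := FA_S16_e5_phi ℓ ⟨coeff 0 b, hb_mem 0⟩ with hβdef
  have h2 : PowerSeries.map (FA_S16_e5_phi ℓ) (FA_S16_lf_lift _ b hb_mem) =
      PowerSeries.C β := by
    ext n
    rw [FA_S16_lf_coeff_map_lift, PowerSeries.coeff_C]
    split_ifs with hn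
    · subst hn; rfl
    · obtain ⟨x, hx, h⟩ := hx (p * n) (Nat.mul_pos hp.pos (by omega))
      exact FA_S16_e5_phi_ell_mul ℓ _ _ (-x * (p : ℂ)⁻¹)
        (mul_mem (neg_mem hx) hpinv) (by rw [hbn, h]; ring)
  have hpmem : (p : ℂ) ∈ FA_S16_AU_O ℓ := by
    simpa using FA_S16_AU_int_mem ℓ (p : ℤ)
  have hp0 : (p : ℂ) ≠ 0 := by exact_mod_cast hp.ne_zero
  have hβ : (p : FA_S16_e5_K ℓ) * β = -1 := by
    have e1 : (p : FA_S16_e5_K ℓ) = FA_S16_e5_phi ℓ ⟨(p : ℂ), hpmem⟩ := by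
      rw [FA_S16_e5_phi_eq_int ℓ _ _ (p : ℤ) (by simp)]; simp
    rw [e1, hβdef, ← FA_S16_e5_phi_mul ℓ _ _ hpmem (hb_mem 0) (mul_mem hpmem (hb_mem 0))]
    exact (FA_S16_e5_phi_eq_int ℓ _ _ (-1)
      (by rw [hbn, mul_zero, hH0]; field_simp; simp)).trans (by simp)
  exact FA_S16_e5_alg ℓ h5ℓ p (by omega) (FA_S16_e5_Qbar ℓ) (FA_S16_e5_Rbar ℓ)
    (FA_S16_e5_Qbar_zero ℓ) (FA_S16_e5_Rbar_zero ℓ) (FA_S16_e5_Qbar_one ℓ)
    (FA_S16_e5_Rbar_one ℓ) β hβ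
    (fun i hi => FA_S16_lf_main (FA_S16_AU_O ℓ) (FA_S16_e5_phi ℓ) p
      (FA_S16_AU_zeta_mem ℓ p hp.ne_zero) (FA_S16_e5_1728_mem ℓ h5ℓ) hSym FA_S16_anL1Int6
      (FA_S16_e5_E4_mem ℓ) (FA_S16_e5_E6_mem ℓ) a b hab ha_mem hb_mem 1 β h1 h2 i hi)

/-- **Ep** from the analytic leaves. -/
theorem FA_S16_ep_of : FA_S16_Target_Ep_of := by
  intro hAn p hp h5p H hH0 hHn
  haveI hpF : Fact p.Prime := ⟨hp⟩
  haveI : NeZero p := ⟨hp.ne_zero⟩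
  obtain ⟨hSym, hT1, hRing, hL1, hQ⟩ := hAn
  obtain ⟨-, -, hsmul, -, -⟩ := hRing p
  set a := qExpansion 1 H with ha
  set b := qExpansion (p : ℝ) ((H : ℍ → ℂ) ∣[(2 : ℤ)] ModularGroup.S) with hb
  have hab : FA_S16_IsPair p 2 a b := ⟨H, rfl, rfl⟩
  have hbn := hT1 p a b hab
  have hab2 : FA_S16_IsPair p 2 ((p : ℂ) • a) ((p : ℂ) • b) := hsmul 2 (p : ℂ) a b hab
  have hpmem : (p : ℂ) ∈ FA_S16_AU_O p := by
    simpa using FA_S16_AU_int_mem p (p : ℤ)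
  have hp0 : (p : ℂ) ≠ 0 := by exact_mod_cast hp.ne_zero
  have hx : ∀ n, 1 ≤ n → ∃ x ∈ FA_S16_AU_O p, coeff n a = (p : ℂ) * x := by
    intro n hn
    obtain ⟨x, hx, h⟩ := hHn n hn
    exact ⟨x, FA_S16_AU_isInt_mem p hx, by rw [h, pow_one]⟩
  have ha_mem : ∀ n, coeff n a ∈ FA_S16_AU_O p := by
    intro n
    rcases Nat.eq_zero_or_pos n with rfl | hn
    · rw [hH0]; exact one_mem _
    · obtain ⟨x, hx, h⟩ := hx n hn
      rw [h]; exact mul_mem hpmem hx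
  have hb2 : ∀ n, coeff n ((p : ℂ) • b) = - coeff (p * n) a := by
    intro n
    rw [PowerSeries.coeff_smul, hbn, smul_eq_mul]
    field_simp
  have ha2_mem : ∀ n, coeff n ((p : ℂ) • a) ∈ FA_S16_AU_O p := by
    intro n
    rw [PowerSeries.coeff_smul, smul_eq_mul]
    exact mul_mem hpmem (ha_mem n)
  have hb2_mem : ∀ n, coeff n ((p : ℂ) • b) ∈ FA_S16_AU_O p := by
    intro n
    rw [hb2]; exact neg_mem (ha_mem _)
  have h1 : PowerSeries.map (FA_S16_e5_phi p) (FA_S16_lf_lift _ ((p : ℂ) • a) ha2_mem) =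
      PowerSeries.C (0 : FA_S16_e5_K p) := by
    ext n
    rw [FA_S16_lf_coeff_map_lift, map_zero, map_zero]
    exact FA_S16_e5_phi_ell_mul p _ _ (coeff n a) (ha_mem n)
      (by rw [PowerSeries.coeff_smul, smul_eq_mul])
  have h2 : PowerSeries.map (FA_S16_e5_phi p) (FA_S16_lf_lift _ ((p : ℂ) • b) hb2_mem) =
      PowerSeries.C (-1 : FA_S16_e5_K p) := by
    ext n
    rw [FA_S16_lf_coeff_map_lift, PowerSeries.coeff_C]
    split_ifs with hn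
    · subst hn
      exact (FA_S16_e5_phi_eq_int p _ _ (-1) (by rw [hb2, mul_zero, hH0]; simp)).trans
        (by simp)
    · obtain ⟨x, hx, h⟩ := hx (p * n) (Nat.mul_pos hp.pos (by omega))
      exact FA_S16_e5_phi_ell_mul p _ _ (-x) (neg_mem hx) (by rw [hb2, h]; ring)
  exact FA_S16_ep_alg p h5p (FA_S16_e5_Qbar p) (FA_S16_e5_Rbar p)
    (FA_S16_e5_Qbar_zero p) (FA_S16_e5_Rbar_zero p) (FA_S16_e5_Qbar_one p)
    (FA_S16_e5_Rbar_one p)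
    (FA_S16_lf_main (FA_S16_AU_O p) (FA_S16_e5_phi p) p
      (FA_S16_AU_zeta_mem p p hp.ne_zero) (FA_S16_e5_1728_mem p h5p) hSym FA_S16_anL1Int6
      (FA_S16_e5_E4_mem p) (FA_S16_e5_E6_mem p) _ _ hab2 ha2_mem hb2_mem 0 (-1) h1 h2 p
      (by omega))

end FA_S16
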