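import Fermat.Agent.S16.LShimEigenB

/-!
# S16 (L), leaf Eigen: the Shimura homomorphism (lead)

`ψ : Γ₀(p) → ℤ/n`, `ψ(γ) = log (γ₀₀ mod p)`, `n = (p - 1)/gcd(p - 1, 12)`, is onto, kills the
elements of trace `0, ±1, ±2`, and `T_ℓ ψ = (1 + ℓ) ψ`, `U_p ψ = ψ`.
-/

set_option autoImplicit false

namespace FA_S16

open ModularCurve CuspForm CongruenceSubgroup FA_S22 Matrix.SpecialLinearGroup
open P2MW.S_ModularForm_heckeT_slash_eq_self_of_mem_Gamma0.ModularForm.HeckeSlashInvariance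
open scoped MatrixGroups

theorem FA_S16_LSE_card (p : ℕ) [Fact p.Prime] : Nat.card (ZMod p)ˣ = p - 1 := by
  rw [Nat.card_eq_fintype_card, ZMod.card_units]

/-- The logarithm `(ℤ/p)ˣ → ℤ/n`. -/
theorem FA_S16_LSE_log (p : ℕ) [Fact p.Prime] :
    ∃ L : (ZMod p)ˣ →* Multiplicative (ZMod (eisensteinNumerator p)),
      Function.Surjective L ∧ ∀ x : (ZMod p)ˣ, x ^ 12 = 1 → L x = 1 := by
  apply FA_S16_LSE_exists_log
  · rw [FA_S16_LSE_card]
    exact eisensteinNumerator_dvd p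
  · intro k hk
    rw [FA_S16_LSE_card] at hk
    exact FA_S16_LSE_arith (p - 1) (by have := (Fact.out : p.Prime).two_le; omega) k hk

/-- Elements of trace `0, ±1, ±2` have `a ^ 12 = 1`. -/
theorem FA_S16_LSE_pow12 (p : ℕ) [Fact p.Prime] (γ : ↥(Gamma0 p))
    (h : ((γ : SL(2, ℤ)) : Matrix (Fin 2) (Fin 2) ℤ).trace ^ 2 = 0 ∨
      ((γ : SL(2, ℤ)) : Matrix (Fin 2) (Fin 2) ℤ).trace ^ 2 = 1 ∨
      ((γ : SL(2, ℤ)) : Matrix (Fin 2) (Fin 2) ℤ).trace ^ 2 = 4) :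
    FA_S16_LSE_aU p γ ^ 12 = 1 := by
  apply Units.ext
  rw [Units.val_pow_eq_pow_val, FA_S16_LSE_aU_val, Units.val_one]
  set x : ZMod p := (((γ : SL(2, ℤ)) 0 0 : ℤ) : ZMod p) with hx
  set y : ZMod p := (((γ : SL(2, ℤ)) 1 1 : ℤ) : ZMod p) with hy
  have hxy : x * y = 1 := by
    have hdet := FA_S22_det_eq (γ : SL(2, ℤ))
    have h2 := congrArg (Int.cast : ℤ → ZMod p) hdet
    push_cast at h2
    rw [Gamma0_mem.mp γ.2, mul_zero, sub_zero] at h2
    exact h2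
  have htr : ((((γ : SL(2, ℤ)) : Matrix (Fin 2) (Fin 2) ℤ).trace : ℤ) : ZMod p) = x + y := by
    rw [Matrix.trace_fin_two]
    push_cast
    rfl
  rcases h with h | h | h
  · have hs : (x + y) ^ 2 = 0 := by
      rw [← htr, ← Int.cast_pow, h, Int.cast_zero]
    have h1 : (x ^ 2 + 1) ^ 2 = 0 := by
      linear_combination x ^ 2 * hs - (2 * x ^ 2 + 1 + x * y) * hxy
    have h2 : x ^ 2 + 1 = 0 := by
      exact pow_eq_zero_iff (two_ne_zero) |>.mp h1
    have h3 : x ^ 2 = -1 := by linear_combination h2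
    calc x ^ 12 = (x ^ 2) ^ 6 := by ring
      _ = 1 := by rw [h3]; norm_num
  · have hs : (x + y) ^ 2 = 1 := by
      rw [← htr, ← Int.cast_pow, h, Int.cast_one]
    have h1 : x ^ 4 + x ^ 2 + 1 = 0 := by
      linear_combination x ^ 2 * hs - (2 * x ^ 2 + 1 + x * y) * hxy
    have h2 : x ^ 6 = 1 := by linear_combination (x ^ 2 - 1) * h1
    calc x ^ 12 = (x ^ 6) ^ 2 := by ring
      _ = 1 := by rw [h2]; norm_num
  · have hs : (x + y) ^ 2 = 4 := by
      rw [← htr, ← Int.cast_pow, h]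
      norm_num
    have h1 : (x ^ 2 - 1) ^ 2 = 0 := by
      linear_combination x ^ 2 * hs - (2 * x ^ 2 + 1 + x * y) * hxy
    have h2 : x ^ 2 - 1 = 0 := by
      exact pow_eq_zero_iff (two_ne_zero) |>.mp h1
    have h3 : x ^ 2 = 1 := by linear_combination h2
    calc x ^ 12 = (x ^ 2) ^ 6 := by ring
      _ = 1 := by rw [h3]; norm_num

/-! ### The Hecke operators -/

section U

variable (N : ℕ) [NeZero N] (ℓ : ℕ) [NeZero ℓ] (hℓN : ℓ ∣ N)

/-- `U_ℓ`: all `t γ x` have the same upper left entry as `γ` modulo `N`. -/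
theorem FA_S16_LSE_tee_U (γ : ↥(Gamma0 N)) (x : ZMod ℓ) :
    FA_S16_LSE_a N (FA_S22_tee (FA_S22_phi N) (FA_S22_alphaU ℓ) (FA_S22_hexU N ℓ hℓN) γ x)
      = FA_S16_LSE_a N γ := by
  have hspec := FA_S22_sigma_tee_spec (FA_S22_phi N) (FA_S22_alphaU ℓ) (FA_S22_hexU N ℓ hℓN) γ x
  have hℓ0 : ℓ ≠ 0 := NeZero.ne ℓ
  have h1 := FA_S16_LSE_entry_mod N (FA_S22_isIntMat_heckeMatrix hℓ0 x.val)
    (FA_S22_isIntMat_heckeMatrix hℓ0
      (FA_S22_sigma (FA_S22_phi N) (FA_S22_alphaU ℓ) (FA_S22_hexU N ℓ hℓN) γ x).val)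
    (by simp) hspec
  simpa using h1.symm

end U

section T

variable (N : ℕ) [NeZero N] (ℓ : ℕ) [Fact ℓ.Prime] (hℓN : ¬ ℓ ∣ N)

/-- the upper left entry of `heckeRep ℓ i` -/
def FA_S16_LSE_c (ℓ : ℕ) (i : OnePoint (ZMod ℓ)) : ℤ := i.elim (ℓ : ℤ) (fun _ => 1)

theorem FA_S16_LSE_tee_T (γ : ↥(Gamma0 N)) (i : OnePoint (ZMod ℓ)) :
    ((FA_S16_LSE_c ℓ i : ℤ) : ZMod N) * FA_S16_LSE_a N γ
      = FA_S16_LSE_a N (FA_S22_tee (FA_S22_phi N) (heckeRep ℓ) (FA_S22_hexT N ℓ hℓN) γ i)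
        * ((FA_S16_LSE_c ℓ
            (FA_S22_sigma (FA_S22_phi N) (heckeRep ℓ) (FA_S22_hexT N ℓ hℓN) γ i) : ℤ) : ZMod N) := by
  have hspec := FA_S22_sigma_tee_spec (FA_S22_phi N) (heckeRep ℓ) (FA_S22_hexT N ℓ hℓN) γ i
  have hℓ0 : ℓ ≠ 0 := (Fact.out : ℓ.Prime).ne_zero
  have key : ∀ j : OnePoint (ZMod ℓ), ∃ A : Matrix (Fin 2) (Fin 2) ℤ,
      FA_S22_IsIntMat (heckeRep ℓ j) A ∧ A 1 0 = 0 ∧ A 0 0 = FA_S16_LSE_c ℓ j := by
    intro j
    induction j using OnePoint.rec with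
    | infty => exact ⟨_, FA_S22_isIntMat_heckeDiagMatrix hℓ0, by simp, by simp [FA_S16_LSE_c]⟩
    | coe x => exact ⟨_, FA_S22_isIntMat_heckeMatrix hℓ0 x.val, by simp, by simp [FA_S16_LSE_c]⟩
  obtain ⟨A, hA, -, hA00⟩ := key i
  obtain ⟨B, hB, hB10, hB00⟩ :=
    key (FA_S22_sigma (FA_S22_phi N) (heckeRep ℓ) (FA_S22_hexT N ℓ hℓN) γ i)
  have h1 := FA_S16_LSE_entry_mod N hA hB hB10 hspec
  rw [hA00, hB00] at h1
  exact h1

end T

/-- **Eigen**: the Shimura homomorphism. -/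
theorem FA_S16_LS_eigen : FA_S16_LS_Target_Eigen := by
  intro p _
  have hp : p.Prime := Fact.out
  obtain ⟨L, hLsurj, hLkill⟩ := FA_S16_LSE_log p
  let ψ : Additive ↥(Gamma0 p) →+ ZMod (eisensteinNumerator p) :=
    MonoidHom.toAdditiveLeft (L.comp (FA_S16_LSE_aU p))
  have hψ : ∀ γ : ↥(Gamma0 p),
      ψ (Additive.ofMul γ) = Multiplicative.toAdd (L (FA_S16_LSE_aU p γ)) := fun _ => rfl
  refine ⟨ψ, ?_, ?_, ?_⟩
  · intro y
    obtain ⟨x, hx⟩ := hLsurj (Multiplicative.ofAdd y)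
    obtain ⟨γ, hγ⟩ := FA_S16_LSE_aU_surjective p x
    exact ⟨Additive.ofMul γ, by rw [hψ, hγ, hx]; rfl⟩
  · intro γ h
    rw [hψ, hLkill _ (FA_S16_LSE_pow12 p γ h)]
    rfl
  · intro ℓ
    funext γ
    by_cases h : (ℓ : ℕ) ∣ p
    · -- `U_p`
      have hℓp : (ℓ : ℕ) = p := (Nat.prime_dvd_prime_iff_eq ℓ.2 hp).mp h
      have : NeZero (ℓ : ℕ) := ⟨ℓ.2.ne_zero⟩
      have hval : FA_S16_LS_hecke p (ZMod (eisensteinNumerator p)) ℓ
          (fun γ => ψ (Additive.ofMul γ)) γ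
          = ∑ x : ZMod (ℓ : ℕ), ψ (Additive.ofMul
              (FA_S22_tee (FA_S22_phi p) (FA_S22_alphaU (ℓ : ℕ)) (FA_S22_hexU p (ℓ : ℕ) h) γ x)) := by
        unfold FA_S16_LS_hecke
        rw [dif_pos h]
        rfl
      rw [hval, eisensteinSystem_of_dvd h]
      have hterm : ∀ x : ZMod (ℓ : ℕ), ψ (Additive.ofMul
          (FA_S22_tee (FA_S22_phi p) (FA_S22_alphaU (ℓ : ℕ)) (FA_S22_hexU p (ℓ : ℕ) h) γ x))
          = ψ (Additive.ofMul γ) := by
        intro x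
        rw [hψ, hψ]
        congr 2
        apply Units.ext
        exact FA_S16_LSE_tee_U p (ℓ : ℕ) h γ x
      rw [Finset.sum_congr rfl (fun x _ => hterm x), Finset.sum_const, Finset.card_univ,
        ZMod.card, hℓp, nsmul_eq_mul]
      have hp1 : ((p : ℕ) : ZMod (eisensteinNumerator p)) = 1 := by
        have h1 : ((p - 1 : ℕ) : ZMod (eisensteinNumerator p)) = 0 :=
          (ZMod.natCast_eq_zero_iff _ _).mpr (eisensteinNumerator_dvd p)
        have h2 : ((p - 1 + 1 : ℕ) : ZMod (eisensteinNumerator p)) = (p : ZMod (eisensteinNumerator p)) := by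
          rw [Nat.sub_add_cancel hp.one_le]
        rw [← h2, Nat.cast_add, h1, zero_add, Nat.cast_one]
      rw [hp1]
      simp
    · -- `T_ℓ`
      have : Fact (ℓ : ℕ).Prime := ⟨ℓ.2⟩
      have hval : FA_S16_LS_hecke p (ZMod (eisensteinNumerator p)) ℓ
          (fun γ => ψ (Additive.ofMul γ)) γ
          = ∑ i : OnePoint (ZMod (ℓ : ℕ)), ψ (Additive.ofMul
              (FA_S22_tee (FA_S22_phi p) (heckeRep (ℓ : ℕ)) (FA_S22_hexT p (ℓ : ℕ) h) γ i)) := by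
        unfold FA_S16_LS_hecke
        rw [dif_neg h]
        rfl
      rw [hval, eisensteinSystem_of_not_dvd h]
      -- the units `c i`
      have hℓp : (ℓ : ℕ) ≠ p := fun e => h (e ▸ dvd_rfl)
      have hunit : ∀ i : OnePoint (ZMod (ℓ : ℕ)),
          IsUnit (((FA_S16_LSE_c (ℓ : ℕ) i : ℤ) : ZMod p)) := by
        intro i
        induction i using OnePoint.rec with
        | infty =>
          have : ((FA_S16_LSE_c (ℓ : ℕ) (OnePoint.infty) : ℤ) : ZMod p) = ((ℓ : ℕ) : ZMod p) := by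
            simp [FA_S16_LSE_c]
          rw [this]
          exact (ZMod.isUnit_iff_coprime _ _).mpr
            ((Nat.coprime_primes ℓ.2 hp).mpr hℓp)
        | coe x =>
          have : ((FA_S16_LSE_c (ℓ : ℕ) (x : OnePoint (ZMod (ℓ : ℕ))) : ℤ) : ZMod p) = 1 := by
            simp [FA_S16_LSE_c]
          rw [this]
          exact isUnit_one
      let lam : OnePoint (ZMod (ℓ : ℕ)) → ZMod (eisensteinNumerator p) :=
        fun i => Multiplicative.toAdd (L (hunit i).unit)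
      have hterm : ∀ i : OnePoint (ZMod (ℓ : ℕ)), ψ (Additive.ofMul
          (FA_S22_tee (FA_S22_phi p) (heckeRep (ℓ : ℕ)) (FA_S22_hexT p (ℓ : ℕ) h) γ i))
          = ψ (Additive.ofMul γ) + lam i
            - lam (FA_S22_sigma (FA_S22_phi p) (heckeRep (ℓ : ℕ)) (FA_S22_hexT p (ℓ : ℕ) h) γ i) := by
        intro i
        have h1 := FA_S16_LSE_tee_T p (ℓ : ℕ) h γ i
        have h2 : (hunit i).unit * FA_S16_LSE_aU p γ
            = FA_S16_LSE_aU p (FA_S22_tee (FA_S22_phi p) (heckeRep (ℓ : ℕ))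
                (FA_S22_hexT p (ℓ : ℕ) h) γ i)
              * (hunit (FA_S22_sigma (FA_S22_phi p) (heckeRep (ℓ : ℕ))
                (FA_S22_hexT p (ℓ : ℕ) h) γ i)).unit := by
          apply Units.ext
          exact h1
        have h3 := congrArg (fun u => Multiplicative.toAdd (L u)) h2
        simp only [map_mul, toAdd_mul] at h3
        rw [hψ, hψ]
        simp only [lam]
        linear_combination - h3
      rw [Finset.sum_congr rfl (fun i _ => hterm i), Finset.sum_sub_distrib,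
        Finset.sum_add_distrib,
        FA_S22_sum_sigma (FA_S22_phi p) (heckeRep (ℓ : ℕ)) (FA_S22_hexT p (ℓ : ℕ) h)
          (FA_S22_phi_injective p) (FA_S22_huniqT p (ℓ : ℕ)) γ lam,
        add_sub_cancel_right, Finset.sum_const, Finset.card_univ, nsmul_eq_mul]
      have hcard : Fintype.card (OnePoint (ZMod (ℓ : ℕ))) = (ℓ : ℕ) + 1 := by
        show Fintype.card (Option (ZMod (ℓ : ℕ))) = (ℓ : ℕ) + 1
        rw [Fintype.card_option, ZMod.card]
      rw [hcard]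
      push_cast
      ring

end FA_S16
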