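import Fermat.Agent.S16.LShimRankB
import Fermat.Agent.S20.Lower
import Fermat.Agent.S21.Final

/-!
# S16 (L): the lifting theorem `FA_S16_LS_lift : FA_S16_LS_Target_Lift`

A homomorphism `Γ₀(N) → ℤ/n` killing the elements of trace `0, ±1, ±2` lifts to a parabolic
homomorphism `Γ₀(N) → ℤ`.
-/

set_option autoImplicit false

namespace FA_S16

open CongruenceSubgroup ModularCurve ModularCurve.Period FA_S22
open scoped MatrixGroups

/-- Cayley–Hamilton for `SL(2, ℤ)` -/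
theorem FA_S16_LR_CH (γ : SL(2, ℤ)) :
    (γ : Matrix (Fin 2) (Fin 2) ℤ) * (γ : Matrix (Fin 2) (Fin 2) ℤ)
      = (γ : Matrix (Fin 2) (Fin 2) ℤ).trace • (γ : Matrix (Fin 2) (Fin 2) ℤ) - 1 := by
  have hdet := γ.det_coe
  rw [Matrix.det_fin_two] at hdet
  ext i j
  fin_cases i <;> fin_cases j
  · simp only [Fin.zero_eta, Fin.isValue, Matrix.mul_apply, Fin.sum_univ_two, Matrix.sub_apply,
      Matrix.smul_apply, Matrix.trace_fin_two, smul_eq_mul, Matrix.one_apply_eq]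
    linear_combination -hdet
  · simp only [Fin.zero_eta, Fin.isValue, Fin.mk_one, Matrix.mul_apply, Fin.sum_univ_two,
      Matrix.sub_apply, Matrix.smul_apply, Matrix.trace_fin_two, smul_eq_mul, ne_eq,
      zero_ne_one, not_false_eq_true, Matrix.one_apply_ne, sub_zero]
    ring
  · simp only [Fin.zero_eta, Fin.isValue, Fin.mk_one, Matrix.mul_apply, Fin.sum_univ_two,
      Matrix.sub_apply, Matrix.smul_apply, Matrix.trace_fin_two, smul_eq_mul, ne_eq,
      one_ne_zero, not_false_eq_true, Matrix.one_apply_ne, sub_zero]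
    ring
  · simp only [Fin.isValue, Fin.mk_one, Matrix.mul_apply, Fin.sum_univ_two, Matrix.sub_apply,
      Matrix.smul_apply, Matrix.trace_fin_two, smul_eq_mul, Matrix.one_apply_eq]
    linear_combination -hdet

theorem FA_S16_LR_pow_four (γ : SL(2, ℤ))
    (h : (γ : Matrix (Fin 2) (Fin 2) ℤ).trace ^ 2 = 0) : γ ^ 4 = 1 := by
  have ht : (γ : Matrix (Fin 2) (Fin 2) ℤ).trace = 0 := by
    exact pow_eq_zero_iff (two_ne_zero) |>.mp h
  have hCH := FA_S16_LR_CH γ
  rw [ht, zero_smul, zero_sub] at hCH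
  apply Subtype.ext
  rw [Matrix.SpecialLinearGroup.coe_pow, Matrix.SpecialLinearGroup.coe_one]
  have : (γ : Matrix (Fin 2) (Fin 2) ℤ) ^ 4
      = ((γ : Matrix (Fin 2) (Fin 2) ℤ) * (γ : Matrix (Fin 2) (Fin 2) ℤ)) *
        ((γ : Matrix (Fin 2) (Fin 2) ℤ) * (γ : Matrix (Fin 2) (Fin 2) ℤ)) := by
    noncomm_ring
  rw [this, hCH]
  simp

theorem FA_S16_LR_pow_six (γ : SL(2, ℤ))
    (h : (γ : Matrix (Fin 2) (Fin 2) ℤ).trace ^ 2 = 1) : γ ^ 6 = 1 := by
  have hCH := FA_S16_LR_CH γ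
  set M := (γ : Matrix (Fin 2) (Fin 2) ℤ) with hM
  set t := M.trace with ht
  have h3 : M * M * M = -(t • (1 : Matrix (Fin 2) (Fin 2) ℤ)) := by
    rw [hCH, sub_mul, one_mul, smul_mul_assoc, hCH, smul_sub, smul_smul]
    have : t * t = 1 := by rw [← pow_two]; exact h
    rw [this, one_smul]
    abel
  apply Subtype.ext
  rw [Matrix.SpecialLinearGroup.coe_pow, Matrix.SpecialLinearGroup.coe_one, ← hM]
  have : M ^ 6 = (M * M * M) * (M * M * M) := by noncomm_ring
  rw [this, h3]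
  rw [neg_mul_neg, smul_mul_smul_comm, mul_one]
  have : t * t = 1 := by rw [← pow_two]; exact h
  rw [this, one_smul]

/-- an integral character kills the elements of finite order -/
theorem FA_S16_LR_kill_torsion {Δ : Type*} [Group Δ] (D : Additive Δ →+ ℤ) (x : Δ) (k : ℕ)
    (hk : k ≠ 0) (hx : x ^ k = 1) : D (Additive.ofMul x) = 0 := by
  have h1 : k • D (Additive.ofMul x) = 0 := by
    rw [← map_nsmul, ← ofMul_pow, hx, ofMul_one, map_zero]
  rcases smul_eq_zero.mp h1 with h | h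
  · exact absurd h hk
  · exact h

/-- the reduction of the pull-back of an integral character kills the small traces -/
theorem FA_S16_LR_small (N : ℕ) (n : ℕ) (D : Additive (FA_S16_LR_Gbar N) →+ ℤ) :
    FA_S16_LS_KillsSmall N
      (FA_S16_LR_pull N ((Int.castAddHom (ZMod n)).comp D)) := by
  intro γ hγ
  rw [FA_S16_LR_pull_apply]
  simp only [AddMonoidHom.comp_apply, Int.coe_castAddHom]
  have key : D (Additive.ofMul (γ : FA_S16_LR_Gbar N)) = 0 := by
    rcases hγ with h | h | h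
    · have h4 : γ ^ 4 = 1 := Subtype.ext (FA_S16_LR_pow_four (γ : SL(2, ℤ)) h)
      refine FA_S16_LR_kill_torsion D _ 4 (by norm_num) ?_
      rw [← QuotientGroup.mk_pow, h4]
      rfl
    · have h6 : γ ^ 6 = 1 := Subtype.ext (FA_S16_LR_pow_six (γ : SL(2, ℤ)) h)
      refine FA_S16_LR_kill_torsion D _ 6 (by norm_num) ?_
      rw [← QuotientGroup.mk_pow, h6]
      rfl
    · have := FA_S16_LR_pull_parabolic N D γ h
      rw [FA_S16_LR_pull_apply] at this
      exact this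
  rw [key, Int.cast_zero]

/-- the numerical identity `dim H¹_par + o(S) + o(ST) + o(T) = index + 2` -/
theorem FA_S16_LR_numerics (N : ℕ) [NeZero N] :
    Module.finrank ℂ ↥(parabolicHoms ℂ (Gamma0 N) ℂ)
      + Nat.card (MulAction.orbitRel.Quotient (Subgroup.zpowers ModularGroup.S)
          (SL(2, ℤ) ⧸ Gamma0 N))
      + Nat.card (MulAction.orbitRel.Quotient
          (Subgroup.zpowers (ModularGroup.S * ModularGroup.T)) (SL(2, ℤ) ⧸ Gamma0 N))
      + Nat.card (MulAction.orbitRel.Quotient (Subgroup.zpowers ModularGroup.T)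
          (SL(2, ℤ) ⧸ Gamma0 N))
      = (Gamma0 N).index + 2 := by
  obtain ⟨hinj, hrange⟩ := FA_S21.FA_S21_of_ge N (Fermat.Agent.S20.FA_S20_lower N)
  have hS20 := FA_S21.FA_S21_S20_of_ge N (Fermat.Agent.S20.FA_S20_lower N)
  have : FiniteDimensional ℂ (CuspForm (Gamma0 N) 2) :=
    FA_S21.FA_S21_cuspForm_finiteDimensional N
  have h1 : Module.finrank ℂ ↥(parabolicHoms ℂ (Gamma0 N) ℂ)
      = 2 * Module.finrank ℂ (CuspForm (Gamma0 N) 2) := by
    rw [← hrange, LinearMap.finrank_range_of_inj hinj, Module.finrank_prod]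
    ring
  have hidx := Fermat.Agent.S24.FA_S24_B_index N
  have hS := Fermat.Agent.S24.FA_S24_B_S N
  have hST := Fermat.Agent.S24.FA_S24_B_ST N
  have hT := Fermat.Agent.S24.FA_S24_B_T N
  unfold Fermat.Agent.S24.FA_S24_orbits at hS hST hT
  unfold genusFormula at hS20
  have hS' : (2 : ℚ) * (Nat.card (MulAction.orbitRel.Quotient (Subgroup.zpowers ModularGroup.S)
      (SL(2, ℤ) ⧸ Gamma0 N)) : ℚ) = ((Gamma0 N).index : ℚ) + (nuTwo N : ℚ) := by
    exact_mod_cast hS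
  have hST' : (3 : ℚ) * (Nat.card (MulAction.orbitRel.Quotient
      (Subgroup.zpowers (ModularGroup.S * ModularGroup.T)) (SL(2, ℤ) ⧸ Gamma0 N)) : ℚ)
      = ((Gamma0 N).index : ℚ) + 2 * (nuThree N : ℚ) := by
    exact_mod_cast hST
  have hT' : (Nat.card (MulAction.orbitRel.Quotient (Subgroup.zpowers ModularGroup.T)
      (SL(2, ℤ) ⧸ Gamma0 N)) : ℚ) = (cuspCount N : ℚ) := by
    exact_mod_cast hT
  have hidx' : ((Gamma0 N).index : ℚ) = (dedekindPsi N : ℚ) := by
    exact_mod_cast hidx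
  have h1' : (Module.finrank ℂ ↥(parabolicHoms ℂ (Gamma0 N) ℂ) : ℚ)
      = 2 * (Module.finrank ℂ (CuspForm (Gamma0 N) 2) : ℚ) := by
    exact_mod_cast h1
  have key : (Module.finrank ℂ ↥(parabolicHoms ℂ (Gamma0 N) ℂ) : ℚ)
      + (Nat.card (MulAction.orbitRel.Quotient (Subgroup.zpowers ModularGroup.S)
          (SL(2, ℤ) ⧸ Gamma0 N)) : ℚ)
      + (Nat.card (MulAction.orbitRel.Quotient
          (Subgroup.zpowers (ModularGroup.S * ModularGroup.T)) (SL(2, ℤ) ⧸ Gamma0 N)) : ℚ)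
      + (Nat.card (MulAction.orbitRel.Quotient (Subgroup.zpowers ModularGroup.T)
          (SL(2, ℤ) ⧸ Gamma0 N)) : ℚ)
      = ((Gamma0 N).index : ℚ) + 2 := by
    linarith
  exact_mod_cast key

/-- the map `(ℤ/n)^r → Small` -/
noncomputable def FA_S16_LR_g' (N : ℕ) [NeZero N] (n : ℕ)
    (c : Fin (FA_S16_LR_rank (FA_S16_LR_Gbar N)) → ZMod n) : ↥(FA_S16_LC_Small N (ZMod n)) :=
  ⟨FA_S16_LR_pull N (FA_S16_LR_g (FA_S16_LR_Gbar N) n c), FA_S16_LR_small N n _⟩

theorem FA_S16_LR_g'_injective (N : ℕ) [NeZero N] (n : ℕ) [NeZero n] :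
    Function.Injective (FA_S16_LR_g' N n) := by
  intro c c' h
  apply FA_S16_LR_g_injective (FA_S16_LR_Gbar N) n
  have h1 : FA_S16_LR_pull N (FA_S16_LR_g (FA_S16_LR_Gbar N) n c)
      = FA_S16_LR_pull N (FA_S16_LR_g (FA_S16_LR_Gbar N) n c') :=
    congrArg Subtype.val h
  refine AddMonoidHom.ext fun x => ?_
  obtain ⟨x, rfl⟩ := Additive.ofMul.surjective x
  obtain ⟨γ, rfl⟩ := QuotientGroup.mk_surjective x
  have h2 := congrArg (fun f : Additive ↥(Gamma0 N) →+ ZMod n => f (Additive.ofMul γ)) h1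
  simp only [FA_S16_LR_pull_apply] at h2
  exact h2

theorem FA_S16_LR_g'_surjective (N : ℕ) [NeZero N] (n : ℕ) [NeZero n] :
    Function.Surjective (FA_S16_LR_g' N n) := by
  obtain ⟨hfin, hle⟩ := FA_S16_LC_bound_Gamma0 N (ZMod n)
  have hnum := FA_S16_LR_numerics N
  have hrk := FA_S16_LR_finrank_parabolic_le N
  rw [Nat.card_zmod] at hle
  obtain ⟨o, ho⟩ : ∃ o : ℕ, o = Nat.card (MulAction.orbitRel.Quotient
          (Subgroup.zpowers ModularGroup.S) (SL(2, ℤ) ⧸ Gamma0 N))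
        + Nat.card (MulAction.orbitRel.Quotient
          (Subgroup.zpowers (ModularGroup.S * ModularGroup.T)) (SL(2, ℤ) ⧸ Gamma0 N))
        + Nat.card (MulAction.orbitRel.Quotient (Subgroup.zpowers ModularGroup.T)
          (SL(2, ℤ) ⧸ Gamma0 N)) := ⟨_, rfl⟩
  rw [← ho] at hle
  set e := Module.finrank ℂ ↥(parabolicHoms ℂ (Gamma0 N) ℂ) with he
  set r := FA_S16_LR_rank (FA_S16_LR_Gbar N) with hr
  have hnpos : 0 < n := Nat.pos_of_ne_zero (NeZero.ne n)
  have h1 : (Gamma0 N).index + 2 = e + o := by omega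
  have hle2 : Nat.card ↥(FA_S16_LC_Small N (ZMod n)) * n ^ o ≤ n ^ e * n ^ o := by
    rw [← pow_add, ← h1]
    exact hle
  have h2 : Nat.card ↥(FA_S16_LC_Small N (ZMod n)) ≤ n ^ e :=
    Nat.le_of_mul_le_mul_right hle2 (pow_pos hnpos o)
  have h3 : n ^ e ≤ n ^ r := Nat.pow_le_pow_right hnpos hrk
  have h4 : Nat.card (Fin r → ZMod n) = n ^ r := by
    rw [Nat.card_fun, Nat.card_zmod, Nat.card_fin]
  have hbij := (FA_S16_LR_g'_injective N n).bijective_of_nat_card_le (by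
    rw [h4]; exact le_trans h2 h3)
  exact hbij.2

/-- **The lifting theorem.** -/
theorem FA_S16_LS_lift : FA_S16_LS_Target_Lift := by
  intro N _ n _ ψ hψ
  obtain ⟨c, hc⟩ := FA_S16_LR_g'_surjective N n ⟨ψ, hψ⟩
  have hc' : FA_S16_LR_pull N (FA_S16_LR_g (FA_S16_LR_Gbar N) n c) = ψ :=
    congrArg Subtype.val hc
  refine ⟨FA_S16_LR_pull N (∑ i, ((c i).cast : ℤ) • FA_S16_LR_basis (FA_S16_LR_Gbar N) i),
    FA_S16_LR_pull_parabolic N _, fun γ => ?_⟩
  rw [← hc']
  rfl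

end FA_S16
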