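import Fermat.Agent.S16.LShimDefs
import Fermat.Agent.S16.LShimEigen
import Fermat.Agent.S16.LShimLift
import Fermat.Agent.S23

/-!
# S16 (L) via the Shimura homomorphism: the main reduction

`FA_S16_LS_main_of : FA_S16_LS_Target_Period → ∀ p, FA_S16_Target_LAlg p`.

A Hecke polynomial `Q` killing the integral lattice kills `S₂(Γ₀(p))`, so (Period) a word `a`
mapping to `Q` kills the parabolic homomorphisms `Γ₀(p) → ℂ`, in particular the complexification
of the integral lift `ψ'` (Lift) of the Shimura homomorphism `ψ` (Eigen); hence it kills `ψ'` and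
`ψ`.  But it acts on `ψ` by the scalar `ε(Q)`, and `ψ` is onto `ℤ/n`: `n ∣ ε(Q)`.
-/

set_option autoImplicit false

namespace FA_S16

open ModularCurve ModularCurve.Period CuspForm CongruenceSubgroup FA_S22
open P2MW.S_ModularForm_heckeT_slash_eq_self_of_mem_Gamma0.ModularForm.HeckeSlashInvariance
open scoped MatrixGroups

/-- with trivial coefficients, the abstract Hecke operators commute with additive maps -/
theorem FA_S16_LM_coc_comp (N : ℕ) {I : Type} [Fintype I] (α : I → GL (Fin 2) ℝ)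
    (hex : ∀ i (γ : ↥(Gamma0 N)), ∃ j, ∃ γ' : ↥(Gamma0 N),
      α i * FA_S22_phi N γ = FA_S22_phi N γ' * α j)
    {A B : Type*} [AddCommGroup A] [AddCommGroup B] (g : A →+ B) (c : ↥(Gamma0 N) → A) :
    FA_S22_heckeCocHom (FA_S22_phi N) α hex (FA_S16_LS_triv B) (fun γ => g (c γ))
      = fun γ => g (FA_S22_heckeCocHom (FA_S22_phi N) α hex (FA_S16_LS_triv A) c γ) := by
  funext γ
  show FA_S22_heckeCoc (FA_S22_phi N) α hex (FA_S16_LS_triv B) (fun γ => g (c γ)) γ
    = g (FA_S22_heckeCoc (FA_S22_phi N) α hex (FA_S16_LS_triv A) c γ)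
  simp only [FA_S22_heckeCoc_apply, FA_S16_LS_triv, AddMonoidHom.id_apply, map_sum]

/-- with trivial coefficients, the Hecke operators commute with additive maps -/
theorem FA_S16_LM_hecke_comp (N : ℕ) [NeZero N] {A B : Type*} [AddCommGroup A] [AddCommGroup B]
    (g : A →+ B) (ℓ : Nat.Primes) (c : ↥(Gamma0 N) → A) :
    FA_S16_LS_hecke N B ℓ (fun γ => g (c γ)) = fun γ => g (FA_S16_LS_hecke N A ℓ c γ) := by
  by_cases h : (ℓ : ℕ) ∣ N
  · have : NeZero (ℓ : ℕ) := ⟨ℓ.2.ne_zero⟩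
    simp only [FA_S16_LS_hecke, dif_pos h]
    exact FA_S16_LM_coc_comp N (FA_S22_alphaU (ℓ : ℕ)) (FA_S22_hexU N (ℓ : ℕ) h) g c
  · have : Fact (ℓ : ℕ).Prime := ⟨ℓ.2⟩
    simp only [FA_S16_LS_hecke, dif_neg h]
    exact FA_S16_LM_coc_comp N (heckeRep (ℓ : ℕ)) (FA_S22_hexT N (ℓ : ℕ) h) g c

/-- functoriality of the action of Hecke words in the coefficients -/
theorem FA_S16_LM_rho_comp (N : ℕ) [NeZero N] {A B : Type*} [AddCommGroup A] [AddCommGroup B]
    (g : A →+ B) (a : FreeAlgebra ℤ Nat.Primes) (c : ↥(Gamma0 N) → A) :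
    FA_S16_LS_rho N B a (fun γ => g (c γ)) = fun γ => g (FA_S16_LS_rho N A a c γ) := by
  induction a using FreeAlgebra.induction generalizing c with
  | grade0 r =>
    simp only [AlgHom.commutes, Module.algebraMap_end_apply]
    funext γ
    simp only [Pi.smul_apply, map_zsmul]
  | grade1 ℓ =>
    simp only [FA_S16_LS_rho, FreeAlgebra.lift_ι_apply]
    exact FA_S16_LM_hecke_comp N g ℓ c
  | mul a b ha hb =>
    simp only [map_mul, Module.End.mul_apply]
    rw [hb, ha]
  | add a b ha hb =>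
    simp only [map_add, LinearMap.add_apply]
    rw [ha, hb]
    funext γ
    simp only [Pi.add_apply, map_add]

/-- an eigenvector for the generators is an eigenvector for all words -/
theorem FA_S16_LM_eigen_word (N : ℕ) [NeZero N] {A : Type*} [AddCommGroup A]
    (c : ↥(Gamma0 N) → A)
    (hc : ∀ ℓ : Nat.Primes, FA_S16_LS_hecke N A ℓ c = (eisensteinSystem N ℓ) • c)
    (a : FreeAlgebra ℤ Nat.Primes) :
    FA_S16_LS_rho N A a c = (FA_S16_LS_eis N a) • c := by
  induction a using FreeAlgebra.induction with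
  | grade0 r =>
    simp only [AlgHom.commutes, Module.algebraMap_end_apply]
    rfl
  | grade1 ℓ =>
    simp only [FA_S16_LS_rho, FA_S16_LS_eis, FreeAlgebra.lift_ι_apply]
    exact hc ℓ
  | mul a b ha hb =>
    rw [map_mul, map_mul, Module.End.mul_apply, hb, map_zsmul, ha, smul_smul, mul_comm]
  | add a b ha hb =>
    rw [map_add, map_add, LinearMap.add_apply, ha, hb, add_smul]

/-- the projection from the free algebra to the polynomial ring -/
noncomputable def FA_S16_LM_pi : FreeAlgebra ℤ Nat.Primes →ₐ[ℤ] MvPolynomial Nat.Primes ℤ :=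
  FreeAlgebra.lift ℤ MvPolynomial.X

theorem FA_S16_LM_pi_surjective : Function.Surjective FA_S16_LM_pi := by
  rw [← AlgHom.range_eq_top, eq_top_iff, ← MvPolynomial.adjoin_range_X]
  apply Algebra.adjoin_le
  rintro _ ⟨ℓ, rfl⟩
  exact ⟨FreeAlgebra.ι ℤ ℓ, by simp [FA_S16_LM_pi]⟩

theorem FA_S16_LM_eis_pi (N : ℕ) (a : FreeAlgebra ℤ Nat.Primes) :
    MvPolynomial.aeval (eisensteinSystem N) (FA_S16_LM_pi a) = FA_S16_LS_eis N a := by
  have : (MvPolynomial.aeval (eisensteinSystem N)).comp FA_S16_LM_pi = FA_S16_LS_eis N := by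
    apply FreeAlgebra.hom_ext
    funext ℓ
    simp [FA_S16_LM_pi, FA_S16_LS_eis]
  exact AlgHom.congr_fun this a

theorem FA_S16_LM_rhoV_pi (N : ℕ) [NeZero N] (a : FreeAlgebra ℤ Nat.Primes) :
    ((heckeEvalForms N 2 (FA_S16_LM_pi a) : heckeAlgebra N 2 ∅) :
      Module.End ℂ (CuspForm (Gamma0 N) 2)) = FA_S16_LS_rhoV N a := by
  have : ((heckeAlgebra N 2 ∅).val.comp (MvPolynomial.aeval (heckeFormsGen N 2))).comp
      FA_S16_LM_pi = FA_S16_LS_rhoV N := by
    apply FreeAlgebra.hom_ext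
    funext ℓ
    simp [FA_S16_LM_pi, FA_S16_LS_rhoV]
  exact AlgHom.congr_fun this a

theorem FA_S16_LM_numerator_ne_zero (p : ℕ) [Fact p.Prime] : eisensteinNumerator p ≠ 0 := by
  have hp := (Fact.out : p.Prime).two_le
  unfold eisensteinNumerator
  have hd : Nat.gcd (p - 1) 12 ∣ p - 1 := Nat.gcd_dvd_left _ _
  have hpos : 0 < Nat.gcd (p - 1) 12 := Nat.gcd_pos_of_pos_right _ (by norm_num)
  have : 0 < (p - 1) / Nat.gcd (p - 1) 12 :=
    Nat.div_pos (Nat.le_of_dvd (by omega) hd) hpos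
  omega

/-- **S16 (L)** from the three leaves. -/
theorem FA_S16_LS_main_of (hP : FA_S16_LS_Target_Period) (p : ℕ) [Fact p.Prime] :
    FA_S16_Target_LAlg p := by
  intro Q hQ
  have hn : NeZero (eisensteinNumerator p) := ⟨FA_S16_LM_numerator_ne_zero p⟩
  have h0 : heckeEvalForms p 2 Q = 0 := by
    apply latticeRestrict_injective p ∅ (Fermat.Agent.S23.result p)
    have := congrArg Subtype.val hQ
    exact this
  obtain ⟨a, rfl⟩ := FA_S16_LM_pi_surjective Q
  rw [FA_S16_LM_eis_pi]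
  have hV : FA_S16_LS_rhoV p a = 0 := by
    rw [← FA_S16_LM_rhoV_pi, h0]
    rfl
  obtain ⟨ψ, hsurj, hkill, heig⟩ := FA_S16_LS_eigen p
  obtain ⟨ψ', hpar, hlift⟩ := FA_S16_LS_lift p (eisensteinNumerator p) ψ hkill
  have hparC : (Int.castAddHom ℂ).comp ψ' ∈ parabolicHoms ℂ (Gamma0 p) ℂ := by
    intro γ hγ
    show ((ψ' (Additive.ofMul γ) : ℤ) : ℂ) = 0
    rw [hpar γ hγ]
    simp
  have h1 := hP p a hV _ hparC
  have h2 : FA_S16_LS_rho p ℤ a (fun γ => ψ' (Additive.ofMul γ)) = 0 := by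
    have h3 := FA_S16_LM_rho_comp p (Int.castAddHom ℂ) a (fun γ => ψ' (Additive.ofMul γ))
    funext γ
    have h4 := congrFun h3 γ
    have h5 := congrFun h1 γ
    have h6 : ((FA_S16_LS_rho p ℤ a (fun γ => ψ' (Additive.ofMul γ)) γ : ℤ) : ℂ) = 0 := by
      have : (Int.castAddHom ℂ) (FA_S16_LS_rho p ℤ a (fun γ => ψ' (Additive.ofMul γ)) γ) = 0 := by
        rw [← h4]
        exact h5
      exact this
    exact_mod_cast h6
  have h7 : FA_S16_LS_rho p (ZMod (eisensteinNumerator p)) a (fun γ => ψ (Additive.ofMul γ))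
      = 0 := by
    have h3 := FA_S16_LM_rho_comp p (Int.castAddHom (ZMod (eisensteinNumerator p))) a
      (fun γ => ψ' (Additive.ofMul γ))
    have e : (fun γ : ↥(Gamma0 p) => (Int.castAddHom (ZMod (eisensteinNumerator p)))
        (ψ' (Additive.ofMul γ))) = fun γ => ψ (Additive.ofMul γ) := funext fun γ => hlift γ
    rw [e] at h3
    rw [h3, h2]
    funext γ
    simp
  have h8 := FA_S16_LM_eigen_word p (fun γ => ψ (Additive.ofMul γ)) (fun ℓ => by
    rw [heig ℓ]
    funext γ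
    simp [zsmul_eq_mul]) a
  rw [h7] at h8
  obtain ⟨x, hx⟩ := hsurj 1
  have h9 := congrFun h8 (Additive.toMul x)
  simp only [Pi.zero_apply, Pi.smul_apply, ofMul_toMul, hx, zsmul_eq_mul, mul_one] at h9
  exact (ZMod.intCast_zmod_eq_zero_iff_dvd _ _).1 h9.symm

end FA_S16
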