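import Mathlib

/-!
# S16 §0, step A (pure algebra)

For a surjective ring hom `φ : R → T` and a ring hom `ε : R → ℤ`, the quotient
`T ⧸ φ(ker ε)` is `ℤ/m`, where `m ℤ = ε (ker φ)`.
-/

set_option autoImplicit false

namespace FA_S16

/-- The ring hom `T → ZMod m`, `φ P ↦ ε P mod m`. -/
noncomputable def FA_S16_Red_psi {R T : Type*} [CommRing R] [CommRing T] (φ : R →+* T)
    (hφ : Function.Surjective φ) (ε : R →+* ℤ) (m : ℕ)
    (h1 : ∀ Q, φ Q = 0 → (m : ℤ) ∣ ε Q) : T →+* ZMod m :=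
  RingHom.liftOfSurjective φ hφ ⟨(Int.castRingHom (ZMod m)).comp ε, fun Q hQ => by
    rw [RingHom.mem_ker] at hQ ⊢
    rw [RingHom.comp_apply, eq_intCast, ZMod.intCast_zmod_eq_zero_iff_dvd]
    exact h1 Q hQ⟩

theorem FA_S16_Red_psi_apply {R T : Type*} [CommRing R] [CommRing T] (φ : R →+* T)
    (hφ : Function.Surjective φ) (ε : R →+* ℤ) (m : ℕ)
    (h1 : ∀ Q, φ Q = 0 → (m : ℤ) ∣ ε Q) (P : R) :
    FA_S16_Red_psi φ hφ ε m h1 (φ P) = ((ε P : ℤ) : ZMod m) := by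
  unfold FA_S16_Red_psi
  rw [RingHom.liftOfRightInverse_comp_apply]
  simp

theorem FA_S16_Red_psi_surjective {R T : Type*} [CommRing R] [CommRing T] (φ : R →+* T)
    (hφ : Function.Surjective φ) (ε : R →+* ℤ) (m : ℕ)
    (h1 : ∀ Q, φ Q = 0 → (m : ℤ) ∣ ε Q) :
    Function.Surjective (FA_S16_Red_psi φ hφ ε m h1) := by
  intro x
  obtain ⟨a, rfl⟩ := ZMod.intCast_surjective x
  refine ⟨φ (a : R), ?_⟩
  rw [FA_S16_Red_psi_apply, map_intCast]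
  simp

theorem FA_S16_Red_ker {R T : Type*} [CommRing R] [CommRing T] (φ : R →+* T)
    (hφ : Function.Surjective φ) (ε : R →+* ℤ) (m : ℕ)
    (h1 : ∀ Q, φ Q = 0 → (m : ℤ) ∣ ε Q) (h2 : ∃ Q, φ Q = 0 ∧ ε Q = m) :
    RingHom.ker (FA_S16_Red_psi φ hφ ε m h1) = Ideal.map φ (RingHom.ker ε) := by
  obtain ⟨Q₀, hQ₀, hQ₀'⟩ := h2
  ext t
  rw [RingHom.mem_ker, Ideal.mem_map_iff_of_surjective φ hφ]
  constructor
  · intro ht
    obtain ⟨P, rfl⟩ := hφ t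
    rw [FA_S16_Red_psi_apply, ZMod.intCast_zmod_eq_zero_iff_dvd] at ht
    obtain ⟨c, hc⟩ := ht
    refine ⟨P - (c : R) * Q₀, ?_, ?_⟩
    · rw [RingHom.mem_ker, map_sub, map_mul, map_intCast, hQ₀', hc]
      simp [mul_comm]
    · rw [map_sub, map_mul, hQ₀, mul_zero, sub_zero]
  · rintro ⟨P, hP, rfl⟩
    rw [FA_S16_Red_psi_apply, RingHom.mem_ker.mp hP]
    simp

/-- **Step A.** -/
theorem FA_S16_Red_card {R T : Type*} [CommRing R] [CommRing T] (φ : R →+* T)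
    (hφ : Function.Surjective φ) (ε : R →+* ℤ) (m : ℕ)
    (h1 : ∀ Q, φ Q = 0 → (m : ℤ) ∣ ε Q) (h2 : ∃ Q, φ Q = 0 ∧ ε Q = m) :
    Nat.card (T ⧸ Ideal.map φ (RingHom.ker ε)) = m := by
  rw [← FA_S16_Red_ker φ hφ ε m h1 h2]
  rw [Nat.card_congr (RingHom.quotientKerEquivOfSurjective
    (FA_S16_Red_psi_surjective φ hφ ε m h1)).toEquiv]
  exact Nat.card_zmod m

end FA_S16
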