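import Mathlib
import Fermat.Agent.S16.RedSigma
import Fermat.Agent.S23.Coeff

/-!
# S16 §0: Hecke polynomials acting on cusp forms, the congruence relation, the polynomials `P_k`
-/

set_option autoImplicit false

namespace FA_S16

open ModularCurve CuspForm CongruenceSubgroup ModularFormClass

variable (p : ℕ) [Fact p.Prime]

/-- The operator on cusp forms attached to a Hecke polynomial. -/
noncomputable def FA_S16_Red_op : HeckeAlg →+* Module.End ℂ (CuspForm (Gamma0 p) 2) :=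
  (heckeAlgebra p 2 ∅).val.toRingHom.comp (heckeEvalForms p 2)

theorem FA_S16_Red_op_apply (Q : HeckeAlg) :
    FA_S16_Red_op p Q = ((heckeEvalForms p 2 Q : heckeAlgebra p 2 ∅) :
      Module.End ℂ (CuspForm (Gamma0 p) 2)) := rfl

theorem FA_S16_Red_op_X_of_not_dvd (ℓ : Nat.Primes) (h : ¬ (ℓ : ℕ) ∣ p) :
    FA_S16_Red_op p (MvPolynomial.X ℓ) = heckeTLin 2 ℓ.2 h := by
  rw [FA_S16_Red_op_apply]
  have := heckeEvalForms_heckeGen_of_not_dvd (N := p) (k := 2) h
  rw [heckeGen] at this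
  rw [this]
  rfl

theorem FA_S16_Red_op_X_of_dvd (ℓ : Nat.Primes) (h : (ℓ : ℕ) ∣ p) :
    FA_S16_Red_op p (MvPolynomial.X ℓ) = heckeULin 2 h := by
  rw [FA_S16_Red_op_apply]
  have := heckeEvalForms_heckeGen_of_dvd (N := p) (k := 2) h
  rw [heckeGen] at this
  rw [this]
  rfl

theorem FA_S16_Red_op_C (a : ℤ) (g : CuspForm (Gamma0 p) 2) :
    FA_S16_Red_op p (MvPolynomial.C a) g = a • g := by
  rw [FA_S16_Red_op_apply, heckeEvalForms_C]
  simp

/-- The value of `φ Q` on the lattice is the value of `op Q`. -/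
theorem FA_S16_Red_phi_apply (Q : HeckeAlg) (f : ↥(intLattice p 2)) :
    ((((latticeRestrictHom p ∅).toRingHom.comp (heckeEvalForms p 2)) Q :
      ↥(heckeLatticeAlgebra p ∅)) : Module.End ℤ ↥(intLattice p 2)) f
      = ⟨FA_S16_Red_op p Q f.1, mem_intLattice_of_mem_heckeAlgebra one_le_two
          (heckeEvalForms p 2 Q).2 f.2⟩ := rfl

/-- `g ≡ c · E'` modulo `M` (coefficients `k ≥ 1`). -/
def FA_S16_Red_Cong (M : ℕ) (g : CuspForm (Gamma0 p) 2) (c : ℤ) : Prop :=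
  ∀ k, 1 ≤ k → ∃ a : ℤ, qCoeff g k = (a : ℂ) ∧ (M : ℤ) ∣ a - c * FA_S16_sigmaP p k

variable {p}

theorem FA_S16_Red_Cong_add {M : ℕ} {g g' : CuspForm (Gamma0 p) 2} {c c' : ℤ}
    (h : FA_S16_Red_Cong p M g c) (h' : FA_S16_Red_Cong p M g' c') :
    FA_S16_Red_Cong p M (g + g') (c + c') := by
  intro k hk
  obtain ⟨a, ha, hd⟩ := h k hk
  obtain ⟨a', ha', hd'⟩ := h' k hk
  refine ⟨a + a', ?_, ?_⟩
  · have h1 := (FA_S23.FA_S23_coeffLin p k).map_add g g'
    simp only [FA_S23.FA_S23_coeffLin_apply] at h1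
    rw [h1, ha, ha']; push_cast; rfl
  · have e : a + a' - (c + c') * FA_S16_sigmaP p k
        = (a - c * FA_S16_sigmaP p k) + (a' - c' * FA_S16_sigmaP p k) := by ring
    rw [e]
    exact dvd_add hd hd'

theorem FA_S16_Red_Cong_zsmul {M : ℕ} {g : CuspForm (Gamma0 p) 2} {c : ℤ} (z : ℤ)
    (h : FA_S16_Red_Cong p M g c) : FA_S16_Red_Cong p M (z • g) (z * c) := by
  intro k hk
  obtain ⟨a, ha, hd⟩ := h k hk
  refine ⟨z * a, ?_, ?_⟩
  · have h1 := map_zsmul (FA_S23.FA_S23_coeffLin p k) z g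
    simp only [FA_S23.FA_S23_coeffLin_apply] at h1
    rw [h1, ha]; push_cast; simp
  · have e : z * a - z * c * FA_S16_sigmaP p k = z * (a - c * FA_S16_sigmaP p k) := by ring
    rw [e]
    exact Dvd.dvd.mul_left hd z

theorem FA_S16_Red_Cong_T {M : ℕ} {g : CuspForm (Gamma0 p) 2} {c : ℤ}
    (ℓ : Nat.Primes) (hℓ : ¬ (ℓ : ℕ) ∣ p)
    (h : FA_S16_Red_Cong p M g c) :
    FA_S16_Red_Cong p M (heckeTLin 2 ℓ.2 hℓ g) ((1 + (ℓ : ℕ)) * c) := by
  have hp : p.Prime := Fact.out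
  have hne : (ℓ : ℕ) ≠ p := fun h => hℓ (h ▸ dvd_rfl)
  intro k hk
  have hkℓ : 1 ≤ k * ℓ := Nat.mul_pos hk ℓ.2.pos
  obtain ⟨a, ha, hd⟩ := h (k * ℓ) hkℓ
  have hrel := FA_S16_sigmaP_mul_prime hp ℓ.2 hne k (by omega)
  rw [FA_S23.FA_S23_qCoeff_heckeT p ℓ.2 hℓ g k]
  by_cases hdv : (ℓ : ℕ) ∣ k
  · have hk' : 1 ≤ k / ℓ := Nat.div_pos (Nat.le_of_dvd hk hdv) ℓ.2.pos
    obtain ⟨a', ha', hd'⟩ := h (k / ℓ) hk'
    rw [if_pos hdv] at hrel ⊢
    refine ⟨a + (ℓ : ℕ) * a', ?_, ?_⟩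
    · rw [ha, ha']; push_cast; rfl
    · have e : a + ((ℓ : ℕ) : ℤ) * a' - (1 + ((ℓ : ℕ) : ℤ)) * c * FA_S16_sigmaP p k
          = (a - c * FA_S16_sigmaP p (k * ℓ))
            + ((ℓ : ℕ) : ℤ) * (a' - c * FA_S16_sigmaP p (k / ℓ)) := by
        have : (1 + ((ℓ : ℕ) : ℤ)) * c * FA_S16_sigmaP p k
            = c * ((1 + ((ℓ : ℕ) : ℤ)) * FA_S16_sigmaP p k) := by ring
        rw [this, ← hrel]; ring
      rw [e]
      exact dvd_add hd (Dvd.dvd.mul_left hd' ((ℓ : ℕ) : ℤ))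
  · rw [if_neg hdv] at hrel ⊢
    refine ⟨a, ?_, ?_⟩
    · rw [ha]; simp
    · have e : a - (1 + ((ℓ : ℕ) : ℤ)) * c * FA_S16_sigmaP p k
          = a - c * FA_S16_sigmaP p (k * ℓ) := by
        have : (1 + ((ℓ : ℕ) : ℤ)) * c * FA_S16_sigmaP p k
            = c * ((1 + ((ℓ : ℕ) : ℤ)) * FA_S16_sigmaP p k) := by ring
        rw [this, ← hrel]; ring
      rw [e]
      exact hd

theorem FA_S16_Red_Cong_U {M : ℕ} {g : CuspForm (Gamma0 p) 2} {c : ℤ}
    (ℓ : Nat.Primes) (hℓ : (ℓ : ℕ) ∣ p)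
    (h : FA_S16_Red_Cong p M g c) :
    FA_S16_Red_Cong p M (heckeULin 2 hℓ g) c := by
  have hp : p.Prime := Fact.out
  have he : (ℓ : ℕ) = p := (Nat.prime_dvd_prime_iff_eq ℓ.2 hp).mp hℓ
  intro k hk
  have hkℓ : 1 ≤ k * ℓ := Nat.mul_pos hk ℓ.2.pos
  obtain ⟨a, ha, hd⟩ := h (k * ℓ) hkℓ
  rw [FA_S23.FA_S23_qCoeff_heckeU p ℓ.2 hℓ g k]
  refine ⟨a, ha, ?_⟩
  rw [he, FA_S16_sigmaP_mul_self hp] at hd
  exact hd

theorem FA_S16_Red_Cong_op {M : ℕ} (Q : HeckeAlg) :
    ∀ (g : CuspForm (Gamma0 p) 2) (c : ℤ), FA_S16_Red_Cong p M g c →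
      FA_S16_Red_Cong p M (FA_S16_Red_op p Q g)
        (MvPolynomial.aeval (eisensteinSystem p) Q * c) := by
  induction Q using MvPolynomial.induction_on with
  | C a =>
    intro g c h
    rw [FA_S16_Red_op_C, MvPolynomial.aeval_C]
    exact FA_S16_Red_Cong_zsmul a h
  | add P Q hP hQ =>
    intro g c h
    rw [map_add, map_add, LinearMap.add_apply, add_mul]
    exact FA_S16_Red_Cong_add (hP g c h) (hQ g c h)
  | mul_X P ℓ hP =>
    intro g c h
    rw [map_mul, map_mul, Module.End.mul_apply, MvPolynomial.aeval_X, mul_assoc]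
    apply hP
    by_cases hℓ : (ℓ : ℕ) ∣ p
    · rw [FA_S16_Red_op_X_of_dvd p ℓ hℓ, eisensteinSystem_of_dvd hℓ, one_mul]
      exact FA_S16_Red_Cong_U ℓ hℓ h
    · rw [FA_S16_Red_op_X_of_not_dvd p ℓ hℓ, eisensteinSystem_of_not_dvd hℓ]
      exact FA_S16_Red_Cong_T ℓ hℓ h

variable (p)

/-- **Step B**: the form version of (L) implies the algebraic version. -/
theorem FA_S16_Red_LAlg_of_LForm (h : FA_S16_Target_LForm p) : FA_S16_Target_LAlg p := by
  obtain ⟨f, a, ha, hcong⟩ := h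
  intro Q hQ
  have hfmem : f ∈ intLattice p 2 := Submodule.subset_span fun k => ⟨a k, ha k⟩
  have hcong' : FA_S16_Red_Cong p (eisensteinNumerator p) f 1 := by
    intro k hk
    exact ⟨a k, ha k, by simpa using hcong k hk⟩
  have h0 : FA_S16_Red_op p Q f = 0 := by
    have h1 := FA_S16_Red_phi_apply p Q ⟨f, hfmem⟩
    rw [hQ] at h1
    have h2 := congrArg Subtype.val h1
    simpa using h2.symm
  have h3 := FA_S16_Red_Cong_op (M := eisensteinNumerator p) Q f 1 hcong'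
  rw [h0] at h3
  obtain ⟨b, hb, hd⟩ := h3 1 le_rfl
  have hb0 : b = 0 := by
    have : ((b : ℤ) : ℂ) = 0 := by
      rw [← hb]
      exact (FA_S23.FA_S23_coeffLin p 1).map_zero
    exact_mod_cast this
  rw [hb0, FA_S16_sigmaP_one, mul_one, mul_one, zero_sub, dvd_neg] at hd
  exact hd

/-- The polynomials `P_k`: `a₁(P_k f) = a_k(f)` and `ε(P_k) = σ'(k)`. -/
theorem FA_S16_Red_exists_Pk (k : ℕ) (hk : 1 ≤ k) :
    ∃ P : HeckeAlg, (∀ f : CuspForm (Gamma0 p) 2,
        qCoeff (FA_S16_Red_op p P f) 1 = qCoeff f k) ∧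
      MvPolynomial.aeval (eisensteinSystem p) P = FA_S16_sigmaP p k := by
  have hp : p.Prime := Fact.out
  induction k using Nat.strong_induction_on with
  | _ n ih =>
    by_cases h1 : n = 1
    · subst h1
      refine ⟨1, fun f => by simp, ?_⟩
      rw [map_one, FA_S16_sigmaP_one]
    · have hq : n.minFac.Prime := Nat.minFac_prime h1
      have hdvd : n.minFac ∣ n := Nat.minFac_dvd n
      have hm : 1 ≤ n / n.minFac := Nat.div_pos (Nat.le_of_dvd hk hdvd) hq.pos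
      have hlt : n / n.minFac < n := Nat.div_lt_self hk hq.one_lt
      have hn' : n / n.minFac * n.minFac = n := Nat.div_mul_cancel hdvd
      obtain ⟨Pm, hPm, hPm'⟩ := ih _ hlt hm
      set ℓ : Nat.Primes := ⟨n.minFac, hq⟩ with hℓdef
      by_cases hpN : n.minFac ∣ p
      · have he : n.minFac = p := (Nat.prime_dvd_prime_iff_eq hq hp).mp hpN
        refine ⟨Pm * MvPolynomial.X ℓ, fun f => ?_, ?_⟩
        · rw [map_mul, Module.End.mul_apply, hPm, FA_S16_Red_op_X_of_dvd p ℓ hpN,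
            FA_S23.FA_S23_qCoeff_heckeU p hq hpN, hn']
        · rw [map_mul, MvPolynomial.aeval_X, hPm', eisensteinSystem_of_dvd (ℓ := ℓ) hpN, mul_one]
          have h5 := FA_S16_sigmaP_mul_self hp (n / n.minFac)
          have h6 : n / n.minFac * p = n := by rw [← he]; exact hn'
          rw [h6] at h5
          exact h5.symm
      · have hne : n.minFac ≠ p := fun h => hpN (h ▸ dvd_rfl)
        have hrel := FA_S16_sigmaP_mul_prime hp hq hne (n / n.minFac) (by omega)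
        rw [hn'] at hrel
        by_cases hpm : n.minFac ∣ n / n.minFac
        · have hm2 : 1 ≤ n / n.minFac / n.minFac :=
            Nat.div_pos (Nat.le_of_dvd hm hpm) hq.pos
          have hlt2 : n / n.minFac / n.minFac < n :=
            lt_of_le_of_lt (Nat.div_le_self _ _) hlt
          obtain ⟨Pm2, hPm2, hPm2'⟩ := ih _ hlt2 hm2
          rw [if_pos hpm] at hrel
          refine ⟨Pm * MvPolynomial.X ℓ - MvPolynomial.C (n.minFac : ℤ) * Pm2, fun f => ?_, ?_⟩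
          · rw [map_sub, map_mul, map_mul, LinearMap.sub_apply, Module.End.mul_apply,
              Module.End.mul_apply, FA_S16_Red_op_C,
              ← FA_S23.FA_S23_coeffLin_apply, map_sub, map_zsmul,
              FA_S23.FA_S23_coeffLin_apply, FA_S23.FA_S23_coeffLin_apply, hPm, hPm2,
              FA_S16_Red_op_X_of_not_dvd p ℓ hpN,
              FA_S23.FA_S23_qCoeff_heckeT p hq hpN, if_pos hpm, hn']
            simp
          · rw [map_sub, map_mul, map_mul, MvPolynomial.aeval_X, MvPolynomial.aeval_C, hPm',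
              hPm2', eisensteinSystem_of_not_dvd (ℓ := ℓ) hpN]
            simp only [algebraMap_int_eq, eq_intCast, Int.cast_id, hℓdef]
            linarith
        · rw [if_neg hpm, add_zero] at hrel
          refine ⟨Pm * MvPolynomial.X ℓ, fun f => ?_, ?_⟩
          · rw [map_mul, Module.End.mul_apply, hPm, FA_S16_Red_op_X_of_not_dvd p ℓ hpN,
              FA_S23.FA_S23_qCoeff_heckeT p hq hpN, if_neg hpm, hn', add_zero]
          · rw [map_mul, MvPolynomial.aeval_X, hPm', eisensteinSystem_of_not_dvd (ℓ := ℓ) hpN]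
            simp only [hℓdef]
            linarith

end FA_S16
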