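import Mathlib
import Fermat.Agent.S16.RedHecke

/-!
# S16 §0: the perfect pairing `(t, f) ↦ a₁(t f)` between `T` and the integral lattice
-/

set_option autoImplicit false

namespace FA_S16

open ModularCurve CuspForm CongruenceSubgroup ModularFormClass

variable (p : ℕ) [Fact p.Prime]

/-- The ring hom `φ : ℤ[X_ℓ] → T` of the statement of S16. -/
noncomputable abbrev FA_S16_Red_phi : HeckeAlg →+* ↥(heckeLatticeAlgebra p ∅) :=
  (latticeRestrictHom p ∅).toRingHom.comp (heckeEvalForms p 2)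

theorem FA_S16_Red_phi_val (Q : HeckeAlg) (f : ↥(intLattice p 2)) :
    ((((FA_S16_Red_phi p Q : ↥(heckeLatticeAlgebra p ∅)) :
      Module.End ℤ ↥(intLattice p 2)) f : ↥(intLattice p 2)) : CuspForm (Gamma0 p) 2)
      = FA_S16_Red_op p Q f.1 := rfl

theorem FA_S16_Red_int_coeff (f : ↥(intLattice p 2)) (k : ℕ) :
    ∃ a : ℤ, qCoeff (f : CuspForm (Gamma0 p) 2) k = (a : ℂ) := by
  obtain ⟨f, hf⟩ := f
  show ∃ a : ℤ, qCoeff f k = (a : ℂ)
  unfold intLattice at hf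
  induction hf using Submodule.span_induction with
  | mem x hx => exact hx k
  | zero => exact ⟨0, by rw [Int.cast_zero]; exact (FA_S23.FA_S23_coeffLin p k).map_zero⟩
  | add x y _ _ hx hy =>
    obtain ⟨a, ha⟩ := hx
    obtain ⟨b, hb⟩ := hy
    refine ⟨a + b, ?_⟩
    have h1 := (FA_S23.FA_S23_coeffLin p k).map_add x y
    simp only [FA_S23.FA_S23_coeffLin_apply] at h1
    rw [h1, ha, hb]; push_cast; rfl
  | smul z x _ hx =>
    obtain ⟨a, ha⟩ := hx
    refine ⟨z * a, ?_⟩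
    have h1 := map_zsmul (FA_S23.FA_S23_coeffLin p k) z x
    simp only [FA_S23.FA_S23_coeffLin_apply] at h1
    rw [h1, ha]; push_cast; simp

/-- The `k`-th coefficient as an integer. -/
noncomputable def FA_S16_Red_coeffZfun (k : ℕ) (f : ↥(intLattice p 2)) : ℤ :=
  ⌊(qCoeff (f : CuspForm (Gamma0 p) 2) k).re⌋

theorem FA_S16_Red_coeffZfun_spec (k : ℕ) (f : ↥(intLattice p 2)) :
    ((FA_S16_Red_coeffZfun p k f : ℤ) : ℂ) = qCoeff (f : CuspForm (Gamma0 p) 2) k := by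
  obtain ⟨a, ha⟩ := FA_S16_Red_int_coeff p f k
  unfold FA_S16_Red_coeffZfun
  rw [ha]
  simp

/-- The `k`-th coefficient as an integer-valued functional on the lattice. -/
noncomputable def FA_S16_Red_coeffZ (k : ℕ) : ↥(intLattice p 2) →ₗ[ℤ] ℤ where
  toFun f := FA_S16_Red_coeffZfun p k f
  map_add' f g := by
    have h1 := (FA_S23.FA_S23_coeffLin p k).map_add f.1 g.1
    simp only [FA_S23.FA_S23_coeffLin_apply] at h1
    have h2 : qCoeff ((f + g : ↥(intLattice p 2)) : CuspForm (Gamma0 p) 2) k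
        = qCoeff (f.1 + g.1 : CuspForm (Gamma0 p) 2) k := rfl
    have e : ((FA_S16_Red_coeffZfun p k (f + g) : ℤ) : ℂ)
        = ((FA_S16_Red_coeffZfun p k f + FA_S16_Red_coeffZfun p k g : ℤ) : ℂ) := by
      rw [FA_S16_Red_coeffZfun_spec, h2, h1, Int.cast_add, FA_S16_Red_coeffZfun_spec,
        FA_S16_Red_coeffZfun_spec]
    exact_mod_cast e
  map_smul' z f := by
    have h1 := map_zsmul (FA_S23.FA_S23_coeffLin p k) z f.1
    simp only [FA_S23.FA_S23_coeffLin_apply] at h1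
    have h2 : qCoeff ((z • f : ↥(intLattice p 2)) : CuspForm (Gamma0 p) 2) k
        = qCoeff (z • f.1 : CuspForm (Gamma0 p) 2) k := rfl
    have e : ((FA_S16_Red_coeffZfun p k (z • f) : ℤ) : ℂ)
        = ((z * FA_S16_Red_coeffZfun p k f : ℤ) : ℂ) := by
      rw [FA_S16_Red_coeffZfun_spec, h2, h1, Int.cast_mul, FA_S16_Red_coeffZfun_spec]
      simp
    simp only [RingHom.id_apply, smul_eq_mul]
    exact_mod_cast e

theorem FA_S16_Red_coeffZ_spec (k : ℕ) (f : ↥(intLattice p 2)) :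
    ((FA_S16_Red_coeffZ p k f : ℤ) : ℂ) = qCoeff (f : CuspForm (Gamma0 p) 2) k :=
  FA_S16_Red_coeffZfun_spec p k f

/-- `a_k(f) = a₁(φ(P_k) f)`. -/
theorem FA_S16_Red_coeffZ_Pk (k : ℕ) (P : HeckeAlg)
    (hP : ∀ f : CuspForm (Gamma0 p) 2, qCoeff (FA_S16_Red_op p P f) 1 = qCoeff f k)
    (f : ↥(intLattice p 2)) :
    FA_S16_Red_coeffZ p 1
      (((FA_S16_Red_phi p P : ↥(heckeLatticeAlgebra p ∅)) : Module.End ℤ ↥(intLattice p 2)) f)
      = FA_S16_Red_coeffZ p k f := by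
  have h1 := FA_S16_Red_coeffZ_spec p 1
    (((FA_S16_Red_phi p P : ↥(heckeLatticeAlgebra p ∅)) : Module.End ℤ ↥(intLattice p 2)) f)
  rw [FA_S16_Red_phi_val, hP f.1, ← FA_S16_Red_coeffZ_spec p k f] at h1
  exact_mod_cast h1

/-- (F1) -/
theorem FA_S16_Red_F1 (f : ↥(intLattice p 2))
    (h : ∀ t : ↥(heckeLatticeAlgebra p ∅),
      FA_S16_Red_coeffZ p 1 ((t : Module.End ℤ ↥(intLattice p 2)) f) = 0) : f = 0 := by
  apply Subtype.ext
  show (f : CuspForm (Gamma0 p) 2) = 0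
  apply (FA_S23.FA_S23_coeffLinear p).2.2
  intro k hk
  obtain ⟨P, hP, -⟩ := FA_S16_Red_exists_Pk p k hk
  have h1 := FA_S16_Red_coeffZ_Pk p k P hP f
  rw [h] at h1
  rw [← FA_S16_Red_coeffZ_spec p k f, ← h1]
  simp

/-- (F2) -/
theorem FA_S16_Red_F2 (t : ↥(heckeLatticeAlgebra p ∅))
    (h : ∀ f : ↥(intLattice p 2),
      FA_S16_Red_coeffZ p 1 ((t : Module.End ℤ ↥(intLattice p 2)) f) = 0) : t = 0 := by
  apply Subtype.ext
  apply LinearMap.ext
  intro f
  apply FA_S16_Red_F1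
  intro s
  have hcomm : ((s : Module.End ℤ ↥(intLattice p 2)) ((t : Module.End ℤ ↥(intLattice p 2)) f))
      = ((t : Module.End ℤ ↥(intLattice p 2)) ((s : Module.End ℤ ↥(intLattice p 2)) f)) := by
    have h1 : ((s * t : ↥(heckeLatticeAlgebra p ∅)) : Module.End ℤ ↥(intLattice p 2))
        = ((t * s : ↥(heckeLatticeAlgebra p ∅)) : Module.End ℤ ↥(intLattice p 2)) := by
      rw [mul_comm]
    have h2 := LinearMap.congr_fun h1 f
    exact h2
  rw [hcomm]
  exact h _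

end FA_S16
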