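import Mathlib
import Fermat.Agent.S16.RedDual

/-!
# S16 §0: perfectness of the pairing `(t, f) ↦ a₁(t f)`
-/

set_option autoImplicit false

namespace FA_S16

open ModularCurve CuspForm CongruenceSubgroup ModularFormClass

/-- Abstract step: a pairing of free `ℤ`-modules of finite rank which is non-degenerate on both
sides is surjective up to torsion. -/
theorem FA_S16_Red_perfect_abs {Λ T : Type*} [AddCommGroup Λ] [Module.Finite ℤ Λ]
    [Module.Free ℤ Λ] [AddCommGroup T] [Module.Finite ℤ T] [Module.Free ℤ T]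
    (B : Λ →ₗ[ℤ] T →ₗ[ℤ] ℤ) (hinjL : ∀ f, (∀ t, B f t = 0) → f = 0)
    (hinjT : ∀ t, (∀ f, B f t = 0) → t = 0) (g : T →ₗ[ℤ] ℤ) :
    ∃ c : ℤ, c ≠ 0 ∧ ∃ f : Λ, B f = c • g := by
  have hBinj : Function.Injective B := by
    rw [injective_iff_map_eq_zero]
    intro f hf
    exact hinjL f fun t => by rw [hf]; rfl
  have hBfinj : Function.Injective B.flip := by
    rw [injective_iff_map_eq_zero]
    intro t ht
    exact hinjT t fun f => by
      have := LinearMap.congr_fun ht f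
      simpa using this
  have h1 : Module.finrank ℤ T ≤ Module.finrank ℤ Λ := by
    have := LinearMap.finrank_le_finrank_of_injective hBfinj
    rwa [Module.finrank_linearMap_self] at this
  have h2 : Module.finrank ℤ (T →ₗ[ℤ] ℤ) ≤ Module.finrank ℤ Λ := by
    rwa [Module.finrank_linearMap_self]
  set b := Module.finBasis ℤ Λ with hb
  have hv : LinearIndependent ℤ (fun i => B (b i)) :=
    b.linearIndependent.map' B (LinearMap.ker_eq_bot.mpr hBinj)
  by_contra hcon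
  replace hcon : ∀ c : ℤ, c ≠ 0 → ∀ f : Λ, B f ≠ c • g := by
    intro c hc f hf
    exact hcon ⟨c, hc, f, hf⟩
  have hli : LinearIndependent ℤ (Fin.cons g (fun i => B (b i)) :
      Fin (Module.finrank ℤ Λ).succ → (T →ₗ[ℤ] ℤ)) := by
    apply LinearIndependent.finCons' g _ hv
    intro c y hy hcy
    by_contra hc
    have hy' : y ∈ LinearMap.range B := by
      have : Submodule.span ℤ (Set.range fun i => B (b i)) ≤ LinearMap.range B := by
        rw [Submodule.span_le]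
        rintro _ ⟨i, rfl⟩
        exact ⟨b i, rfl⟩
      exact this hy
    obtain ⟨f₀, rfl⟩ := hy'
    refine hcon c hc (-f₀) ?_
    have h3 : B f₀ = -(c • g) := by
      rw [eq_neg_iff_add_eq_zero, add_comm]; exact hcy
    rw [map_neg, h3, neg_neg]
  have := hli.fintype_card_le_finrank
  rw [Fintype.card_fin] at this
  omega

variable (p : ℕ) [Fact p.Prime]

/-- The pairing `B f t = a₁(t f)`. -/
noncomputable def FA_S16_Red_B :
    ↥(intLattice p 2) →ₗ[ℤ] ↥(heckeLatticeAlgebra p ∅) →ₗ[ℤ] ℤ :=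
  LinearMap.mk₂ ℤ
    (fun f t => FA_S16_Red_coeffZ p 1 ((t : Module.End ℤ ↥(intLattice p 2)) f))
    (fun f f' t => by rw [map_add, map_add])
    (fun c f t => by rw [map_smul, map_smul])
    (fun f t t' => by
      rw [Subalgebra.coe_add, LinearMap.add_apply, map_add])
    (fun c f t => by
      rw [Subalgebra.coe_smul, LinearMap.smul_apply, map_smul])

theorem FA_S16_Red_B_apply (f : ↥(intLattice p 2)) (t : ↥(heckeLatticeAlgebra p ∅)) :
    FA_S16_Red_B p f t = FA_S16_Red_coeffZ p 1 ((t : Module.End ℤ ↥(intLattice p 2)) f) := rfl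

theorem FA_S16_Red_dvd_coeff (g : ↥(heckeLatticeAlgebra p ∅) →ₗ[ℤ] ℤ) (c : ℤ)
    (f : ↥(intLattice p 2)) (hf : FA_S16_Red_B p f = c • g) :
    ∀ k, 1 ≤ k → ∃ a : ℤ, qCoeff (f : CuspForm (Gamma0 p) 2) k = (c : ℂ) * (a : ℂ) := by
  intro k hk
  obtain ⟨P, hP, -⟩ := FA_S16_Red_exists_Pk p k hk
  refine ⟨g (FA_S16_Red_phi p P), ?_⟩
  have h1 := FA_S16_Red_coeffZ_Pk p k P hP f
  rw [← FA_S16_Red_B_apply, hf] at h1
  rw [← FA_S16_Red_coeffZ_spec p k f, ← h1]
  simp

/-- Saturation of the integral lattice. -/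
theorem FA_S16_Red_saturated (c : ℤ) (hc : c ≠ 0) (f : ↥(intLattice p 2))
    (hk : ∀ k, 1 ≤ k → ∃ a : ℤ, qCoeff (f : CuspForm (Gamma0 p) 2) k = (c : ℂ) * (a : ℂ)) :
    ∃ F : ↥(intLattice p 2), c • F = f := by
  have hcC : (c : ℂ) ≠ 0 := by exact_mod_cast hc
  obtain ⟨G, hG⟩ : ∃ G : CuspForm (Gamma0 p) 2,
      G = ((c : ℂ)⁻¹) • (f : CuspForm (Gamma0 p) 2) := ⟨_, rfl⟩
  have hcG : (c : ℂ) • G = (f : CuspForm (Gamma0 p) 2) := by
    rw [hG, smul_smul, mul_inv_cancel₀ hcC, one_smul]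
  have hGmem : G ∈ intLattice p 2 := by
    apply Submodule.subset_span
    intro k
    rcases Nat.eq_zero_or_pos k with rfl | hkpos
    · exact ⟨0, by rw [Int.cast_zero]; exact (FA_S23.FA_S23_coeffLinear p).2.1 G⟩
    · obtain ⟨a, ha⟩ := hk k hkpos
      refine ⟨a, ?_⟩
      have h1 := (FA_S23.FA_S23_coeffLin p k).map_smul ((c : ℂ)⁻¹) (f : CuspForm (Gamma0 p) 2)
      simp only [FA_S23.FA_S23_coeffLin_apply] at h1
      rw [hG, h1, ha, smul_eq_mul, ← mul_assoc, inv_mul_cancel₀ hcC, one_mul]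
  refine ⟨⟨G, hGmem⟩, ?_⟩
  apply Subtype.ext
  show c • G = (f : CuspForm (Gamma0 p) 2)
  rw [← hcG]
  exact (Int.cast_smul_eq_zsmul ℂ c G).symm

theorem FA_S16_Red_duality_aux (g : ↥(heckeLatticeAlgebra p ∅) →ₗ[ℤ] ℤ) :
    ∃ c : ℤ, c ≠ 0 ∧ ∃ f : ↥(intLattice p 2), FA_S16_Red_B p f = c • g := by
  have := intLattice.moduleFinite p
  have := intLattice.moduleFree p
  exact FA_S16_Red_perfect_abs (FA_S16_Red_B p)
    (fun f h => FA_S16_Red_F1 p f h) (fun t h => FA_S16_Red_F2 p t h) g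

/-- **Duality**: every `ℤ`-linear functional on `T` is `t ↦ a₁(t f)` for some `f` in the
integral lattice. -/
theorem FA_S16_Red_duality (g : ↥(heckeLatticeAlgebra p ∅) →ₗ[ℤ] ℤ) :
    ∃ f : ↥(intLattice p 2), ∀ t : ↥(heckeLatticeAlgebra p ∅),
      FA_S16_Red_coeffZ p 1 ((t : Module.End ℤ ↥(intLattice p 2)) f) = g t := by
  obtain ⟨c, hc, f, hf⟩ := FA_S16_Red_duality_aux p g
  obtain ⟨F, hF⟩ := FA_S16_Red_saturated p c hc f (FA_S16_Red_dvd_coeff p g c f hf)
  refine ⟨F, fun t => ?_⟩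
  have h1 : FA_S16_Red_B p f t = (c • g) t := by rw [hf]
  rw [← hF, map_smul] at h1
  have h2 : c * FA_S16_Red_B p F t = c * g t := h1
  exact mul_left_cancel₀ hc h2

end FA_S16
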