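import Mathlib
import Fermat.Agent.S16.RedAlg
import Fermat.Agent.S16.RedPerfect

/-!
# S16 §0: assembly.  `FA_S16_Red_main : FA_S16_Target_LAlg p → FA_S16_Target_U p → S16 for p`
-/

set_option autoImplicit false

namespace FA_S16

open ModularCurve CuspForm CongruenceSubgroup ModularFormClass

variable (p : ℕ) [Fact p.Prime]

theorem FA_S16_Red_evalForms_surjective : Function.Surjective (heckeEvalForms p 2) := by
  have hp : p.Prime := Fact.out
  rintro ⟨x, hx⟩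
  unfold heckeAlgebra at hx
  induction hx using Algebra.adjoin_induction with
  | mem x hx =>
    rcases hx with ⟨ℓ, hℓ, hℓN, -, rfl⟩ | ⟨q, hqN, hq, -, rfl⟩
    · refine ⟨heckeGen ⟨ℓ, hℓ⟩, ?_⟩
      rw [heckeEvalForms_heckeGen_of_not_dvd (ℓ := ⟨ℓ, hℓ⟩) hℓN]
      rfl
    · refine ⟨heckeGen ⟨q, hq⟩, ?_⟩
      rw [heckeEvalForms_heckeGen_of_dvd (q := ⟨q, hq⟩) hqN]
      rfl
  | algebraMap r =>
    refine ⟨MvPolynomial.C r, ?_⟩
    rw [heckeEvalForms_C]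
    rfl
  | add x y hx hy ihx ihy =>
    obtain ⟨P, hP⟩ := ihx
    obtain ⟨Q, hQ⟩ := ihy
    refine ⟨P + Q, ?_⟩
    rw [map_add, hP, hQ]
    rfl
  | mul x y hx hy ihx ihy =>
    obtain ⟨P, hP⟩ := ihx
    obtain ⟨Q, hQ⟩ := ihy
    refine ⟨P * Q, ?_⟩
    rw [map_mul, hP, hQ]
    rfl

theorem FA_S16_Red_phi_surjective : Function.Surjective (FA_S16_Red_phi p) := by
  intro t
  obtain ⟨s, hs⟩ := latticeRestrictHom_surjective p ∅ t
  obtain ⟨P, hP⟩ := FA_S16_Red_evalForms_surjective p s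
  exact ⟨P, by rw [← hs, ← hP]; rfl⟩

/-- The Eisenstein character `ε : ℤ[X_ℓ] → ℤ`. -/
noncomputable abbrev FA_S16_Red_eps : HeckeAlg →+* ℤ :=
  (MvPolynomial.aeval (R := ℤ) (eisensteinSystem p)).toRingHom

theorem FA_S16_Red_eps_apply (Q : HeckeAlg) :
    FA_S16_Red_eps p Q = MvPolynomial.aeval (eisensteinSystem p) Q := rfl

theorem FA_S16_Red_eisensteinIdeal : eisensteinIdeal p = RingHom.ker (FA_S16_Red_eps p) := rfl

theorem FA_S16_Red_eps_surjective : Function.Surjective (FA_S16_Red_eps p) := fun z =>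
  ⟨MvPolynomial.C z, by rw [FA_S16_Red_eps_apply, MvPolynomial.aeval_C]; rfl⟩

theorem FA_S16_Red_numerator_pos : 0 < eisensteinNumerator p := by
  have hp : p.Prime := Fact.out
  unfold eisensteinNumerator
  have h1 : 0 < p - 1 := by have := hp.two_le; omega
  exact Nat.div_pos (Nat.le_of_dvd h1 (Nat.gcd_dvd_left _ _)) (Nat.gcd_pos_of_pos_left _ h1)

/-- Lifting a functional `T → ℤ/M` to `T → ℤ`. -/
theorem FA_S16_Red_lift (M : ℕ) (ψ : ↥(heckeLatticeAlgebra p ∅) →+* ZMod M) :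
    ∃ g : ↥(heckeLatticeAlgebra p ∅) →ₗ[ℤ] ℤ, ∀ t, ((g t : ℤ) : ZMod M) = ψ t := by
  obtain ⟨g, hg⟩ := Module.projective_lifting_property
    (Int.castAddHom (ZMod M)).toIntLinearMap ψ.toAddMonoidHom.toIntLinearMap
    (fun x => by
      obtain ⟨a, rfl⟩ := ZMod.intCast_surjective x
      exact ⟨a, rfl⟩)
  refine ⟨g, fun t => ?_⟩
  have := LinearMap.congr_fun hg t
  exact this

/-- The key step of the upper bound: if `ℓ^r` divides all `ε Q`, `Q ∈ ker φ`, then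
`ℓ^r ∣ n`. -/
theorem FA_S16_Red_key (hU : FA_S16_Target_U p) (ℓ r : ℕ) (hℓ : ℓ.Prime) (hr : 1 ≤ r)
    (h1 : ∀ Q, FA_S16_Red_phi p Q = 0 → ((ℓ ^ r : ℕ) : ℤ) ∣ FA_S16_Red_eps p Q) :
    ℓ ^ r ∣ eisensteinNumerator p := by
  obtain ⟨g, hg⟩ := FA_S16_Red_lift p (ℓ ^ r)
    (FA_S16_Red_psi (FA_S16_Red_phi p) (FA_S16_Red_phi_surjective p) (FA_S16_Red_eps p)
      (ℓ ^ r) h1)
  obtain ⟨f, hf⟩ := FA_S16_Red_duality p g
  refine hU ℓ r hℓ hr (f : CuspForm (Gamma0 p) 2) (fun k => FA_S16_Red_coeffZ p k f)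
    (fun k => (FA_S16_Red_coeffZ_spec p k f).symm) ?_
  intro k hk
  obtain ⟨P, hP, hP'⟩ := FA_S16_Red_exists_Pk p k hk
  have h2 := FA_S16_Red_coeffZ_Pk p k P hP f
  rw [hf] at h2
  have h3 := hg (FA_S16_Red_phi p P)
  rw [FA_S16_Red_psi_apply, FA_S16_Red_eps_apply, hP', h2] at h3
  have h4 := (ZMod.intCast_eq_intCast_iff_dvd_sub _ _ _).mp h3.symm
  exact h4

/-- **§0, main theorem**: S16 follows from `(L)` and `(U)`. -/
theorem FA_S16_Red_main (hL : FA_S16_Target_LAlg p) (hU : FA_S16_Target_U p) :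
    Nat.card (↥(heckeLatticeAlgebra p ∅) ⧸
        Ideal.map ((latticeRestrictHom p ∅).toRingHom.comp (heckeEvalForms p 2))
          (eisensteinIdeal p)) =
      eisensteinNumerator p := by
  rw [FA_S16_Red_eisensteinIdeal]
  apply FA_S16_Red_card (FA_S16_Red_phi p) (FA_S16_Red_phi_surjective p) (FA_S16_Red_eps p)
    (eisensteinNumerator p) hL
  -- the ideal `ε (ker φ)` of `ℤ`
  set J : Ideal ℤ := Ideal.map (FA_S16_Red_eps p) (RingHom.ker (FA_S16_Red_phi p)) with hJ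
  have hJmem : ∀ z : ℤ, z ∈ J ↔ ∃ Q, FA_S16_Red_phi p Q = 0 ∧ FA_S16_Red_eps p Q = z := by
    intro z
    rw [hJ, Ideal.mem_map_iff_of_surjective _ (FA_S16_Red_eps_surjective p)]
    simp only [RingHom.mem_ker]
  have hgen : Ideal.span {Submodule.IsPrincipal.generator J} = J :=
    Ideal.span_singleton_generator J
  set m : ℕ := (Submodule.IsPrincipal.generator J).natAbs with hm
  have hspan : Ideal.span {(m : ℤ)} = J := by
    rw [hm, Int.span_natAbs, hgen]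
  have hm_mem : (m : ℤ) ∈ J := by
    rw [← hspan]; exact Ideal.mem_span_singleton_self _
  have hm_dvd : ∀ Q, FA_S16_Red_phi p Q = 0 → (m : ℤ) ∣ FA_S16_Red_eps p Q := by
    intro Q hQ
    have : FA_S16_Red_eps p Q ∈ J := (hJmem _).mpr ⟨Q, hQ, rfl⟩
    rwa [← hspan, Ideal.mem_span_singleton] at this
  obtain ⟨Q₀, hQ₀, hQ₀'⟩ := (hJmem _).mp hm_mem
  have hnm : eisensteinNumerator p ∣ m := by
    have := hL Q₀ hQ₀
    rw [← FA_S16_Red_eps_apply, hQ₀'] at this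
    exact_mod_cast this
  have hkey : ∀ ℓ r : ℕ, ℓ.Prime → 1 ≤ r → ℓ ^ r ∣ m → ℓ ^ r ∣ eisensteinNumerator p := by
    intro ℓ r hℓ hr hdiv
    apply FA_S16_Red_key p hU ℓ r hℓ hr
    intro Q hQ
    exact dvd_trans (by exact_mod_cast hdiv) (hm_dvd Q hQ)
  have hmn : m ∣ eisensteinNumerator p := by
    rw [Nat.dvd_iff_prime_pow_dvd_dvd]
    intro q k hq hqk
    rcases Nat.eq_zero_or_pos k with rfl | hk
    · simp
    · exact hkey q k hq hk hqk
  have hmeq : m = eisensteinNumerator p := Nat.dvd_antisymm hmn hnm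
  exact ⟨Q₀, hQ₀, by rw [hQ₀', hmeq]⟩

end FA_S16
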