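import Mathlib
import Fermat.Prelude.Thm_ModularForm_sturm_bound_Gamma0
import Fermat.Prelude.Thm_CongruenceSubgroup_one_mem_strictPeriods_Gamma0

/-!
# S16, leaf UGLUE (part 1): `S₂(Γ₀(p)) = 0` for `p ∈ {2, 3}` (Sturm bound, index `≤ p + 1`)
-/

set_option autoImplicit false

namespace FA_S16

open ModularForm ModularFormClass UpperHalfPlane CongruenceSubgroup MatrixGroups

/-- The index of `Γ₀(p)` in `SL(2, ℤ)` is at most `p + 1`. -/
theorem FA_S16_uGlue_index_le (p : ℕ) [Fact p.Prime] : (Gamma0 p).index ≤ p + 1 := by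
  classical
  let ψ : SL(2, ℤ) ⧸ Gamma0 p → Option (ZMod p) := fun q =>
    if ((q.out 1 0 : ℤ) : ZMod p) = 0 then none
    else some (((q.out 0 0 : ℤ) : ZMod p) * (((q.out 1 0 : ℤ) : ZMod p))⁻¹)
  have hψ : Function.Injective ψ := by
    intro q q' h
    have hrel : -((q.out 1 0 : ℤ) : ZMod p) * ((q'.out 0 0 : ℤ) : ZMod p)
        + ((q.out 0 0 : ℤ) : ZMod p) * ((q'.out 1 0 : ℤ) : ZMod p) = 0 := by
      simp only [ψ] at h
      by_cases hc : ((q.out 1 0 : ℤ) : ZMod p) = 0
      · rw [if_pos hc] at h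
        by_cases hc' : ((q'.out 1 0 : ℤ) : ZMod p) = 0
        · rw [hc, hc']; ring
        · rw [if_neg hc'] at h
          exact absurd h (by simp)
      · rw [if_neg hc] at h
        by_cases hc' : ((q'.out 1 0 : ℤ) : ZMod p) = 0
        · rw [if_pos hc'] at h
          exact absurd h (by simp)
        · rw [if_neg hc'] at h
          have h2 := Option.some.inj h
          have h3 : ((q.out 0 0 : ℤ) : ZMod p) * ((q'.out 1 0 : ℤ) : ZMod p)
              = ((q'.out 0 0 : ℤ) : ZMod p) * ((q.out 1 0 : ℤ) : ZMod p) := by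
            field_simp at h2
            rw [h2]; ring
          rw [h3]; ring
    have key : (q.out)⁻¹ * q'.out ∈ Gamma0 p := by
      rw [Gamma0_mem]
      have hinv := Matrix.SpecialLinearGroup.SL2_inv_expl q.out
      have hmul : ((q.out)⁻¹ * q'.out : SL(2, ℤ)) 1 0
          = - (q.out 1 0) * (q'.out 0 0) + (q.out 0 0) * (q'.out 1 0) := by
        rw [Matrix.SpecialLinearGroup.coe_mul, hinv]
        rw [(Matrix.two_mul_expl _ _).2.2.1]
        simp
      rw [hmul]
      push_cast
      exact hrel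
    have := (QuotientGroup.eq (s := Gamma0 p)).mpr key
    rwa [QuotientGroup.out_eq', QuotientGroup.out_eq'] at this
  have hcard : Nat.card (SL(2, ℤ) ⧸ Gamma0 p) ≤ Nat.card (Option (ZMod p)) :=
    Nat.card_le_card_of_injective ψ hψ
  have h4 : Nat.card (Option (ZMod p)) = p + 1 := by
    rw [Nat.card_eq_fintype_card, Fintype.card_option, ZMod.card]
  rw [h4] at hcard
  exact hcard

/-- `S₂(Γ₀(p)) = 0` for `p < 5`. -/
theorem FA_S16_uGlue_small (p : ℕ) [Fact p.Prime] (hp : p < 5)
    (f : CuspForm (Gamma0 p) 2) : f = 0 := by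
  have hpp : p.Prime := Fact.out
  have : NeZero p := ⟨hpp.ne_zero⟩
  have hidx := FA_S16_uGlue_index_le p
  have h1 : (1 : ℝ) ∈ (Gamma0 p : Subgroup (GL (Fin 2) ℝ)).strictPeriods :=
    CongruenceSubgroup.one_mem_strictPeriods_Gamma0 p
  have hF : (CuspForm.toModularFormₗ f : ModularForm (Gamma0 p) 2) = 0 := by
    apply ModularForm.sturm_bound_Gamma0 p
    intro n hn
    have hb : ((2 : ℤ) * ((Gamma0 p).index : ℤ)).toNat / 12 = 0 := by
      have : ((2 : ℤ) * ((Gamma0 p).index : ℤ)).toNat = 2 * (Gamma0 p).index := by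
        have : (2 : ℤ) * ((Gamma0 p).index : ℤ) = ((2 * (Gamma0 p).index : ℕ) : ℤ) := by
          push_cast; ring
        rw [this, Int.toNat_natCast]
      rw [this]
      omega
    rw [hb] at hn
    have hn0 : n = 0 := Nat.le_zero.mp hn
    subst hn0
    exact CuspFormClass.qExpansion_coeff_zero f one_pos h1
  have hinj := CuspForm.toModularFormₗ_injective
    (Γ := (Gamma0 p : Subgroup (GL (Fin 2) ℝ))) (k := 2)
  apply hinj
  rw [hF, _root_.map_zero]

end FA_S16
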