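import Mathlib
import Fermat.Agent.S16.UInterface
import Fermat.Agent.S16.UGlueSmall

/-!
# S16, leaf UGLUE: the six cases give `(U)`

Given a cusp form `f ≡ E' mod ℓ^r`, `H = (E_p^* + 24 f) / (1 - p)` has constant term `1` and
`a_k(H) = -24 ℓ^r u_k / (p - 1)`.  If `ℓ^r ∤ n = (p-1)/gcd(p-1,12)`, then `H ≡ 1 mod ℓ^e` with `e`
as in the six cases.
-/

set_option autoImplicit false

noncomputable section

namespace FA_S16

open ModularForm ModularFormClass UpperHalfPlane CongruenceSubgroup MatrixGroups EisensteinSeries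
open scoped ArithmeticFunction.sigma

/-- The arithmetic core: `24 ℓ^r u / (1 - p) = ℓ^e x` with `x` an `ℓ`-integral rational. -/
theorem FA_S16_uGlue_isInt (ℓ e r v N' D : ℕ) (u : ℤ) (hℓ : ℓ ≠ 0) (hN' : ¬ ℓ ∣ N')
    (hD : 24 * ℓ ^ r = ℓ ^ (v + e) * D) (c : ℂ) (hc : c = -((ℓ : ℂ) ^ v * (N' : ℂ))) :
    ∃ x : ℂ, FA_S16_IsInt ℓ x ∧ c⁻¹ * (24 * ((ℓ : ℂ) ^ r * (u : ℂ))) = (ℓ : ℂ) ^ e * x := by
  have hN'0 : N' ≠ 0 := by rintro rfl; exact hN' (dvd_zero _)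
  have hℓC : (ℓ : ℂ) ≠ 0 := by exact_mod_cast hℓ
  have hN'C : (N' : ℂ) ≠ 0 := by exact_mod_cast hN'0
  refine ⟨((-(D : ℤ) * u : ℤ) : ℂ) / (N' : ℂ), ⟨-(D : ℤ) * u, N', hN', rfl⟩, ?_⟩
  have hDC : (24 : ℂ) * (ℓ : ℂ) ^ r = (ℓ : ℂ) ^ (v + e) * (D : ℂ) := by
    exact_mod_cast congrArg (Nat.cast : ℕ → ℂ) hD
  have hne : c ≠ 0 := by
    rw [hc]
    exact neg_ne_zero.mpr (mul_ne_zero (pow_ne_zero _ hℓC) hN'C)
  rw [inv_mul_eq_div, ← mul_div_assoc, div_eq_div_iff hne hN'C, hc]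
  push_cast
  rw [pow_add] at hDC
  linear_combination ((u : ℂ) * (N' : ℂ)) * hDC

/-- One case: a cusp form `f ≡ E' mod ℓ^r` contradicts `Case p ℓ e` as soon as
`ℓ^(v_ℓ(p-1) + e) ∣ 24 ℓ^r`. -/
theorem FA_S16_uGlue_case (hEis : FA_S16_Target_AnEis) (p ℓ e r : ℕ) [Fact p.Prime]
    (hℓ : ℓ.Prime) (hdiv : ℓ ^ ((p - 1).factorization ℓ + e) ∣ 24 * ℓ ^ r)
    (hcase : FA_S16_Target_Case p ℓ e)
    (f : CuspForm (Gamma0 p) 2) (a : ℕ → ℤ)
    (ha : ∀ k, ModularFormClass.qCoeff f k = (a k : ℂ))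
    (hcong : ∀ k, 1 ≤ k → ((ℓ ^ r : ℕ) : ℤ) ∣ a k - FA_S16_sigmaP p k) : False := by
  have hp : p.Prime := Fact.out
  have : NeZero p := ⟨hp.ne_zero⟩
  obtain ⟨E, hE0, hEk⟩ := hEis p
  have hΓ : (1 : ℝ) ∈ (Gamma0 p : Subgroup (GL (Fin 2) ℝ)).strictPeriods :=
    CongruenceSubgroup.one_mem_strictPeriods_Gamma0 p
  obtain ⟨D, hD⟩ := hdiv
  have hN0 : p - 1 ≠ 0 := by have := hp.two_le; omega
  have hNfac : ℓ ^ (p - 1).factorization ℓ * ordCompl[ℓ] (p - 1) = p - 1 :=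
    Nat.ordProj_mul_ordCompl_eq_self (p - 1) ℓ
  have hN' : ¬ ℓ ∣ ordCompl[ℓ] (p - 1) := Nat.not_dvd_ordCompl hℓ hN0
  have hc : (1 - (p : ℂ))
      = -((ℓ : ℂ) ^ (p - 1).factorization ℓ * ((ordCompl[ℓ] (p - 1) : ℕ) : ℂ)) := by
    have h1 : ((p - 1 : ℕ) : ℂ) = (p : ℂ) - 1 := by
      rw [Nat.cast_sub hp.one_lt.le]; simp
    have h2 := congrArg (Nat.cast : ℕ → ℂ) hNfac
    push_cast at h2
    rw [h2, h1]; ring
  -- the form `H`
  let F : ModularForm (Gamma0 p) 2 := CuspForm.toModularFormₗ f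
  let H : ModularForm (Gamma0 p) 2 := ((1 - (p : ℂ))⁻¹) • (E + (24 : ℂ) • F)
  have hqF : qExpansion 1 F = qExpansion 1 f := rfl
  have hqH : qExpansion 1 H
      = ((1 - (p : ℂ))⁻¹) • (qExpansion 1 E + (24 : ℂ) • qExpansion 1 f) := by
    have h1 : qExpansion 1 H = ((1 - (p : ℂ))⁻¹) • qExpansion 1 (E + (24 : ℂ) • F) :=
      ModularForm.qExpansion_smul one_pos hΓ _ (E + (24 : ℂ) • F)
    have h2 : qExpansion 1 (E + (24 : ℂ) • F) = qExpansion 1 E + qExpansion 1 ((24 : ℂ) • F) :=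
      ModularForm.qExpansion_add one_pos hΓ E ((24 : ℂ) • F)
    have h3 : qExpansion 1 ((24 : ℂ) • F) = (24 : ℂ) • qExpansion 1 F :=
      ModularForm.qExpansion_smul one_pos hΓ _ F
    rw [h1, h2, h3, hqF]
  have hf0 : PowerSeries.coeff 0 (qExpansion 1 f) = 0 :=
    CuspFormClass.qExpansion_coeff_zero f one_pos hΓ
  have hp1 : (1 - (p : ℂ)) ≠ 0 := by
    have : (p : ℂ) ≠ 1 := by exact_mod_cast hp.one_lt.ne'
    exact sub_ne_zero.mpr (Ne.symm this)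
  apply hcase H
  · rw [hqH]
    simp only [map_smul, map_add, smul_eq_mul, hE0, hf0, mul_zero, add_zero]
    exact inv_mul_cancel₀ hp1
  · intro k hk
    obtain ⟨u, hu⟩ := hcong k hk
    have hak : PowerSeries.coeff k (qExpansion 1 f) = (a k : ℂ) := ha k
    have hco : PowerSeries.coeff k (qExpansion 1 H)
        = (1 - (p : ℂ))⁻¹ * (24 * ((ℓ : ℂ) ^ r * (u : ℂ))) := by
      rw [hqH]
      simp only [map_smul, map_add, smul_eq_mul, hEk k hk, hak]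
      have hu' : (a k : ℂ) = (FA_S16_sigmaP p k : ℂ) + (ℓ : ℂ) ^ r * (u : ℂ) := by
        have := congrArg (Int.cast : ℤ → ℂ) hu
        push_cast at this
        linear_combination this
      rw [hu']
      ring
    rw [hco]
    exact FA_S16_uGlue_isInt ℓ e r _ _ D u hℓ.ne_zero hN' hD _ hc

end FA_S16
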