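import Mathlib
import Fermat.Agent.S16.UGlue

/-!
# S16, leaf UGLUE: `FA_S16_uGlue : FA_S16_Target_UGlue`
-/

set_option autoImplicit false

noncomputable section

namespace FA_S16

open ModularForm ModularFormClass UpperHalfPlane CongruenceSubgroup MatrixGroups EisensteinSeries
open ModularCurve

theorem FA_S16_uGlue_sigmaP_one (p : ℕ) : FA_S16_sigmaP p 1 = 1 := by
  simp [FA_S16_sigmaP]

/-- `v_ℓ(p - 1) < r + t` if `ℓ^r ∤ n` and `v_ℓ(12) ≤ t`. -/
theorem FA_S16_uGlue_fact (p ℓ r : ℕ) (hp2 : 2 ≤ p) (hℓ : ℓ.Prime)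
    (hnd : ¬ ℓ ^ r ∣ eisensteinNumerator p) (t : ℕ) (ht : ∀ k, ℓ ^ k ∣ 12 → k ≤ t) :
    (p - 1).factorization ℓ < r + t := by
  have hN0 : p - 1 ≠ 0 := by omega
  have hg0 : Nat.gcd (p - 1) 12 ≠ 0 := Nat.gcd_ne_zero_right (by norm_num)
  have hgN : Nat.gcd (p - 1) 12 ∣ p - 1 := Nat.gcd_dvd_left _ _
  have hg12 : Nat.gcd (p - 1) 12 ∣ 12 := Nat.gcd_dvd_right _ _
  have hn0 : eisensteinNumerator p ≠ 0 := by
    unfold eisensteinNumerator
    exact (Nat.div_pos (Nat.le_of_dvd (by omega) hgN) (Nat.pos_of_ne_zero hg0)).ne'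
  have h1 : (eisensteinNumerator p).factorization ℓ < r := by
    by_contra h
    exact hnd ((hℓ.pow_dvd_iff_le_factorization hn0).mpr (not_lt.mp h))
  have h2 : (eisensteinNumerator p).factorization ℓ
      = (p - 1).factorization ℓ - (Nat.gcd (p - 1) 12).factorization ℓ := by
    unfold eisensteinNumerator
    rw [Nat.factorization_div hgN]
    rfl
  have h3 : (Nat.gcd (p - 1) 12).factorization ℓ ≤ t := by
    apply ht
    exact dvd_trans ((hℓ.pow_dvd_iff_le_factorization hg0).mpr le_rfl) hg12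
  omega

theorem FA_S16_uGlue_fact_lt (N ℓ s : ℕ) (hN0 : N ≠ 0) (hℓ : ℓ.Prime) (h : ¬ ℓ ^ s ∣ N) :
    N.factorization ℓ < s := by
  by_contra hcon
  exact h ((hℓ.pow_dvd_iff_le_factorization hN0).mpr (not_lt.mp hcon))

/-- **UGLUE**. -/
theorem FA_S16_uGlue : FA_S16_Target_UGlue := by
  intro hEis hE5 hEp hE3a hE3b hE2a hE2b p _ ℓ r hℓ hr f a ha hcong
  have hp : p.Prime := Fact.out
  by_cases hp5 : p < 5
  · exfalso
    have hf0 := FA_S16_uGlue_small p hp5 f
    have ha1 : (a 1 : ℂ) = 0 := by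
      rw [← ha 1, hf0]
      show PowerSeries.coeff 1 (qExpansion 1 ((0 : CuspForm (Gamma0 p) 2) : ℍ → ℂ)) = 0
      rw [FunLike.coe_zero, qExpansion_zero]
      simp
    have ha1' : a 1 = 0 := by exact_mod_cast ha1
    have h1 := hcong 1 le_rfl
    rw [ha1', FA_S16_uGlue_sigmaP_one] at h1
    have h2 : ((ℓ ^ r : ℕ) : ℤ) ∣ 1 := by
      have := (dvd_neg (a := ((ℓ ^ r : ℕ) : ℤ)) (b := (0 : ℤ) - 1)).mpr h1
      simpa using this
    have h3 : ℓ ^ r ∣ 1 := by exact_mod_cast h2
    have h4 : ℓ ^ r = 1 := Nat.dvd_one.mp h3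
    have h5 : 2 ≤ ℓ ^ r := le_trans hℓ.two_le (Nat.le_self_pow (by omega) ℓ)
    omega
  · replace hp5 : 5 ≤ p := not_lt.mp hp5
    by_contra hnd
    have hN0 : p - 1 ≠ 0 := by omega
    rcases Nat.lt_or_ge ℓ 5 with hℓ5 | hℓ5
    · have hℓ23 : ℓ = 2 ∨ ℓ = 3 := by
        interval_cases ℓ
        · exact absurd hℓ (by norm_num)
        · exact absurd hℓ (by norm_num)
        · exact Or.inl rfl
        · exact Or.inr rfl
        · exact absurd hℓ (by norm_num)
      rcases hℓ23 with rfl | rfl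
      · -- ℓ = 2
        have hv := FA_S16_uGlue_fact p 2 r hp.two_le hℓ hnd 2 (by
          intro k hk
          by_contra hcon
          have h8 : 2 ^ 3 ∣ 12 := dvd_trans (pow_dvd_pow 2 (by omega)) hk
          norm_num at h8)
        have hodd : p % 2 = 1 := by
          rcases hp.eq_two_or_odd with h | h
          · omega
          · exact h
        have hp4 : p % 4 = 1 ∨ p % 4 = 3 := by omega
        rcases hp4 with h4 | h4
        · -- e = 2
          refine FA_S16_uGlue_case hEis p 2 2 r hℓ ?_ (hE2a p hp h4) f a ha hcong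
          have : 2 ^ ((p - 1).factorization 2 + 2) ∣ 2 ^ (r + 3) := pow_dvd_pow 2 (by omega)
          have e : 24 * 2 ^ r = 3 * 2 ^ (r + 3) := by rw [pow_add]; ring
          rw [e]
          exact Dvd.dvd.mul_left this 3
        · -- e = 3
          have hv1 : (p - 1).factorization 2 < 2 := by
            apply FA_S16_uGlue_fact_lt _ _ _ hN0 hℓ
            intro hd
            have : (4 : ℕ) ∣ p - 1 := by simpa using hd
            omega
          refine FA_S16_uGlue_case hEis p 2 3 r hℓ ?_ (hE2b p hp hp5 h4) f a ha hcong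
          have : 2 ^ ((p - 1).factorization 2 + 3) ∣ 2 ^ (r + 3) := pow_dvd_pow 2 (by omega)
          have e : 24 * 2 ^ r = 3 * 2 ^ (r + 3) := by rw [pow_add]; ring
          rw [e]
          exact Dvd.dvd.mul_left this 3
      · -- ℓ = 3
        have hv := FA_S16_uGlue_fact p 3 r hp.two_le hℓ hnd 1 (by
          intro k hk
          by_contra hcon
          have h9 : 3 ^ 2 ∣ 12 := dvd_trans (pow_dvd_pow 3 (by omega)) hk
          norm_num at h9)
        have hp3 : p % 3 = 1 ∨ p % 3 = 2 := by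
          have h3 : ¬ 3 ∣ p := by
            intro hd
            have := (Nat.prime_dvd_prime_iff_eq (by norm_num) hp).mp hd
            omega
          omega
        rcases hp3 with h3 | h3
        · -- e = 1
          refine FA_S16_uGlue_case hEis p 3 1 r hℓ ?_ (hE3a p hp h3) f a ha hcong
          have : 3 ^ ((p - 1).factorization 3 + 1) ∣ 3 ^ (r + 1) := pow_dvd_pow 3 (by omega)
          have e : 24 * 3 ^ r = 8 * 3 ^ (r + 1) := by rw [pow_add]; ring
          rw [e]
          exact Dvd.dvd.mul_left this 8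
        · -- e = 2
          have hv0 : (p - 1).factorization 3 < 1 := by
            apply FA_S16_uGlue_fact_lt _ _ _ hN0 hℓ
            intro hd
            have : (3 : ℕ) ∣ p - 1 := by simpa using hd
            omega
          refine FA_S16_uGlue_case hEis p 3 2 r hℓ ?_ (hE3b p hp hp5 h3) f a ha hcong
          have : 3 ^ ((p - 1).factorization 3 + 2) ∣ 3 ^ (r + 1) := pow_dvd_pow 3 (by omega)
          have e : 24 * 3 ^ r = 8 * 3 ^ (r + 1) := by rw [pow_add]; ring
          rw [e]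
          exact Dvd.dvd.mul_left this 8
    · -- ℓ ≥ 5
      have hv := FA_S16_uGlue_fact p ℓ r hp.two_le hℓ hnd 0 (by
        intro k hk
        by_contra hcon
        have hℓ12 : ℓ ∣ 12 := dvd_trans (dvd_pow_self ℓ (by omega)) hk
        have hle : ℓ ≤ 12 := Nat.le_of_dvd (by norm_num) hℓ12
        interval_cases ℓ <;> first | omega | exact absurd hℓ (by norm_num))
      have hdiv : ℓ ^ ((p - 1).factorization ℓ + 1) ∣ 24 * ℓ ^ r :=
        Dvd.dvd.mul_left (pow_dvd_pow ℓ (by omega)) 24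
      by_cases hℓp : ℓ = p
      · subst hℓp
        exact FA_S16_uGlue_case hEis ℓ ℓ 1 r hℓ hdiv (hEp ℓ hp hp5) f a ha hcong
      · exact FA_S16_uGlue_case hEis p ℓ 1 r hℓ hdiv (hE5 p ℓ hp hℓ hp5 hℓ5 hℓp) f a ha hcong

end FA_S16
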