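import Mathlib
import Fermat.Agent.S16.RedFinal
import Fermat.Agent.S16.LShimMain
import Fermat.Agent.S16.UGlueFinal
import Fermat.Agent.S16.AnSym
import Fermat.Agent.S16.AnT1
import Fermat.Agent.S16.AnRing
import Fermat.Agent.S16.AnL1
import Fermat.Agent.S16.AnQ
import Fermat.Agent.S16.AnEisQ
import Fermat.Agent.S16.E5Final
import Fermat.Agent.S16.E3aMain
import Fermat.Agent.S16.C2bFinal

/-!
# S16: final assembly (conditional on the leaves still open)

`FA_S16_final_of : Period → AlgUnit → AlgT2 → E3b → S16`.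
-/

set_option autoImplicit false

open ModularCurve CuspForm

namespace FA_S16

/-- All analytic leaves. -/
theorem FA_S16_an : FA_S16_An :=
  ⟨_root_.FA_S16_anSym, _root_.FA_S16_anT1, FA_S16_anRing, FA_S16_anL1, FA_S16_anQ⟩

/-- (U) from the leaves still open. -/
theorem FA_S16_U_of (hAU : FA_S16_Target_AlgUnit) (hT2 : FA_S16_Target_AlgT2)
    (hE3b : FA_S16_Target_E3b) (p : ℕ) [Fact p.Prime] : FA_S16_Target_U p :=
  FA_S16_uGlue FA_S16_anEis (FA_S16_e5_of FA_S16_an) (FA_S16_ep_of FA_S16_an)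
    (FA_S16_E3a_of FA_S16_an hAU hT2) hE3b (FA_S16_E2a_of FA_S16_an hAU hT2) FA_S16_e2b p

/-- **S16** from the leaves still open. -/
theorem FA_S16_final_of (hP : FA_S16_LS_Target_Period) (hAU : FA_S16_Target_AlgUnit)
    (hT2 : FA_S16_Target_AlgT2) (hE3b : FA_S16_Target_E3b) (p : ℕ) [Fact p.Prime] :
    Nat.card (↥(heckeLatticeAlgebra p ∅) ⧸
        Ideal.map ((latticeRestrictHom p ∅).toRingHom.comp (heckeEvalForms p 2))
          (eisensteinIdeal p)) =
      eisensteinNumerator p :=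
  FA_S16_Red_main p (FA_S16_LS_main_of hP p) (FA_S16_U_of hAU hT2 hE3b p)

end FA_S16
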