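import Fermat.Agent.S16.LShimPeriodB
import Fermat.Agent.S16.LShimMain

/-!
# S16 (L): the lower bound via the Shimura homomorphism, assembled

`FA_S16_LS_lAlg p : FA_S16_Target_LAlg p`, from (Period) `FA_S16_LS_period` and
`FA_S16_LS_main_of`.
-/

set_option autoImplicit false

namespace FA_S16

/-- **(L)**, closed form. -/
theorem FA_S16_LS_lAlg (p : ℕ) [Fact p.Prime] : FA_S16_Target_LAlg p :=
  FA_S16_LS_main_of FA_S16_LS_period p

end FA_S16
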