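import Mathlib
import Fermat.Agent.S21.BoundCocycle

/-!
# S16 (L), counting, part A: the cocycle of a character with values in an abelian group

`H ≤ G`, `X = G ⧸ H`, `ψ : H → R` additive.  `Z_ψ(g)(x) = ψ(r(g x)⁻¹ g r(x))`,
`Z'(g)(x) = Z_ψ(g)(x) + v(g x) - v(x)`.
-/

set_option autoImplicit false

namespace FA_S16

open Fermat.Agent.S21

section Generic

variable {G : Type*} [Group G] {X : Type*} [MulAction G X] {R : Type*} [AddCommGroup R]

theorem FA_S16_LC_coc_one (Z : G → X → R)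
    (hZ : ∀ g h x, Z (g * h) x = Z g (h • x) + Z h x) (x : X) : Z 1 x = 0 := by
  have := hZ 1 1 x
  simp only [mul_one, one_smul] at this
  have h2 : Z 1 x + Z 1 x = Z 1 x + 0 := by rw [add_zero]; exact this.symm
  exact add_left_cancel h2

theorem FA_S16_LC_coc_inv (Z : G → X → R)
    (hZ : ∀ g h x, Z (g * h) x = Z g (h • x) + Z h x) (g : G) (x : X) :
    Z g⁻¹ x = -Z g (g⁻¹ • x) := by
  have h1 := hZ g g⁻¹ x
  rw [mul_inv_cancel, FA_S16_LC_coc_one Z hZ] at h1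
  exact eq_neg_of_add_eq_zero_right h1.symm

theorem FA_S16_LC_coc_vanish (Z : G → X → R)
    (hZ : ∀ g h x, Z (g * h) x = Z g (h • x) + Z h x) (S : Set G)
    (hS : Subgroup.closure S = ⊤) (h0 : ∀ g ∈ S, ∀ x, Z g x = 0) (g : G) (x : X) :
    Z g x = 0 := by
  let K : Subgroup G :=
    { carrier := {g | ∀ x, Z g x = 0}
      mul_mem' := by
        intro a b ha hb x
        rw [hZ, ha, hb, add_zero]
      one_mem' := FA_S16_LC_coc_one Z hZ
      inv_mem' := by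
        intro a ha x
        rw [FA_S16_LC_coc_inv Z hZ, ha, neg_zero] }
  have hK : Subgroup.closure S ≤ K := (Subgroup.closure_le K).mpr h0
  rw [hS] at hK
  exact hK (Subgroup.mem_top g) x

theorem FA_S16_LC_coc_pow (Z : G → X → R)
    (hZ : ∀ g h x, Z (g * h) x = Z g (h • x) + Z h x) (g : G) (m : ℕ) (x : X) :
    Z (g ^ m) x = ∑ i ∈ Finset.range m, Z g (g ^ i • x) := by
  induction m generalizing x with
  | zero => simp [FA_S16_LC_coc_one Z hZ]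
  | succ m ih =>
    rw [pow_succ, hZ, ih, Finset.sum_range_succ']
    simp only [pow_zero, one_smul, pow_succ, mul_smul]

end Generic

section Z

variable {G : Type*} [Group G] {H : Subgroup G} {R : Type*} [AddCommGroup R]

/-- The cocycle `Z_ψ(g)(x) = ψ(c(g, x))`. -/
noncomputable def FA_S16_LC_Z (ψ : Additive H →+ R) (g : G) (x : G ⧸ H) : R :=
  ψ (Additive.ofMul (FA_S21_cEl H g x))

theorem FA_S16_LC_Z_mul (ψ : Additive H →+ R) (g h : G) (x : G ⧸ H) :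
    FA_S16_LC_Z ψ (g * h) x = FA_S16_LC_Z ψ g (h • x) + FA_S16_LC_Z ψ h x := by
  unfold FA_S16_LC_Z
  rw [FA_S21_cEl_mul, ofMul_mul, map_add]

theorem FA_S16_LC_Z_add (ψ ψ' : Additive H →+ R) (g : G) (x : G ⧸ H) :
    FA_S16_LC_Z (ψ + ψ') g x = FA_S16_LC_Z ψ g x + FA_S16_LC_Z ψ' g x := rfl

theorem FA_S16_LC_Z_zero (g : G) (x : G ⧸ H) :
    FA_S16_LC_Z (0 : Additive H →+ R) g x = 0 := rfl

/-- On `H` and at the base point the cocycle is `ψ`. -/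
theorem FA_S16_LC_Z_base (ψ : Additive H →+ R) (h : H) :
    FA_S16_LC_Z ψ (h : G) ((1 : G) : G ⧸ H) = ψ (Additive.ofMul h) := by
  have hx : (h : G) • (((1 : G) : G ⧸ H)) = ((1 : G) : G ⧸ H) := by
    rw [MulAction.Quotient.smul_coe, smul_eq_mul, mul_one, QuotientGroup.eq]
    simp
  have hr : (((1 : G) : G ⧸ H)).out ∈ H := by
    have h1 : (((((1 : G) : G ⧸ H)).out : G) : G ⧸ H) = ((1 : G) : G ⧸ H) :=
      QuotientGroup.out_eq' _
    rw [QuotientGroup.eq] at h1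
    have h2 := H.inv_mem h1
    simpa using h2
  set r : H := ⟨_, hr⟩ with hrdef
  have h3 : FA_S21_cEl H (h : G) ((1 : G) : G ⧸ H) = r⁻¹ * h * r := by
    apply Subtype.ext
    rw [FA_S21_cEl_of_fix H _ _ hx]
    simp [hrdef]
  unfold FA_S16_LC_Z
  rw [h3, ofMul_mul, ofMul_mul, map_add, map_add, ofMul_inv, map_neg]
  abel

/-- The hypothesis: `ψ` kills the elements of `H` conjugate to a power of `g`. -/
def FA_S16_LC_Kills (ψ : Additive H →+ R) (g : G) : Prop :=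
  ∀ (r : G) (k : ℕ) (h : r⁻¹ * g ^ k * r ∈ H), ψ (Additive.ofMul ⟨_, h⟩) = 0

theorem FA_S16_LC_Z_pow_fix (ψ : Additive H →+ R) (g : G) (hψ : FA_S16_LC_Kills ψ g)
    (m : ℕ) (x : G ⧸ H) (hfix : g ^ m • x = x) : FA_S16_LC_Z ψ (g ^ m) x = 0 := by
  have hmem : x.out⁻¹ * g ^ m * x.out ∈ H := by
    have := (FA_S21_cEl H (g ^ m) x).2
    rwa [FA_S21_cEl_of_fix H _ _ hfix] at this
  have h1 : FA_S21_cEl H (g ^ m) x = ⟨x.out⁻¹ * g ^ m * x.out, hmem⟩ :=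
    Subtype.ext (FA_S21_cEl_of_fix H _ _ hfix)
  unfold FA_S16_LC_Z
  rw [h1]
  exact hψ _ _ hmem

/-- The twisted cocycle `Z'(g)(x) = Z_ψ(g)(x) + v(g x) - v(x)`. -/
noncomputable def FA_S16_LC_Z' (ψ : Additive H →+ R) (v : G ⧸ H → R) (g : G) (x : G ⧸ H) : R :=
  FA_S16_LC_Z ψ g x + (v (g • x) - v x)

theorem FA_S16_LC_Z'_mul (ψ : Additive H →+ R) (v : G ⧸ H → R) (g h : G) (x : G ⧸ H) :
    FA_S16_LC_Z' ψ v (g * h) x = FA_S16_LC_Z' ψ v g (h • x) + FA_S16_LC_Z' ψ v h x := by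
  unfold FA_S16_LC_Z'
  rw [FA_S16_LC_Z_mul, mul_smul]
  abel

theorem FA_S16_LC_Z'_add (ψ ψ' : Additive H →+ R) (v v' : G ⧸ H → R) (g : G) (x : G ⧸ H) :
    FA_S16_LC_Z' (ψ + ψ') (v + v') g x = FA_S16_LC_Z' ψ v g x + FA_S16_LC_Z' ψ' v' g x := by
  unfold FA_S16_LC_Z'
  rw [FA_S16_LC_Z_add]
  simp only [Pi.add_apply]
  abel

theorem FA_S16_LC_Z'_pow_fix (ψ : Additive H →+ R) (v : G ⧸ H → R) (g : G)
    (hψ : FA_S16_LC_Kills ψ g) (m : ℕ) (x : G ⧸ H) (hfix : g ^ m • x = x) :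
    ∑ i ∈ Finset.range m, FA_S16_LC_Z' ψ v g (g ^ i • x) = 0 := by
  rw [← FA_S16_LC_coc_pow (FA_S16_LC_Z' ψ v) (FA_S16_LC_Z'_mul ψ v) g m x]
  unfold FA_S16_LC_Z'
  rw [hfix, FA_S16_LC_Z_pow_fix ψ g hψ m x hfix]
  abel

/-- If the twisted cocycle vanishes on generators then `ψ = 0` and `v` is constant. -/
theorem FA_S16_LC_Z'_eq_zero (ψ : Additive H →+ R) (v : G ⧸ H → R) (S : Set G)
    (hS : Subgroup.closure S = ⊤) (h0 : ∀ g ∈ S, ∀ x, FA_S16_LC_Z' ψ v g x = 0) :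
    ψ = 0 ∧ ∀ x, v x = v ((1 : G) : G ⧸ H) := by
  have hall : ∀ g x, FA_S16_LC_Z' ψ v g x = 0 :=
    FA_S16_LC_coc_vanish (FA_S16_LC_Z' ψ v) (FA_S16_LC_Z'_mul ψ v) S hS h0
  have hψ0 : ψ = 0 := by
    refine AddMonoidHom.ext fun h => ?_
    obtain ⟨h, rfl⟩ : ∃ h' : H, Additive.ofMul h' = h := ⟨Additive.toMul h, rfl⟩
    have e1 := hall (h : G) ((1 : G) : G ⧸ H)
    unfold FA_S16_LC_Z' at e1
    rw [FA_S16_LC_Z_base] at e1
    have hx : (h : G) • (((1 : G) : G ⧸ H)) = ((1 : G) : G ⧸ H) := by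
      rw [MulAction.Quotient.smul_coe, smul_eq_mul, mul_one, QuotientGroup.eq]
      simp
    rw [hx, sub_self, add_zero] at e1
    simpa using e1
  refine ⟨hψ0, fun x => ?_⟩
  obtain ⟨g, rfl⟩ := QuotientGroup.mk_surjective x
  have e1 := hall g ((1 : G) : G ⧸ H)
  unfold FA_S16_LC_Z' at e1
  rw [hψ0, FA_S16_LC_Z_zero, zero_add] at e1
  have hx : g • (((1 : G) : G ⧸ H)) = ((g : G) : G ⧸ H) := by
    rw [MulAction.Quotient.smul_coe, smul_eq_mul, mul_one]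
  rw [hx] at e1
  exact sub_eq_zero.mp e1

end Z

end FA_S16
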