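import Mathlib
import Fermat.Agent.S16.LShimCountA

/-!
# S16 (L), counting, part B: orbit sums
-/

set_option autoImplicit false

namespace FA_S16

open Fermat.Agent.S21

section OrbitSum

variable {G : Type*} [Group G] {X : Type*} [MulAction G X] {R : Type*} [AddCommGroup R]

/-- the orbit space of `⟨g⟩` -/
abbrev FA_S16_LC_Orb (g : G) (X : Type*) [MulAction G X] : Type _ :=
  MulAction.orbitRel.Quotient (Subgroup.zpowers g) X

/-- the class of a point -/
def FA_S16_LC_cls (g : G) (x : X) : FA_S16_LC_Orb g X := Quotient.mk'' x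

theorem FA_S16_LC_cls_surjective (g : G) : Function.Surjective (FA_S16_LC_cls (X := X) g) :=
  Quotient.mk''_surjective

theorem FA_S16_LC_cls_eq_iff (g : G) (x y : X) :
    FA_S16_LC_cls g x = FA_S16_LC_cls g y ↔ ∃ n : ℤ, g ^ n • y = x := by
  unfold FA_S16_LC_cls
  rw [Quotient.eq'']
  constructor
  · rintro ⟨⟨k, hk⟩, hkx⟩
    obtain ⟨n, rfl⟩ := Subgroup.mem_zpowers_iff.mp hk
    exact ⟨n, hkx⟩
  · rintro ⟨n, hn⟩
    exact ⟨⟨g ^ n, Subgroup.zpow_mem_zpowers g n⟩, hn⟩

theorem FA_S16_LC_cls_smul (g : G) (x : X) : FA_S16_LC_cls g (g • x) = FA_S16_LC_cls g x := by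
  rw [FA_S16_LC_cls_eq_iff]
  exact ⟨1, by simp⟩

variable [Fintype X]

open Classical in
/-- the orbit sums of a function -/
noncomputable def FA_S16_LC_osum (g : G) : (X → R) →+ (FA_S16_LC_Orb g X → R) where
  toFun f := fun O => ∑ x : X, if FA_S16_LC_cls g x = O then f x else 0
  map_zero' := by
    funext O
    simp
  map_add' := by
    intro f f'
    funext O
    simp only [Pi.add_apply]
    rw [← Finset.sum_add_distrib]
    refine Finset.sum_congr rfl fun x _ => ?_
    split_ifs <;> simp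

open Classical in
theorem FA_S16_LC_osum_apply (g : G) (f : X → R) (O : FA_S16_LC_Orb g X) :
    FA_S16_LC_osum g f O = ∑ x : X, if FA_S16_LC_cls g x = O then f x else 0 := rfl

/-- the orbit sums of a translate -/
theorem FA_S16_LC_osum_smul (g : G) (f : X → R) :
    FA_S16_LC_osum g (fun x => f (g • x)) = FA_S16_LC_osum g f := by
  classical
  funext O
  rw [FA_S16_LC_osum_apply, FA_S16_LC_osum_apply]
  rw [← Equiv.sum_comp (MulAction.toPerm g) (fun x => if FA_S16_LC_cls g x = O then f x else 0)]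
  refine Finset.sum_congr rfl fun x _ => ?_
  simp only [MulAction.toPerm_apply, FA_S16_LC_cls_smul]

/-- the orbit sum of a point mass -/
theorem FA_S16_LC_osum_single [DecidableEq X] (g : G) [DecidableEq (FA_S16_LC_Orb g X)]
    (y : X) (r : R) :
    FA_S16_LC_osum g (Pi.single y r) = Pi.single (FA_S16_LC_cls g y) r := by
  funext O
  rw [FA_S16_LC_osum_apply]
  rw [Finset.sum_eq_single y]
  · by_cases h : FA_S16_LC_cls g y = O
    · subst h
      simp
    · rw [if_neg h, Pi.single_eq_of_ne (Ne.symm h)]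
  · intro x _ hx
    rw [Pi.single_eq_of_ne hx]
    simp
  · intro h
    exact absurd (Finset.mem_univ y) h

/-- the orbit sum as a sum over a period -/
theorem FA_S16_LC_osum_cls (g : G) (f : X → R) (x₁ : X) :
    FA_S16_LC_osum g f (FA_S16_LC_cls g x₁)
      = ∑ i ∈ Finset.range (Function.minimalPeriod (g • ·) x₁), f (g ^ i • x₁) := by
  classical
  set w := Function.minimalPeriod (g • ·) x₁ with hw
  have hwpos : 0 < w := by
    obtain ⟨m, hm, hfix⟩ : ∃ m : ℕ, 0 < m ∧ ∀ x : X, g ^ m • x = x := by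
      refine ⟨orderOf (MulAction.toPermHom G X g), orderOf_pos _, fun x => ?_⟩
      have h := pow_orderOf_eq_one (MulAction.toPermHom G X g)
      rw [← map_pow] at h
      have h2 := congrArg (fun σ : Equiv.Perm X => σ x) h
      simpa using h2
    have hper : Function.IsPeriodicPt (g • ·) m x₁ := by
      rw [Function.IsPeriodicPt, Function.IsFixedPt, smul_iterate]
      exact hfix x₁
    exact hper.minimalPeriod_pos hm
  have hinj : Set.InjOn (fun i : ℕ => g ^ i • x₁) (Finset.range w : Set ℕ) := by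
    intro i hi j hj hij
    have hi' : i < w := Finset.mem_range.mp hi
    have hj' : j < w := Finset.mem_range.mp hj
    have h1 : (g • ·)^[i] x₁ = (g • ·)^[j] x₁ := by
      rw [smul_iterate, smul_iterate]
      exact hij
    exact (Function.iterate_eq_iterate_iff_of_lt_minimalPeriod hi' hj').mp h1
  rw [FA_S16_LC_osum_apply, ← Finset.sum_filter, ← Finset.sum_image hinj]
  refine Finset.sum_congr ?_ fun _ _ => rfl
  ext x
  simp only [Finset.mem_filter, Finset.mem_univ, true_and, Finset.mem_image, Finset.mem_range]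
  rw [FA_S16_LC_cls_eq_iff]
  constructor
  · rintro ⟨n, rfl⟩
    refine ⟨(n % (w : ℤ)).toNat, ?_, ?_⟩
    · have h1 : 0 ≤ n % (w : ℤ) := Int.emod_nonneg _ (by exact_mod_cast hwpos.ne')
      have h2 : n % (w : ℤ) < w := Int.emod_lt_of_pos _ (by exact_mod_cast hwpos)
      omega
    · have h1 : 0 ≤ n % (w : ℤ) := Int.emod_nonneg _ (by exact_mod_cast hwpos.ne')
      have h3 := MulAction.zpow_smul_mod_minimalPeriod (a := g) (b := x₁) n
      rw [← hw] at h3
      rw [← h3]
      conv_rhs => rw [← Int.toNat_of_nonneg h1]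
      rw [zpow_natCast]
  · rintro ⟨i, -, rfl⟩
    exact ⟨i, by rw [zpow_natCast]⟩

/-- orbit sums of the twisted cocycle vanish -/
theorem FA_S16_LC_osum_Z' {G : Type*} [Group G] {H : Subgroup G} [Fintype (G ⧸ H)]
    (ψ : Additive H →+ R) (v : G ⧸ H → R) (g : G) (hψ : FA_S16_LC_Kills ψ g) :
    FA_S16_LC_osum g (FA_S16_LC_Z' ψ v g) = 0 := by
  funext O
  obtain ⟨x₁, rfl⟩ := FA_S16_LC_cls_surjective g O
  rw [FA_S16_LC_osum_cls]
  refine FA_S16_LC_Z'_pow_fix ψ v g hψ _ x₁ ?_
  exact MulAction.pow_smul_eq_iff_minimalPeriod_dvd.mpr dvd_rfl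

end OrbitSum

end FA_S16
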