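import Mathlib
import Fermat.Agent.S16.LShimCountB

/-!
# S16 (L), counting, part C: the admissible pairs and the key injection
-/

set_option autoImplicit false

namespace FA_S16

open Fermat.Agent.S21

section Pairs

variable {G : Type*} [Group G] (H : Subgroup G) (R : Type*) [AddCommGroup R] (s t : G)

/-- the characters killing the conjugates of the powers of `s`, `s t`, `t` -/
def FA_S16_LC_Q : AddSubgroup (Additive H →+ R) where
  carrier := {ψ | FA_S16_LC_Kills ψ s ∧ FA_S16_LC_Kills ψ (s * t) ∧ FA_S16_LC_Kills ψ t}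
  zero_mem' := ⟨fun _ _ _ => rfl, fun _ _ _ => rfl, fun _ _ _ => rfl⟩
  add_mem' := by
    rintro a b ⟨ha1, ha2, ha3⟩ ⟨hb1, hb2, hb3⟩
    refine ⟨fun r k h => ?_, fun r k h => ?_, fun r k h => ?_⟩
    · rw [AddMonoidHom.add_apply, ha1 r k h, hb1 r k h, add_zero]
    · rw [AddMonoidHom.add_apply, ha2 r k h, hb2 r k h, add_zero]
    · rw [AddMonoidHom.add_apply, ha3 r k h, hb3 r k h, add_zero]
  neg_mem' := by
    rintro a ⟨ha1, ha2, ha3⟩
    refine ⟨fun r k h => ?_, fun r k h => ?_, fun r k h => ?_⟩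
    · rw [AddMonoidHom.neg_apply, ha1 r k h, neg_zero]
    · rw [AddMonoidHom.neg_apply, ha2 r k h, neg_zero]
    · rw [AddMonoidHom.neg_apply, ha3 r k h, neg_zero]

/-- the admissible pairs `(a, b)` -/
def FA_S16_LC_AB : AddSubgroup ((G ⧸ H → R) × (G ⧸ H → R)) where
  carrier := {p | (∀ x, p.1 (s • x) + p.1 x = 0) ∧ (∀ x, s • x = x → p.1 x = 0) ∧
    (∀ x, p.2 ((s * t) • (s * t) • x) + p.2 ((s * t) • x) + p.2 x = 0) ∧
    (∀ x, (s * t) • x = x → p.2 x = 0)}
  zero_mem' := ⟨fun _ => by simp, fun _ _ => rfl, fun _ => by simp, fun _ _ => rfl⟩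
  add_mem' := by
    rintro p q ⟨hp1, hp2, hp3, hp4⟩ ⟨hq1, hq2, hq3, hq4⟩
    refine ⟨fun x => ?_, fun x hx => ?_, fun x => ?_, fun x hx => ?_⟩
    · have := congrArg₂ (· + ·) (hp1 x) (hq1 x)
      simp only [add_zero] at this
      simp only [Prod.fst_add, Pi.add_apply]
      rw [← this]; abel
    · simp only [Prod.fst_add, Pi.add_apply, hp2 x hx, hq2 x hx, add_zero]
    · have := congrArg₂ (· + ·) (hp3 x) (hq3 x)
      simp only [add_zero] at this
      simp only [Prod.snd_add, Pi.add_apply]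
      rw [← this]; abel
    · simp only [Prod.snd_add, Pi.add_apply, hp4 x hx, hq4 x hx, add_zero]
  neg_mem' := by
    rintro p ⟨hp1, hp2, hp3, hp4⟩
    refine ⟨fun x => ?_, fun x hx => ?_, fun x => ?_, fun x hx => ?_⟩
    · have := congrArg (fun z => -z) (hp1 x)
      simp only [neg_zero] at this
      simp only [Prod.fst_neg, Pi.neg_apply]
      rw [← this]; abel
    · simp only [Prod.fst_neg, Pi.neg_apply, hp2 x hx, neg_zero]
    · have := congrArg (fun z => -z) (hp3 x)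
      simp only [neg_zero] at this
      simp only [Prod.snd_neg, Pi.neg_apply]
      rw [← this]; abel
    · simp only [Prod.snd_neg, Pi.neg_apply, hp4 x hx, neg_zero]

variable [Fintype (G ⧸ H)]

/-- `Λ(a, b) = ` orbit sums of `b - a` over the orbits of `t` -/
noncomputable def FA_S16_LC_Lam :
    ((G ⧸ H → R) × (G ⧸ H → R)) →+ (FA_S16_LC_Orb t (G ⧸ H) → R) :=
  (FA_S16_LC_osum t).comp
    (AddMonoidHom.snd (G ⧸ H → R) (G ⧸ H → R) - AddMonoidHom.fst (G ⧸ H → R) (G ⧸ H → R))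

theorem FA_S16_LC_Lam_apply (p : (G ⧸ H → R) × (G ⧸ H → R)) :
    FA_S16_LC_Lam H R t p = FA_S16_LC_osum t p.2 - FA_S16_LC_osum t p.1 := by
  unfold FA_S16_LC_Lam
  simp only [AddMonoidHom.comp_apply, AddMonoidHom.sub_apply, AddMonoidHom.coe_snd,
    AddMonoidHom.coe_fst, map_sub]

variable {H R}

omit [Fintype (G ⧸ H)] in
/-- membership in `AB` -/
theorem FA_S16_LC_mem_AB (p : (G ⧸ H → R) × (G ⧸ H → R)) :
    p ∈ FA_S16_LC_AB H R s t ↔ (∀ x, p.1 (s • x) + p.1 x = 0) ∧ (∀ x, s • x = x → p.1 x = 0) ∧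
    (∀ x, p.2 ((s * t) • (s * t) • x) + p.2 ((s * t) • x) + p.2 x = 0) ∧
    (∀ x, (s * t) • x = x → p.2 x = 0) := Iff.rfl

/-- the pair of a character and a function -/
noncomputable def FA_S16_LC_pair (ψ : Additive H →+ R) (v : G ⧸ H → R) :
    (G ⧸ H → R) × (G ⧸ H → R) :=
  (FA_S16_LC_Z' ψ v s, FA_S16_LC_Z' ψ v (s * t))

theorem FA_S16_LC_pair_add (ψ ψ' : Additive H →+ R) (v v' : G ⧸ H → R) :
    FA_S16_LC_pair s t (ψ + ψ') (v + v') = FA_S16_LC_pair s t ψ v + FA_S16_LC_pair s t ψ' v' := by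
  unfold FA_S16_LC_pair
  refine Prod.ext (funext fun x => ?_) (funext fun x => ?_)
  · exact FA_S16_LC_Z'_add ψ ψ' v v' s x
  · exact FA_S16_LC_Z'_add ψ ψ' v v' (s * t) x

theorem FA_S16_LC_pair_mem_AB (hs2 : ∀ x : G ⧸ H, s • s • x = x)
    (hu3 : ∀ x : G ⧸ H, (s * t) • (s * t) • (s * t) • x = x)
    (ψ : Additive H →+ R) (hψ : ψ ∈ FA_S16_LC_Q H R s t) (v : G ⧸ H → R) :
    FA_S16_LC_pair s t ψ v ∈ FA_S16_LC_AB H R s t := by
  obtain ⟨h1, h2, -⟩ := hψ
  refine ⟨fun x => ?_, fun x hx => ?_, fun x => ?_, fun x hx => ?_⟩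
  · have := FA_S16_LC_Z'_pow_fix ψ v s h1 2 x (by rw [pow_two, mul_smul]; exact hs2 x)
    rw [Finset.sum_range_succ, Finset.sum_range_one] at this
    simp only [pow_zero, one_smul, pow_one] at this
    show FA_S16_LC_Z' ψ v s (s • x) + FA_S16_LC_Z' ψ v s x = 0
    rw [← this]; abel
  · have := FA_S16_LC_Z'_pow_fix ψ v s h1 1 x (by rw [pow_one]; exact hx)
    rw [Finset.sum_range_one] at this
    simp only [pow_zero, one_smul] at this
    exact this
  · have := FA_S16_LC_Z'_pow_fix ψ v (s * t) h2 3 x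
      (by rw [pow_succ, pow_two, mul_smul, mul_smul]; exact hu3 x)
    rw [Finset.sum_range_succ, Finset.sum_range_succ, Finset.sum_range_one] at this
    simp only [pow_zero, one_smul, pow_one, pow_two, mul_smul] at this
    show FA_S16_LC_Z' ψ v (s * t) ((s * t) • (s * t) • x)
      + FA_S16_LC_Z' ψ v (s * t) ((s * t) • x) + FA_S16_LC_Z' ψ v (s * t) x = 0
    rw [← this]
    simp only [mul_smul]
    abel
  · have := FA_S16_LC_Z'_pow_fix ψ v (s * t) h2 1 x (by rw [pow_one]; exact hx)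
    rw [Finset.sum_range_one] at this
    simp only [pow_zero, one_smul] at this
    exact this

theorem FA_S16_LC_pair_mem_ker (ψ : Additive H →+ R) (hψ : ψ ∈ FA_S16_LC_Q H R s t)
    (v : G ⧸ H → R) : FA_S16_LC_Lam H R t (FA_S16_LC_pair s t ψ v) = 0 := by
  obtain ⟨-, -, h3⟩ := hψ
  rw [FA_S16_LC_Lam_apply]
  have hZ := FA_S16_LC_Z'_mul ψ v
  have key : FA_S16_LC_Z' ψ v (s * t)
      = FA_S16_LC_Z' ψ v t + fun x => FA_S16_LC_Z' ψ v s (t • x) := by
    funext x
    have e1 : FA_S16_LC_Z' ψ v t x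
        = FA_S16_LC_Z' ψ v s⁻¹ ((s * t) • x) + FA_S16_LC_Z' ψ v (s * t) x := by
      rw [← hZ, inv_mul_cancel_left]
    have e2 : FA_S16_LC_Z' ψ v s⁻¹ ((s * t) • x) = -FA_S16_LC_Z' ψ v s (t • x) := by
      rw [FA_S16_LC_coc_inv (FA_S16_LC_Z' ψ v) hZ, ← mul_smul, inv_mul_cancel_left]
    simp only [Pi.add_apply]
    rw [e1, e2]
    abel
  show FA_S16_LC_osum t (FA_S16_LC_Z' ψ v (s * t)) - FA_S16_LC_osum t (FA_S16_LC_Z' ψ v s) = 0
  rw [key, map_add, FA_S16_LC_osum_Z' ψ v t h3, zero_add,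
    FA_S16_LC_osum_smul t (FA_S16_LC_Z' ψ v s), sub_self]

/-- the key injectivity -/
theorem FA_S16_LC_pair_inj (hgen : Subgroup.closure ({s, t} : Set G) = ⊤)
    (ψ ψ' : Additive H →+ R) (v v' : G ⧸ H → R)
    (h : FA_S16_LC_pair s t ψ v = FA_S16_LC_pair s t ψ' v')
    (h0 : v ((1 : G) : G ⧸ H) = v' ((1 : G) : G ⧸ H)) : ψ = ψ' ∧ v = v' := by
  have hgen' : Subgroup.closure ({s, s * t} : Set G) = ⊤ := by
    rw [eq_top_iff, ← hgen, Subgroup.closure_le]
    intro g hg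
    rcases hg with hg | hg
    · rw [hg]
      exact Subgroup.subset_closure (by simp)
    · rw [Set.mem_singleton_iff] at hg
      rw [hg]
      have h1 : s ∈ Subgroup.closure ({s, s * t} : Set G) := Subgroup.subset_closure (by simp)
      have h2 : s * t ∈ Subgroup.closure ({s, s * t} : Set G) :=
        Subgroup.subset_closure (by simp)
      have h3 := Subgroup.mul_mem _ (Subgroup.inv_mem _ h1) h2
      simpa using h3
  have hsum : FA_S16_LC_pair s t ψ v
      = FA_S16_LC_pair s t ψ' v' + FA_S16_LC_pair s t (ψ - ψ') (v - v') := by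
    rw [← FA_S16_LC_pair_add]
    congr 1 <;> abel
  rw [h] at hsum
  have hd : FA_S16_LC_pair s t (ψ - ψ') (v - v') = 0 := by
    have := hsum
    rw [left_eq_add] at this
    exact this
  have hd1 : ∀ x, FA_S16_LC_Z' (ψ - ψ') (v - v') s x = 0 := fun x =>
    congrFun (congrArg Prod.fst hd) x
  have hd2 : ∀ x, FA_S16_LC_Z' (ψ - ψ') (v - v') (s * t) x = 0 := fun x =>
    congrFun (congrArg Prod.snd hd) x
  obtain ⟨e1, e2⟩ := FA_S16_LC_Z'_eq_zero (ψ - ψ') (v - v') ({s, s * t} : Set G) hgen' (by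
    intro g hg x
    rcases hg with rfl | hg
    · exact hd1 x
    · rw [Set.mem_singleton_iff] at hg
      subst hg
      exact hd2 x)
  refine ⟨sub_eq_zero.mp e1, ?_⟩
  funext x
  have := e2 x
  simp only [Pi.sub_apply] at this
  rw [h0, sub_self] at this
  exact sub_eq_zero.mp this

end Pairs

end FA_S16
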