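import Mathlib
import Fermat.Agent.S16.LShimCountC

/-!
# S16 (L), counting, part D: the image of `Λ` and the size of `AB`
-/

set_option autoImplicit false

namespace FA_S16

open Fermat.Agent.S21

section Range

variable {G : Type*} [Group G] {H : Subgroup G} {R : Type*} [AddCommGroup R] (s t : G)
  [Fintype (G ⧸ H)]

/-- the image of `AB` under `Λ` -/
noncomputable def FA_S16_LC_W : AddSubgroup (FA_S16_LC_Orb t (G ⧸ H) → R) :=
  (FA_S16_LC_AB H R s t).map (FA_S16_LC_Lam H R t)

open Classical in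
theorem FA_S16_LC_W_step (hs2 : ∀ x : G ⧸ H, s • s • x = x) (y : G ⧸ H) (r : R) :
    (Pi.single (FA_S16_LC_cls t (s • y)) r - Pi.single (FA_S16_LC_cls t y) r :
      FA_S16_LC_Orb t (G ⧸ H) → R) ∈ FA_S16_LC_W (H := H) (R := R) s t := by
  by_cases hy : s • y = y
  · rw [hy, sub_self]
    exact zero_mem _
  · refine ⟨(Pi.single y r - Pi.single (s • y) r, 0), ?_, ?_⟩
    · refine ⟨fun x => ?_, fun x hx => ?_, fun x => by simp, fun x _ => rfl⟩
      · have e1 : (Pi.single (s • y) r : G ⧸ H → R) (s • x) = (Pi.single y r : G ⧸ H → R) x := by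
          by_cases hxy : x = y
          · subst hxy
            simp
          · rw [Pi.single_eq_of_ne hxy, Pi.single_eq_of_ne]
            intro h
            exact hxy (smul_left_cancel s h)
        have e2 : (Pi.single y r : G ⧸ H → R) (s • x)
            = (Pi.single (s • y) r : G ⧸ H → R) x := by
          by_cases hxy : x = s • y
          · subst hxy
            rw [hs2]
            simp
          · rw [Pi.single_eq_of_ne hxy, Pi.single_eq_of_ne]
            intro h
            apply hxy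
            rw [← h, hs2]
        simp only [Pi.sub_apply]
        rw [e1, e2]
        abel
      · simp only [Pi.sub_apply]
        have h1 : x ≠ y := by
          rintro rfl
          exact hy hx
        have h2 : x ≠ s • y := by
          rintro rfl
          rw [hs2] at hx
          exact hy hx.symm
        rw [Pi.single_eq_of_ne h1, Pi.single_eq_of_ne h2, sub_zero]
    · rw [FA_S16_LC_Lam_apply]
      simp only [map_zero, map_sub, zero_sub, neg_sub]
      rw [FA_S16_LC_osum_single, FA_S16_LC_osum_single]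

open Classical in
theorem FA_S16_LC_W_all (hgen : Subgroup.closure ({s, t} : Set G) = ⊤)
    (hs2 : ∀ x : G ⧸ H, s • s • x = x) (g : G) (y : G ⧸ H) (r : R) :
    (Pi.single (FA_S16_LC_cls t (g • y)) r - Pi.single (FA_S16_LC_cls t y) r :
      FA_S16_LC_Orb t (G ⧸ H) → R) ∈ FA_S16_LC_W (H := H) (R := R) s t := by
  have hg : g ∈ Subgroup.closure ({s, t} : Set G) := by
    rw [hgen]
    exact Subgroup.mem_top g
  induction hg using Subgroup.closure_induction generalizing y with
  | mem a ha =>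
    rcases ha with rfl | ha
    · exact FA_S16_LC_W_step a t hs2 y r
    · rw [Set.mem_singleton_iff] at ha
      subst ha
      rw [FA_S16_LC_cls_smul, sub_self]
      exact zero_mem _
  | one =>
    rw [one_smul, sub_self]
    exact zero_mem _
  | mul a b _ _ iha ihb =>
    have h1 := iha (b • y)
    have h2 := ihb y
    have := add_mem h1 h2
    rw [mul_smul]
    convert this using 1
    abel
  | inv a _ iha =>
    have h1 := iha (a⁻¹ • y)
    rw [smul_inv_smul] at h1
    have := neg_mem h1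
    convert this using 1
    abel

open Classical in
/-- every vector of total sum zero is in the image of `Λ` -/
theorem FA_S16_LC_W_sum_zero (hgen : Subgroup.closure ({s, t} : Set G) = ⊤)
    (hs2 : ∀ x : G ⧸ H, s • s • x = x) [Fintype (FA_S16_LC_Orb t (G ⧸ H))]
    (z : FA_S16_LC_Orb t (G ⧸ H) → R) (hz : ∑ O, z O = 0) :
    z ∈ FA_S16_LC_W (H := H) (R := R) s t := by
  set x₀ : G ⧸ H := ((1 : G) : G ⧸ H) with hx₀
  have h1 : z = ∑ O, (Pi.single O (z O) - Pi.single (FA_S16_LC_cls t x₀) (z O) :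
      FA_S16_LC_Orb t (G ⧸ H) → R) := by
    rw [Finset.sum_sub_distrib, Finset.univ_sum_single]
    have : ∑ O, (Pi.single (FA_S16_LC_cls t x₀) (z O) : FA_S16_LC_Orb t (G ⧸ H) → R)
        = Pi.single (FA_S16_LC_cls t x₀) (∑ O, z O) := by
      funext O'
      rw [Finset.sum_apply]
      by_cases h : O' = FA_S16_LC_cls t x₀
      · subst h
        simp
      · simp [Pi.single_eq_of_ne h]
    rw [this, hz]
    simp
  rw [h1]
  refine sum_mem fun O _ => ?_
  obtain ⟨y, rfl⟩ := FA_S16_LC_cls_surjective t O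
  obtain ⟨g, rfl⟩ := QuotientGroup.mk_surjective y
  have hy : ((g : G) : G ⧸ H) = g • x₀ := by
    rw [hx₀, MulAction.Quotient.smul_coe, smul_eq_mul, mul_one]
  rw [hy]
  exact FA_S16_LC_W_all s t hgen hs2 g x₀ _

end Range

section Size

variable {G : Type*} [Group G] {X : Type*} [MulAction G X] (g : G)

/-- a set of representatives of the orbits of `⟨g⟩` -/
def FA_S16_LC_D : Set X := Set.range (Quotient.out : FA_S16_LC_Orb g X → X)

theorem FA_S16_LC_D_unique {x y : X} (hx : x ∈ FA_S16_LC_D g) (hy : y ∈ FA_S16_LC_D g)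
    (h : FA_S16_LC_cls g x = FA_S16_LC_cls g y) : x = y := by
  obtain ⟨O, rfl⟩ := hx
  obtain ⟨O', rfl⟩ := hy
  unfold FA_S16_LC_cls at h
  rw [Quotient.out_eq', Quotient.out_eq'] at h
  rw [h]

theorem FA_S16_LC_D_smul {x : X} (hx : x ∈ FA_S16_LC_D g) (hgx : g • x ∈ FA_S16_LC_D g) :
    g • x = x :=
  FA_S16_LC_D_unique g hgx hx (FA_S16_LC_cls_smul g x)

theorem FA_S16_LC_card_D [Finite X] :
    Nat.card ↥(FA_S16_LC_D (X := X) g)ᶜ + Nat.card (FA_S16_LC_Orb g X) = Nat.card X := by
  classical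
  have h1 : Nat.card ↥(FA_S16_LC_D (X := X) g) = Nat.card (FA_S16_LC_Orb g X) :=
    Nat.card_range_of_injective (Quotient.out_injective)
  have h2 := Nat.card_congr (Equiv.Set.sumCompl (FA_S16_LC_D (X := X) g))
  rw [Nat.card_sum] at h2
  omega

end Size

section SizeAB

variable {G : Type*} [Group G] (H : Subgroup G) (R : Type*) [AddCommGroup R] (s t : G)

/-- restriction of an admissible pair to the complements of the sets of representatives -/
def FA_S16_LC_res (p : FA_S16_LC_AB H R s t) :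
    (↥(FA_S16_LC_D (X := G ⧸ H) s)ᶜ → R) × (↥(FA_S16_LC_D (X := G ⧸ H) (s * t))ᶜ → R) :=
  (fun x => p.1.1 x.1, fun x => p.1.2 x.1)

theorem FA_S16_LC_res_injective (hu3 : ∀ x : G ⧸ H, (s * t) • (s * t) • (s * t) • x = x) :
    Function.Injective (FA_S16_LC_res H R s t) := by
  intro p q hpq
  have hd : ((p - q : FA_S16_LC_AB H R s t) : (G ⧸ H → R) × (G ⧸ H → R))
      ∈ FA_S16_LC_AB H R s t := (p - q).2
  obtain ⟨h1, h2, h3, h4⟩ := hd
  have e1 : ∀ x : G ⧸ H, x ∉ FA_S16_LC_D (X := G ⧸ H) s → (p - q).1.1 x = 0 := by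
    intro x hx
    have := congrFun (congrArg Prod.fst hpq) ⟨x, hx⟩
    simp only [FA_S16_LC_res] at this
    simp only [AddSubgroup.coe_sub, Prod.fst_sub, Pi.sub_apply, this, sub_self]
  have e2 : ∀ x : G ⧸ H, x ∉ FA_S16_LC_D (X := G ⧸ H) (s * t) → (p - q).1.2 x = 0 := by
    intro x hx
    have := congrFun (congrArg Prod.snd hpq) ⟨x, hx⟩
    simp only [FA_S16_LC_res] at this
    simp only [AddSubgroup.coe_sub, Prod.snd_sub, Pi.sub_apply, this, sub_self]
  have f1 : ∀ x : G ⧸ H, (p - q).1.1 x = 0 := by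
    intro x
    by_cases hx : x ∈ FA_S16_LC_D (X := G ⧸ H) s
    · by_cases hsx : s • x = x
      · exact h2 x hsx
      · have h5 : s • x ∉ FA_S16_LC_D (X := G ⧸ H) s := fun h =>
          hsx (FA_S16_LC_D_smul s hx h)
        have h6 := h1 x
        rw [e1 _ h5, zero_add] at h6
        exact h6
    · exact e1 x hx
  have f2 : ∀ x : G ⧸ H, (p - q).1.2 x = 0 := by
    intro x
    by_cases hx : x ∈ FA_S16_LC_D (X := G ⧸ H) (s * t)
    · by_cases hsx : (s * t) • x = x
      · exact h4 x hsx
      · have h5 : (s * t) • x ∉ FA_S16_LC_D (X := G ⧸ H) (s * t) := fun h =>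
          hsx (FA_S16_LC_D_smul (s * t) hx h)
        have h5' : (s * t) • (s * t) • x ∉ FA_S16_LC_D (X := G ⧸ H) (s * t) := by
          intro h
          have h7 : (s * t) • (s * t) • x = x := by
            refine FA_S16_LC_D_unique (s * t) h hx ?_
            rw [FA_S16_LC_cls_smul, FA_S16_LC_cls_smul]
          apply hsx
          have h8 := hu3 x
          rw [h7] at h8
          exact h8
        have h6 := h3 x
        rw [e2 _ h5, e2 _ h5', zero_add, zero_add] at h6
        exact h6
    · exact e2 x hx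
  have : (p - q : FA_S16_LC_AB H R s t) = 0 := by
    apply Subtype.ext
    exact Prod.ext (funext f1) (funext f2)
  exact sub_eq_zero.mp this

theorem FA_S16_LC_card_AB [Finite (G ⧸ H)] [Finite R]
    (hu3 : ∀ x : G ⧸ H, (s * t) • (s * t) • (s * t) • x = x) :
    Nat.card (FA_S16_LC_AB H R s t) * Nat.card R ^ (Nat.card (FA_S16_LC_Orb s (G ⧸ H))
      + Nat.card (FA_S16_LC_Orb (s * t) (G ⧸ H))) ≤ Nat.card R ^ (2 * Nat.card (G ⧸ H)) := by
  have h1 := Nat.card_le_card_of_injective _ (FA_S16_LC_res_injective H R s t hu3)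
  rw [Nat.card_prod, Nat.card_fun, Nat.card_fun] at h1
  have h2 := FA_S16_LC_card_D (X := G ⧸ H) s
  have h3 := FA_S16_LC_card_D (X := G ⧸ H) (s * t)
  calc Nat.card (FA_S16_LC_AB H R s t) * Nat.card R ^ (Nat.card (FA_S16_LC_Orb s (G ⧸ H))
        + Nat.card (FA_S16_LC_Orb (s * t) (G ⧸ H)))
      ≤ (Nat.card R ^ Nat.card ↥(FA_S16_LC_D (X := G ⧸ H) s)ᶜ *
          Nat.card R ^ Nat.card ↥(FA_S16_LC_D (X := G ⧸ H) (s * t))ᶜ) *
          Nat.card R ^ (Nat.card (FA_S16_LC_Orb s (G ⧸ H))
            + Nat.card (FA_S16_LC_Orb (s * t) (G ⧸ H))) := Nat.mul_le_mul_right _ h1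
    _ = Nat.card R ^ (2 * Nat.card (G ⧸ H)) := by
        rw [← pow_add, ← pow_add]
        congr 1
        omega

end SizeAB

end FA_S16
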