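import Mathlib
import Fermat.Agent.S16.LShimCountD

/-!
# S16 (L), counting, part E: the generic bound

`#Q · n^(o(s) + o(st) + o(t)) ≤ n^([G:H] + 2)`, `n = #R`.
-/

set_option autoImplicit false

namespace FA_S16

open Fermat.Agent.S21

section Bound

variable {G : Type*} [Group G] (H : Subgroup G) (R : Type*) [AddCommGroup R] (s t : G)
  [Fintype (G ⧸ H)]

/-- `Λ` restricted to the admissible pairs -/
noncomputable def FA_S16_LC_Lam' : ↥(FA_S16_LC_AB H R s t) →+ (FA_S16_LC_Orb t (G ⧸ H) → R) :=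
  (FA_S16_LC_Lam H R t).comp (FA_S16_LC_AB H R s t).subtype

/-- the map `(ψ, v) ↦ ((Z'(s), Z'(st)), v(x₀))` -/
noncomputable def FA_S16_LC_J (hs2 : ∀ x : G ⧸ H, s • s • x = x)
    (hu3 : ∀ x : G ⧸ H, (s * t) • (s * t) • (s * t) • x = x)
    (d : ↥(FA_S16_LC_Q H R s t) × (G ⧸ H → R)) : ↥(FA_S16_LC_Lam' H R s t).ker × R :=
  (⟨⟨FA_S16_LC_pair s t (d.1 : Additive H →+ R) d.2,
      FA_S16_LC_pair_mem_AB s t hs2 hu3 _ d.1.2 d.2⟩,
    FA_S16_LC_pair_mem_ker s t _ d.1.2 d.2⟩, d.2 ((1 : G) : G ⧸ H))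

theorem FA_S16_LC_J_injective (hgen : Subgroup.closure ({s, t} : Set G) = ⊤)
    (hs2 : ∀ x : G ⧸ H, s • s • x = x)
    (hu3 : ∀ x : G ⧸ H, (s * t) • (s * t) • (s * t) • x = x) :
    Function.Injective (FA_S16_LC_J H R s t hs2 hu3) := by
  rintro ⟨ψ, v⟩ ⟨ψ', v'⟩ h
  have h1 : FA_S16_LC_pair s t (ψ : Additive H →+ R) v
      = FA_S16_LC_pair s t (ψ' : Additive H →+ R) v' := by
    have := congrArg (fun z => ((z.1 : ↥(FA_S16_LC_AB H R s t)) :
      (G ⧸ H → R) × (G ⧸ H → R))) h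
    exact this
  have h2 : v ((1 : G) : G ⧸ H) = v' ((1 : G) : G ⧸ H) := congrArg Prod.snd h
  obtain ⟨e1, e2⟩ := FA_S16_LC_pair_inj s t hgen _ _ v v' h1 h2
  exact Prod.ext (Subtype.ext e1) e2

/-- the sum map -/
noncomputable def FA_S16_LC_sumHom (Y : Type*) [Fintype Y] : (Y → R) →+ R where
  toFun z := ∑ O, z O
  map_zero' := by simp
  map_add' := by
    intro a b
    simp only [Pi.add_apply, Finset.sum_add_distrib]

theorem FA_S16_LC_card_sumHom_ker [Finite R] (Y : Type*) [Fintype Y] [Nonempty Y] :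
    Nat.card (FA_S16_LC_sumHom R Y).ker * Nat.card R = Nat.card R ^ Nat.card Y := by
  classical
  have h1 := (FA_S16_LC_sumHom R Y).ker.card_mul_index
  rw [AddSubgroup.index_ker] at h1
  have hsurj : Function.Surjective (FA_S16_LC_sumHom R Y) := by
    intro r
    obtain ⟨y⟩ := ‹Nonempty Y›
    refine ⟨Pi.single y r, ?_⟩
    show ∑ O, (Pi.single y r : Y → R) O = r
    rw [Finset.sum_pi_single']
    simp
  have h2 : Nat.card (FA_S16_LC_sumHom R Y).range = Nat.card R := by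
    rw [AddMonoidHom.range_eq_top.mpr hsurj]
    exact Nat.card_congr (AddSubgroup.topEquiv).toEquiv
  rw [h2, Nat.card_fun] at h1
  exact h1

theorem FA_S16_LC_bound [Finite R] (hgen : Subgroup.closure ({s, t} : Set G) = ⊤)
    (hs2 : ∀ x : G ⧸ H, s • s • x = x)
    (hu3 : ∀ x : G ⧸ H, (s * t) • (s * t) • (s * t) • x = x) :
    Finite ↥(FA_S16_LC_Q H R s t) ∧
    Nat.card ↥(FA_S16_LC_Q H R s t) * Nat.card R ^ (Nat.card (FA_S16_LC_Orb s (G ⧸ H))
      + Nat.card (FA_S16_LC_Orb (s * t) (G ⧸ H)) + Nat.card (FA_S16_LC_Orb t (G ⧸ H)))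
      ≤ Nat.card R ^ (Nat.card (G ⧸ H) + 2) := by
  classical
  have hinj := FA_S16_LC_J_injective H R s t hgen hs2 hu3
  have hfinprod : Finite (↥(FA_S16_LC_Q H R s t) × (G ⧸ H → R)) := Finite.of_injective _ hinj
  have hfinQ : Finite ↥(FA_S16_LC_Q H R s t) :=
    Finite.of_injective (fun ψ : ↥(FA_S16_LC_Q H R s t) => ((ψ, 0) :
      ↥(FA_S16_LC_Q H R s t) × (G ⧸ H → R))) (fun a b h => congrArg Prod.fst h)
  refine ⟨hfinQ, ?_⟩
  have : Fintype (FA_S16_LC_Orb t (G ⧸ H)) := Fintype.ofFinite _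
  have : Nonempty (FA_S16_LC_Orb t (G ⧸ H)) := ⟨FA_S16_LC_cls t ((1 : G) : G ⧸ H)⟩
  -- the five numerical facts
  have c1 := Nat.card_le_card_of_injective _ hinj
  rw [Nat.card_prod, Nat.card_prod, Nat.card_fun] at c1
  have c2 := (FA_S16_LC_Lam' H R s t).ker.card_mul_index
  rw [AddSubgroup.index_ker] at c2
  have c3 : Nat.card (FA_S16_LC_sumHom R (FA_S16_LC_Orb t (G ⧸ H))).ker
      ≤ Nat.card (FA_S16_LC_Lam' H R s t).range := by
    refine Nat.card_le_card_of_injective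
      (fun z : (FA_S16_LC_sumHom R (FA_S16_LC_Orb t (G ⧸ H))).ker =>
        (⟨z.1, ?_⟩ : (FA_S16_LC_Lam' H R s t).range)) ?_
    · obtain ⟨p, hp, hpz⟩ := FA_S16_LC_W_sum_zero (H := H) (R := R) s t hgen hs2 z.1 z.2
      exact ⟨⟨p, hp⟩, hpz⟩
    · intro a b h
      have h' := congrArg (fun y : ↥(FA_S16_LC_Lam' H R s t).range => y.1) h
      exact Subtype.ext h'
  have c4 := FA_S16_LC_card_sumHom_ker R (FA_S16_LC_Orb t (G ⧸ H))
  have c5 := FA_S16_LC_card_AB H R s t hu3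
  set q := Nat.card ↥(FA_S16_LC_Q H R s t)
  set n := Nat.card R with hn
  set x := Nat.card (G ⧸ H)
  set os := Nat.card (FA_S16_LC_Orb s (G ⧸ H))
  set ou := Nat.card (FA_S16_LC_Orb (s * t) (G ⧸ H))
  set ot := Nat.card (FA_S16_LC_Orb t (G ⧸ H))
  set k := Nat.card ↥(FA_S16_LC_Lam' H R s t).ker
  set w := Nat.card ↥(FA_S16_LC_Lam' H R s t).range
  set z := Nat.card ↥(FA_S16_LC_sumHom R (FA_S16_LC_Orb t (G ⧸ H))).ker
  set a := Nat.card ↥(FA_S16_LC_AB H R s t)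
  have hnpos : 0 < n := Nat.card_pos
  have hnx : 0 < n ^ x := pow_pos hnpos x
  refine Nat.le_of_mul_le_mul_right ?_ hnx
  calc q * n ^ (os + ou + ot) * n ^ x
      = (q * n ^ x) * n ^ (os + ou) * n ^ ot := by ring
    _ ≤ (k * n) * n ^ (os + ou) * n ^ ot := by gcongr
    _ = (k * n) * n ^ (os + ou) * (z * n) := by rw [c4]
    _ ≤ (k * n) * n ^ (os + ou) * (w * n) := by gcongr
    _ = (k * w) * n ^ (os + ou) * n ^ 2 := by ring
    _ = a * n ^ (os + ou) * n ^ 2 := by rw [c2]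
    _ ≤ n ^ (2 * x) * n ^ 2 := by gcongr
    _ = n ^ (x + 2) * n ^ x := by ring

end Bound

end FA_S16
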