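import Fermat.Agent.S22.GlueHecke
import Fermat.Agent.S16.RedInterface
import Fermat.Prelude.Def_ModularCurve_PeriodHomPair

/-!
# S16 (L) via the Shimura homomorphism: definitions and the targets of the leaves

`Γ = Γ₀(N)`.  Hecke operators on functions `Γ → A` (trivial coefficients, any abelian group `A`):
`(T c)(γ) = ∑ i, c (t γ i)` where `α i * γ = t γ i * α (σ γ i)`; this is `FA_S22_heckeCoc` with the
trivial action.  The free algebra `ℤ⟨X_ℓ⟩` acts on `Γ → A` (`FA_S16_LS_rho`) and on `S₂(Γ₀(N))`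
(`FA_S16_LS_rhoV`).

Leaves (each a closed theorem of the stated `Target`):
* `FA_S16_LS_Target_Eigen`  : the Shimura homomorphism `ψ : Γ₀(p) → ℤ/n` is onto, kills the elements
  of trace `0, ±1, ±2`, and is an Eisenstein eigenvector for every `T_ℓ`, `U_p`;
* `FA_S16_LS_Target_Lift`   : a homomorphism `Γ₀(N) → ℤ/n` killing the elements of trace
  `0, ±1, ±2` lifts to a parabolic homomorphism `Γ₀(N) → ℤ`;
* `FA_S16_LS_Target_Period` : a word in the Hecke operators killing `S₂(Γ₀(N))` kills the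
  parabolic homomorphisms `Γ₀(N) → ℂ`.
-/

set_option autoImplicit false

namespace FA_S16

open ModularCurve ModularCurve.Period CuspForm CongruenceSubgroup FA_S22
open P2MW.S_ModularForm_heckeT_slash_eq_self_of_mem_Gamma0.ModularForm.HeckeSlashInvariance
open scoped MatrixGroups

/-- the trivial action -/
def FA_S16_LS_triv (A : Type*) [AddCommGroup A] : GL (Fin 2) ℝ → A →+ A :=
  fun _ => AddMonoidHom.id A

/-- The Hecke operator `T_ℓ` (`ℓ ∤ N`) resp. `U_ℓ` (`ℓ ∣ N`) on functions `Γ₀(N) → A`. -/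
noncomputable def FA_S16_LS_hecke (N : ℕ) [NeZero N] (A : Type*) [AddCommGroup A]
    (ℓ : Nat.Primes) : (↥(Gamma0 N) → A) →+ (↥(Gamma0 N) → A) :=
  if h : (ℓ : ℕ) ∣ N then
    haveI : NeZero (ℓ : ℕ) := ⟨ℓ.2.ne_zero⟩
    FA_S22_heckeCocHom (FA_S22_phi N) (FA_S22_alphaU (ℓ : ℕ)) (FA_S22_hexU N (ℓ : ℕ) h)
      (FA_S16_LS_triv A)
  else
    haveI : Fact (ℓ : ℕ).Prime := ⟨ℓ.2⟩
    FA_S22_heckeCocHom (FA_S22_phi N) (heckeRep (ℓ : ℕ)) (FA_S22_hexT N (ℓ : ℕ) h)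
      (FA_S16_LS_triv A)

/-- The action of the free algebra on the Hecke generators on functions `Γ₀(N) → A`. -/
noncomputable def FA_S16_LS_rho (N : ℕ) [NeZero N] (A : Type*) [AddCommGroup A] :
    FreeAlgebra ℤ Nat.Primes →ₐ[ℤ] Module.End ℤ (↥(Gamma0 N) → A) :=
  FreeAlgebra.lift ℤ fun ℓ => (FA_S16_LS_hecke N A ℓ).toIntLinearMap

/-- The action of the free algebra on `S₂(Γ₀(N))`. -/
noncomputable def FA_S16_LS_rhoV (N : ℕ) [NeZero N] :
    FreeAlgebra ℤ Nat.Primes →ₐ[ℤ] Module.End ℂ (CuspForm (Gamma0 N) 2) :=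
  FreeAlgebra.lift ℤ fun ℓ => ((heckeFormsGen N 2 ℓ : heckeAlgebra N 2 ∅) :
    Module.End ℂ (CuspForm (Gamma0 N) 2))

/-- The Eisenstein character on the free algebra. -/
noncomputable def FA_S16_LS_eis (N : ℕ) : FreeAlgebra ℤ Nat.Primes →ₐ[ℤ] ℤ :=
  FreeAlgebra.lift ℤ (eisensteinSystem N)

/-- `ψ` kills the elements of trace `0`, `±1`, `±2`. -/
def FA_S16_LS_KillsSmall (N : ℕ) {A : Type*} [AddCommGroup A] (ψ : Additive ↥(Gamma0 N) →+ A) :
    Prop :=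
  ∀ γ : ↥(Gamma0 N), (((γ : SL(2, ℤ)) : Matrix (Fin 2) (Fin 2) ℤ).trace ^ 2 = 0 ∨
      ((γ : SL(2, ℤ)) : Matrix (Fin 2) (Fin 2) ℤ).trace ^ 2 = 1 ∨
      ((γ : SL(2, ℤ)) : Matrix (Fin 2) (Fin 2) ℤ).trace ^ 2 = 4) → ψ (Additive.ofMul γ) = 0

/-- (Eigen) the Shimura homomorphism. -/
def FA_S16_LS_Target_Eigen : Prop :=
  ∀ (p : ℕ) [Fact p.Prime], ∃ ψ : Additive ↥(Gamma0 p) →+ ZMod (eisensteinNumerator p),
    Function.Surjective ψ ∧ FA_S16_LS_KillsSmall p ψ ∧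
    ∀ ℓ : Nat.Primes,
      FA_S16_LS_hecke p (ZMod (eisensteinNumerator p)) ℓ (fun γ => ψ (Additive.ofMul γ))
        = fun γ => (eisensteinSystem p ℓ : ZMod (eisensteinNumerator p)) * ψ (Additive.ofMul γ)

/-- (Lift) lifting to a parabolic integral homomorphism. -/
def FA_S16_LS_Target_Lift : Prop :=
  ∀ (N : ℕ) [NeZero N] (n : ℕ) [NeZero n] (ψ : Additive ↥(Gamma0 N) →+ ZMod n),
    FA_S16_LS_KillsSmall N ψ →
    ∃ ψ' : Additive ↥(Gamma0 N) →+ ℤ, ψ' ∈ parabolicHoms ℤ (Gamma0 N) ℤ ∧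
      ∀ γ : ↥(Gamma0 N), ((ψ' (Additive.ofMul γ) : ℤ) : ZMod n) = ψ (Additive.ofMul γ)

/-- (Period) Hecke words killing `S₂` kill the parabolic homomorphisms. -/
def FA_S16_LS_Target_Period : Prop :=
  ∀ (N : ℕ) [NeZero N] (a : FreeAlgebra ℤ Nat.Primes), FA_S16_LS_rhoV N a = 0 →
    ∀ c ∈ parabolicHoms ℂ (Gamma0 N) ℂ,
      FA_S16_LS_rho N ℂ a (fun γ => c (Additive.ofMul γ)) = 0

end FA_S16
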