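import Fermat.Agent.S16.LShimCountE
import Fermat.Agent.S16.LShimDefs
import Fermat.Agent.S21.BoundGamma0

/-!
# S16 (L), counting, part F: the bound for `Γ₀(N)`
-/

set_option autoImplicit false

namespace FA_S16

open Fermat.Agent.S21 CongruenceSubgroup ModularCurve.Period
open scoped MatrixGroups

theorem FA_S16_LC_S_sq : ModularGroup.S * ModularGroup.S = (-1 : SL(2, ℤ)) := by decide

theorem FA_S16_LC_ST_cube :
    (ModularGroup.S * ModularGroup.T) * ((ModularGroup.S * ModularGroup.T) *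
      (ModularGroup.S * ModularGroup.T)) = (-1 : SL(2, ℤ)) := by decide

theorem FA_S16_LC_neg_one_mem (N : ℕ) : (-1 : SL(2, ℤ)) ∈ Gamma0 N := by
  rw [Gamma0_mem]
  simp

theorem FA_S16_LC_neg_one_smul (N : ℕ) (x : SL(2, ℤ) ⧸ Gamma0 N) :
    (-1 : SL(2, ℤ)) • x = x := by
  obtain ⟨g, rfl⟩ := QuotientGroup.mk_surjective x
  rw [MulAction.Quotient.smul_coe, smul_eq_mul, QuotientGroup.eq]
  have : (-1 * g)⁻¹ * g = (-1 : SL(2, ℤ)) := by
    rw [mul_inv_rev]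
    have h1 : (-1 : SL(2, ℤ))⁻¹ = -1 := by decide
    rw [h1, mul_assoc]
    have h2 : (-1 : SL(2, ℤ)) * g = g * -1 := by
      apply Subtype.ext
      simp
    rw [h2, ← mul_assoc, inv_mul_cancel, one_mul]
  rw [this]
  exact FA_S16_LC_neg_one_mem N

theorem FA_S16_LC_hs2 (N : ℕ) (x : SL(2, ℤ) ⧸ Gamma0 N) :
    ModularGroup.S • ModularGroup.S • x = x := by
  rw [← mul_smul, FA_S16_LC_S_sq, FA_S16_LC_neg_one_smul]

theorem FA_S16_LC_hu3 (N : ℕ) (x : SL(2, ℤ) ⧸ Gamma0 N) :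
    (ModularGroup.S * ModularGroup.T) • (ModularGroup.S * ModularGroup.T) •
      (ModularGroup.S * ModularGroup.T) • x = x := by
  rw [← mul_smul, ← mul_smul, mul_assoc, FA_S16_LC_ST_cube, FA_S16_LC_neg_one_smul]

theorem FA_S16_LC_trace_S_pow (k : ℕ) :
    ((ModularGroup.S ^ k : SL(2, ℤ)) : Matrix (Fin 2) (Fin 2) ℤ).trace ^ 2 = 0 ∨
    ((ModularGroup.S ^ k : SL(2, ℤ)) : Matrix (Fin 2) (Fin 2) ℤ).trace ^ 2 = 4 := by
  have h : ModularGroup.S ^ k = ModularGroup.S ^ (k % 4) := by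
    conv_lhs => rw [← Nat.div_add_mod k 4, pow_add, pow_mul, FA_S21_S_pow_four, one_pow, one_mul]
  rw [h]
  have hk : k % 4 < 4 := Nat.mod_lt _ (by norm_num)
  interval_cases (k % 4)
  · right; decide
  · left; decide
  · right; decide
  · left; decide

theorem FA_S16_LC_trace_ST_pow (k : ℕ) :
    (((ModularGroup.S * ModularGroup.T) ^ k : SL(2, ℤ)) : Matrix (Fin 2) (Fin 2) ℤ).trace ^ 2
      = 1 ∨
    (((ModularGroup.S * ModularGroup.T) ^ k : SL(2, ℤ)) : Matrix (Fin 2) (Fin 2) ℤ).trace ^ 2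
      = 4 := by
  have h : (ModularGroup.S * ModularGroup.T) ^ k = (ModularGroup.S * ModularGroup.T) ^ (k % 6) := by
    conv_lhs => rw [← Nat.div_add_mod k 6, pow_add, pow_mul, FA_S21_ST_pow_six, one_pow, one_mul]
  rw [h]
  have hk : k % 6 < 6 := Nat.mod_lt _ (by norm_num)
  interval_cases (k % 6)
  · right; decide
  · left; decide
  · left; decide
  · right; decide
  · left; decide
  · left; decide

/-- a character killing the elements of small trace is in `Q` -/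
theorem FA_S16_LC_mem_Q (N : ℕ) {R : Type*} [AddCommGroup R]
    (ψ : Additive ↥(Gamma0 N) →+ R) (hψ : FA_S16_LS_KillsSmall N ψ) :
    ψ ∈ FA_S16_LC_Q (Gamma0 N) R ModularGroup.S ModularGroup.T := by
  refine ⟨fun r k h => ?_, fun r k h => ?_, fun r k h => ?_⟩
  · refine hψ ⟨_, h⟩ ?_
    show ((r⁻¹ * ModularGroup.S ^ k * r : SL(2, ℤ)) : Matrix (Fin 2) (Fin 2) ℤ).trace ^ 2 = 0 ∨
      ((r⁻¹ * ModularGroup.S ^ k * r : SL(2, ℤ)) : Matrix (Fin 2) (Fin 2) ℤ).trace ^ 2 = 1 ∨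
      ((r⁻¹ * ModularGroup.S ^ k * r : SL(2, ℤ)) : Matrix (Fin 2) (Fin 2) ℤ).trace ^ 2 = 4
    rw [FA_S21_trace_conj]
    rcases FA_S16_LC_trace_S_pow k with h | h
    · exact Or.inl h
    · exact Or.inr (Or.inr h)
  · refine hψ ⟨_, h⟩ ?_
    show ((r⁻¹ * (ModularGroup.S * ModularGroup.T) ^ k * r : SL(2, ℤ)) :
        Matrix (Fin 2) (Fin 2) ℤ).trace ^ 2 = 0 ∨
      ((r⁻¹ * (ModularGroup.S * ModularGroup.T) ^ k * r : SL(2, ℤ)) :
        Matrix (Fin 2) (Fin 2) ℤ).trace ^ 2 = 1 ∨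
      ((r⁻¹ * (ModularGroup.S * ModularGroup.T) ^ k * r : SL(2, ℤ)) :
        Matrix (Fin 2) (Fin 2) ℤ).trace ^ 2 = 4
    rw [FA_S21_trace_conj]
    exact Or.inr (FA_S16_LC_trace_ST_pow k)
  · refine hψ ⟨_, h⟩ ?_
    show ((r⁻¹ * ModularGroup.T ^ k * r : SL(2, ℤ)) : Matrix (Fin 2) (Fin 2) ℤ).trace ^ 2 = 0 ∨
      ((r⁻¹ * ModularGroup.T ^ k * r : SL(2, ℤ)) : Matrix (Fin 2) (Fin 2) ℤ).trace ^ 2 = 1 ∨
      ((r⁻¹ * ModularGroup.T ^ k * r : SL(2, ℤ)) : Matrix (Fin 2) (Fin 2) ℤ).trace ^ 2 = 4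
    rw [FA_S21_trace_conj, FA_S21_trace_T_pow]
    right; right; norm_num

/-- the characters of `Γ₀(N)` killing the elements of small trace -/
def FA_S16_LC_Small (N : ℕ) (R : Type*) [AddCommGroup R] :
    AddSubgroup (Additive ↥(Gamma0 N) →+ R) where
  carrier := {ψ | FA_S16_LS_KillsSmall N ψ}
  zero_mem' := fun _ _ => rfl
  add_mem' := by
    intro a b ha hb γ hγ
    rw [AddMonoidHom.add_apply, ha γ hγ, hb γ hγ, add_zero]
  neg_mem' := by
    intro a ha γ hγ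
    rw [AddMonoidHom.neg_apply, ha γ hγ, neg_zero]

/-- the counting bound for `Γ₀(N)` -/
theorem FA_S16_LC_bound_Gamma0 (N : ℕ) [NeZero N] (R : Type*) [AddCommGroup R] [Finite R] :
    Finite ↥(FA_S16_LC_Small N R) ∧
    Nat.card ↥(FA_S16_LC_Small N R) * Nat.card R ^
      (Nat.card (MulAction.orbitRel.Quotient (Subgroup.zpowers ModularGroup.S)
          (SL(2, ℤ) ⧸ Gamma0 N))
        + Nat.card (MulAction.orbitRel.Quotient
          (Subgroup.zpowers (ModularGroup.S * ModularGroup.T)) (SL(2, ℤ) ⧸ Gamma0 N))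
        + Nat.card (MulAction.orbitRel.Quotient (Subgroup.zpowers ModularGroup.T)
          (SL(2, ℤ) ⧸ Gamma0 N)))
      ≤ Nat.card R ^ ((Gamma0 N).index + 2) := by
  classical
  have hfi : (Gamma0 N).FiniteIndex := inferInstance
  have : Finite (SL(2, ℤ) ⧸ Gamma0 N) := inferInstance
  have : Fintype (SL(2, ℤ) ⧸ Gamma0 N) := Fintype.ofFinite _
  obtain ⟨hfin, hle⟩ := FA_S16_LC_bound (Gamma0 N) R ModularGroup.S ModularGroup.T
    SpecialLinearGroup.SL2Z_generators (FA_S16_LC_hs2 N) (FA_S16_LC_hu3 N)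
  have hinj : Function.Injective (fun ψ : ↥(FA_S16_LC_Small N R) =>
      (⟨ψ.1, FA_S16_LC_mem_Q N ψ.1 ψ.2⟩ :
        ↥(FA_S16_LC_Q (Gamma0 N) R ModularGroup.S ModularGroup.T))) := by
    intro a b h
    have h' := congrArg (fun y : ↥(FA_S16_LC_Q (Gamma0 N) R ModularGroup.S ModularGroup.T) =>
      y.1) h
    exact Subtype.ext h'
  have hfin' : Finite ↥(FA_S16_LC_Small N R) := Finite.of_injective _ hinj
  refine ⟨hfin', ?_⟩
  have hcard := Nat.card_le_card_of_injective _ hinj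
  rw [Subgroup.index_eq_card]
  exact le_trans (Nat.mul_le_mul_right _ hcard) hle

end FA_S16
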