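import Mathlib

/-!
# S16 (L), leaf Eigen, part A: the logarithm of a cyclic group (lead)

For a finite cyclic group `G` and `n ∣ card G` there is a surjective homomorphism
`G →* Multiplicative (ZMod n)` killing every `x` with `x ^ g = 1`, provided
`card G ∣ g k → n ∣ k` for all integers `k`.
-/

set_option autoImplicit false

namespace FA_S16

theorem FA_S16_LSE_exists_log (G : Type*) [Group G] [Finite G] [IsCyclic G] (n : ℕ)
    (hn : n ∣ Nat.card G) (g : ℕ)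
    (hg : ∀ k : ℤ, (Nat.card G : ℤ) ∣ (g : ℤ) * k → (n : ℤ) ∣ k) :
    ∃ L : G →* Multiplicative (ZMod n), Function.Surjective L ∧ ∀ x : G, x ^ g = 1 → L x = 1 := by
  obtain ⟨g₀, hg₀⟩ := IsCyclic.exists_generator (α := G)
  have hord : orderOf g₀ = Nat.card G := orderOf_eq_card_of_forall_mem_zpowers hg₀
  have hord' : orderOf (Multiplicative.ofAdd (1 : ZMod n)) ∣ orderOf g₀ := by
    rw [orderOf_ofAdd_eq_addOrderOf, ZMod.addOrderOf_one, hord]
    exact hn
  let L : G →* Multiplicative (ZMod n) := monoidHomOfForallMemZpowers hg₀ hord'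
  have hL : L g₀ = Multiplicative.ofAdd (1 : ZMod n) :=
    monoidHomOfForallMemZpowers_apply_gen hg₀ hord'
  have hLk : ∀ k : ℤ, L (g₀ ^ k) = Multiplicative.ofAdd ((k : ZMod n)) := by
    intro k
    rw [map_zpow, hL, ← ofAdd_zsmul]
    simp
  refine ⟨L, ?_, ?_⟩
  · intro y
    obtain ⟨k, hk⟩ := ZMod.intCast_surjective (Multiplicative.toAdd y)
    refine ⟨g₀ ^ k, ?_⟩
    rw [hLk, hk]
    rfl
  · intro x hx
    obtain ⟨k, rfl⟩ := Subgroup.mem_zpowers_iff.mp (hg₀ x)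
    rw [hLk]
    have h1 : g₀ ^ ((g : ℤ) * k) = 1 := by
      rw [mul_comm, zpow_mul, zpow_natCast]
      exact hx
    have h2 : (orderOf g₀ : ℤ) ∣ (g : ℤ) * k := orderOf_dvd_iff_zpow_eq_one.mpr h1
    rw [hord] at h2
    have h3 := hg k h2
    have h4 : ((k : ℤ) : ZMod n) = 0 := (ZMod.intCast_zmod_eq_zero_iff_dvd k n).mpr h3
    rw [h4]
    rfl

/-- The arithmetic of `n = m / gcd(m, 12)`. -/
theorem FA_S16_LSE_arith (m : ℕ) (hm : 0 < m) (k : ℤ) (h : (m : ℤ) ∣ ((12 : ℕ) : ℤ) * k) :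
    ((m / Nat.gcd m 12 : ℕ) : ℤ) ∣ k := by
  set d := Nat.gcd m 12 with hd
  have hdpos : 0 < d := Nat.gcd_pos_of_pos_left _ hm
  obtain ⟨m', hm'⟩ : d ∣ m := Nat.gcd_dvd_left m 12
  obtain ⟨t, ht⟩ : d ∣ 12 := Nat.gcd_dvd_right m 12
  have hmd : m / d = m' := by
    rw [hm', Nat.mul_div_cancel_left _ hdpos]
  have hcop : Nat.Coprime m' t := by
    have := Nat.coprime_div_gcd_div_gcd (m := m) (n := 12) hdpos
    rw [← hd] at this
    rw [hmd] at this
    have h12 : 12 / d = t := by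
      rw [ht, Nat.mul_div_cancel_left _ hdpos]
    rwa [h12] at this
  rw [hmd]
  have h1 : ((d : ℤ) * (m' : ℤ)) ∣ (d : ℤ) * ((t : ℤ) * k) := by
    have : ((12 : ℕ) : ℤ) = (d : ℤ) * (t : ℤ) := by exact_mod_cast ht
    rw [this, hm'] at h
    push_cast at h
    rwa [mul_assoc] at h
  have h2 : (m' : ℤ) ∣ (t : ℤ) * k :=
    (mul_dvd_mul_iff_left (by exact_mod_cast hdpos.ne')).mp h1
  have hcop' : IsCoprime (m' : ℤ) (t : ℤ) := Nat.isCoprime_iff_coprime.mpr hcop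
  exact hcop'.dvd_of_dvd_mul_left h2

end FA_S16
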