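import Fermat.Agent.S16.LShimDefs
import Fermat.Agent.S16.LShimEigenA

/-!
# S16 (L), leaf Eigen, part B: the upper left entry modulo `N` (lead)

`γ ↦ γ₀₀ mod N` is a homomorphism `Γ₀(N) → (ℤ/N)ˣ`; it is onto; for `α i * γ = t * α j` with
integral upper triangular `α i`, `α j` the upper left entries multiply modulo `N`.
-/

set_option autoImplicit false

namespace FA_S16

open ModularCurve CuspForm CongruenceSubgroup FA_S22 Matrix.SpecialLinearGroup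
open scoped MatrixGroups

/-- `γ ↦ γ₀₀ mod N` on `Γ₀(N)`. -/
def FA_S16_LSE_a (N : ℕ) : ↥(Gamma0 N) →* ZMod N where
  toFun g := (((g : SL(2, ℤ)) 0 0 : ℤ) : ZMod N)
  map_one' := by simp
  map_mul' := by
    rintro ⟨A, hA⟩ ⟨B, hB⟩
    simp only [MulMemClass.mk_mul_mk, Fin.isValue, Matrix.SpecialLinearGroup.coe_mul,
      (Matrix.two_mul_expl A.1 B.1).1, Int.cast_add, Int.cast_mul, Gamma0_mem.mp hB, mul_zero,
      add_zero]

theorem FA_S16_LSE_a_apply (N : ℕ) (γ : ↥(Gamma0 N)) :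
    FA_S16_LSE_a N γ = (((γ : SL(2, ℤ)) 0 0 : ℤ) : ZMod N) := rfl

/-- the unit valued version -/
def FA_S16_LSE_aU (N : ℕ) : ↥(Gamma0 N) →* (ZMod N)ˣ := (FA_S16_LSE_a N).toHomUnits

theorem FA_S16_LSE_aU_val (N : ℕ) (γ : ↥(Gamma0 N)) :
    ((FA_S16_LSE_aU N γ : (ZMod N)ˣ) : ZMod N) = (((γ : SL(2, ℤ)) 0 0 : ℤ) : ZMod N) := rfl

theorem FA_S16_LSE_aU_surjective (N : ℕ) [NeZero N] : Function.Surjective (FA_S16_LSE_aU N) := by
  intro x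
  have hx : IsUnit (((x : ZMod N).val : ℕ) : ZMod N) := by
    rw [ZMod.natCast_zmod_val]
    exact x.isUnit
  have hcop : Nat.Coprime (x : ZMod N).val N := (ZMod.isUnit_iff_coprime _ _).mp hx
  have hcop' : IsCoprime (((x : ZMod N).val : ℕ) : ℤ) (N : ℤ) := Nat.isCoprime_iff_coprime.mpr hcop
  obtain ⟨u, v, huv⟩ := hcop'
  let M : Matrix (Fin 2) (Fin 2) ℤ := !![(((x : ZMod N).val : ℕ) : ℤ), -v; (N : ℤ), u]
  have hdet : M.det = 1 := by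
    rw [Matrix.det_fin_two_of]
    linear_combination huv
  have hmem : (⟨M, hdet⟩ : SL(2, ℤ)) ∈ Gamma0 N :=
    (Gamma0_mem (N := N) (A := ⟨M, hdet⟩)).mpr (by simp [M])
  refine ⟨⟨⟨M, hdet⟩, hmem⟩, ?_⟩
  apply Units.ext
  rw [FA_S16_LSE_aU_val]
  simp [M]

/-- Comparison of the upper left entries in `g * γ = t * h`. -/
theorem FA_S16_LSE_entry {g h : GL (Fin 2) ℝ} {γ t : SL(2, ℤ)}
    {A B : Matrix (Fin 2) (Fin 2) ℤ} (hg : FA_S22_IsIntMat g A) (hh : FA_S22_IsIntMat h B)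
    (e : g * mapGL ℝ γ = mapGL ℝ t * h) :
    A 0 0 * γ 0 0 + A 0 1 * γ 1 0 = t 0 0 * B 0 0 + t 0 1 * B 1 0 := by
  have h1 := congrArg (fun m : GL (Fin 2) ℝ => (m : Matrix (Fin 2) (Fin 2) ℝ) 0 0) e
  simp only [Units.val_mul, Matrix.mul_apply, Fin.sum_univ_two] at h1
  rw [hg 0 0, hg 0 1, hh 0 0, hh 1 0] at h1
  have e0 : ∀ (δ : SL(2, ℤ)) (i j : Fin 2),
      ((mapGL ℝ δ : GL (Fin 2) ℝ) : Matrix (Fin 2) (Fin 2) ℝ) i j = ((δ i j : ℤ) : ℝ) := by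
    intro δ i j
    simp
  rw [e0, e0, e0, e0] at h1
  exact_mod_cast h1

/-- In `ZMod N`: `A₀₀ a(γ) = a(t) B₀₀` if `B₁₀ = 0`. -/
theorem FA_S16_LSE_entry_mod (N : ℕ) {g h : GL (Fin 2) ℝ} {γ t : ↥(Gamma0 N)}
    {A B : Matrix (Fin 2) (Fin 2) ℤ} (hg : FA_S22_IsIntMat g A) (hh : FA_S22_IsIntMat h B)
    (hB : B 1 0 = 0)
    (e : g * FA_S22_phi N γ = FA_S22_phi N t * h) :
    ((A 0 0 : ℤ) : ZMod N) * FA_S16_LSE_a N γ = FA_S16_LSE_a N t * ((B 0 0 : ℤ) : ZMod N) := by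
  rw [FA_S22_phi_apply, FA_S22_phi_apply] at e
  have h1 := FA_S16_LSE_entry hg hh e
  rw [hB, mul_zero, add_zero] at h1
  have h2 := congrArg (Int.cast : ℤ → ZMod N) h1
  push_cast at h2
  rw [Gamma0_mem.mp γ.2, mul_zero, add_zero] at h2
  exact h2

end FA_S16
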