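import Fermat.Agent.S16.LShimDefs
import Fermat.Agent.S22.GlueFinal
import Fermat.Agent.S21.Linear

/-!
# S16 (L), Period, part A: the period map is Hecke equivariant

`periodMap (T_ℓ f) = T_ℓ (periodMap f)` on `Γ₀(N)`.
-/

set_option autoImplicit false

namespace FA_S16

open ModularCurve ModularCurve.Period CuspForm CongruenceSubgroup FA_S22 FA_S21 UpperHalfPlane
open P2MW.S_ModularForm_heckeT_slash_eq_self_of_mem_Gamma0.ModularForm.HeckeSlashInvariance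
open scoped MatrixGroups ModularForm

/-- the action on `V_0` is trivial -/
theorem FA_S16_LP_act_zero (g : GL (Fin 2) ℝ) (v : Fin 1 → ℂ) : FA_S22_act 0 g v = v := by
  funext j
  have hj : j = (0 : Fin 1) := Fin.ext (by omega)
  subst hj
  have h := FA_S22_ev_symMat 0 (FA_S22_cmat g) 0 v
  rw [FA_S22_act_apply]
  have e1 : ∀ w : Fin (0 + 1) → ℂ, FA_S22_ev 0 0 w = w 0 := by
    intro w
    unfold FA_S22_ev
    rw [Fin.sum_univ_succ]
    simp
  rw [e1] at h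
  rw [h, Fin.sum_univ_succ]
  simp

/-- the period map as a function with values in `V_0` -/
noncomputable def FA_S16_LP_pmV (N : ℕ) [NeZero N] (f : CuspForm (Gamma0 N) 2) :
    ↥(Gamma0 N) → Fin 1 → ℂ :=
  fun γ _ => periodMap N f (Additive.ofMul γ)

theorem FA_S16_LP_rel_pm (N : ℕ) [NeZero N] (f : CuspForm (Gamma0 N) 2) :
    FA_S22_Rel N 0 (⇑f) (FA_S16_LP_pmV N f) := by
  refine ⟨fun τ _ => FA_S21_prim N f τ, ?_, ?_⟩
  · intro τ j
    have hj : j = (0 : Fin 1) := Fin.ext (by omega)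
    subst hj
    have h := FA_S21_prim_isPrim N f τ
    have hpw : FA_S22_pw 0 (τ : ℂ) 0 = 1 := by
      simp [FA_S22_pw]
    rw [hpw, mul_one]
    exact h
  · intro γ
    funext τ j
    simp only [Pi.sub_apply, FA_S22_slashE, FA_S16_LP_act_zero, FA_S16_LP_pmV]
    rw [FA_S21_periodMap_apply' N f γ τ]
    rfl

theorem FA_S16_LP_rel_unique (N : ℕ) {f : ℍ → ℂ} {c c' : ↥(Gamma0 N) → Fin 1 → ℂ}
    (h : FA_S22_Rel N 0 f c) (h' : FA_S22_Rel N 0 f c') : c = c' := by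
  obtain ⟨E, hE, hc⟩ := h
  obtain ⟨E', hE', hc'⟩ := h'
  have hsub := hE.sub hE'
  rw [sub_self] at hsub
  funext γ
  have h1 := congrFun (hc γ) I
  have h2 := congrFun (hc' γ) I
  simp only [Pi.sub_apply, FA_S22_slashE, FA_S16_LP_act_zero] at h1 h2
  have h3 := hsub.const_of_zero (FA_S22_phi N γ • I) I
  simp only [Pi.sub_apply] at h3
  rw [← h1, ← h2]
  rw [sub_eq_sub_iff_sub_eq_sub]
  exact h3

/-- comparison of the two Hecke operators on functions -/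
theorem FA_S16_LP_cocOp_eq (N : ℕ) {I : Type} [Fintype I] (α : I → GL (Fin 2) ℝ)
    (hex : ∀ i (γ : ↥(Gamma0 N)), ∃ j, ∃ γ' : ↥(Gamma0 N),
      α i * FA_S22_phi N γ = FA_S22_phi N γ' * α j)
    (c : ↥(Gamma0 N) → ℂ) :
    FA_S22_cocOp N 0 α hex (fun γ _ => c γ)
      = fun γ _ => FA_S22_heckeCoc (FA_S22_phi N) α hex (FA_S16_LS_triv ℂ) c γ := by
  funext γ j
  rw [FA_S22_cocOp_apply, FA_S22_heckeCoc_apply, FA_S22_heckeCoc_apply]
  simp only [FA_S22_actHom_apply, FA_S16_LP_act_zero, Finset.sum_apply, FA_S16_LS_triv,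
    AddMonoidHom.id_apply]

/-- the period map as a function -/
noncomputable def FA_S16_LP_pm (N : ℕ) [NeZero N] (f : CuspForm (Gamma0 N) 2) :
    ↥(Gamma0 N) → ℂ :=
  fun γ => periodMap N f (Additive.ofMul γ)

/-- **Hecke equivariance of the period map.** -/
theorem FA_S16_LP_pm_hecke (N : ℕ) [NeZero N] (ℓ : Nat.Primes) (f : CuspForm (Gamma0 N) 2) :
    FA_S16_LP_pm N (((heckeFormsGen N 2 ℓ : heckeAlgebra N 2 ∅) :
      Module.End ℂ (CuspForm (Gamma0 N) 2)) f)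
      = FA_S16_LS_hecke N ℂ ℓ (FA_S16_LP_pm N f) := by
  have hrel := FA_S16_LP_rel_pm N f
  by_cases h : (ℓ : ℕ) ∣ N
  · have : NeZero (ℓ : ℕ) := ⟨ℓ.2.ne_zero⟩
    have h1 := FA_S22_rel_hecke N 0 (FA_S22_alphaU (ℓ : ℕ)) (FA_S22_hexU N (ℓ : ℕ) h)
      (FA_S22_huniqU N (ℓ : ℕ)) (fun x => ModularForm.det_heckeMatrix_pos (ℓ : ℕ) x.val) hrel
    have h2 : FA_S22_Rel N 0 (⇑(((heckeFormsGen N 2 ℓ : heckeAlgebra N 2 ∅) :
        Module.End ℂ (CuspForm (Gamma0 N) 2)) f))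
        (FA_S22_cocOp N 0 (FA_S22_alphaU (ℓ : ℕ)) (FA_S22_hexU N (ℓ : ℕ) h)
          (FA_S16_LP_pmV N f)) := by
      rw [heckeFormsGen_of_dvd h]
      show FA_S22_Rel N 0 (⇑(heckeULin 2 h f)) _
      rw [CuspForm.coe_heckeULin_apply, heckeU_eq_sum_zmod]
      exact h1
    have h3 := FA_S16_LP_rel_unique N (FA_S16_LP_rel_pm N _) h2
    have h4 := FA_S16_LP_cocOp_eq N (FA_S22_alphaU (ℓ : ℕ)) (FA_S22_hexU N (ℓ : ℕ) h)
      (FA_S16_LP_pm N f)
    funext γ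
    have h5 := congrFun (congrFun h3 γ) 0
    have h6 := congrFun (congrFun h4 γ) 0
    simp only [FA_S16_LS_hecke, dif_pos h]
    show FA_S16_LP_pmV N _ γ 0 = _
    rw [h5]
    exact h6
  · have : Fact (ℓ : ℕ).Prime := ⟨ℓ.2⟩
    have h1 := FA_S22_rel_hecke N 0 (heckeRep (ℓ : ℕ)) (FA_S22_hexT N (ℓ : ℕ) h)
      (FA_S22_huniqT N (ℓ : ℕ)) (FA_S22_det_heckeRep_pos (ℓ : ℕ)) hrel
    have h2 : FA_S22_Rel N 0 (⇑(((heckeFormsGen N 2 ℓ : heckeAlgebra N 2 ∅) :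
        Module.End ℂ (CuspForm (Gamma0 N) 2)) f))
        (FA_S22_cocOp N 0 (heckeRep (ℓ : ℕ)) (FA_S22_hexT N (ℓ : ℕ) h)
          (FA_S16_LP_pmV N f)) := by
      rw [heckeFormsGen_of_not_dvd h]
      show FA_S22_Rel N 0 (⇑(heckeTLin 2 ℓ.2 h f)) _
      rw [CuspForm.coe_heckeTLin_apply, heckeT_eq_sum_onePoint]
      exact h1
    have h3 := FA_S16_LP_rel_unique N (FA_S16_LP_rel_pm N _) h2
    have h4 := FA_S16_LP_cocOp_eq N (heckeRep (ℓ : ℕ)) (FA_S22_hexT N (ℓ : ℕ) h)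
      (FA_S16_LP_pm N f)
    funext γ
    have h5 := congrFun (congrFun h3 γ) 0
    have h6 := congrFun (congrFun h4 γ) 0
    simp only [FA_S16_LS_hecke, dif_neg h]
    show FA_S16_LP_pmV N _ γ 0 = _
    rw [h5]
    exact h6

end FA_S16
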