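import Fermat.Agent.S16.LShimPeriodA
import Fermat.Agent.S21.Final
import Fermat.Agent.S20.Lower

/-!
# S16 (L), leaf Period, part B (helper5): Hecke operators on homomorphisms with trivial
coefficients commute with an involution of the group; they preserve homomorphisms.
-/

set_option autoImplicit false

namespace FA_S16

open FA_S22

section Abstract

variable {G Γ I A : Type*} [Group G] [Group Γ] [Fintype I] [AddCommGroup A]
  (φ : Γ →* G) (α : I → G)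
  (hex : ∀ i (γ : Γ), ∃ j, ∃ γ' : Γ, α i * φ γ = φ γ' * α j)
  (hφ : Function.Injective φ) (huniq : ∀ i j (γ : Γ), α i = φ γ * α j → i = j)

include hφ huniq

/-- the Hecke operator with trivial coefficients preserves homomorphisms -/
theorem FA_S16_LS_per_hom (ψ : Γ → A) (hψ : ∀ γ δ, ψ (γ * δ) = ψ γ + ψ δ) (γ δ : Γ) :
    FA_S22_heckeCoc φ α hex (fun _ : G => AddMonoidHom.id A) ψ (γ * δ) =
      FA_S22_heckeCoc φ α hex (fun _ : G => AddMonoidHom.id A) ψ γ +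
        FA_S22_heckeCoc φ α hex (fun _ : G => AddMonoidHom.id A) ψ δ := by
  have := FA_S22_heckeCoc_isCocycle φ α hex (fun _ : G => AddMonoidHom.id A) hφ huniq
    (fun _ _ _ => rfl) ψ (fun γ δ => by rw [hψ]; rfl) γ δ
  rw [this]
  rfl

/-- the Hecke operator with trivial coefficients commutes with a compatible automorphism -/
theorem FA_S16_LS_per_conj (J : G →* G) (j : Γ →* Γ) (hJ : ∀ γ, J (φ γ) = φ (j γ))
    (π : I → I) (hπ : Function.Bijective π) (τ : I → Γ)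
    (hτ : ∀ i, J (α i) = φ (τ i) * α (π i))
    (ψ : Γ → A) (hψ : ∀ γ δ, ψ (γ * δ) = ψ γ + ψ δ) (γ : Γ) :
    FA_S22_heckeCoc φ α hex (fun _ : G => AddMonoidHom.id A) (fun δ => ψ (j δ)) γ =
      FA_S22_heckeCoc φ α hex (fun _ : G => AddMonoidHom.id A) ψ (j γ) := by
  have hψ1 : ψ 1 = 0 := by
    have := hψ 1 1
    rw [mul_one] at this
    exact left_eq_add.mp this
  have hψinv : ∀ γ, ψ γ⁻¹ = -ψ γ := by
    intro γ
    have := hψ γ⁻¹ γ
    rw [inv_mul_cancel, hψ1] at this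
    exact eq_neg_of_add_eq_zero_left this.symm
  -- the key relation
  have key : ∀ i, FA_S22_sigma φ α hex (j γ) (π i) = π (FA_S22_sigma φ α hex γ i) ∧
      FA_S22_tee φ α hex (j γ) (π i) =
        (τ i)⁻¹ * j (FA_S22_tee φ α hex γ i) * τ (FA_S22_sigma φ α hex γ i) := by
    intro i
    apply FA_S22_sigma_tee_unique φ α hex hφ huniq
    have h1 := congrArg J (FA_S22_sigma_tee_spec φ α hex γ i)
    rw [map_mul, map_mul, hJ, hJ, hτ, hτ] at h1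
    -- φ τ_i * α (π i) * φ (j γ) = φ (j t) * (φ τ_σ * α (π σ))
    rw [map_mul, map_mul, map_inv]
    have h2 : α (π i) * φ (j γ) = (φ (τ i))⁻¹ * (φ (τ i) * α (π i) * φ (j γ)) := by group
    rw [h2, h1]
    group
  simp only [FA_S22_heckeCoc_apply, AddMonoidHom.id_apply]
  rw [← Fintype.sum_bijective π hπ (fun i => ψ (FA_S22_tee φ α hex (j γ) (π i)))
    (fun i' => ψ (FA_S22_tee φ α hex (j γ) i')) (fun _ => rfl)]
  have h3 : ∀ i, ψ (FA_S22_tee φ α hex (j γ) (π i)) =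
      ψ (j (FA_S22_tee φ α hex γ i)) + (ψ (τ (FA_S22_sigma φ α hex γ i)) - ψ (τ i)) := by
    intro i
    rw [(key i).2, hψ, hψ, hψinv]
    abel
  rw [Finset.sum_congr rfl fun i _ => h3 i, Finset.sum_add_distrib, Finset.sum_sub_distrib,
    FA_S22_sum_sigma φ α hex hφ huniq γ (fun i => ψ (τ i)), sub_self, add_zero]

end Abstract

section Concrete

open ModularCurve ModularCurve.Period CongruenceSubgroup Matrix.SpecialLinearGroup
open P2MW.S_ModularForm_heckeT_slash_eq_self_of_mem_Gamma0.ModularForm.HeckeSlashInvariance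
open scoped MatrixGroups

/-- `ε = diag(1, -1)` -/
noncomputable def FA_S16_LS_eps : GL (Fin 2) ℝ :=
  Matrix.GeneralLinearGroup.mkOfDetNeZero !![1, 0; 0, -1] (by simp [Matrix.det_fin_two])

theorem FA_S16_LS_eps_val :
    ((FA_S16_LS_eps : GL (Fin 2) ℝ) : Matrix (Fin 2) (Fin 2) ℝ) = !![1, 0; 0, -1] := rfl

theorem FA_S16_LS_eps_mul_self : FA_S16_LS_eps * FA_S16_LS_eps = 1 := by
  apply Units.ext
  rw [Units.val_mul, FA_S16_LS_eps_val]
  ext i j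
  fin_cases i <;> fin_cases j <;> simp [Matrix.mul_apply, Fin.sum_univ_two]

/-- conjugation by `ε` -/
noncomputable def FA_S16_LS_J : GL (Fin 2) ℝ →* GL (Fin 2) ℝ where
  toFun g := FA_S16_LS_eps * g * FA_S16_LS_eps
  map_one' := by rw [mul_one, FA_S16_LS_eps_mul_self]
  map_mul' g h := by
    have e := FA_S16_LS_eps_mul_self
    calc FA_S16_LS_eps * (g * h) * FA_S16_LS_eps
        = FA_S16_LS_eps * g * 1 * h * FA_S16_LS_eps := by group
      _ = FA_S16_LS_eps * g * (FA_S16_LS_eps * FA_S16_LS_eps) * h * FA_S16_LS_eps := by rw [e]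
      _ = _ := by group

theorem FA_S16_LS_J_val (g : GL (Fin 2) ℝ) :
    ((FA_S16_LS_J g : GL (Fin 2) ℝ) : Matrix (Fin 2) (Fin 2) ℝ) =
      !![1, 0; 0, -1] * (g : Matrix (Fin 2) (Fin 2) ℝ) * !![1, 0; 0, -1] := by
  show ((FA_S16_LS_eps * g * FA_S16_LS_eps : GL (Fin 2) ℝ) : Matrix (Fin 2) (Fin 2) ℝ) = _
  rw [Units.val_mul, Units.val_mul, FA_S16_LS_eps_val]

theorem FA_S16_LS_mapGL_val (γ : SL(2, ℤ)) :
    ((mapGL ℝ γ : GL (Fin 2) ℝ) : Matrix (Fin 2) (Fin 2) ℝ) =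
      !![((γ 0 0 : ℤ) : ℝ), ((γ 0 1 : ℤ) : ℝ); ((γ 1 0 : ℤ) : ℝ), ((γ 1 1 : ℤ) : ℝ)] := by
  ext i j
  fin_cases i <;> fin_cases j <;> simp

theorem FA_S16_LS_J_phi (N : ℕ) (γ : ↥(Gamma0 N)) :
    FA_S16_LS_J (FA_S22_phi N γ) = FA_S22_phi N (jConjGamma0 N γ) := by
  apply Units.ext
  rw [FA_S16_LS_J_val, FA_S22_phi_apply, FA_S22_phi_apply, FA_S16_LS_mapGL_val,
    FA_S16_LS_mapGL_val]
  ext i j
  fin_cases i <;> fin_cases j <;> simp [jConjMat, Matrix.mul_apply, Fin.sum_univ_two]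

/-- the translation `T^k` as an element of `Γ₀(N)` -/
def FA_S16_LS_Tpow (N : ℕ) (k : ℤ) : ↥(Gamma0 N) :=
  ⟨ModularGroup.T ^ k, by rw [Gamma0_mem, ModularGroup.coe_T_zpow]; simp⟩

theorem FA_S16_LS_phi_Tpow (N : ℕ) (k : ℤ) :
    ((FA_S22_phi N (FA_S16_LS_Tpow N k) : GL (Fin 2) ℝ) : Matrix (Fin 2) (Fin 2) ℝ) =
      !![1, (k : ℝ); 0, 1] := by
  rw [FA_S22_phi_apply, FA_S16_LS_mapGL_val]
  show !![(((ModularGroup.T ^ k : SL(2, ℤ)) 0 0 : ℤ) : ℝ), (((ModularGroup.T ^ k : SL(2, ℤ)) 0 1 : ℤ) : ℝ);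
    (((ModularGroup.T ^ k : SL(2, ℤ)) 1 0 : ℤ) : ℝ), (((ModularGroup.T ^ k : SL(2, ℤ)) 1 1 : ℤ) : ℝ)] = _
  rw [ModularGroup.coe_T_zpow]
  ext i j
  fin_cases i <;> fin_cases j <;> simp

/-- the carry -/
def FA_S16_LS_carry (ℓ : ℕ) (x : ZMod ℓ) : ℤ := ((x.val : ℤ) + ((-x).val : ℤ)) / (ℓ : ℤ)

theorem FA_S16_LS_carry_spec (ℓ : ℕ) [NeZero ℓ] (x : ZMod ℓ) :
    FA_S16_LS_carry ℓ x * (ℓ : ℤ) = (x.val : ℤ) + ((-x).val : ℤ) := by
  have hdvd : (ℓ : ℤ) ∣ (x.val : ℤ) + ((-x).val : ℤ) := by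
    rw [← ZMod.intCast_zmod_eq_zero_iff_dvd]
    push_cast
    rw [ZMod.natCast_zmod_val, ZMod.natCast_zmod_val]
    exact add_neg_cancel x
  exact Int.ediv_mul_cancel hdvd

theorem FA_S16_LS_mat_aux (a b c l : ℝ) (h : c * l = a + b) :
    (!![1, 0; 0, -1] : Matrix (Fin 2) (Fin 2) ℝ) * !![1, a; 0, l] * !![1, 0; 0, -1] =
      !![1, -c; 0, 1] * !![1, b; 0, l] := by
  ext i j
  fin_cases i <;> fin_cases j <;> simp [Matrix.mul_apply, Fin.sum_univ_two]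
  linarith

theorem FA_S16_LS_J_heckeMatrix (N ℓ : ℕ) [NeZero ℓ] (x : ZMod ℓ) :
    FA_S16_LS_J (ModularForm.heckeMatrix ℓ x.val) =
      FA_S22_phi N (FA_S16_LS_Tpow N (-FA_S16_LS_carry ℓ x)) *
        ModularForm.heckeMatrix ℓ (-x).val := by
  have hℓ : ℓ ≠ 0 := NeZero.ne ℓ
  have hc : ((FA_S16_LS_carry ℓ x : ℤ) : ℝ) * (ℓ : ℝ) = (x.val : ℝ) + ((-x).val : ℝ) := by
    exact_mod_cast congrArg (Int.cast : ℤ → ℝ) (FA_S16_LS_carry_spec ℓ x)
  apply Units.ext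
  rw [FA_S16_LS_J_val, Units.val_mul, FA_S16_LS_phi_Tpow, ModularForm.val_heckeMatrix hℓ,
    ModularForm.val_heckeMatrix hℓ]
  push_cast
  exact FA_S16_LS_mat_aux _ _ _ _ hc

theorem FA_S16_LS_J_heckeDiag (ℓ : ℕ) [NeZero ℓ] :
    FA_S16_LS_J (ModularForm.heckeDiagMatrix ℓ) = ModularForm.heckeDiagMatrix ℓ := by
  have hℓ : ℓ ≠ 0 := NeZero.ne ℓ
  apply Units.ext
  rw [FA_S16_LS_J_val, ModularForm.val_heckeDiagMatrix hℓ]
  ext i j
  fin_cases i <;> fin_cases j <;> simp [Matrix.mul_apply, Fin.sum_univ_two]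

/-- the permutation of the representatives of `T_ℓ` -/
def FA_S16_LS_piT (ℓ : ℕ) : OnePoint (ZMod ℓ) → OnePoint (ZMod ℓ) :=
  fun x => x.elim OnePoint.infty (fun j => ((-j : ZMod ℓ) : OnePoint (ZMod ℓ)))

theorem FA_S16_LS_piT_bij (ℓ : ℕ) : Function.Bijective (FA_S16_LS_piT ℓ) := by
  have h : Function.Involutive (FA_S16_LS_piT ℓ) := by
    intro x
    induction x using OnePoint.rec with
    | infty => rfl
    | coe j =>
      show (((- -j : ZMod ℓ)) : OnePoint (ZMod ℓ)) = _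
      rw [neg_neg]
  exact h.bijective

/-- the correcting translations for `T_ℓ` -/
def FA_S16_LS_tauT (N ℓ : ℕ) : OnePoint (ZMod ℓ) → ↥(Gamma0 N) :=
  fun x => x.elim 1 (fun j => FA_S16_LS_Tpow N (-FA_S16_LS_carry ℓ j))

theorem FA_S16_LS_J_heckeRep (N ℓ : ℕ) [NeZero ℓ] (x : OnePoint (ZMod ℓ)) :
    FA_S16_LS_J (heckeRep ℓ x) =
      FA_S22_phi N (FA_S16_LS_tauT N ℓ x) * heckeRep ℓ (FA_S16_LS_piT ℓ x) := by
  induction x using OnePoint.rec with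
  | infty =>
    show FA_S16_LS_J (ModularForm.heckeDiagMatrix ℓ) =
      FA_S22_phi N 1 * ModularForm.heckeDiagMatrix ℓ
    rw [map_one, one_mul, FA_S16_LS_J_heckeDiag]
  | coe j => exact FA_S16_LS_J_heckeMatrix N ℓ j

variable (N : ℕ) [NeZero N] (A : Type*) [AddCommGroup A]

/-- a function on `Γ₀(N)` is a homomorphism -/
def FA_S16_LS_IsHom {A : Type*} [AddCommGroup A] (ψ : ↥(Gamma0 N) → A) : Prop :=
  ∀ γ δ, ψ (γ * δ) = ψ γ + ψ δ

/-- the Hecke operators preserve homomorphisms -/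
theorem FA_S16_LS_hecke_isHom (ℓ : Nat.Primes) (ψ : ↥(Gamma0 N) → A)
    (hψ : FA_S16_LS_IsHom N ψ) : FA_S16_LS_IsHom N (FA_S16_LS_hecke N A ℓ ψ) := by
  intro γ δ
  by_cases h : (ℓ : ℕ) ∣ N
  · have : NeZero (ℓ : ℕ) := ⟨ℓ.2.ne_zero⟩
    simp only [FA_S16_LS_hecke, dif_pos h]
    exact FA_S16_LS_per_hom (FA_S22_phi N) (FA_S22_alphaU (ℓ : ℕ)) (FA_S22_hexU N (ℓ : ℕ) h)
      (FA_S22_phi_injective N) (FA_S22_huniqU N (ℓ : ℕ)) ψ hψ γ δ
  · have : Fact (ℓ : ℕ).Prime := ⟨ℓ.2⟩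
    simp only [FA_S16_LS_hecke, dif_neg h]
    exact FA_S16_LS_per_hom (FA_S22_phi N) (heckeRep (ℓ : ℕ)) (FA_S22_hexT N (ℓ : ℕ) h)
      (FA_S22_phi_injective N) (FA_S22_huniqT N (ℓ : ℕ)) ψ hψ γ δ

/-- the Hecke operators commute with the involution -/
theorem FA_S16_LS_hecke_conj (ℓ : Nat.Primes) (ψ : ↥(Gamma0 N) → A)
    (hψ : FA_S16_LS_IsHom N ψ) :
    FA_S16_LS_hecke N A ℓ (fun δ => ψ (jConjGamma0 N δ)) =
      fun γ => FA_S16_LS_hecke N A ℓ ψ (jConjGamma0 N γ) := by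
  funext γ
  by_cases h : (ℓ : ℕ) ∣ N
  · have : NeZero (ℓ : ℕ) := ⟨ℓ.2.ne_zero⟩
    simp only [FA_S16_LS_hecke, dif_pos h]
    exact FA_S16_LS_per_conj (FA_S22_phi N) (FA_S22_alphaU (ℓ : ℕ)) (FA_S22_hexU N (ℓ : ℕ) h)
      (FA_S22_phi_injective N) (FA_S22_huniqU N (ℓ : ℕ)) FA_S16_LS_J (jConjGamma0 N)
      (FA_S16_LS_J_phi N) (fun x => -x) neg_involutive.bijective
      (fun x => FA_S16_LS_Tpow N (-FA_S16_LS_carry (ℓ : ℕ) x))
      (fun x => FA_S16_LS_J_heckeMatrix N (ℓ : ℕ) x) ψ hψ γ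
  · have : Fact (ℓ : ℕ).Prime := ⟨ℓ.2⟩
    have : NeZero (ℓ : ℕ) := ⟨ℓ.2.ne_zero⟩
    simp only [FA_S16_LS_hecke, dif_neg h]
    exact FA_S16_LS_per_conj (FA_S22_phi N) (heckeRep (ℓ : ℕ)) (FA_S22_hexT N (ℓ : ℕ) h)
      (FA_S22_phi_injective N) (FA_S22_huniqT N (ℓ : ℕ)) FA_S16_LS_J (jConjGamma0 N)
      (FA_S16_LS_J_phi N) (FA_S16_LS_piT (ℓ : ℕ)) (FA_S16_LS_piT_bij (ℓ : ℕ))
      (FA_S16_LS_tauT N (ℓ : ℕ))
      (fun x => FA_S16_LS_J_heckeRep N (ℓ : ℕ) x) ψ hψ γ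

/-- the words in the Hecke operators preserve homomorphisms and commute with the involution -/
theorem FA_S16_LS_rho_hom_conj (a : FreeAlgebra ℤ Nat.Primes) :
    (∀ ψ : ↥(Gamma0 N) → A, FA_S16_LS_IsHom N ψ → FA_S16_LS_IsHom N (FA_S16_LS_rho N A a ψ)) ∧
    (∀ ψ : ↥(Gamma0 N) → A, FA_S16_LS_IsHom N ψ →
      FA_S16_LS_rho N A a (fun δ => ψ (jConjGamma0 N δ)) =
        fun γ => FA_S16_LS_rho N A a ψ (jConjGamma0 N γ)) := by
  induction a using FreeAlgebra.induction with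
  | grade0 r =>
    have e : ∀ ψ : ↥(Gamma0 N) → A, FA_S16_LS_rho N A (algebraMap ℤ _ r) ψ = r • ψ := by
      intro ψ
      rw [AlgHom.commutes, Module.algebraMap_end_apply]
    refine ⟨fun ψ hψ => ?_, fun ψ hψ => ?_⟩
    · intro γ δ
      rw [e]
      simp only [Pi.smul_apply, hψ γ δ, smul_add]
    · rw [e, e]
      rfl
  | grade1 ℓ =>
    have e : ∀ ψ : ↥(Gamma0 N) → A,
        FA_S16_LS_rho N A (FreeAlgebra.ι ℤ ℓ) ψ = FA_S16_LS_hecke N A ℓ ψ := by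
      intro ψ
      unfold FA_S16_LS_rho
      rw [FreeAlgebra.lift_ι_apply]
      rfl
    refine ⟨fun ψ hψ => ?_, fun ψ hψ => ?_⟩
    · rw [e]
      exact FA_S16_LS_hecke_isHom N A ℓ ψ hψ
    · rw [e]
      simp only [e]
      exact FA_S16_LS_hecke_conj N A ℓ ψ hψ
  | mul a b ha hb =>
    refine ⟨fun ψ hψ => ?_, fun ψ hψ => ?_⟩
    · rw [map_mul, Module.End.mul_apply]
      exact ha.1 _ (hb.1 ψ hψ)
    · simp only [map_mul, Module.End.mul_apply]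
      rw [hb.2 ψ hψ]
      exact ha.2 _ (hb.1 ψ hψ)
  | add a b ha hb =>
    refine ⟨fun ψ hψ => ?_, fun ψ hψ => ?_⟩
    · intro γ δ
      simp only [map_add, LinearMap.add_apply, Pi.add_apply]
      rw [ha.1 ψ hψ γ δ, hb.1 ψ hψ γ δ]
      abel
    · simp only [map_add, LinearMap.add_apply]
      rw [ha.2 ψ hψ, hb.2 ψ hψ]
      rfl

end Concrete

section Final

open ModularCurve ModularCurve.Period CongruenceSubgroup CuspForm

variable (N : ℕ) [NeZero N]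

theorem FA_S16_LS_pm_isHom (f : CuspForm (Gamma0 N) 2) :
    FA_S16_LS_IsHom N (FA_S16_LP_pm N f) := by
  intro γ δ
  show periodMap N f (Additive.ofMul (γ * δ)) = _
  rw [ofMul_mul, map_add]
  rfl

theorem FA_S16_LS_pm_add (f g : CuspForm (Gamma0 N) 2) :
    FA_S16_LP_pm N (f + g) = FA_S16_LP_pm N f + FA_S16_LP_pm N g := by
  funext γ
  show FA_S21.FA_S21_pml N (f + g) (Additive.ofMul γ) = _
  rw [map_add]
  rfl

theorem FA_S16_LS_pm_zsmul (r : ℤ) (f : CuspForm (Gamma0 N) 2) :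
    FA_S16_LP_pm N (r • f) = r • FA_S16_LP_pm N f := by
  funext γ
  show FA_S21.FA_S21_pml N (r • f) (Additive.ofMul γ) = _
  rw [map_zsmul]
  rfl

theorem FA_S16_LS_pm_zero : FA_S16_LP_pm N 0 = 0 := by
  funext γ
  show FA_S21.FA_S21_pml N 0 (Additive.ofMul γ) = _
  rw [map_zero]
  rfl

/-- words in the Hecke operators commute with the period map -/
theorem FA_S16_LS_rho_pm (a : FreeAlgebra ℤ Nat.Primes) (f : CuspForm (Gamma0 N) 2) :
    FA_S16_LS_rho N ℂ a (FA_S16_LP_pm N f) = FA_S16_LP_pm N (FA_S16_LS_rhoV N a f) := by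
  induction a using FreeAlgebra.induction generalizing f with
  | grade0 r =>
    rw [AlgHom.commutes, AlgHom.commutes, Module.algebraMap_end_apply,
      Module.algebraMap_end_apply, FA_S16_LS_pm_zsmul]
  | grade1 ℓ =>
    have e1 : FA_S16_LS_rho N ℂ (FreeAlgebra.ι ℤ ℓ) = (FA_S16_LS_hecke N ℂ ℓ).toIntLinearMap := by
      unfold FA_S16_LS_rho
      rw [FreeAlgebra.lift_ι_apply]
    have e2 : FA_S16_LS_rhoV N (FreeAlgebra.ι ℤ ℓ) = ((heckeFormsGen N 2 ℓ : heckeAlgebra N 2 ∅) :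
        Module.End ℂ (CuspForm (Gamma0 N) 2)) := by
      unfold FA_S16_LS_rhoV
      rw [FreeAlgebra.lift_ι_apply]
    rw [e1, e2, FA_S16_LP_pm_hecke]
    rfl
  | mul a b ha hb =>
    rw [map_mul, map_mul, Module.End.mul_apply, Module.End.mul_apply, hb, ha]
  | add a b ha hb =>
    rw [map_add, map_add, LinearMap.add_apply, LinearMap.add_apply, ha, hb, FA_S16_LS_pm_add]

/-- **(Period)**: a word in the Hecke operators killing `S₂(Γ₀(N))` kills the parabolic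
homomorphisms `Γ₀(N) → ℂ`. -/
theorem FA_S16_LS_period : FA_S16_LS_Target_Period := by
  intro N _ a ha c hc
  have hS21 := (FA_S21.FA_S21_of_ge N (Fermat.Agent.S20.FA_S20_lower N)).2
  rw [← hS21] at hc
  obtain ⟨⟨f, g⟩, rfl⟩ := hc
  rw [FA_S21.FA_S21_periodHomPair_apply]
  have e : (fun γ : ↥(Gamma0 N) => ((periodMap N f + charInvolution N ℂ ℂ (periodMap N f)) +
      (periodMap N g - charInvolution N ℂ ℂ (periodMap N g))) (Additive.ofMul γ))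
      = FA_S16_LP_pm N f + (fun γ => FA_S16_LP_pm N f (jConjGamma0 N γ)) +
        (FA_S16_LP_pm N g - fun γ => FA_S16_LP_pm N g (jConjGamma0 N γ)) := by
    funext γ
    rfl
  rw [e, map_add, map_add, map_sub,
    (FA_S16_LS_rho_hom_conj N ℂ a).2 _ (FA_S16_LS_pm_isHom N f),
    (FA_S16_LS_rho_hom_conj N ℂ a).2 _ (FA_S16_LS_pm_isHom N g),
    FA_S16_LS_rho_pm, FA_S16_LS_rho_pm, ha, LinearMap.zero_apply, LinearMap.zero_apply,
    FA_S16_LS_pm_zero]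
  funext γ
  simp

end Final

end FA_S16
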