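import Mathlib
import Fermat.Agent.S22.Lattice

/-!
# S16 (L), rank, part A: integral and complex characters of a finitely generated group

For a finitely generated group `Δ`: `Hom(Δ, ℤ)` is a finite free `ℤ`-module of rank `r`,
`dim_ℂ Hom(Δ, ℂ) ≤ r`, and `(ℤ/n)^r → Hom(Δ, ℤ/n)`, `c ↦ ∑ cᵢ bᵢ mod n` is injective.
-/

set_option autoImplicit false

namespace FA_S16

open FA_S22

section RankA

variable (Δ : Type*) [Group Δ]

/-- a character vanishing on a generating set vanishes -/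
theorem FA_S16_LR_eq_zero_of_gen {A : Type*} [AddCommGroup A] (S : Set Δ)
    (hS : Subgroup.closure S = ⊤) (ψ : Additive Δ →+ A)
    (h : ∀ s ∈ S, ψ (Additive.ofMul s) = 0) : ψ = 0 := by
  let K : Subgroup Δ :=
    { carrier := {x | ψ (Additive.ofMul x) = 0}
      mul_mem' := by
        intro a b ha hb
        show ψ (Additive.ofMul (a * b)) = 0
        rw [ofMul_mul, map_add, ha, hb, add_zero]
      one_mem' := by
        show ψ (Additive.ofMul 1) = 0
        rw [ofMul_one, map_zero]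
      inv_mem' := by
        intro a ha
        show ψ (Additive.ofMul a⁻¹) = 0
        rw [ofMul_inv, map_neg, ha, neg_zero] }
  have hle : Subgroup.closure S ≤ K := by
    rw [Subgroup.closure_le]
    intro s hs
    exact h s hs
  rw [hS] at hle
  refine AddMonoidHom.ext fun x => ?_
  exact hle (Subgroup.mem_top (Additive.toMul x))

instance FA_S16_LR_torsionFree : IsAddTorsionFree (Additive Δ →+ ℤ) where
  nsmul_right_injective n hn a b hab := by
    refine AddMonoidHom.ext fun x => ?_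
    have h := congrArg (fun f : Additive Δ →+ ℤ => f x) hab
    simp only [AddMonoidHom.coe_smul, Pi.smul_apply, nsmul_eq_mul] at h
    have hn' : (n : ℤ) ≠ 0 := by exact_mod_cast hn
    exact mul_left_cancel₀ hn' h

variable [Group.FG Δ]

instance FA_S16_LR_finite : Module.Finite ℤ (Additive Δ →+ ℤ) := by
  classical
  obtain ⟨S, hS⟩ := Group.FG.out (G := Δ)
  let ev : (Additive Δ →+ ℤ) →ₗ[ℤ] (S → ℤ) :=
    { toFun := fun ψ s => ψ (Additive.ofMul s.1)
      map_add' := fun _ _ => rfl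
      map_smul' := fun _ _ => rfl }
  have hinj : Function.Injective ev := by
    rw [← LinearMap.ker_eq_bot, LinearMap.ker_eq_bot']
    intro ψ hψ
    refine FA_S16_LR_eq_zero_of_gen Δ (S : Set Δ) hS ψ fun s hs => ?_
    exact congrFun hψ ⟨s, hs⟩
  exact Module.Finite.of_injective ev hinj

instance FA_S16_LR_free : Module.Free ℤ (Additive Δ →+ ℤ) :=
  Module.free_of_finite_type_torsion_free'

/-- the rank of `Hom(Δ, ℤ)` -/
noncomputable def FA_S16_LR_rank : ℕ := Module.finrank ℤ (Additive Δ →+ ℤ)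

/-- a basis of `Hom(Δ, ℤ)` -/
noncomputable def FA_S16_LR_basis :
    Module.Basis (Fin (FA_S16_LR_rank Δ)) ℤ (Additive Δ →+ ℤ) :=
  Module.finBasis ℤ (Additive Δ →+ ℤ)

/-- complex characters as functions -/
def FA_S16_LR_coeC : (Additive Δ →+ ℂ) →ₗ[ℂ] (Δ → Fin 1 → ℂ) where
  toFun ψ := fun x _ => ψ (Additive.ofMul x)
  map_add' := fun _ _ => rfl
  map_smul' := fun _ _ => rfl

theorem FA_S16_LR_coeC_injective : Function.Injective (FA_S16_LR_coeC Δ) := by
  intro a b h
  refine AddMonoidHom.ext fun x => ?_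
  exact congrFun (congrFun h (Additive.toMul x)) 0

/-- the trivial coefficient system -/
def FA_S16_LR_M : Δ → Matrix (Fin 1) (Fin 1) ℤ := fun _ => 1

theorem FA_S16_LR_coeC_mem (ψ : Additive Δ →+ ℂ) :
    FA_S16_LR_coeC Δ ψ ∈ FA_S22_cocycles (FA_S16_LR_M Δ) := by
  intro γ δ
  funext j
  simp only [FA_S16_LR_coeC, LinearMap.coe_mk, AddHom.coe_mk, FA_S16_LR_M, Matrix.map_one,
    Int.cast_zero, Int.cast_one, Matrix.one_mulVec, Pi.add_apply]
  rw [ofMul_mul, map_add]

/-- an integral cocycle comes from an integral character -/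
theorem FA_S16_LR_exists_int (c : Δ → Fin 1 → ℂ) (hc : c ∈ FA_S22_intCocycles (FA_S16_LR_M Δ)) :
    ∃ ψ : Additive Δ →+ ℤ, c = FA_S16_LR_coeC Δ ((Int.castAddHom ℂ).comp ψ) := by
  obtain ⟨h1, h2⟩ := hc
  choose a ha using fun γ => h2 γ 0
  have hadd : ∀ γ δ, a (γ * δ) = a γ + a δ := by
    intro γ δ
    have := congrFun (h1 γ δ) 0
    simp only [FA_S16_LR_M, Matrix.map_one, Int.cast_zero, Int.cast_one, Matrix.one_mulVec,
      Pi.add_apply] at this
    rw [ha, ha, ha] at this
    exact_mod_cast this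
  refine ⟨AddMonoidHom.mk' (fun x => a (Additive.toMul x)) (fun x y => hadd _ _), ?_⟩
  funext γ j
  have hj : j = 0 := Subsingleton.elim _ _
  subst hj
  rw [ha]
  rfl

theorem FA_S16_LR_finrank_le :
    Module.Finite ℂ (Additive Δ →+ ℂ) ∧
    Module.finrank ℂ (Additive Δ →+ ℂ) ≤ FA_S16_LR_rank Δ := by
  classical
  set b := FA_S16_LR_basis Δ
  let v : Fin (FA_S16_LR_rank Δ) → (Δ → Fin 1 → ℂ) :=
    fun i => FA_S16_LR_coeC Δ ((Int.castAddHom ℂ).comp (b i))
  have hint : ∀ c ∈ FA_S22_intCocycles (FA_S16_LR_M Δ), c ∈ Submodule.span ℂ (Set.range v) := by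
    intro c hc
    obtain ⟨ψ, rfl⟩ := FA_S16_LR_exists_int Δ c hc
    have hψ : ψ = ∑ i, b.repr ψ i • b i := (b.sum_repr ψ).symm
    have h2 : FA_S16_LR_coeC Δ ((Int.castAddHom ℂ).comp ψ)
        = ∑ i, ((b.repr ψ i : ℤ) : ℂ) • v i := by
      funext γ j
      conv_lhs => rw [hψ]
      simp only [FA_S16_LR_coeC, LinearMap.coe_mk, AddHom.coe_mk, AddMonoidHom.comp_apply,
        Int.coe_castAddHom, v, Finset.sum_apply, Pi.smul_apply, smul_eq_mul,
        AddMonoidHom.finset_sum_apply, AddMonoidHom.coe_smul]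
      push_cast
      rfl
    rw [h2]
    exact Submodule.sum_mem _ fun i _ => Submodule.smul_mem _ _ (Submodule.subset_span ⟨i, rfl⟩)
  have hrange : LinearMap.range (FA_S16_LR_coeC Δ) ≤ Submodule.span ℂ (Set.range v) := by
    rintro _ ⟨ψ, rfl⟩
    have h1 := FA_S22_cocycles_le_span (FA_S16_LR_M Δ) rfl _ (FA_S16_LR_coeC_mem Δ ψ)
    exact (Submodule.span_le.mpr hint) h1
  have hfinspan : Module.Finite ℂ (Submodule.span ℂ (Set.range v)) :=
    FiniteDimensional.span_of_finite ℂ (Set.finite_range v)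
  have hfinrange : Module.Finite ℂ (LinearMap.range (FA_S16_LR_coeC Δ)) :=
    Submodule.finiteDimensional_of_le hrange
  have hfin : Module.Finite ℂ (Additive Δ →+ ℂ) :=
    Module.Finite.of_injective (LinearMap.rangeRestrict (FA_S16_LR_coeC Δ)) (by
      intro a b h
      apply FA_S16_LR_coeC_injective Δ
      exact congrArg Subtype.val h)
  refine ⟨hfin, ?_⟩
  calc Module.finrank ℂ (Additive Δ →+ ℂ)
      = Module.finrank ℂ (LinearMap.range (FA_S16_LR_coeC Δ)) :=
        (LinearMap.finrank_range_of_inj (FA_S16_LR_coeC_injective Δ)).symm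
    _ ≤ Module.finrank ℂ (Submodule.span ℂ (Set.range v)) := Submodule.finrank_mono hrange
    _ ≤ Fintype.card (Fin (FA_S16_LR_rank Δ)) := finrank_range_le_card v
    _ = FA_S16_LR_rank Δ := Fintype.card_fin _

/-- an integral character with values divisible by `n` is divisible by `n` -/
theorem FA_S16_LR_div (n : ℕ) (hn : n ≠ 0) (D : Additive Δ →+ ℤ)
    (h : ∀ x, (n : ℤ) ∣ D x) : ∃ D' : Additive Δ →+ ℤ, D = (n : ℤ) • D' := by
  have hn' : (n : ℤ) ≠ 0 := by exact_mod_cast hn
  refine ⟨AddMonoidHom.mk' (fun x => D x / (n : ℤ)) (fun x y => ?_), ?_⟩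
  · rw [map_add]
    exact Int.add_ediv_of_dvd_left (h x)
  · refine AddMonoidHom.ext fun x => ?_
    simp only [AddMonoidHom.coe_smul, Pi.smul_apply, AddMonoidHom.mk'_apply, smul_eq_mul]
    rw [Int.mul_ediv_cancel' (h x)]

/-- the map `(ℤ/n)^r → Hom(Δ, ℤ/n)` -/
noncomputable def FA_S16_LR_g (n : ℕ) (c : Fin (FA_S16_LR_rank Δ) → ZMod n) :
    Additive Δ →+ ZMod n :=
  (Int.castAddHom (ZMod n)).comp (∑ i, ((c i).cast : ℤ) • FA_S16_LR_basis Δ i)

theorem FA_S16_LR_g_injective (n : ℕ) [NeZero n] : Function.Injective (FA_S16_LR_g Δ n) := by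
  intro c c' h
  set b := FA_S16_LR_basis Δ
  let D : Additive Δ →+ ℤ := ∑ i, (((c i).cast : ℤ) - ((c' i).cast : ℤ)) • b i
  have hD : ∀ x, (n : ℤ) ∣ D x := by
    intro x
    have h1 := congrArg (fun f : Additive Δ →+ ZMod n => f x) h
    simp only [FA_S16_LR_g, AddMonoidHom.comp_apply, Int.coe_castAddHom] at h1
    rw [← ZMod.intCast_zmod_eq_zero_iff_dvd]
    have h2 : D x = (∑ i, ((c i).cast : ℤ) • b i) x - (∑ i, ((c' i).cast : ℤ) • b i) x := by
      simp only [D, sub_smul, Finset.sum_sub_distrib, AddMonoidHom.sub_apply]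
    rw [h2]
    push_cast
    rw [h1, sub_self]
  obtain ⟨D', hD'⟩ := FA_S16_LR_div Δ n (NeZero.ne n) D hD
  funext i
  have h3 : b.repr D i = ((c i).cast : ℤ) - ((c' i).cast : ℤ) := by
    simp only [D]
    rw [b.repr_sum_self]
  have h4 : b.repr D i = (n : ℤ) * b.repr D' i := by
    rw [hD', map_smul]
    simp
  have h5 : (((c i).cast : ℤ) : ZMod n) - (((c' i).cast : ℤ) : ZMod n) = 0 := by
    have := congrArg (fun z : ℤ => (z : ZMod n)) (h3.symm.trans h4)
    simp only [Int.cast_sub, Int.cast_mul, Int.cast_natCast, ZMod.natCast_self, zero_mul] at this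
    exact this
  rw [ZMod.intCast_cast, ZMod.intCast_cast, ZMod.cast_id', id_eq, id_eq] at h5
  exact sub_eq_zero.mp h5

end RankA

end FA_S16
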