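import Fermat.Agent.S16.LShimRankA
import Fermat.Agent.S16.LShimCountF
import Fermat.Agent.S22.GlueBase

/-!
# S16 (L), rank, part B: the quotient of `Γ₀(N)` by the parabolic elements
-/

set_option autoImplicit false

namespace FA_S16

open CongruenceSubgroup ModularCurve.Period FA_S22
open scoped MatrixGroups

/-- the normal closure of the parabolic elements -/
def FA_S16_LR_P (N : ℕ) : Subgroup ↥(Gamma0 N) :=
  Subgroup.normalClosure
    {γ : ↥(Gamma0 N) | ((γ : SL(2, ℤ)) : Matrix (Fin 2) (Fin 2) ℤ).trace ^ 2 = 4}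

instance FA_S16_LR_P_normal (N : ℕ) : (FA_S16_LR_P N).Normal := Subgroup.normalClosure_normal

/-- `Γ₀(N)` modulo the parabolic elements -/
abbrev FA_S16_LR_Gbar (N : ℕ) : Type := ↥(Gamma0 N) ⧸ FA_S16_LR_P N

instance FA_S16_LR_Gbar_fg (N : ℕ) [NeZero N] : Group.FG (FA_S16_LR_Gbar N) :=
  QuotientGroup.fg _

/-- a parabolic character kills `P` -/
theorem FA_S16_LR_kills_P (N : ℕ) {A : Type*} [AddCommGroup A] (ψ : Additive ↥(Gamma0 N) →+ A)
    (hψ : IsParabolicHom (Gamma0 N) ψ) (γ : ↥(Gamma0 N)) (hγ : γ ∈ FA_S16_LR_P N) :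
    ψ (Additive.ofMul γ) = 0 := by
  let K : Subgroup ↥(Gamma0 N) :=
    { carrier := {x | ψ (Additive.ofMul x) = 0}
      mul_mem' := by
        intro a b ha hb
        show ψ (Additive.ofMul (a * b)) = 0
        rw [ofMul_mul, map_add, ha, hb, add_zero]
      one_mem' := by
        show ψ (Additive.ofMul 1) = 0
        rw [ofMul_one, map_zero]
      inv_mem' := by
        intro a ha
        show ψ (Additive.ofMul a⁻¹) = 0
        rw [ofMul_inv, map_neg, ha, neg_zero] }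
  have hK : K.Normal := by
    constructor
    intro n hn g
    show ψ (Additive.ofMul (g * n * g⁻¹)) = 0
    rw [ofMul_mul, ofMul_mul, map_add, map_add, ofMul_inv, map_neg]
    have : ψ (Additive.ofMul n) = 0 := hn
    rw [this]
    abel
  have hle : FA_S16_LR_P N ≤ K := Subgroup.normalClosure_le_normal (fun x hx => hψ x hx)
  exact hle hγ

/-- a parabolic character is constant on the classes mod `P` -/
theorem FA_S16_LR_eq_of_mk_eq (N : ℕ) {A : Type*} [AddCommGroup A]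
    (ψ : Additive ↥(Gamma0 N) →+ A) (hψ : IsParabolicHom (Gamma0 N) ψ) (γ δ : ↥(Gamma0 N))
    (h : (γ : FA_S16_LR_Gbar N) = δ) : ψ (Additive.ofMul γ) = ψ (Additive.ofMul δ) := by
  rw [QuotientGroup.eq] at h
  have := FA_S16_LR_kills_P N ψ hψ _ h
  rw [ofMul_mul, map_add, ofMul_inv, map_neg] at this
  have h2 := eq_of_sub_eq_zero (by rw [sub_eq_add_neg, add_comm]; exact this :
    ψ (Additive.ofMul δ) - ψ (Additive.ofMul γ) = 0)
  exact h2.symm

/-- the descent of a parabolic character to `Γ̄` -/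
noncomputable def FA_S16_LR_desc (N : ℕ) {A : Type*} [AddCommGroup A]
    (ψ : Additive ↥(Gamma0 N) →+ A) (hψ : IsParabolicHom (Gamma0 N) ψ) :
    Additive (FA_S16_LR_Gbar N) →+ A :=
  AddMonoidHom.mk' (fun x => ψ (Additive.ofMul (Quotient.out (Additive.toMul x)))) (by
    intro x y
    rw [← map_add, ← ofMul_mul]
    refine FA_S16_LR_eq_of_mk_eq N ψ hψ _ _ ?_
    rw [QuotientGroup.mk_mul]
    simp only [QuotientGroup.out_eq']
    rfl)

theorem FA_S16_LR_desc_mk (N : ℕ) {A : Type*} [AddCommGroup A]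
    (ψ : Additive ↥(Gamma0 N) →+ A) (hψ : IsParabolicHom (Gamma0 N) ψ) (γ : ↥(Gamma0 N)) :
    FA_S16_LR_desc N ψ hψ (Additive.ofMul (γ : FA_S16_LR_Gbar N)) = ψ (Additive.ofMul γ) := by
  show ψ (Additive.ofMul (Quotient.out (γ : FA_S16_LR_Gbar N))) = ψ (Additive.ofMul γ)
  refine FA_S16_LR_eq_of_mk_eq N ψ hψ _ _ ?_
  exact QuotientGroup.out_eq' _

/-- the pull-back of a character of `Γ̄` -/
def FA_S16_LR_pull (N : ℕ) {A : Type*} [AddCommGroup A]
    (χ : Additive (FA_S16_LR_Gbar N) →+ A) : Additive ↥(Gamma0 N) →+ A :=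
  χ.comp (MonoidHom.toAdditive (QuotientGroup.mk' (FA_S16_LR_P N)))

theorem FA_S16_LR_pull_apply (N : ℕ) {A : Type*} [AddCommGroup A]
    (χ : Additive (FA_S16_LR_Gbar N) →+ A) (γ : ↥(Gamma0 N)) :
    FA_S16_LR_pull N χ (Additive.ofMul γ) = χ (Additive.ofMul (γ : FA_S16_LR_Gbar N)) := rfl

theorem FA_S16_LR_pull_parabolic (N : ℕ) {A : Type*} [AddCommGroup A]
    (χ : Additive (FA_S16_LR_Gbar N) →+ A) : IsParabolicHom (Gamma0 N) (FA_S16_LR_pull N χ) := by
  intro γ hγ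
  rw [FA_S16_LR_pull_apply]
  have h1 : (γ : FA_S16_LR_Gbar N) = 1 := by
    rw [QuotientGroup.eq_one_iff]
    exact Subgroup.subset_normalClosure hγ
  rw [h1, ofMul_one, map_zero]

/-- the descent as a linear map on the complex parabolic characters -/
noncomputable def FA_S16_LR_descC (N : ℕ) :
    ↥(parabolicHoms ℂ (Gamma0 N) ℂ) →ₗ[ℂ] (Additive (FA_S16_LR_Gbar N) →+ ℂ) where
  toFun ψ := FA_S16_LR_desc N ψ.1 ψ.2
  map_add' := by
    intro a b
    refine AddMonoidHom.ext fun x => ?_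
    rfl
  map_smul' := by
    intro c a
    refine AddMonoidHom.ext fun x => ?_
    rfl

theorem FA_S16_LR_descC_injective (N : ℕ) : Function.Injective (FA_S16_LR_descC N) := by
  intro a b h
  apply Subtype.ext
  refine AddMonoidHom.ext fun x => ?_
  obtain ⟨γ, rfl⟩ := Additive.ofMul.surjective x
  have h1 := congrArg (fun f : Additive (FA_S16_LR_Gbar N) →+ ℂ =>
    f (Additive.ofMul (γ : FA_S16_LR_Gbar N))) h
  simp only [FA_S16_LR_descC, LinearMap.coe_mk, AddHom.coe_mk] at h1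
  rw [FA_S16_LR_desc_mk, FA_S16_LR_desc_mk] at h1
  exact h1

/-- `dim H¹_par(Γ₀(N), ℂ) ≤ rank Hom(Γ̄, ℤ)` -/
theorem FA_S16_LR_finrank_parabolic_le (N : ℕ) [NeZero N] :
    Module.finrank ℂ ↥(parabolicHoms ℂ (Gamma0 N) ℂ) ≤ FA_S16_LR_rank (FA_S16_LR_Gbar N) := by
  obtain ⟨hfin, hle⟩ := FA_S16_LR_finrank_le (FA_S16_LR_Gbar N)
  exact le_trans (LinearMap.finrank_le_finrank_of_injective (FA_S16_LR_descC_injective N)) hle

end FA_S16
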