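import Mathlib
import Fermat.Prelude.Def_ModularForm_HeckeOperator
import Fermat.Prelude.Def_FLTPrelim_Modularity
import Fermat.Prelude.Thm_CongruenceSubgroup_one_mem_strictPeriods_Gamma0
import Fermat.Prelude.Thm_ModularFormClass_qCoeff_heckeU
import Fermat.Agent.S16.T1W

set_option autoImplicit false
set_option linter.style.haveILetI false
set_option linter.unusedSectionVars false
open UpperHalfPlane ModularForm
open scoped MatrixGroups ModularForm

noncomputable section

namespace FA_S16_T1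

variable (p : ℕ) [hp : Fact p.Prime]

local notation "Γp" => (CongruenceSubgroup.Gamma0 p : Subgroup (GL (Fin 2) ℝ))

theorem isZeroAtImInfty_heckeU (f : ℍ → ℂ) (hf : IsZeroAtImInfty f) :
    IsZeroAtImInfty (heckeU 2 p f) := by
  rw [heckeU_def]
  have : ∀ s : Finset ℕ, IsZeroAtImInfty (∑ j ∈ s, f ∣[(2 : ℤ)] heckeMatrix p j) := by
    intro s
    induction s using Finset.induction_on with
    | empty =>
      simp only [Finset.sum_empty]
      exact Filter.zero_zeroAtFilter _
    | insert a s ha ih =>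
      rw [Finset.sum_insert ha]
      refine Filter.ZeroAtFilter.add ?_ ih
      apply IsZeroAtImInfty.slash
      · simp [val_heckeMatrix hp.out.ne_zero]
      · exact hf
  exact this _

/-- every `γ ∈ SL(2,ℤ)` is `g * repInv i` with `g ∈ Γ₀(p)`. -/
theorem exists_eq_mul_repInv (γ : SL(2, ℤ)) :
    ∃ i : Option (Fin p), ∃ g ∈ CongruenceSubgroup.Gamma0 p, γ = g * repInv p i := by
  obtain ⟨i, hi⟩ := rep_surjective p (QuotientGroup.mk γ⁻¹)
  have h' := QuotientGroup.eq.mp hi
  rw [rep_inv] at h'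
  refine ⟨i, (repInv p i * γ⁻¹)⁻¹, inv_mem h', ?_⟩
  group

theorem isZeroAtImInfty_slash (H : ModularForm Γp 2) (h0 : IsZeroAtImInfty (H : ℍ → ℂ))
    (γ : SL(2, ℤ)) : IsZeroAtImInfty ((H : ℍ → ℂ) ∣[(2 : ℤ)] γ) := by
  obtain ⟨i, g, hg, rfl⟩ := exists_eq_mul_repInv p γ
  rw [SlashAction.slash_mul]
  have h1 : (H : ℍ → ℂ) ∣[(2 : ℤ)] g = H := by
    rw [ModularForm.SL_slash]
    exact SlashInvariantFormClass.slash_action_eq H _ ⟨g, hg, rfl⟩
  rw [h1]
  rcases i with _ | j
  · simpa [repInv] using h0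
  · rw [slash_repInv_eq]
    have h2 := isZeroAtImInfty_heckeU p _ h0
    have h3 : IsZeroAtImInfty ((heckeU 2 p (H : ℍ → ℂ)) ∣[(2 : ℤ)] heckeMatrix p j) := by
      apply IsZeroAtImInfty.slash
      · simp [val_heckeMatrix hp.out.ne_zero]
      · exact h2
    exact Filter.ZeroAtFilter.neg h3

/-- **cusp form criterion**: a weight-2 form on `Γ₀(p)` vanishing at `∞` is a cusp form. -/
def cuspOfZero (H : ModularForm Γp 2) (h0 : IsZeroAtImInfty (H : ℍ → ℂ)) : CuspForm Γp 2 where
  toSlashInvariantForm := H.toSlashInvariantForm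
  holo' := H.holo'
  zero_at_cusps' {c} hc := by
    have hc' : IsCusp c 𝒮ℒ := (Subgroup.IsArithmetic.isCusp_iff_isCusp_SL2Z _).mp hc
    rw [OnePoint.isZeroAt_iff_forall_SL2Z hc']
    intro γ _
    exact isZeroAtImInfty_slash p H h0 γ

@[simp] theorem coe_cuspOfZero (H : ModularForm Γp 2) (h0 : IsZeroAtImInfty (H : ℍ → ℂ)) :
    (cuspOfZero p H h0 : ℍ → ℂ) = H := rfl

theorem isZeroAtImInfty_of_qCoeff_zero (H : ModularForm Γp 2)
    (h0 : ModularFormClass.qCoeff (H : ℍ → ℂ) 0 = 0) : IsZeroAtImInfty (H : ℍ → ℂ) := by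
  have hper := CongruenceSubgroup.one_mem_strictPeriods_Gamma0 p
  have hperiodic := SlashInvariantFormClass.periodic_comp_ofComplex H hper
  have hhol := ModularFormClass.holo H
  have hbdd := ModularFormClass.bdd_at_infty H
  have han := ModularFormClass.analyticAt_cuspFunction_zero H one_pos hper
  have hv : valueAtInfty (H : ℍ → ℂ) = 0 := by
    rw [← UpperHalfPlane.qExpansion_coeff_zero one_pos han hperiodic]
    exact h0
  have hdecay := UpperHalfPlane.exp_decay_sub_atImInfty one_pos hperiodic hhol hbdd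
  rw [hv] at hdecay
  simp only [sub_zero] at hdecay
  refine hdecay.trans_tendsto ?_
  have h1 : Filter.Tendsto (fun τ : ℍ => τ.im) atImInfty Filter.atTop := Filter.tendsto_comap
  have h2 : Filter.Tendsto (fun τ : ℍ => (2 * Real.pi) * τ.im) atImInfty Filter.atTop :=
    h1.const_mul_atTop (by positivity)
  have h3 := Real.tendsto_exp_neg_atTop_nhds_zero.comp h2
  refine h3.congr fun τ => ?_
  simp only [Function.comp_apply]
  congr 1
  ring

/-- q-expansion of the Fricke transform: `a_n(H|W) = -a_{np}(H)`. -/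
theorem qCoeff_WForm (H : ModularForm Γp 2) (n : ℕ) :
    ModularFormClass.qCoeff (WForm p H : ℍ → ℂ) n = -ModularFormClass.qCoeff (H : ℍ → ℂ) (n * p) := by
  have h := heckeU_eq_neg_slash_W p H
  have h1 : (WForm p H : ℍ → ℂ) = -heckeU 2 p (H : ℍ → ℂ) := by
    rw [h, neg_neg]; rfl
  have h2 := ModularFormClass.qCoeff_heckeU H (CongruenceSubgroup.one_mem_strictPeriods_Gamma0 p)
    hp.out.ne_zero (k := 2) (p := p) n
  rw [coeffHeckeU_apply] at h2
  rw [← h2]
  have h3 : heckeU 2 p (H : ℍ → ℂ) = -(WForm p H : ℍ → ℂ) := by rw [h1, neg_neg]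
  rw [h3]
  unfold ModularFormClass.qCoeff
  have han := ModularFormClass.analyticAt_cuspFunction_zero (WForm p H) one_pos
    (CongruenceSubgroup.one_mem_strictPeriods_Gamma0 p)
  rw [UpperHalfPlane.qExpansion_neg han]
  simp

/-- constant term at the cusp `0`: `a_0(H|W) = -a_0(H)`. -/
theorem qCoeff_WForm_zero (H : ModularForm Γp 2) :
    ModularFormClass.qCoeff (WForm p H : ℍ → ℂ) 0 = -ModularFormClass.qCoeff (H : ℍ → ℂ) 0 := by
  simpa using qCoeff_WForm p H 0

end FA_S16_T1

end
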