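import Mathlib

/-!
# S16, case (U, ℓ = p): the algebraic core

In characteristic `p`, an isobaric relation `∑ g_{ab} Q^a R^b = u` of weight `2p`
(`2a + 3b = p`) between power series `Q, R` with constant term `1` and
`3 q₁ - 2 r₁ ≠ 0` forces `u = 0`.

Proof: with `c = Q³/R²`, `s = Q/R` the relation reads `h(c) = u · s^p`, `h = ∑ g_{ab} X^{a+b}`
a polynomial of degree `< p` without constant term.  The right side has derivative `0`, so
`h'(c) · c' = 0`, hence `h'(c) = 0`, and inductively all higher derivatives of `h` vanish at `c`;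
the `deg h`-th one is the constant `(deg h)! · lc(h)`, so `h = 0`, so `u = 0`.
-/

set_option autoImplicit false

namespace FA_S16

open PowerSeries

/-- If `aeval c h = C u * s ^ p` in characteristic `p`, `c' ≠ 0`, `s ≠ 0`, `deg h < p` and
`h(0) = 0`, then `u = 0`. -/
theorem FA_S16_up_core_poly {k : Type*} [Field k] (p : ℕ) [Fact p.Prime] [CharP k p]
    (c s : k⟦X⟧) (hc : d⁄dX k c ≠ 0) (hs : s ≠ 0) (h : Polynomial k) (hdeg : h.natDegree < p)
    (h0 : h.coeff 0 = 0) (u : k)
    (heq : Polynomial.aeval c h = PowerSeries.C u * s ^ p) : u = 0 := by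
  classical
  have hp : (p : k⟦X⟧) = 0 := by
    rw [← map_natCast (PowerSeries.C (R := k)), CharP.cast_eq_zero, map_zero]
  -- the derivative of the right-hand side vanishes
  have hD0 : d⁄dX k (Polynomial.aeval c h) = 0 := by
    rw [heq, Derivation.leibniz, PowerSeries.derivative_C, smul_zero, add_zero,
      Derivation.leibniz_pow, smul_eq_mul, smul_eq_mul]
    have : ((p : ℕ) • (s ^ (p - 1) * d⁄dX k s) : k⟦X⟧) = 0 := by
      rw [nsmul_eq_mul, hp, zero_mul]
    rw [this, mul_zero]
  -- all higher derivatives of `h` vanish at `c`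
  have hstep : ∀ f : Polynomial k, d⁄dX k (Polynomial.aeval c f) = 0 →
      Polynomial.aeval c (Polynomial.derivative f) = 0 := by
    intro f hf
    rw [Derivation.map_aeval, smul_eq_mul] at hf
    rcases mul_eq_zero.mp hf with h1 | h1
    · exact h1
    · exact absurd h1 hc
  have hall : ∀ j : ℕ, Polynomial.aeval c (Polynomial.derivative^[j + 1] h) = 0 := by
    intro j
    induction j with
    | zero => simpa using hstep h hD0
    | succ j ih =>
      rw [Function.iterate_succ_apply']
      apply hstep
      rw [ih, map_zero]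
  by_cases hh : h = 0
  · rw [hh, map_zero] at heq
    rcases mul_eq_zero.mp heq.symm with h1 | h1
    · simpa using h1
    · exact absurd (pow_eq_zero_iff (Fact.out : p.Prime).ne_zero |>.mp h1) hs
  · exfalso
    set d := h.natDegree with hd
    have hd1 : 1 ≤ d := by
      by_contra hcon
      have hd0 : h.natDegree = 0 := by omega
      have := Polynomial.eq_C_of_natDegree_eq_zero hd0
      rw [h0] at this
      exact hh (by simpa using this)
    obtain ⟨j, hj⟩ : ∃ j, d = j + 1 := ⟨d - 1, by omega⟩
    have hz := hall j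
    rw [← hj] at hz
    have hdeg0 : (Polynomial.derivative^[d] h).natDegree = 0 := by
      have := Polynomial.natDegree_iterate_derivative h d
      omega
    have hC := Polynomial.eq_C_of_natDegree_eq_zero hdeg0
    rw [Polynomial.coeff_iterate_derivative, zero_add, Nat.descFactorial_self] at hC
    rw [hC, Polynomial.aeval_C] at hz
    have hz' : (d.factorial • h.coeff d : k) = 0 := by
      have := congrArg (PowerSeries.constantCoeff (R := k)) hz
      simpa using this
    rw [nsmul_eq_mul] at hz'
    rcases mul_eq_zero.mp hz' with h1 | h1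
    · have hdvd : p ∣ d.factorial := (CharP.cast_eq_zero_iff k p _).mp h1
      have := ((Fact.out : p.Prime).dvd_factorial).mp hdvd
      omega
    · exact hh (Polynomial.leadingCoeff_eq_zero.mp h1)

/-- **Algebraic core of (U, ℓ = p)**: an isobaric relation of weight `2p` between `Q` and `R`
(constant terms `1`, `3 q₁ - 2 r₁ ≠ 0`) with constant value `u` forces `u = 0`. -/
theorem FA_S16_up_core {k : Type*} [Field k] (p : ℕ) [Fact p.Prime] [CharP k p]
    (Q R : k⟦X⟧) (hQ : constantCoeff Q = 1) (hR : constantCoeff R = 1)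
    (hQR : 3 * coeff 1 Q - 2 * coeff 1 R ≠ 0)
    (g : ℕ × ℕ →₀ k) (hg : ∀ ab ∈ g.support, 2 * ab.1 + 3 * ab.2 = p)
    (u : k) (heq : (g.sum fun ab x => PowerSeries.C x * Q ^ ab.1 * R ^ ab.2) = PowerSeries.C u) :
    u = 0 := by
  classical
  have hp0 : 0 < p := (Fact.out : p.Prime).pos
  have hRne : constantCoeff R ≠ 0 := by rw [hR]; exact one_ne_zero
  have hRi : R * R⁻¹ = 1 := PowerSeries.mul_inv_cancel R hRne
  have hRic : constantCoeff R⁻¹ = 1 := by
    have := congrArg (constantCoeff (R := k)) hRi
    simpa [hR] using this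
  set Ri := R⁻¹ with hRidef
  set c : k⟦X⟧ := Q ^ 3 * Ri ^ 2 with hcdef
  set s : k⟦X⟧ := Q * Ri with hsdef
  set h : Polynomial k := g.sum fun ab x => Polynomial.C x * Polynomial.X ^ (ab.1 + ab.2) with hhdef
  -- key identity
  have hkey : ∀ a b : ℕ, 2 * a + 3 * b = p → Q ^ a * R ^ b * s ^ p = c ^ (a + b) := by
    intro a b hab
    rw [← hab, hsdef, hcdef]
    calc Q ^ a * R ^ b * (Q * Ri) ^ (2 * a + 3 * b)
        = Q ^ (3 * (a + b)) * (R * Ri) ^ b * Ri ^ (2 * (a + b)) := by ring
      _ = (Q ^ 3 * Ri ^ 2) ^ (a + b) := by rw [hRi]; ring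
  have haeval : Polynomial.aeval c h = PowerSeries.C u * s ^ p := by
    rw [← heq, hhdef, Finsupp.sum, Finsupp.sum, map_sum, Finset.sum_mul]
    refine Finset.sum_congr rfl fun ab hab => ?_
    rw [map_mul, Polynomial.aeval_C, map_pow, Polynomial.aeval_X, ← hkey ab.1 ab.2 (hg ab hab)]
    change PowerSeries.C (g ab) * _ = _
    ring
  have hsne : s ≠ 0 := by
    intro h0
    have := congrArg (constantCoeff (R := k)) h0
    rw [hsdef, map_mul, hQ, hRic] at this
    simp at this
  have hcne : d⁄dX k c ≠ 0 := by
    intro h0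
    have h1 := congrArg (constantCoeff (R := k)) h0
    have hDRi : d⁄dX k Ri = -Ri ^ 2 * d⁄dX k R := PowerSeries.derivative_inv' R
    rw [hcdef, Derivation.leibniz, Derivation.leibniz_pow, Derivation.leibniz_pow, hDRi] at h1
    simp only [smul_eq_mul, map_add, map_mul, map_pow, map_neg, hQ, hRic, map_zero,
      nsmul_eq_mul, map_natCast, one_pow, mul_one, one_mul] at h1
    have e1 : constantCoeff (d⁄dX k Q) = coeff 1 Q := by
      rw [← PowerSeries.coeff_zero_eq_constantCoeff_apply, PowerSeries.coeff_derivative]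
      simp
    have e2 : constantCoeff (d⁄dX k R) = coeff 1 R := by
      rw [← PowerSeries.coeff_zero_eq_constantCoeff_apply, PowerSeries.coeff_derivative]
      simp
    rw [e1, e2] at h1
    apply hQR
    have h2 : -(2 * (coeff 1) R) + 3 * (coeff 1) Q = 0 := by simpa using h1
    linear_combination h2
  have hdeg : h.natDegree < p := by
    rw [hhdef, Finsupp.sum]
    refine lt_of_le_of_lt (Polynomial.natDegree_sum_le_of_forall_le _ _ (n := p - 1) ?_) (by omega)
    intro ab hab
    have := hg ab hab
    refine le_trans (Polynomial.natDegree_C_mul_X_pow_le _ _) ?_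
    omega
  have h0 : h.coeff 0 = 0 := by
    rw [hhdef, Finsupp.sum, Polynomial.finsetSum_coeff]
    refine Finset.sum_eq_zero fun ab hab => ?_
    have := hg ab hab
    rw [Polynomial.coeff_C_mul, Polynomial.coeff_X_pow, if_neg (by omega), mul_zero]
  exact FA_S16_up_core_poly p c s hcne hsne h hdeg h0 u haeval

end FA_S16
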